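/-
Program L (S41), chapter (I2), brick "LEMMA A in cochain form" (helper21).  Mathlib only.

Setting (LEFT conventions, matching Mathlib's `MonoidHom.transfer` on `G ⧸ H`):
a group `G` acting on a set `Ω`, the `G`-module `M = Ω → R` with `(g • m) ω = m (g⁻¹ • ω)`,
written out by hand (no instance is used), so that

* a 1-cocycle is `z : G → Ω → R` with `z (g * h) ω = z g ω + z h (g⁻¹ • ω)`;
* a *cup primitive* of two cocycles `z z'` is `K : G → Ω → R` with
  `K (g * h) ω = K g ω + K h (g⁻¹ • ω) - z g ω * z' h (g⁻¹ • ω)`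
  (sign convention of I2_PROOF25 / CuspPairing25: `κ (a b) = κ a + κ b - φ a * ψ b`).

On the stabiliser `Γ` of a base point `ω₀` put `φ γ = z γ ω₀`, `ψ γ = z' γ ω₀`, `η γ = K γ ω₀`.
Then `φ ψ` are additive, `η (γ δ) = η γ + η δ - φ γ * ψ δ`  (`η` is a primitive of `(φ, ψ)`),
and, if `z T = 0 = z' T` (the gauge `c(T) = 0`), for every element `r⁻¹ T^w r` of `Γ`
(`T^w` fixes `r • ω₀`)

  `η (r⁻¹ T^w r) = ∑_{i < w} K T (T^i • r • ω₀)`,

hence, summing over representatives of the `⟨T⟩`-orbits,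

  `∑_c η (r_c⁻¹ T^{w_c} r_c) = ∑_{ω} K T ω`     (LEMMA A).

The last section evaluates `∑_ω K T ω` when `S * S = 1`, `U * U * U = 1`, `T = S * U`:
`6 * ∑_ω K T ω = B(v,v') + 2 B(v, U v')`, `v = z S = z U`, `v' = z' S = z' U`,
`B(m,m') = ∑_ω m ω * m' ω`, `(U v') ω = v' (U⁻¹ • ω)`.
-/
import Mathlib

set_option autoImplicit false

namespace Fermat.Agent.ES.LR.LemmaA21

open MulAction

variable {G : Type*} [Group G] {Ω : Type*} [MulAction G Ω] {R : Type*} [CommRing R]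

/-- `z : G → (Ω → R)` is a 1-cocycle for the left action `(g • m) ω = m (g⁻¹ • ω)`. -/
def IsCocycle (z : G → Ω → R) : Prop :=
  ∀ g h ω, z (g * h) ω = z g ω + z h (g⁻¹ • ω)

/-- `K` is a primitive of the cup product of `z` and `z'`:
`K (g h) = K g + g • K h - z g * (g • z' h)` (pointwise product). -/
def IsCupPrimitive (z z' K : G → Ω → R) : Prop :=
  ∀ g h ω, K (g * h) ω = K g ω + K h (g⁻¹ • ω) - z g ω * z' h (g⁻¹ • ω)

section Basic

variable {z z' K : G → Ω → R}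

theorem IsCocycle.map_one (hz : IsCocycle z) (ω : Ω) : z 1 ω = 0 := by
  have h := hz 1 1 ω
  simpa using h

theorem IsCocycle.map_inv (hz : IsCocycle z) (g : G) (ω : Ω) : z g⁻¹ ω = - z g (g • ω) := by
  have h := hz g⁻¹ g ω
  rw [inv_mul_cancel, hz.map_one, inv_inv] at h
  linear_combination -h

theorem IsCocycle.map_pow_eq_zero (hz : IsCocycle z) {T : G} (hT : ∀ ω, z T ω = 0) (n : ℕ)
    (ω : Ω) : z (T ^ n) ω = 0 := by
  induction n generalizing ω with
  | zero => simpa using hz.map_one ω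
  | succ n ih => rw [pow_succ, hz, ih, hT, add_zero]

theorem IsCupPrimitive.map_one (hz : IsCocycle z) (hK : IsCupPrimitive z z' K) (ω : Ω) :
    K 1 ω = 0 := by
  have h := hK 1 1 ω
  simp only [mul_one, inv_one, one_smul, hz.map_one, zero_mul, sub_zero] at h
  linear_combination -h

/-- In the gauge `z' T = 0`: `K (T ^ n) ω = ∑_{i < n} K T ((T^i)⁻¹ • ω)`. -/
theorem IsCupPrimitive.map_pow (hz : IsCocycle z) (hK : IsCupPrimitive z z' K) {T : G}
    (hT' : ∀ ω, z' T ω = 0) (n : ℕ) (ω : Ω) :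
    K (T ^ n) ω = ∑ i ∈ Finset.range n, K T ((T ^ i)⁻¹ • ω) := by
  induction n with
  | zero => simpa using hK.map_one hz ω
  | succ n ih =>
    rw [pow_succ, hK, ih, Finset.sum_range_succ, hT', mul_zero, sub_zero]

end Basic

/-! ### The induced maps on the stabiliser of a base point -/

section Stab

variable {z z' K : G → Ω → R} (ω₀ : Ω)

theorem IsCocycle.stab_mul (hz : IsCocycle z) {γ δ : G} (hγ : γ ∈ stabilizer G ω₀) :
    z (γ * δ) ω₀ = z γ ω₀ + z δ ω₀ := by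
  have h : γ⁻¹ • ω₀ = ω₀ := by
    rw [inv_smul_eq_iff]; exact (mem_stabilizer_iff.mp hγ).symm
  rw [hz, h]

/-- The homomorphism `φ γ = z γ ω₀` on the stabiliser of `ω₀` (Shapiro map). -/
def stabHom (hz : IsCocycle z) : Additive (stabilizer G ω₀) →+ R where
  toFun γ := z (Additive.toMul γ : stabilizer G ω₀) ω₀
  map_zero' := by simpa using hz.map_one ω₀
  map_add' γ δ := by
    simpa using hz.stab_mul ω₀ (Additive.toMul γ).2 (δ := ((Additive.toMul δ : stabilizer G ω₀) : G))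

@[simp] theorem stabHom_apply (hz : IsCocycle z) (γ : stabilizer G ω₀) :
    stabHom ω₀ hz (Additive.ofMul γ) = z (γ : G) ω₀ := rfl

/-- (H1): `η γ = K γ ω₀` satisfies `η (γ δ) = η γ + η δ - φ γ * ψ δ` on the stabiliser. -/
theorem IsCupPrimitive.stab_mul (hK : IsCupPrimitive z z' K) {γ δ : G}
    (hγ : γ ∈ stabilizer G ω₀) :
    K (γ * δ) ω₀ = K γ ω₀ + K δ ω₀ - z γ ω₀ * z' δ ω₀ := by
  have h : γ⁻¹ • ω₀ = ω₀ := by
    rw [inv_smul_eq_iff]; exact (mem_stabilizer_iff.mp hγ).symm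
  rw [hK, h]

end Stab

/-! ### Lemma A -/

section LemmaA

variable {z z' K : G → Ω → R} (ω₀ : Ω)

/-- If `T ^ w` fixes `x` then `∑_{i<w} f ((T^i)⁻¹ • x) = ∑_{i<w} f (T^i • x)`. -/
theorem sum_inv_pow_smul {A : Type*} [AddCommMonoid A] (f : Ω → A) {T : G} {w : ℕ} {x : Ω}
    (hfix : T ^ w • x = x) :
    ∑ i ∈ Finset.range w, f ((T ^ i)⁻¹ • x) = ∑ i ∈ Finset.range w, f (T ^ i • x) := by
  rcases Nat.eq_zero_or_pos w with rfl | hw
  · simp
  have key : ∀ j ∈ Finset.range w, (T ^ (w - 1 - j))⁻¹ • x = T ^ (j + 1) • x := by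
    intro j hj
    have hj' : j < w := Finset.mem_range.mp hj
    rw [inv_smul_eq_iff, ← mul_smul, ← pow_add]
    have : w - 1 - j + (j + 1) = w := by omega
    rw [this, hfix]
  rw [← Finset.sum_range_reflect]
  rw [Finset.sum_congr rfl (fun j hj => by rw [key j hj])]
  -- shift by one
  obtain ⟨n, rfl⟩ : ∃ n, w = n + 1 := ⟨w - 1, by omega⟩
  rw [Finset.sum_range_succ (fun j => f (T ^ (j + 1) • x)), Finset.sum_range_succ' (fun j => f (T ^ j • x)),
    hfix, pow_zero, one_smul]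

/-- Local form of Lemma A: the value of `η` on the cusp generator `r⁻¹ T^w r` is the sum of `K T`
over the points `T^i • r • ω₀`, `i < w`. -/
theorem IsCupPrimitive.conj_pow (hz : IsCocycle z) (hz' : IsCocycle z')
    (hK : IsCupPrimitive z z' K) {T : G}
    (hT : ∀ ω, z T ω = 0) (hT' : ∀ ω, z' T ω = 0) (r : G) (w : ℕ)
    (hfix : T ^ w • r • ω₀ = r • ω₀) :
    K (r⁻¹ * T ^ w * r) ω₀ = ∑ i ∈ Finset.range w, K T (T ^ i • r • ω₀) := by
  have hfix' : (T ^ w)⁻¹ • r • ω₀ = r • ω₀ := by rw [inv_smul_eq_iff, hfix]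
  have e1 : (r⁻¹ * T ^ w)⁻¹ • ω₀ = r • ω₀ := by
    rw [mul_inv_rev, inv_inv, mul_smul, hfix']
  have h1 := hK (r⁻¹ * T ^ w) r ω₀
  have h2 := hK r⁻¹ (T ^ w) ω₀
  have h3 := hz r⁻¹ (T ^ w) ω₀
  have h4 := hK r⁻¹ r ω₀
  rw [inv_mul_cancel, hK.map_one hz, inv_inv] at h4
  rw [inv_inv] at h2 h3
  rw [e1] at h1
  rw [hz.map_pow_eq_zero hT, add_zero] at h3
  rw [hz'.map_pow_eq_zero hT', mul_zero, sub_zero, hK.map_pow hz hT'] at h2
  rw [← sum_inv_pow_smul (fun ω => K T ω) hfix]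
  rw [h1, h2, h3]
  linear_combination -h4

/-- **Lemma A.**  `C` indexes the `⟨T⟩`-orbits on `Ω`; `r c • ω₀` is a point of the orbit `c`,
`w c` its length.  Then `∑_c η (r_c⁻¹ T^{w_c} r_c) = ∑_ω K T ω`. -/
theorem IsCupPrimitive.sum_cusps [Fintype Ω] {C : Type*} [Fintype C]
    (hz : IsCocycle z) (hz' : IsCocycle z') (hK : IsCupPrimitive z z' K) {T : G}
    (hT : ∀ ω, z T ω = 0) (hT' : ∀ ω, z' T ω = 0) (r : C → G) (w : C → ℕ)
    (hfix : ∀ c, T ^ w c • r c • ω₀ = r c • ω₀)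
    (hbij : Function.Bijective (fun x : (Σ c, Fin (w c)) => T ^ (x.2 : ℕ) • r x.1 • ω₀)) :
    ∑ c, K ((r c)⁻¹ * T ^ w c * r c) ω₀ = ∑ ω, K T ω := by
  have h1 : ∀ c, K ((r c)⁻¹ * T ^ w c * r c) ω₀ = ∑ i : Fin (w c), K T (T ^ (i : ℕ) • r c • ω₀) := by
    intro c
    rw [hK.conj_pow ω₀ hz hz' hT hT' (r c) (w c) (hfix c), Finset.sum_range]
  rw [Finset.sum_congr rfl (fun c _ => h1 c)]
  rw [Finset.sum_sigma' (Finset.univ) (fun c => (Finset.univ : Finset (Fin (w c))))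
    (fun c i => K T (T ^ (i : ℕ) • r c • ω₀)), Finset.univ_sigma_univ]
  exact Fintype.sum_bijective _ hbij _ _ (fun _ => rfl)

end LemmaA

/-! ### Lemma A along Mathlib's orbit decomposition (the shape of
`MonoidHom.transfer_eq_prod_quotient_orbitRel_zpowers_quot`) -/

section Orbits

open Function Subgroup

theorem sum_zmod_cast {A : Type*} [AddCommMonoid A] (n : ℕ) [NeZero n] (g : ℤ → A) :
    ∑ k : ZMod n, g (ZMod.cast k : ℤ) = ∑ i ∈ Finset.range n, g (i : ℤ) := by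
  rw [← Fin.sum_univ_eq_sum_range (fun i => g (i : ℤ)) n]
  refine Fintype.sum_equiv (ZMod.finEquiv n).symm.toEquiv _ _ (fun k => ?_)
  congr 1
  rw [← ZMod.natCast_val]
  congr 1
  cases n with
  | zero => exact absurd rfl (NeZero.ne 0)
  | succ m => rfl

variable (T : G)

/-- The decomposition of `Ω` into `⟨T⟩`-orbits, each a cycle (as in
`Subgroup.quotientEquivSigmaZMod`, for an arbitrary `G`-set). -/
noncomputable def equivSigmaZMod :
    Ω ≃ Σ q : orbitRel.Quotient (zpowers T) Ω, ZMod (minimalPeriod (T • ·) q.out) :=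
  (selfEquivSigmaOrbits (zpowers T) Ω).trans
    (Equiv.sigmaCongrRight fun q => orbitZPowersEquiv T q.out)

theorem equivSigmaZMod_symm_apply (q : orbitRel.Quotient (zpowers T) Ω)
    (k : ZMod (minimalPeriod (T • ·) q.out)) :
    (equivSigmaZMod T).symm ⟨q, k⟩ = T ^ (ZMod.cast k : ℤ) • q.out :=
  rfl

/-- A sum over `Ω` is the sum over the `⟨T⟩`-orbits `q` of the sums along the cycle
`T^i • q.out`, `i < minimalPeriod`. -/
theorem sum_eq_sum_orbits [Fintype Ω] [Fintype (orbitRel.Quotient (zpowers T) Ω)]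
    {A : Type*} [AddCommMonoid A] (f : Ω → A) :
    ∑ ω, f ω = ∑ q : orbitRel.Quotient (zpowers T) Ω,
      ∑ i ∈ Finset.range (minimalPeriod (T • ·) q.out), f (T ^ i • q.out) := by
  classical
  rw [← (equivSigmaZMod T).symm.sum_comp f, Fintype.sum_sigma]
  refine Fintype.sum_congr _ _ (fun q => ?_)
  simp only [equivSigmaZMod_symm_apply]
  rw [sum_zmod_cast (minimalPeriod (T • ·) q.out) (fun k : ℤ => f (T ^ k • q.out))]
  simp only [zpow_natCast]

variable {z z' K : G → Ω → R} (ω₀ : Ω)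

/-- **Lemma A**, orbit form: `r q` is any element with `r q • ω₀ = q.out`. -/
theorem IsCupPrimitive.sum_cusps_orbitRel [Fintype Ω]
    [Fintype (orbitRel.Quotient (zpowers T) Ω)]
    (hz : IsCocycle z) (hz' : IsCocycle z') (hK : IsCupPrimitive z z' K)
    (hT : ∀ ω, z T ω = 0) (hT' : ∀ ω, z' T ω = 0)
    (r : orbitRel.Quotient (zpowers T) Ω → G) (hr : ∀ q, r q • ω₀ = q.out) :
    ∑ q : orbitRel.Quotient (zpowers T) Ω,
      K ((r q)⁻¹ * T ^ minimalPeriod (T • ·) q.out * r q) ω₀ = ∑ ω, K T ω := by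
  rw [sum_eq_sum_orbits T (fun ω => K T ω)]
  refine Fintype.sum_congr _ _ (fun q => ?_)
  have hfix : T ^ minimalPeriod (T • ·) q.out • r q • ω₀ = r q • ω₀ := by
    rw [hr]; exact MulAction.pow_smul_eq_iff_minimalPeriod_dvd.mpr dvd_rfl
  rw [hK.conj_pow ω₀ hz hz' hT hT' (r q) _ hfix]
  simp only [hr]

/-- **Lemma A** on `Ω = G ⧸ H`, base point the coset of `1`, with literally the family of
`MonoidHom.transfer_eq_prod_quotient_orbitRel_zpowers_quot`. -/
theorem IsCupPrimitive.sum_cusps_quotient (H : Subgroup G) {z z' K : G → G ⧸ H → R}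
    [Fintype (G ⧸ H)] [Fintype (orbitRel.Quotient (zpowers T) (G ⧸ H))]
    (hz : IsCocycle z) (hz' : IsCocycle z') (hK : IsCupPrimitive z z' K)
    (hT : ∀ ω, z T ω = 0) (hT' : ∀ ω, z' T ω = 0) :
    ∑ q : orbitRel.Quotient (zpowers T) (G ⧸ H),
      K (q.out.out⁻¹ * T ^ minimalPeriod (T • ·) q.out * q.out.out) ((1 : G) : G ⧸ H)
      = ∑ ω, K T ω := by
  have key := @IsCupPrimitive.sum_cusps_orbitRel G _ (G ⧸ H) _ R _ T z z' K ((1 : G) : G ⧸ H) _
    ‹Fintype (orbitRel.Quotient (zpowers T) (G ⧸ H))› hz hz' hK hT hT'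
    (fun q => q.out.out) (fun q => by
      rw [MulAction.Quotient.smul_mk, smul_eq_mul, mul_one, QuotientGroup.out_eq'])
  exact key

end Orbits

/-! ### The value `∑_ω K T ω` for `S * S = 1`, `U * U * U = 1`, `T = S * U` -/

section Trace

variable [Fintype Ω] {z z' K : G → Ω → R}

/-- `κ g = ∑_ω K g ω` is a primitive of the scalar cup product
`(g, h) ↦ ∑_ω z g ω * z' h (g⁻¹ • ω)`. -/
theorem IsCupPrimitive.sum_mul (hK : IsCupPrimitive z z' K) (g h : G) :
    ∑ ω, K (g * h) ω = ∑ ω, K g ω + ∑ ω, K h ω - ∑ ω, z g ω * z' h (g⁻¹ • ω) := by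
  simp_rw [hK g h]
  rw [Finset.sum_sub_distrib, Finset.sum_add_distrib]
  congr 2
  exact Equiv.sum_comp (MulAction.toPerm g⁻¹) (fun ω => K h ω)

omit [Fintype Ω] in
theorem IsCocycle.apply_inv_smul_of_mul_self (hz : IsCocycle z) {S : G} (hS : S * S = 1) (ω : Ω) :
    z S (S⁻¹ • ω) = - z S ω := by
  have h := hz S S ω
  rw [hS, hz.map_one] at h
  linear_combination -h

omit [Fintype Ω] in
/-- In the gauge `z (S * U) = 0` with `S * S = 1`: `z U = z S`. -/
theorem IsCocycle.apply_U_eq (hz : IsCocycle z) {S U : G} (hS : S * S = 1)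
    (hT : ∀ ω, z (S * U) ω = 0) (ω : Ω) : z U ω = z S ω := by
  have h1 := hT (S • ω)
  rw [hz, inv_smul_smul] at h1
  have h2 := hz.apply_inv_smul_of_mul_self hS (S • ω)
  rw [inv_smul_smul] at h2
  linear_combination h1 - h2

/-- **Explicit form of Lemma A.**  With `v = z S`, `v' = z' S`:
`6 * ∑_ω K (S U) ω = ∑_ω v ω v' ω + 2 ∑_ω v ω v' (U⁻¹ • ω)`. -/
theorem IsCupPrimitive.six_mul_sum (hz : IsCocycle z) (hz' : IsCocycle z')
    (hK : IsCupPrimitive z z' K) {S U : G} (hS : S * S = 1) (hU : U * U * U = 1)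
    (hT : ∀ ω, z (S * U) ω = 0) (hT' : ∀ ω, z' (S * U) ω = 0) :
    6 * ∑ ω, K (S * U) ω
      = ∑ ω, z S ω * z' S ω + 2 * ∑ ω, z S ω * z' S (U⁻¹ • ω) := by
  have hzU : ∀ ω, z U ω = z S ω := hz.apply_U_eq hS hT
  have hzU' : ∀ ω, z' U ω = z' S ω := hz'.apply_U_eq hS hT'
  -- `v' + U v' + U² v' = 0`
  have hc : ∀ ω, z' S ((U * U)⁻¹ • ω) = - z' S ω - z' S (U⁻¹ • ω) := by
    intro ω
    have h := hz' (U * U) U ω
    rw [hU, hz'.map_one, hz' U U ω, hzU', hzU', hzU'] at h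
    linear_combination -h
  -- (d)
  have hd : 2 * ∑ ω, K S ω = - ∑ ω, z S ω * z' S ω := by
    have h := hK.sum_mul S S
    rw [hS] at h
    have h0 : ∑ ω, K (1 : G) ω = 0 := Finset.sum_eq_zero (fun ω _ => hK.map_one hz ω)
    have h1 : ∑ ω, z S ω * z' S (S⁻¹ • ω) = - ∑ ω, z S ω * z' S ω := by
      rw [← Finset.sum_neg_distrib]
      refine Finset.sum_congr rfl (fun ω _ => ?_)
      rw [hz'.apply_inv_smul_of_mul_self hS]; ring
    rw [h0, h1] at h
    linear_combination -h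
  -- (e)
  have he : ∑ ω, K (U * U) ω = 2 * ∑ ω, K U ω - ∑ ω, z S ω * z' S (U⁻¹ • ω) := by
    have h := hK.sum_mul U U
    simp_rw [hzU, hzU'] at h
    linear_combination h
  -- (f)
  have hf : 3 * ∑ ω, K U ω = ∑ ω, z S ω * z' S (U⁻¹ • ω) - ∑ ω, z S ω * z' S ω := by
    have h := hK.sum_mul (U * U) U
    rw [hU] at h
    have h0 : ∑ ω, K (1 : G) ω = 0 := Finset.sum_eq_zero (fun ω _ => hK.map_one hz ω)
    have h1 : ∑ ω, z (U * U) ω * z' U ((U * U)⁻¹ • ω)
        = - ∑ ω, z S ω * z' S ω - ∑ ω, z S ω * z' S (U⁻¹ • ω)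
          + ∑ ω, z S (U⁻¹ • ω) * z' S ((U * U)⁻¹ • ω) := by
      rw [← Finset.sum_neg_distrib, ← Finset.sum_sub_distrib, ← Finset.sum_add_distrib]
      refine Finset.sum_congr rfl (fun ω _ => ?_)
      rw [hz U U ω, hzU, hzU, hzU', hc ω]
      ring
    have h2 : ∑ ω, z S (U⁻¹ • ω) * z' S ((U * U)⁻¹ • ω) = ∑ ω, z S ω * z' S (U⁻¹ • ω) := by
      rw [← Equiv.sum_comp (MulAction.toPerm U)
        (fun ω => z S (U⁻¹ • ω) * z' S ((U * U)⁻¹ • ω))]
      refine Finset.sum_congr rfl (fun ω _ => ?_)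
      simp only [MulAction.toPerm_apply, inv_smul_smul, mul_inv_rev, mul_smul]
    rw [h0, h1, h2, he] at h
    linear_combination -h
  -- (g)
  have hg : ∑ ω, K (S * U) ω = ∑ ω, K S ω + ∑ ω, K U ω + ∑ ω, z S ω * z' S ω := by
    have h := hK.sum_mul S U
    have h1 : ∑ ω, z S ω * z' U (S⁻¹ • ω) = - ∑ ω, z S ω * z' S ω := by
      rw [← Finset.sum_neg_distrib]
      refine Finset.sum_congr rfl (fun ω _ => ?_)
      rw [hzU', hz'.apply_inv_smul_of_mul_self hS]; ring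
    rw [h1] at h
    linear_combination h
  linear_combination 6 * hg + 3 * hd + 2 * hf

end Trace

end Fermat.Agent.ES.LR.LemmaA21
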