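/-
Program L (S41, level raising), VOCABULARY file (helper27): the two degeneracy maps
`Γ₀(N q) → Γ₀(N)` and the induced maps on homomorphisms.

* `inclH N q : Gamma0 (N * q) →* Gamma0 N`  — the inclusion;
* `twistH N q : Gamma0 (N * q) →* Gamma0 N` — conjugation by `μ = diag(q, 1)`:
  `!![a, b; c, d] ↦ !![a, q * b; c / q, d]`;
* `resAdd ι φ = φ ∘ ι` and `coresAdd ι hι φ` (Mathlib's `MonoidHom.transfer` along the range of an
  injective `ι` with finite-index range), for additive characters with values in any `A`;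
* `i1 i2 : (Additive (Gamma0 N) →+ A) →+ (Additive (Gamma0 (N * q)) →+ A)` and
  `t1 t2 : (Additive (Gamma0 (N * q)) →+ A) →+ (Additive (Gamma0 N) →+ A)`.

Mathlib + prelude only.
-/
import Mathlib
import Fermat.Prelude.Def_ModularCurve_PeriodMap

set_option autoImplicit false
set_option linter.unusedSectionVars false

open Matrix CongruenceSubgroup ModularCurve.Period
open scoped MatrixGroups

namespace Fermat.Agent.ES.LR.Degeneracy27

/-! ### Restriction and corestriction along an injective homomorphism -/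

section General

variable {G' G : Type*} [Group G'] [Group G] {A : Type*} [AddCommGroup A]

/-- restriction along `ι`. -/
def resAdd (ι : G' →* G) : (Additive G →+ A) →+ (Additive G' →+ A) where
  toFun φ := φ.comp (MonoidHom.toAdditive ι)
  map_zero' := rfl
  map_add' _ _ := rfl

@[simp] theorem resAdd_apply (ι : G' →* G) (φ : Additive G →+ A) (g : G') :
    resAdd ι φ (Additive.ofMul g) = φ (Additive.ofMul (ι g)) := rfl

/-- the character of `ι.range` corresponding to `φ` (multiplicative notation). -/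
noncomputable def rangeChar (ι : G' →* G) (hι : Function.Injective ι) (φ : Additive G' →+ A) :
    ι.range →* Multiplicative A :=
  (AddMonoidHom.toMultiplicativeRight φ).comp (MonoidHom.ofInjective hι).symm.toMonoidHom

theorem rangeChar_apply (ι : G' →* G) (hι : Function.Injective ι) (φ : Additive G' →+ A) (g : G') :
    rangeChar ι hι φ ⟨ι g, g, rfl⟩ = Multiplicative.ofAdd (φ (Additive.ofMul g)) := by
  unfold rangeChar
  have h : (MonoidHom.ofInjective hι).symm ⟨ι g, g, rfl⟩ = g := by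
    apply (MonoidHom.ofInjective hι).injective
    rw [MulEquiv.apply_symm_apply]
    rfl
  show (AddMonoidHom.toMultiplicativeRight φ) ((MonoidHom.ofInjective hι).symm ⟨ι g, g, rfl⟩) = _
  rw [h]
  rfl

/-- corestriction (transfer) along an injective `ι` whose range has finite index:
`coresAdd ι hι φ = toAdditiveLeft (MonoidHom.transfer (rangeChar ι hι φ))`. -/
noncomputable def coresAdd (ι : G' →* G) (hι : Function.Injective ι) [ι.range.FiniteIndex] :
    (Additive G' →+ A) →+ (Additive G →+ A) where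
  toFun φ := MonoidHom.toAdditiveLeft (MonoidHom.transfer (rangeChar ι hι φ))
  map_zero' := by
    apply AddMonoidHom.ext
    intro g
    show Multiplicative.toAdd (MonoidHom.transfer (rangeChar ι hι (0 : Additive G' →+ A)) _) = 0
    have : rangeChar ι hι (0 : Additive G' →+ A) = 1 := by
      apply MonoidHom.ext
      intro x
      rfl
    rw [this]
    have h1 : MonoidHom.transfer (1 : ι.range →* Multiplicative A) (Additive.toMul g) = 1 := by
      rw [MonoidHom.transfer_def (1 : ι.range →* Multiplicative A)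
        (default : ι.range.LeftTransversal)]
      unfold Subgroup.leftTransversals.diff
      simp
    rw [h1]
    rfl
  map_add' φ ψ := by
    apply AddMonoidHom.ext
    intro g
    show Multiplicative.toAdd (MonoidHom.transfer (rangeChar ι hι (φ + ψ)) _) =
      Multiplicative.toAdd (MonoidHom.transfer (rangeChar ι hι φ) _) +
      Multiplicative.toAdd (MonoidHom.transfer (rangeChar ι hι ψ) _)
    have : rangeChar ι hι (φ + ψ) = rangeChar ι hι φ * rangeChar ι hι ψ := by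
      apply MonoidHom.ext
      intro x
      rfl
    rw [this, ← toAdd_mul]
    congr 1
    rw [MonoidHom.transfer_def _ (default : ι.range.LeftTransversal),
      MonoidHom.transfer_def _ (default : ι.range.LeftTransversal),
      MonoidHom.transfer_def _ (default : ι.range.LeftTransversal)]
    unfold Subgroup.leftTransversals.diff
    simp [Finset.prod_mul_distrib]

theorem coresAdd_apply (ι : G' →* G) (hι : Function.Injective ι) [ι.range.FiniteIndex]
    (φ : Additive G' →+ A) (g : G) :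
    coresAdd ι hι φ (Additive.ofMul g) =
      Multiplicative.toAdd (MonoidHom.transfer (rangeChar ι hι φ) g) := rfl

/-- naturality of the transfer in the coefficient group. -/
theorem coresAdd_comp {B : Type*} [AddCommGroup B] (f : A →+ B) (ι : G' →* G)
    (hι : Function.Injective ι) [ι.range.FiniteIndex] (φ : Additive G' →+ A) :
    coresAdd ι hι (f.comp φ) = f.comp (coresAdd ι hι φ) := by
  apply AddMonoidHom.ext
  intro g
  obtain ⟨g, rfl⟩ := Additive.ofMul.surjective g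
  rw [AddMonoidHom.comp_apply, coresAdd_apply, coresAdd_apply]
  have h : rangeChar ι hι (f.comp φ) = (AddMonoidHom.toMultiplicative f).comp (rangeChar ι hι φ) := by
    apply MonoidHom.ext
    intro x
    rfl
  rw [h]
  show Multiplicative.toAdd (MonoidHom.transfer ((AddMonoidHom.toMultiplicative f).comp
      (rangeChar ι hι φ)) g) =
    Multiplicative.toAdd (AddMonoidHom.toMultiplicative f (MonoidHom.transfer (rangeChar ι hι φ) g))
  congr 1
  rw [MonoidHom.transfer_def _ (default : ι.range.LeftTransversal),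
    MonoidHom.transfer_def _ (default : ι.range.LeftTransversal)]
  unfold Subgroup.leftTransversals.diff
  simp only [map_prod, MonoidHom.comp_apply]

end General


/-! ### The two degeneracy homomorphisms `Γ₀(N q) → Γ₀(N)` -/

section Gamma0

variable (N q : ℕ)

theorem Gamma0_mul_le : Gamma0 (N * q) ≤ Gamma0 N := by
  intro γ hγ
  rw [Gamma0_mem] at hγ ⊢
  have h : ((N * q : ℕ) : ℤ) ∣ (γ : Matrix (Fin 2) (Fin 2) ℤ) 1 0 :=
    (ZMod.intCast_zmod_eq_zero_iff_dvd _ _).mp hγ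
  rw [ZMod.intCast_zmod_eq_zero_iff_dvd]
  exact dvd_trans ⟨(q : ℤ), by push_cast; ring⟩ h

/-- the inclusion `Γ₀(N q) → Γ₀(N)`. -/
def inclH : Gamma0 (N * q) →* Gamma0 N := Subgroup.inclusion (Gamma0_mul_le N q)

@[simp] theorem coe_inclH (γ : Gamma0 (N * q)) : ((inclH N q γ : Gamma0 N) : SL(2, ℤ)) = γ := rfl

theorem inclH_injective : Function.Injective (inclH N q) :=
  Subgroup.inclusion_injective _

theorem dvd_lower_left (γ : Gamma0 (N * q)) :
    ((N : ℤ) * (q : ℤ)) ∣ ((γ : SL(2, ℤ)) : Matrix (Fin 2) (Fin 2) ℤ) 1 0 := by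
  have hγ := γ.2
  rw [Gamma0_mem] at hγ
  have h := (ZMod.intCast_zmod_eq_zero_iff_dvd _ _).mp hγ
  simpa using h

theorem q_dvd_lower_left (γ : Gamma0 (N * q)) :
    (q : ℤ) ∣ ((γ : SL(2, ℤ)) : Matrix (Fin 2) (Fin 2) ℤ) 1 0 :=
  dvd_trans ⟨(N : ℤ), by ring⟩ (dvd_lower_left N q γ)

/-- the matrix `μ γ μ⁻¹`, `μ = diag(q, 1)`. -/
def twistMat (A : Matrix (Fin 2) (Fin 2) ℤ) : Matrix (Fin 2) (Fin 2) ℤ :=
  !![A 0 0, (q : ℤ) * A 0 1; A 1 0 / (q : ℤ), A 1 1]

theorem det_twistMat {A : Matrix (Fin 2) (Fin 2) ℤ} (h : (q : ℤ) ∣ A 1 0) :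
    (twistMat q A).det = A.det := by
  rw [twistMat, Matrix.det_fin_two_of, Matrix.det_fin_two]
  have : (q : ℤ) * (A 1 0 / (q : ℤ)) = A 1 0 := Int.mul_ediv_cancel' h
  linear_combination (-(A 0 1)) * this

theorem twistMat_mul {A B : Matrix (Fin 2) (Fin 2) ℤ} (hA : (q : ℤ) ∣ A 1 0)
    (hB : (q : ℤ) ∣ B 1 0) (hq : q ≠ 0) : twistMat q (A * B) = twistMat q A * twistMat q B := by
  obtain ⟨a, ha⟩ := hA
  obtain ⟨b, hb⟩ := hB
  have hq' : (q : ℤ) ≠ 0 := by exact_mod_cast hq
  ext i j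
  fin_cases i <;> fin_cases j <;>
    simp [twistMat, Matrix.mul_apply, Fin.sum_univ_two, ha, hb, Int.mul_ediv_cancel_left _ hq']
  · ring
  · ring
  · have : (q : ℤ) * a * B 0 0 + A 1 1 * ((q : ℤ) * b) = (q : ℤ) * (a * B 0 0 + A 1 1 * b) := by
      ring
    rw [this, Int.mul_ediv_cancel_left _ hq']
  · ring


variable [NeZero q]

theorem twistMat_one : twistMat q (1 : Matrix (Fin 2) (Fin 2) ℤ) = 1 := by
  ext i j
  fin_cases i <;> fin_cases j <;> simp [twistMat]

/-- `γ ↦ μ γ μ⁻¹` as an element of `SL(2, ℤ)`, for `γ ∈ Γ₀(N q)`. -/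
def twistSL (γ : Gamma0 (N * q)) : SL(2, ℤ) :=
  ⟨twistMat q ((γ : SL(2, ℤ)) : Matrix (Fin 2) (Fin 2) ℤ), by
    rw [det_twistMat q (q_dvd_lower_left N q γ)]; exact (γ : SL(2, ℤ)).2⟩

@[simp] theorem coe_twistSL (γ : Gamma0 (N * q)) :
    ((twistSL N q γ : SL(2, ℤ)) : Matrix (Fin 2) (Fin 2) ℤ) =
      twistMat q ((γ : SL(2, ℤ)) : Matrix (Fin 2) (Fin 2) ℤ) := rfl

theorem twistSL_mem (γ : Gamma0 (N * q)) : twistSL N q γ ∈ Gamma0 N := by
  rw [Gamma0_mem, ZMod.intCast_zmod_eq_zero_iff_dvd]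
  obtain ⟨c, hc⟩ := dvd_lower_left N q γ
  have hq' : (q : ℤ) ≠ 0 := by exact_mod_cast NeZero.ne q
  show (N : ℤ) ∣ twistMat q ((γ : SL(2, ℤ)) : Matrix (Fin 2) (Fin 2) ℤ) 1 0
  have : twistMat q ((γ : SL(2, ℤ)) : Matrix (Fin 2) (Fin 2) ℤ) 1 0 = (N : ℤ) * c := by
    simp only [twistMat, Matrix.of_apply, Matrix.cons_val_one, Matrix.cons_val_zero]
    rw [hc, show (N : ℤ) * (q : ℤ) * c = (q : ℤ) * ((N : ℤ) * c) by ring,
      Int.mul_ediv_cancel_left _ hq']
  rw [this]
  exact dvd_mul_right _ _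

/-- conjugation by `μ = diag(q, 1)`: `Γ₀(N q) → Γ₀(N)`. -/
def twistH : Gamma0 (N * q) →* Gamma0 N where
  toFun γ := ⟨twistSL N q γ, twistSL_mem N q γ⟩
  map_one' := by
    apply Subtype.ext
    apply Subtype.ext
    show twistMat q (((1 : Gamma0 (N * q)) : SL(2, ℤ)) : Matrix (Fin 2) (Fin 2) ℤ) = _
    rw [OneMemClass.coe_one, Matrix.SpecialLinearGroup.coe_one, twistMat_one]
    rfl
  map_mul' γ δ := by
    apply Subtype.ext
    apply Subtype.ext
    show twistMat q (((γ * δ : Gamma0 (N * q)) : SL(2, ℤ)) : Matrix (Fin 2) (Fin 2) ℤ) = _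
    rw [MulMemClass.coe_mul, Matrix.SpecialLinearGroup.coe_mul,
      twistMat_mul q (q_dvd_lower_left N q γ) (q_dvd_lower_left N q δ) (NeZero.ne q)]
    rfl

@[simp] theorem coe_twistH (γ : Gamma0 (N * q)) :
    (((twistH N q γ : Gamma0 N) : SL(2, ℤ)) : Matrix (Fin 2) (Fin 2) ℤ) =
      twistMat q ((γ : SL(2, ℤ)) : Matrix (Fin 2) (Fin 2) ℤ) := rfl

theorem twistH_apply_zero_zero (γ : Gamma0 (N * q)) :
    (((twistH N q γ : Gamma0 N) : SL(2, ℤ)) : Matrix (Fin 2) (Fin 2) ℤ) 0 0 =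
      ((γ : SL(2, ℤ)) : Matrix (Fin 2) (Fin 2) ℤ) 0 0 := by simp [twistMat]

theorem twistH_apply_zero_one (γ : Gamma0 (N * q)) :
    (((twistH N q γ : Gamma0 N) : SL(2, ℤ)) : Matrix (Fin 2) (Fin 2) ℤ) 0 1 =
      (q : ℤ) * ((γ : SL(2, ℤ)) : Matrix (Fin 2) (Fin 2) ℤ) 0 1 := by simp [twistMat]

theorem twistH_apply_one_zero (γ : Gamma0 (N * q)) :
    (q : ℤ) * (((twistH N q γ : Gamma0 N) : SL(2, ℤ)) : Matrix (Fin 2) (Fin 2) ℤ) 1 0 =
      ((γ : SL(2, ℤ)) : Matrix (Fin 2) (Fin 2) ℤ) 1 0 := by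
  simp only [coe_twistH, twistMat, Matrix.of_apply, Matrix.cons_val_one, Matrix.cons_val_zero]
  exact Int.mul_ediv_cancel' (q_dvd_lower_left N q γ)

theorem twistH_apply_one_one (γ : Gamma0 (N * q)) :
    (((twistH N q γ : Gamma0 N) : SL(2, ℤ)) : Matrix (Fin 2) (Fin 2) ℤ) 1 1 =
      ((γ : SL(2, ℤ)) : Matrix (Fin 2) (Fin 2) ℤ) 1 1 := by simp [twistMat]

theorem twistH_injective : Function.Injective (twistH N q) := by
  intro γ δ h
  have hq' : (q : ℤ) ≠ 0 := by exact_mod_cast NeZero.ne q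
  apply Subtype.ext
  apply Subtype.ext
  have h00 := twistH_apply_zero_zero N q γ
  have h01 := twistH_apply_zero_one N q γ
  have h10 := twistH_apply_one_zero N q γ
  have h11 := twistH_apply_one_one N q γ
  rw [h] at h00 h01 h10 h11
  rw [twistH_apply_zero_zero] at h00
  rw [twistH_apply_zero_one] at h01
  rw [twistH_apply_one_zero] at h10
  rw [twistH_apply_one_one] at h11
  ext i j
  fin_cases i <;> fin_cases j
  · exact h00.symm
  · exact (mul_left_cancel₀ hq' h01).symm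
  · exact h10.symm
  · exact h11.symm

/-- the trace is invariant under the twist. -/
theorem trace_twistH (γ : Gamma0 (N * q)) :
    (((twistH N q γ : Gamma0 N) : SL(2, ℤ)) : Matrix (Fin 2) (Fin 2) ℤ).trace =
      (((γ : SL(2, ℤ)) : Matrix (Fin 2) (Fin 2) ℤ)).trace := by
  rw [Matrix.trace_fin_two, Matrix.trace_fin_two, twistH_apply_zero_zero, twistH_apply_one_one]


/-! ### Finite index of the two ranges -/

variable [NeZero N]

instance instNeZeroMul : NeZero (N * q) := ⟨Nat.mul_ne_zero (NeZero.ne N) (NeZero.ne q)⟩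

/-- the inverse twist of an element of `Γ(N q)`. -/
theorem exists_twistH_eq_of_mem_Gamma (γ : Gamma0 N) (h : (γ : SL(2, ℤ)) ∈ Gamma (N * q)) :
    ∃ δ : Gamma0 (N * q), twistH N q δ = γ := by
  have hq' : (q : ℤ) ≠ 0 := by exact_mod_cast NeZero.ne q
  rw [Gamma_mem] at h
  obtain ⟨-, h01, h10, -⟩ := h
  have h01' : ((N * q : ℕ) : ℤ) ∣ ((γ : SL(2, ℤ)) : Matrix (Fin 2) (Fin 2) ℤ) 0 1 :=
    (ZMod.intCast_zmod_eq_zero_iff_dvd _ _).mp h01
  have h10' : ((N * q : ℕ) : ℤ) ∣ ((γ : SL(2, ℤ)) : Matrix (Fin 2) (Fin 2) ℤ) 1 0 :=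
    (ZMod.intCast_zmod_eq_zero_iff_dvd _ _).mp h10
  obtain ⟨b, hb⟩ := h01'
  obtain ⟨c, hc⟩ := h10'
  push_cast at hb hc
  have hdet : ((γ : SL(2, ℤ)) : Matrix (Fin 2) (Fin 2) ℤ) 0 0 *
      ((γ : SL(2, ℤ)) : Matrix (Fin 2) (Fin 2) ℤ) 1 1 -
      ((γ : SL(2, ℤ)) : Matrix (Fin 2) (Fin 2) ℤ) 0 1 *
      ((γ : SL(2, ℤ)) : Matrix (Fin 2) (Fin 2) ℤ) 1 0 = 1 := by
    rw [← Matrix.det_fin_two]; exact (γ : SL(2, ℤ)).2
  let M : Matrix (Fin 2) (Fin 2) ℤ :=
    !![((γ : SL(2, ℤ)) : Matrix (Fin 2) (Fin 2) ℤ) 0 0, (N : ℤ) * b;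
      (q : ℤ) * ((γ : SL(2, ℤ)) : Matrix (Fin 2) (Fin 2) ℤ) 1 0,
      ((γ : SL(2, ℤ)) : Matrix (Fin 2) (Fin 2) ℤ) 1 1]
  have hM : M.det = 1 := by
    rw [Matrix.det_fin_two_of]
    rw [hb] at hdet
    linear_combination hdet
  let g : SL(2, ℤ) := ⟨M, hM⟩
  have hmem : g ∈ Gamma0 (N * q) := by
    rw [Gamma0_mem, ZMod.intCast_zmod_eq_zero_iff_dvd]
    show ((N * q : ℕ) : ℤ) ∣ M 1 0
    simp only [M, Matrix.of_apply, Matrix.cons_val_one, Matrix.cons_val_zero]
    rw [hc]
    push_cast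
    exact ⟨(q : ℤ) * c, by ring⟩
  refine ⟨⟨g, hmem⟩, ?_⟩
  apply Subtype.ext
  apply Subtype.ext
  rw [coe_twistH]
  show twistMat q M = _
  ext i j
  fin_cases i <;> fin_cases j
  · simp [twistMat, M]
  · simp only [twistMat, M, Matrix.of_apply, Matrix.cons_val_zero, Matrix.cons_val_one,
      Fin.zero_eta, Fin.mk_one]
    rw [hb]; ring
  · simp [twistMat, M, Int.mul_ediv_cancel_left _ hq']
  · simp [twistMat, M]

instance instFiniteIndexRangeInclH : (inclH N q).range.FiniteIndex := by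
  have h : (inclH N q).range = (Gamma0 (N * q)).subgroupOf (Gamma0 N) := by
    ext γ
    constructor
    · rintro ⟨δ, rfl⟩
      exact δ.2
    · intro hγ
      exact ⟨⟨(γ : SL(2, ℤ)), hγ⟩, rfl⟩
  rw [h]
  infer_instance

instance instFiniteIndexRangeTwistH : (twistH N q).range.FiniteIndex := by
  have hle : (Gamma (N * q)).subgroupOf (Gamma0 N) ≤ (twistH N q).range := by
    intro γ hγ
    obtain ⟨δ, hδ⟩ := exists_twistH_eq_of_mem_Gamma N q γ hγ
    exact ⟨δ, hδ⟩
  exact Subgroup.finiteIndex_of_le hle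

/-! ### The four maps on characters -/

variable {A : Type*} [AddCommGroup A]

/-- `i₁`: restriction along the inclusion. -/
def i1 : (Additive (Gamma0 N) →+ A) →+ (Additive (Gamma0 (N * q)) →+ A) := resAdd (inclH N q)

/-- `i₂`: restriction along the twist `γ ↦ μ γ μ⁻¹`. -/
def i2 : (Additive (Gamma0 N) →+ A) →+ (Additive (Gamma0 (N * q)) →+ A) := resAdd (twistH N q)

/-- `t₁`: transfer along the inclusion. -/
noncomputable def t1 : (Additive (Gamma0 (N * q)) →+ A) →+ (Additive (Gamma0 N) →+ A) :=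
  coresAdd (inclH N q) (inclH_injective N q)

/-- `t₂`: transfer along the twist. -/
noncomputable def t2 : (Additive (Gamma0 (N * q)) →+ A) →+ (Additive (Gamma0 N) →+ A) :=
  coresAdd (twistH N q) (twistH_injective N q)

@[simp] theorem i1_apply (φ : Additive (Gamma0 N) →+ A) (γ : Gamma0 (N * q)) :
    i1 N q φ (Additive.ofMul γ) = φ (Additive.ofMul (inclH N q γ)) := rfl

@[simp] theorem i2_apply (φ : Additive (Gamma0 N) →+ A) (γ : Gamma0 (N * q)) :
    i2 N q φ (Additive.ofMul γ) = φ (Additive.ofMul (twistH N q γ)) := rfl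

end Gamma0

end Fermat.Agent.ES.LR.Degeneracy27
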