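/-
Program L (S41, level raising), VOCABULARY file 2 (helper27): the degeneracy maps on PARABOLIC
characters.

* `coresAdd_isParabolic` : transfer along a trace-preserving injective `ι : Γ' →* Γ`
  (`Γ', Γ ≤ SL(2, ℤ)`, finite-index range) maps parabolic characters to parabolic characters;
* `i1Par i2Par : parabolicHoms R (Gamma0 N) A →ₗ[R] parabolicHoms R (Gamma0 (N * q)) A`,
  `t1Par t2Par : parabolicHoms R (Gamma0 (N * q)) A →ₗ[R] parabolicHoms R (Gamma0 N) A`.
-/
import Mathlib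
import Fermat.Agent.ES.LR.Degeneracy27
import Fermat.Agent.ES.HEQ.DoubleCosetPar27

set_option autoImplicit false
set_option linter.unusedSectionVars false

open Matrix CongruenceSubgroup ModularCurve.Period
open scoped MatrixGroups

namespace Fermat.Agent.ES.LR.DegeneracyPar27

open Fermat.Agent.ES.LR.Degeneracy27 Fermat.Agent.ES.HEQ.DoubleCosetPar27

section General

variable {Γ' Γ : Subgroup SL(2, ℤ)} {A : Type*} [AddCommGroup A]

/-- restriction along a trace-preserving homomorphism preserves parabolicity. -/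
theorem resAdd_isParabolic (ι : Γ' →* Γ)
    (htr : ∀ γ : Γ', (((ι γ : Γ) : SL(2, ℤ)) : Matrix (Fin 2) (Fin 2) ℤ).trace =
      (((γ : Γ') : SL(2, ℤ)) : Matrix (Fin 2) (Fin 2) ℤ).trace)
    {φ : Additive Γ →+ A} (hφ : IsParabolicHom Γ φ) : IsParabolicHom Γ' (resAdd ι φ) := by
  intro γ hγ
  rw [resAdd_apply]
  exact hφ (ι γ) (by rw [htr]; exact hγ)

/-- transfer along a trace-preserving injective homomorphism with finite-index range preserves
parabolicity. -/
theorem coresAdd_isParabolic (ι : Γ' →* Γ) (hι : Function.Injective ι) [ι.range.FiniteIndex]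
    (htr : ∀ γ : Γ', (((ι γ : Γ) : SL(2, ℤ)) : Matrix (Fin 2) (Fin 2) ℤ).trace =
      (((γ : Γ') : SL(2, ℤ)) : Matrix (Fin 2) (Fin 2) ℤ).trace)
    {φ : Additive Γ' →+ A} (hφ : IsParabolicHom Γ' φ) :
    IsParabolicHom Γ (coresAdd ι hι φ) := by
  classical
  intro g hg
  rw [coresAdd_apply]
  let _i1 := ι.range.fintypeQuotientOfFiniteIndex
  let _i2 : Fintype (Quotient (MulAction.orbitRel (Subgroup.zpowers g) (↥Γ ⧸ ι.range))) :=
    Fintype.ofFinite _
  rw [MonoidHom.transfer_eq_prod_quotient_orbitRel_zpowers_quot]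
  have hone : ∀ x : ι.range, (∃ (y : Γ) (k : ℕ), (x : Γ) = y⁻¹ * g ^ k * y) →
      rangeChar ι hι φ x = 1 := by
    rintro ⟨x, γ, rfl⟩ ⟨y, k, hx⟩
    rw [rangeChar_apply]
    have htrace : (((γ : Γ') : SL(2, ℤ)) : Matrix (Fin 2) (Fin 2) ℤ).trace ^ 2 = 4 := by
      rw [← htr γ]
      have hx' : ((ι γ : Γ) : SL(2, ℤ)) = (y : SL(2, ℤ))⁻¹ * (g : SL(2, ℤ)) ^ k * (y : SL(2, ℤ)) := by
        have := congrArg (fun z : Γ => (z : SL(2, ℤ))) hx
        simpa using this
      rw [hx', Matrix.SpecialLinearGroup.coe_mul, Matrix.trace_mul_comm,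
        ← Matrix.SpecialLinearGroup.coe_mul, mul_inv_cancel_left]
      exact trace_pow_sq_eq_four (g : SL(2, ℤ)) hg k
    rw [hφ γ htrace]
    rfl
  rw [Finset.prod_eq_one]
  · rfl
  · intro qo _
    exact hone _ ⟨_, _, rfl⟩

end General

section Gamma0

variable (N q : ℕ) [NeZero q] [NeZero N]
variable (R : Type*) [Semiring R] (A : Type*) [AddCommGroup A] [Module R A]

theorem trace_inclH (γ : Gamma0 (N * q)) :
    (((inclH N q γ : Gamma0 N) : SL(2, ℤ)) : Matrix (Fin 2) (Fin 2) ℤ).trace =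
      (((γ : SL(2, ℤ)) : Matrix (Fin 2) (Fin 2) ℤ)).trace := rfl

/-- `i₁` on parabolic characters. -/
def i1Par : parabolicHoms R (Gamma0 N) A →ₗ[R] parabolicHoms R (Gamma0 (N * q)) A where
  toFun φ := ⟨i1 N q φ.1, resAdd_isParabolic (inclH N q) (trace_inclH N q) φ.2⟩
  map_add' _ _ := rfl
  map_smul' _ _ := rfl

/-- `i₂` on parabolic characters. -/
def i2Par : parabolicHoms R (Gamma0 N) A →ₗ[R] parabolicHoms R (Gamma0 (N * q)) A where
  toFun φ := ⟨i2 N q φ.1, resAdd_isParabolic (twistH N q) (trace_twistH N q) φ.2⟩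
  map_add' _ _ := rfl
  map_smul' _ _ := rfl

@[simp] theorem coe_i1Par (φ : parabolicHoms R (Gamma0 N) A) :
    ((i1Par N q R A φ : parabolicHoms R (Gamma0 (N * q)) A) :
      Additive (Gamma0 (N * q)) →+ A) = i1 N q φ.1 := rfl

@[simp] theorem coe_i2Par (φ : parabolicHoms R (Gamma0 N) A) :
    ((i2Par N q R A φ : parabolicHoms R (Gamma0 (N * q)) A) :
      Additive (Gamma0 (N * q)) →+ A) = i2 N q φ.1 := rfl

/-- `t₁` on parabolic characters. -/
noncomputable def t1Par : parabolicHoms R (Gamma0 (N * q)) A →ₗ[R] parabolicHoms R (Gamma0 N) A where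
  toFun φ := ⟨t1 N q φ.1,
    coresAdd_isParabolic (inclH N q) (inclH_injective N q) (trace_inclH N q) φ.2⟩
  map_add' φ ψ := Subtype.ext (map_add (t1 N q) φ.1 ψ.1)
  map_smul' c φ := Subtype.ext <| by
    show t1 N q ((DistribSMul.toAddMonoidHom A c).comp φ.1) =
      (DistribSMul.toAddMonoidHom A c).comp (t1 N q φ.1)
    exact coresAdd_comp _ _ _ _

/-- `t₂` on parabolic characters. -/
noncomputable def t2Par : parabolicHoms R (Gamma0 (N * q)) A →ₗ[R] parabolicHoms R (Gamma0 N) A where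
  toFun φ := ⟨t2 N q φ.1,
    coresAdd_isParabolic (twistH N q) (twistH_injective N q) (trace_twistH N q) φ.2⟩
  map_add' φ ψ := Subtype.ext (map_add (t2 N q) φ.1 ψ.1)
  map_smul' c φ := Subtype.ext <| by
    show t2 N q ((DistribSMul.toAddMonoidHom A c).comp φ.1) =
      (DistribSMul.toAddMonoidHom A c).comp (t2 N q φ.1)
    exact coresAdd_comp _ _ _ _

@[simp] theorem coe_t1Par (φ : parabolicHoms R (Gamma0 (N * q)) A) :
    ((t1Par N q R A φ : parabolicHoms R (Gamma0 N) A) : Additive (Gamma0 N) →+ A) =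
      t1 N q φ.1 := rfl

@[simp] theorem coe_t2Par (φ : parabolicHoms R (Gamma0 (N * q)) A) :
    ((t2Par N q R A φ : parabolicHoms R (Gamma0 N) A) : Additive (Gamma0 N) →+ A) =
      t2 N q φ.1 := rfl

end Gamma0

end Fermat.Agent.ES.LR.DegeneracyPar27
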