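/-
Program L (S41), chapter (R): the abstract lattice argument of Ribet's level raising (helper8).

`H` is a commutative ring ("abstract Hecke algebra away from `q'`"), `θ : H →+* k` a character
with values in a field of characteristic `p`, `L₁`, `L₂` are `H`-modules (`L₁ = Λ_N`,
`L₂ = Λ_{Nq'}`), `α : L₁ × L₁ → L₂`, `α' : L₂ → L₁ × L₁` are `H`-linear with
`α' ∘ α = [[c, T], [T, c]]` (`c = q' + 1`, `T = T_{q'}`).  Suppose, "up to elements of `H` not in
`ker θ`":

* (I1) the `p`-torsion of `coker α` vanishes,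
* (I2) `α'` is surjective,
* (NoNew) `coker α` is torsion.

Then every additive map `π : L₁ → Q` to a `k`-vector space which is `θ`-semilinear and on which
`T` acts by a scalar `t` with `t ^ 2 = c ^ 2` vanishes.  (So if the system of eigenvalues `θ`,
`T ↦ t` occurs in `L₁`, one of the three hypotheses fails; (I1), (I2) are theorems, hence (NoNew)
fails: there is a `q'`-new form congruent to `θ`.)

No localisation is used: `M_𝔫 = 0` is expressed as `∃ h, θ h ≠ 0 ∧ h • M = 0`.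
-/
import Mathlib

set_option autoImplicit false

namespace Fermat.Agent.ES.LR.AbstractLR8

variable {H : Type*} [CommRing H] {k : Type*} [Field k] (θ : H →+* k)
  {L₁ L₂ : Type*} [AddCommGroup L₁] [AddCommGroup L₂] [Module H L₁] [Module H L₂]

/-- `p`-power torsion of the cokernel is killed by a power of `h₁`. -/
theorem pow_smul_mem_of_pow_smul_mem {R : Submodule H L₂} {p : ℕ} {h₁ : H}
    (hI1 : ∀ y : L₂, (p : ℤ) • y ∈ R → h₁ • y ∈ R) (a : ℕ) (y : L₂)
    (hy : ((p : ℤ) ^ a) • y ∈ R) : (h₁ ^ a) • y ∈ R := by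
  induction a generalizing y with
  | zero => simpa using hy
  | succ a ih =>
    have h1 : (p : ℤ) • (((p : ℤ) ^ a) • y) ∈ R := by
      rw [smul_smul, ← pow_succ']
      exact hy
    have h2 := hI1 _ h1
    have h3 : ((p : ℤ) ^ a) • (h₁ • y) ∈ R := by
      rw [smul_comm]
      exact h2
    have h4 := ih (h₁ • y) h3
    rw [pow_succ, mul_smul]
    exact h4

variable {θ}

/-- Pointwise form of "`coker α` vanishes at `ker θ`". -/
theorem exists_smul_mem_of_torsion {R : Submodule H L₂} {p : ℕ} [hp : Fact p.Prime] [CharP k p]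
    {h₁ : H} (hθ₁ : θ h₁ ≠ 0) (hI1 : ∀ y : L₂, (p : ℤ) • y ∈ R → h₁ • y ∈ R)
    (y : L₂) {m : ℕ} (hm : 0 < m) (hy : m • y ∈ R) :
    ∃ h : H, θ h ≠ 0 ∧ h • y ∈ R := by
  obtain ⟨a, m', hm', rfl⟩ := Nat.exists_eq_pow_mul_and_not_dvd hm.ne' p hp.out.ne_one
  refine ⟨h₁ ^ a * (m' : H), ?_, ?_⟩
  · rw [map_mul, map_pow, map_natCast]
    refine mul_ne_zero (pow_ne_zero _ hθ₁) ?_
    rw [Ne, CharP.cast_eq_zero_iff k p]
    exact hm'
  · have h1 : ((p : ℤ) ^ a) • ((m' : H) • y) ∈ R := by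
      have e : ((p : ℤ) ^ a) • ((m' : H) • y) = (p ^ a * m') • y := by
        rw [Nat.cast_smul_eq_nsmul, mul_smul]
        have e2 : ((p : ℤ) ^ a) = ((p ^ a : ℕ) : ℤ) := by push_cast; rfl
        rw [e2, natCast_zsmul]
      rw [e]
      exact hy
    have := pow_smul_mem_of_pow_smul_mem hI1 a _ h1
    rw [mul_smul]
    exact this

variable (θ)

/-- From pointwise to uniform: a finitely generated cokernel which vanishes pointwise at `ker θ`
is killed by a single element outside `ker θ`. -/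
theorem exists_smul_forall_mem (R : Submodule H L₂) (hfg : (⊤ : Submodule ℤ L₂).FG)
    (hpt : ∀ y : L₂, ∃ h : H, θ h ≠ 0 ∧ h • y ∈ R) :
    ∃ h : H, θ h ≠ 0 ∧ ∀ y : L₂, h • y ∈ R := by
  classical
  obtain ⟨s, hs⟩ := hfg
  choose hf hfθ hfR using hpt
  refine ⟨∏ y ∈ s, hf y, ?_, ?_⟩
  · rw [map_prod]
    exact Finset.prod_ne_zero_iff.mpr fun y _ => hfθ y
  · intro y
    have hy : y ∈ Submodule.span ℤ (s : Set L₂) := by rw [hs]; trivial
    induction hy using Submodule.span_induction with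
    | mem y hy =>
      rw [← Finset.mul_prod_erase s hf hy, mul_comm, mul_smul]
      exact R.smul_mem _ (hfR y)
    | zero => rw [smul_zero]; exact R.zero_mem
    | add y z _ _ hy hz => rw [smul_add]; exact R.add_mem hy hz
    | smul n y _ hy =>
      rw [smul_comm]
      exact zsmul_mem hy n

/-- **The abstract lattice argument of level raising.** -/
theorem eq_zero_of_level_raising_data {p : ℕ} [Fact p.Prime] [CharP k p]
    (hfg : (⊤ : Submodule ℤ L₂).FG)
    (α : (L₁ × L₁) →ₗ[H] L₂) (α' : L₂ →ₗ[H] (L₁ × L₁)) (T : L₁ →ₗ[H] L₁) (c : ℤ)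
    (hαα : ∀ x y : L₁, α' (α (x, y)) = (c • x + T y, T x + c • y))
    (hI1 : ∃ h₁ : H, θ h₁ ≠ 0 ∧
      ∀ y : L₂, (p : ℤ) • y ∈ LinearMap.range α → h₁ • y ∈ LinearMap.range α)
    (hI2 : ∃ h₂ : H, θ h₂ ≠ 0 ∧ ∀ x : L₁ × L₁, h₂ • x ∈ LinearMap.range α')
    (hNoNew : ∃ h₃ : H, θ h₃ ≠ 0 ∧
      ∀ y : L₂, ∃ m : ℕ, 0 < m ∧ m • (h₃ • y) ∈ LinearMap.range α)
    {Q : Type*} [AddCommGroup Q] [Module k Q] (π : L₁ →+ Q) (t : k)
    (hπH : ∀ (h : H) (x : L₁), π (h • x) = θ h • π x) (hπT : ∀ x : L₁, π (T x) = t • π x)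
    (ht : t ^ 2 = (c : k) ^ 2) (x : L₁) : π x = 0 := by
  obtain ⟨h₁, hθ₁, hI1⟩ := hI1
  obtain ⟨h₂, hθ₂, hI2⟩ := hI2
  obtain ⟨h₃, hθ₃, hNN⟩ := hNoNew
  -- `coker α` vanishes at `ker θ`
  have hpt : ∀ y : L₂, ∃ h : H, θ h ≠ 0 ∧ h • y ∈ LinearMap.range α := by
    intro y
    obtain ⟨m, hm, hmy⟩ := hNN y
    obtain ⟨h', hθ', hh'⟩ := exists_smul_mem_of_torsion (θ := θ) hθ₁ hI1 (h₃ • y) hm hmy
    refine ⟨h' * h₃, ?_, ?_⟩
    · rw [map_mul]; exact mul_ne_zero hθ' hθ₃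
    · rw [mul_smul]; exact hh'
  obtain ⟨hu, hθu, hu_mem⟩ := exists_smul_forall_mem θ (LinearMap.range α) hfg hpt
  -- `α' ∘ α` is surjective up to `g`
  obtain ⟨y, hy⟩ := hI2 (x, 0)
  obtain ⟨⟨z₁, z₂⟩, hz⟩ := hu_mem y
  have hD : (hu * h₂) • ((x, 0) : L₁ × L₁) = (c • z₁ + T z₂, T z₁ + c • z₂) := by
    rw [mul_smul, ← hy, ← map_smul, ← hz, hαα]
  have hD1 : (hu * h₂) • x = c • z₁ + T z₂ := by
    have := congrArg Prod.fst hD
    simpa using this
  have hD2 : (0 : L₁) = T z₁ + c • z₂ := by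
    have := congrArg Prod.snd hD
    simpa using this
  have hg : θ (hu * h₂) ≠ 0 := by rw [map_mul]; exact mul_ne_zero hθu hθ₂
  -- apply `π`
  have e1 : θ (hu * h₂) • π x = (c : k) • π z₁ + t • π z₂ := by
    rw [← hπH, hD1, map_add, map_zsmul, hπT, Int.cast_smul_eq_zsmul]
  have e2 : (0 : Q) = t • π z₁ + (c : k) • π z₂ := by
    have := congrArg π hD2
    rw [map_zero, map_add, map_zsmul, hπT] at this
    rw [Int.cast_smul_eq_zsmul]
    exact this
  by_cases hc : (c : k) = 0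
  · have ht0 : t = 0 := by
      rw [hc, zero_pow two_ne_zero] at ht
      exact pow_eq_zero_iff two_ne_zero |>.mp ht
    rw [hc, ht0, zero_smul, zero_smul, add_zero] at e1
    exact (smul_eq_zero.mp e1).resolve_left hg
  · have e3 : ((c : k) * θ (hu * h₂)) • π x = 0 := by
      have h1 : ((c : k) * θ (hu * h₂)) • π x =
          (c : k) • ((c : k) • π z₁ + t • π z₂) - t • (t • π z₁ + (c : k) • π z₂) := by
        rw [mul_smul, e1, ← e2, smul_zero, sub_zero]
      rw [h1, smul_add, smul_add, smul_smul, smul_smul, smul_smul, smul_smul]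
      have h2 : t * t = (c : k) * (c : k) := by rw [← sq, ← sq]; exact ht
      rw [h2, mul_comm t (c : k)]
      abel
    exact (smul_eq_zero.mp e3).resolve_left (mul_ne_zero hc hg)

end Fermat.Agent.ES.LR.AbstractLR8
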