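import Mathlib

/-!
# Evaluation of multivariate polynomials at a commuting family (S41, CORE, vocabulary)

Mathlib's `MvPolynomial.aeval` needs a commutative target.  `aevalComm T hT` evaluates polynomials at
a pairwise commuting family `T : ι → E` of elements of an arbitrary `O`-algebra `E` (for us:
`E = Module.End ℤ Λ`, `T` = Hecke operators), through the commutative subalgebra generated by `T`.

* `aevalComm T hT : MvPolynomial ι O →ₐ[O] E`, `aevalComm_X`, `aevalComm_C`;
* `algHom_comp_aevalComm` / `map_aevalComm`: compatibility with algebra homomorphisms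
  (e.g. `Module.End.baseChangeHom`);
* `commute_aevalComm`: whatever commutes with all `T i` commutes with every `aevalComm T hT s`;
* `aevalComm_intertwine`: a linear map intertwining two families intertwines all polynomials;
* `aevalComm_apply_eq_smul`, `aevalComm_apply_eq_smul'`, `aevalComm_baseChange_apply_eq_smul`:
  on a joint eigenvector `aevalComm T hT s` acts by `eval a s`.
-/

set_option autoImplicit false

namespace Fermat.Agent.ES.LR.AevalComm4

open Module

section general

variable {O : Type*} [CommRing O] {ι : Type*} {E : Type*} [Ring E] [Algebra O E]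

/-- Evaluation of polynomials at a commuting family of elements of a (noncommutative) algebra. -/
noncomputable def aevalComm (T : ι → E) (hT : ∀ i j, Commute (T i) (T j)) :
    MvPolynomial ι O →ₐ[O] E :=
  haveI : IsMulCommutative (Algebra.adjoin O (Set.range T)) :=
    Algebra.isMulCommutative_adjoin O (by
      rintro _ ⟨i, rfl⟩ _ ⟨j, rfl⟩
      exact hT i j)
  letI : CommRing (Algebra.adjoin O (Set.range T)) := IsMulCommutative.instCommRing
  (Algebra.adjoin O (Set.range T)).val.comp
    (MvPolynomial.aeval (fun i => (⟨T i, Algebra.subset_adjoin ⟨i, rfl⟩⟩ :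
      Algebra.adjoin O (Set.range T))))

@[simp]
theorem aevalComm_X (T : ι → E) (hT : ∀ i j, Commute (T i) (T j)) (i : ι) :
    aevalComm (O := O) T hT (MvPolynomial.X i) = T i := by
  unfold aevalComm
  simp

@[simp]
theorem aevalComm_C (T : ι → E) (hT : ∀ i j, Commute (T i) (T j)) (c : O) :
    aevalComm (O := O) T hT (MvPolynomial.C c) = algebraMap O E c := by
  rw [← MvPolynomial.algebraMap_eq, AlgHom.commutes]

/-- An algebra homomorphism out of the polynomial ring is `aevalComm` of the images of the
variables. -/
theorem eq_aevalComm (f : MvPolynomial ι O →ₐ[O] E) :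
    f = aevalComm (fun i => f (MvPolynomial.X i))
      (fun i j => (Commute.all (MvPolynomial.X i : MvPolynomial ι O) (MvPolynomial.X j)).map f) :=
  MvPolynomial.algHom_ext fun i => by rw [aevalComm_X]

variable {E' : Type*} [Ring E'] [Algebra O E']

theorem algHom_comp_aevalComm (φ : E →ₐ[O] E') (T : ι → E) (hT : ∀ i j, Commute (T i) (T j)) :
    φ.comp (aevalComm T hT) = aevalComm (fun i => φ (T i)) (fun i j => (hT i j).map φ) :=
  MvPolynomial.algHom_ext fun i => by simp

theorem map_aevalComm (φ : E →ₐ[O] E') (T : ι → E) (hT : ∀ i j, Commute (T i) (T j))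
    (s : MvPolynomial ι O) :
    φ (aevalComm T hT s) = aevalComm (fun i => φ (T i)) (fun i j => (hT i j).map φ) s := by
  rw [← algHom_comp_aevalComm φ T hT]; rfl

/-- Whatever commutes with all `T i` commutes with all polynomials in them. -/
theorem commute_aevalComm (T : ι → E) (hT : ∀ i j, Commute (T i) (T j)) {B : E}
    (hB : ∀ i, Commute B (T i)) (s : MvPolynomial ι O) : Commute B (aevalComm T hT s) := by
  induction s using MvPolynomial.induction_on with
  | C c => rw [aevalComm_C]; exact (Algebra.commutes c B).symm
  | add s t hs ht => rw [map_add]; exact hs.add_right ht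
  | mul_X s i hs => rw [map_mul, aevalComm_X]; exact hs.mul_right (hB i)

end general

section modules

variable {O : Type*} [CommRing O] {ι : Type*}
  {M : Type*} [AddCommGroup M] [Module O M] {M' : Type*} [AddCommGroup M'] [Module O M']

/-- A linear map intertwining two commuting families intertwines all polynomials in them. -/
theorem aevalComm_intertwine (T : ι → Module.End O M) (hT : ∀ i j, Commute (T i) (T j))
    (T' : ι → Module.End O M') (hT' : ∀ i j, Commute (T' i) (T' j)) (f : M →ₗ[O] M')
    (hf : ∀ i x, f (T i x) = T' i (f x)) (s : MvPolynomial ι O) (x : M) :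
    f (aevalComm T hT s x) = aevalComm T' hT' s (f x) := by
  induction s using MvPolynomial.induction_on generalizing x with
  | C c => simp [Module.algebraMap_end_apply]
  | add s t hs ht => simp [hs, ht]
  | mul_X s i hs => simp [Module.End.mul_apply, hs, hf]

/-- On a joint eigenvector, a polynomial in the operators acts through its value at the
eigenvalues. -/
theorem aevalComm_apply_eq_smul (T : ι → Module.End O M) (hT : ∀ i j, Commute (T i) (T j))
    (a : ι → O) {v : M} (hv : ∀ i, T i v = a i • v) (s : MvPolynomial ι O) :
    aevalComm T hT s v = MvPolynomial.eval a s • v := by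
  induction s using MvPolynomial.induction_on with
  | C c => simp [Module.algebraMap_end_apply]
  | add s t hs ht => simp [hs, ht, add_smul]
  | mul_X s i hs =>
    rw [map_mul, aevalComm_X, Module.End.mul_apply, hv, map_smul, hs, map_mul, MvPolynomial.eval_X,
      smul_smul, mul_comm]

/-- Variant of `aevalComm_apply_eq_smul` with eigenvalues in an `O`-algebra `k` acting on a
`k`-module: the family consists of `k`-linear maps, the polynomial has coefficients in `O`. -/
theorem aevalComm_apply_eq_smul' {k : Type*} [CommRing k] [Algebra O k] {V : Type*} [AddCommGroup V]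
    [Module k V] [Module O V] [IsScalarTower O k V] (T : ι → Module.End k V)
    (hT : ∀ i j, Commute (T i) (T j))
    (a : ι → k) {v : V} (hv : ∀ i, T i v = a i • v) (s : MvPolynomial ι O) :
    aevalComm (O := O) T hT s v = MvPolynomial.aeval a s • v := by
  induction s using MvPolynomial.induction_on with
  | C c =>
    rw [aevalComm_C, MvPolynomial.aeval_C, Module.algebraMap_end_apply, algebraMap_smul]
  | add s t hs ht => simp [hs, ht, add_smul]
  | mul_X s i hs =>
    rw [map_mul, aevalComm_X, Module.End.mul_apply, hv, map_smul, hs, map_mul, MvPolynomial.aeval_X,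
      smul_smul, mul_comm]

/-- On a joint eigenvector of the base-changed family, the base change of a polynomial in the
operators acts through its value at the eigenvalues. -/
theorem aevalComm_baseChange_apply_eq_smul {k : Type*} [CommRing k] [Algebra O k]
    (T : ι → Module.End O M) (hT : ∀ i j, Commute (T i) (T j)) (a : ι → k)
    {v : TensorProduct O k M} (hv : ∀ i, (T i).baseChange k v = a i • v) (s : MvPolynomial ι O) :
    (aevalComm T hT s).baseChange k v = MvPolynomial.aeval a s • v := by
  induction s using MvPolynomial.induction_on with
  | C c =>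
    rw [aevalComm_C, MvPolynomial.aeval_C, Algebra.algebraMap_eq_smul_one, LinearMap.baseChange_smul,
      LinearMap.smul_apply, Module.End.one_eq_id, LinearMap.baseChange_id, LinearMap.id_apply,
      Algebra.algebraMap_eq_smul_one, smul_assoc, one_smul]
  | add s t hs ht => rw [map_add, LinearMap.baseChange_add, LinearMap.add_apply, hs, ht, map_add,
      add_smul]
  | mul_X s i hs =>
    rw [map_mul, aevalComm_X, LinearMap.baseChange_mul, Module.End.mul_apply, hv, map_smul, hs,
      map_mul, MvPolynomial.aeval_X, smul_smul, mul_comm]

end modules

end Fermat.Agent.ES.LR.AevalComm4
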