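/-
Program L (S41, level raising), chapter FIN (helper12): from a Hecke eigenvector in the complex
parabolic homs of `Γ₀(M)` on which `U_q² = 1` to a normalised eigenform of level `M` which is
`q`-new in the sense of the Prelude (`a_q² = 1`).

* `periodHomPair_of_period` : an operator on cusp forms whose period map is an operator `U` on homs
  commuting with the `charInvolution` is intertwined with `U` by `periodHomPair`.
* `exists_newform_of_hom_eigenvector` : the main statement (A) of chapter FIN.  The operator `U` on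
  `Hom(Γ₀(M), ℂ)` is abstract (it is instantiated with the double coset operator of `U_q`).
-/
import Mathlib
import Fermat.Agent.ES.HEQ.FaithFinal26
import Fermat.Agent.S49.CommonEigen
import Fermat.Agent.S49.QExp

set_option autoImplicit false
set_option linter.unusedSectionVars false

noncomputable section

namespace Fermat.Agent.ES.LR.Final12

open ModularCurve ModularCurve.Period CongruenceSubgroup CuspForm
open Fermat.Agent.ES.HEQ.FaithInst26 Fermat.Agent.ES.HEQ.FaithFinal26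

variable {M : ℕ} [NeZero M]

/-- an operator `A` on cusp forms whose period map is the operator `U` on homs (commuting with the
`charInvolution`) is intertwined with `U` by `periodHomPair`. -/
theorem periodHomPair_of_period (A : Module.End ℂ (CuspForm (Gamma0 M) 2))
    (U : Module.End ℂ (Additive (Gamma0 M) →+ ℂ))
    (hper : ∀ g : CuspForm (Gamma0 M) 2, periodMap M (A g) = U (periodMap M g))
    (hinv : ∀ φ, U (charInvolution M ℂ ℂ φ) = charInvolution M ℂ ℂ (U φ))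
    (g1 g2 : CuspForm (Gamma0 M) 2) :
    periodHomPair M (A g1, A g2) = U (periodHomPair M (g1, g2)) := by
  rw [Fermat.Agent.S21.Primitive.periodHomPair_apply,
    Fermat.Agent.S21.Primitive.periodHomPair_apply,
    hper, hper, map_add, map_add, map_sub, hinv, hinv]

/-- the family of all Prelude Hecke operators of level `M`, indexed by the primes. -/
def heckeFam (M : ℕ) [NeZero M] (ℓ : {ℓ : ℕ // ℓ.Prime}) :
    Module.End ℂ (CuspForm (Gamma0 M) 2) :=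
  if h : (ℓ : ℕ) ∣ M then heckeULin 2 h else heckeTLin 2 ℓ.2 h

theorem heckeFam_of_dvd {ℓ : ℕ} (hℓ : ℓ.Prime) (h : ℓ ∣ M) :
    heckeFam M ⟨ℓ, hℓ⟩ = heckeULin 2 h := by
  simp [heckeFam, h]

theorem heckeFam_of_not_dvd {ℓ : ℕ} (hℓ : ℓ.Prime) (h : ¬ ℓ ∣ M) :
    heckeFam M ⟨ℓ, hℓ⟩ = heckeTLin 2 hℓ h := by
  simp [heckeFam, h]

theorem heckeFam_commute_heckeTLin (i : {ℓ : ℕ // ℓ.Prime}) {ℓ : ℕ} (hℓ : ℓ.Prime)
    (hℓM : ¬ ℓ ∣ M) : Commute (heckeFam M i) (heckeTLin 2 hℓ hℓM) := by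
  obtain ⟨r, hr⟩ := i
  by_cases h : r ∣ M
  · rw [heckeFam_of_dvd hr h]
    exact (heckeTLin_heckeULin_comm 2 hℓ hℓM h).symm
  · rw [heckeFam_of_not_dvd hr h]
    exact heckeTLin_comm 2 hr h hℓ hℓM

theorem heckeFam_commute_heckeULin (i : {ℓ : ℕ // ℓ.Prime}) {q : ℕ} (hqM : q ∣ M) :
    Commute (heckeFam M i) (heckeULin 2 hqM) := by
  obtain ⟨r, hr⟩ := i
  by_cases h : r ∣ M
  · rw [heckeFam_of_dvd hr h]
    exact heckeULin_comm 2 h hqM
  · rw [heckeFam_of_not_dvd hr h]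
    exact heckeTLin_heckeULin_comm 2 hr h hqM

theorem heckeFam_commute (i j : {ℓ : ℕ // ℓ.Prime}) :
    Commute (heckeFam M i) (heckeFam M j) := by
  obtain ⟨r, hr⟩ := j
  by_cases h : r ∣ M
  · rw [heckeFam_of_dvd hr h]
    exact heckeFam_commute_heckeULin i h
  · rw [heckeFam_of_not_dvd hr h]
    exact heckeFam_commute_heckeTLin i hr h

/-- **FIN (A)**: a nonzero complex parabolic hom `φ` of `Γ₀(M)` which is an eigenvector of the double
coset operators `T_ℓ` (`ℓ ∤ M`, `P ℓ`) with eigenvalues `lam ℓ` and which is fixed by `U²`, where `U`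
is an operator on homs computing the period map of `U_q`, produces a normalised eigenform of level
`M` with `a_ℓ = lam ℓ` (`ℓ ∤ M`, `P ℓ`) and `a_q² = 1`. -/
theorem exists_newform_of_hom_eigenvector {q : ℕ} (hq : q.Prime) (hqM : q ∣ M)
    (U : Module.End ℂ (Additive (Gamma0 M) →+ ℂ))
    (hUper : ∀ g : CuspForm (Gamma0 M) 2, periodMap M (heckeULin 2 hqM g) = U (periodMap M g))
    (hUinv : ∀ φ, U (charInvolution M ℂ ℂ φ) = charInvolution M ℂ ℂ (U φ))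
    (P : ℕ → Prop) (lam : ℕ → ℂ)
    (φ : Additive (Gamma0 M) →+ ℂ) (hφpar : φ ∈ ParC M) (hφ : φ ≠ 0)
    (heig : ∀ ℓ (hℓ : ℓ.Prime) (hℓM : ¬ ℓ ∣ M), P ℓ → dcC M ℓ hℓ hℓM φ = lam ℓ • φ)
    (hU2 : U (U φ) = φ) :
    ∃ g : CuspForm (Gamma0 M) 2, g.IsNormalizedEigenform ∧
      (∀ ℓ, ℓ.Prime → ¬ ℓ ∣ M → P ℓ → ModularFormClass.qCoeff g ℓ = lam ℓ) ∧
      ModularFormClass.qCoeff g q ^ 2 = 1 := by
  classical
  have : FiniteDimensional ℂ (CuspForm (Gamma0 M) 2) := Fermat.Agent.S21.Assembly.finite_cusp M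
  have hinj := (eichlerShimura M).1
  -- the pair of cusp forms
  obtain ⟨⟨g1, g2⟩, hg⟩ : ∃ pr : CuspForm (Gamma0 M) 2 × CuspForm (Gamma0 M) 2,
      periodHomPair M pr = φ := by
    refine ⟨(periodEquiv M).symm ⟨φ, hφpar⟩, ?_⟩
    have := congrArg Subtype.val ((periodEquiv M).apply_symm_apply ⟨φ, hφpar⟩)
    exact this
  have hne : (g1, g2) ≠ (0 : CuspForm (Gamma0 M) 2 × CuspForm (Gamma0 M) 2) := by
    intro h0
    apply hφ
    rw [← hg, h0, map_zero]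
  -- eigen-equations
  have hT : ∀ ℓ (hℓ : ℓ.Prime) (hℓM : ¬ ℓ ∣ M), P ℓ →
      heckeTLin 2 hℓ hℓM g1 = lam ℓ • g1 ∧ heckeTLin 2 hℓ hℓM g2 = lam ℓ • g2 := by
    intro ℓ hℓ hℓM hP
    have h1 : periodHomPair M (heckeTLin 2 hℓ hℓM g1, heckeTLin 2 hℓ hℓM g2) =
        periodHomPair M (lam ℓ • (g1, g2)) := by
      rw [periodHomPair_hecke (dcData M) ℓ hℓ hℓM g1 g2, hg, map_smul, hg]
      exact heig ℓ hℓ hℓM hP
    have h2 := hinj h1
    rw [Prod.smul_mk] at h2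
    exact ⟨congrArg Prod.fst h2, congrArg Prod.snd h2⟩
  have hUU : heckeULin 2 hqM (heckeULin 2 hqM g1) = g1 ∧
      heckeULin 2 hqM (heckeULin 2 hqM g2) = g2 := by
    have h1 : periodHomPair M (heckeULin 2 hqM (heckeULin 2 hqM g1),
        heckeULin 2 hqM (heckeULin 2 hqM g2)) = periodHomPair M (g1, g2) := by
      rw [periodHomPair_of_period (heckeULin 2 hqM) U hUper hUinv,
        periodHomPair_of_period (heckeULin 2 hqM) U hUper hUinv, hg, hU2]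
    have h2 := hinj h1
    exact ⟨congrArg Prod.fst h2, congrArg Prod.snd h2⟩
  -- the subspace
  let V : Submodule ℂ (CuspForm (Gamma0 M) 2) :=
    (⨅ ℓ : {ℓ : ℕ // ℓ.Prime ∧ ¬ ℓ ∣ M ∧ P ℓ},
      LinearMap.ker (heckeTLin 2 ℓ.2.1 ℓ.2.2.1 - lam ℓ • (1 : Module.End ℂ _))) ⊓
    LinearMap.ker (heckeULin 2 hqM * heckeULin 2 hqM - 1)
  have hmemV : ∀ x : CuspForm (Gamma0 M) 2, x ∈ V ↔
      (∀ ℓ (hℓ : ℓ.Prime) (hℓM : ¬ ℓ ∣ M), P ℓ → heckeTLin 2 hℓ hℓM x = lam ℓ • x) ∧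
        heckeULin 2 hqM (heckeULin 2 hqM x) = x := by
    intro x
    simp only [V, Submodule.mem_inf, Submodule.mem_iInf, LinearMap.mem_ker, LinearMap.sub_apply,
      LinearMap.smul_apply, Module.End.one_apply, Module.End.mul_apply, sub_eq_zero, Subtype.forall]
    constructor
    · rintro ⟨h1, h2⟩
      exact ⟨fun ℓ hℓ hℓM hP => h1 ℓ ⟨hℓ, hℓM, hP⟩, h2⟩
    · rintro ⟨h1, h2⟩
      exact ⟨fun ℓ h => h1 ℓ h.1 h.2.1 h.2.2, h2⟩
  have hg1V : g1 ∈ V := (hmemV g1).2 ⟨fun ℓ hℓ hℓM hP => (hT ℓ hℓ hℓM hP).1, hUU.1⟩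
  have hg2V : g2 ∈ V := (hmemV g2).2 ⟨fun ℓ hℓ hℓM hP => (hT ℓ hℓ hℓM hP).2, hUU.2⟩
  have hVbot : V ≠ ⊥ := by
    intro hb
    apply hne
    rw [hb] at hg1V hg2V
    rw [Submodule.mem_bot] at hg1V hg2V
    rw [hg1V, hg2V]
    rfl
  -- stability
  have hstab : ∀ i, ∀ x ∈ V, heckeFam M i x ∈ V := by
    intro i x hx
    rw [hmemV] at hx ⊢
    refine ⟨fun ℓ hℓ hℓM hP => ?_, ?_⟩
    · have hc := (heckeFam_commute_heckeTLin i hℓ hℓM).eq
      have := congrArg (fun A : Module.End ℂ (CuspForm (Gamma0 M) 2) => A x) hc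
      simp only [Module.End.mul_apply] at this
      rw [← this, hx.1 ℓ hℓ hℓM hP, map_smul]
    · have hc := (heckeFam_commute_heckeULin i hqM).eq
      have h1 : ∀ y, heckeULin 2 hqM (heckeFam M i y) = heckeFam M i (heckeULin 2 hqM y) := by
        intro y
        have := congrArg (fun A : Module.End ℂ (CuspForm (Gamma0 M) 2) => A y) hc
        simp only [Module.End.mul_apply] at this
        exact this.symm
      rw [h1, h1, hx.2]
  obtain ⟨w, hwV, hw0, hweig⟩ := Fermat.Agent.S49.commFamily_exists_eigenvector_mem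
    (heckeFam M) heckeFam_commute V hVbot hstab
  choose μ hμ using hweig
  let lam' : ℕ → ℂ := fun ℓ => if h : ℓ.Prime then μ ⟨ℓ, h⟩ else 0
  have hlam' : ∀ ℓ (hℓ : ℓ.Prime), lam' ℓ = μ ⟨ℓ, hℓ⟩ := fun ℓ hℓ => by simp [lam', hℓ]
  have hwT : ∀ (ℓ : ℕ) (hℓ : ℓ.Prime) (hℓM : ¬ ℓ ∣ M), heckeTLin 2 hℓ hℓM w = lam' ℓ • w := by
    intro ℓ hℓ hℓM
    rw [hlam' ℓ hℓ, ← hμ ⟨ℓ, hℓ⟩, heckeFam_of_not_dvd hℓ hℓM]
  have hwU : ∀ (r : ℕ) (_ : r.Prime) (hrM : r ∣ M), heckeULin 2 hrM w = lam' r • w := by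
    intro r hr hrM
    rw [hlam' r hr, ← hμ ⟨r, hr⟩, heckeFam_of_dvd hr hrM]
  obtain ⟨g, hgn, hgl⟩ := Fermat.Agent.S49.exists_normalizedEigenform_of_eigenvector w hw0 lam'
    hwT hwU
  rw [hmemV] at hwV
  refine ⟨g, hgn, fun ℓ hℓ hℓM hP => ?_, ?_⟩
  · rw [hgl ℓ hℓ]
    have h1 := hwV.1 ℓ hℓ hℓM hP
    rw [hwT ℓ hℓ hℓM] at h1
    have h2 : (lam' ℓ - lam ℓ) • w = 0 := by rw [sub_smul, h1, sub_self]
    rcases smul_eq_zero.mp h2 with h3 | h3
    · exact sub_eq_zero.mp h3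
    · exact absurd h3 hw0
  · rw [hgl q hq]
    have h1 := hwV.2
    rw [hwU q hq hqM, map_smul, hwU q hq hqM, smul_smul] at h1
    have h2 : (lam' q * lam' q - 1) • w = 0 := by rw [sub_smul, h1, one_smul, sub_self]
    rcases smul_eq_zero.mp h2 with h3 | h3
    · rw [pow_two]
      exact sub_eq_zero.mp h3
    · exact absurd h3 hw0

/-! ### (B) base change `ℂ ⊗ Λ ≃ Par_ℂ` and transport of operators -/

section BaseChange

open TensorProduct Fermat.Agent.ES.HEQ.ParLattice11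

variable (M)

/-- the integral parabolic hom `x`, with values cast to `ℂ`. -/
def castHom (x : ↥(Lam M)) : Additive (Gamma0 M) →+ ℂ :=
  (Int.castAddHom ℂ).comp (x : Additive (Gamma0 M) →+ ℤ)

theorem castHom_eq_castPar (x : ↥(Lam M)) :
    castHom M x = ((castPar (Gamma0 M) ℂ x : ↥(ParC M)) : Additive (Gamma0 M) →+ ℂ) := rfl

theorem castHom_eq_castParC (x : ↥(Lam M)) :
    castHom M x = ((castParC M x : ↥(ParC M)) : Additive (Gamma0 M) →+ ℂ) := rfl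

/-- the `ℂ`-linear equivalence `ℂ ⊗ Λ ≃ Par_ℂ`. -/
def bcEquiv : ℂ ⊗[ℤ] ↥(Lam M) ≃ₗ[ℂ] ↥(ParC M) :=
  (Algebra.TensorProduct.basis ℂ (lamBasis (fg_Gamma0 M))).equiv (parBasis ℂ (fg_Gamma0 M))
    (Equiv.refl _)

theorem bcEquiv_one_tmul (x : ↥(Lam M)) : bcEquiv M (1 ⊗ₜ x) = castPar (Gamma0 M) ℂ x := by
  have h : ((bcEquiv M).toLinearMap.restrictScalars ℤ).comp
      (TensorProduct.mk ℤ ℂ ↥(Lam M) 1) = castPar (Gamma0 M) ℂ := by
    refine (lamBasis (fg_Gamma0 M)).ext fun i => ?_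
    show bcEquiv M (1 ⊗ₜ (lamBasis (fg_Gamma0 M) i)) =
      castPar (Gamma0 M) ℂ (lamBasis (fg_Gamma0 M) i)
    rw [← Algebra.TensorProduct.basis_apply, bcEquiv, Module.Basis.equiv_apply,
      Equiv.refl_apply, parBasis_apply, lamBasis_apply]
  exact LinearMap.congr_fun h x

/-- the base change map `ℂ ⊗ Λ → Hom(Γ₀(M), ℂ)`, `c ⊗ x ↦ c • x`. -/
def bcPar : ℂ ⊗[ℤ] ↥(Lam M) →ₗ[ℂ] (Additive (Gamma0 M) →+ ℂ) :=
  (ParC M).subtype.comp (bcEquiv M).toLinearMap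

theorem bcPar_tmul (c : ℂ) (x : ↥(Lam M)) : bcPar M (c ⊗ₜ x) = c • castHom M x := by
  have h : (c ⊗ₜ[ℤ] x : ℂ ⊗[ℤ] ↥(Lam M)) = c • (1 ⊗ₜ[ℤ] x) := by
    rw [TensorProduct.smul_tmul', smul_eq_mul, mul_one]
  rw [h, map_smul]
  show c • ((bcEquiv M (1 ⊗ₜ x) : ↥(ParC M)) : Additive (Gamma0 M) →+ ℂ) = _
  rw [bcEquiv_one_tmul, castHom_eq_castPar]

theorem bcPar_mem (w : ℂ ⊗[ℤ] ↥(Lam M)) : bcPar M w ∈ ParC M := (bcEquiv M w).2

theorem bcPar_injective : Function.Injective (bcPar M) := by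
  intro v w h
  exact (bcEquiv M).injective (Subtype.ext h)

theorem bcPar_ne_zero {w : ℂ ⊗[ℤ] ↥(Lam M)} (hw : w ≠ 0) : bcPar M w ≠ 0 := by
  intro h
  apply hw
  apply bcPar_injective M
  rw [h, map_zero]

variable {M}

/-- **transport of operators**: if `DC` on complex homs restricts to `D` on the lattices, then
`bcPar` intertwines `D.baseChange ℂ` with `DC`. -/
theorem bcPar_baseChange {M' : ℕ} [NeZero M'] (D : ↥(Lam M) →ₗ[ℤ] ↥(Lam M'))
    (DC : (Additive (Gamma0 M) →+ ℂ) →ₗ[ℂ] (Additive (Gamma0 M') →+ ℂ))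
    (h : ∀ x : ↥(Lam M), DC (castHom M x) = castHom M' (D x)) (w : ℂ ⊗[ℤ] ↥(Lam M)) :
    bcPar M' (D.baseChange ℂ w) = DC (bcPar M w) := by
  induction w using TensorProduct.induction_on with
  | zero => simp
  | tmul c x =>
    rw [LinearMap.baseChange_tmul, bcPar_tmul, bcPar_tmul, map_smul, h]
  | add v w hv hw => rw [map_add, map_add, map_add, map_add, hv, hw]

/-- the double coset operators: `dcZ` on `Λ` is the restriction of `dcC`. -/
theorem dcC_castHom (l : ℕ) (hl : l.Prime) (hlM : ¬ l ∣ M) (x : ↥(Lam M)) :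
    dcC M l hl hlM (castHom M x) = castHom M (dcZ M l hl hlM x) :=
  ((dcData M).cast l hl hlM x).symm

theorem bcPar_dcZ (l : ℕ) (hl : l.Prime) (hlM : ¬ l ∣ M) (w : ℂ ⊗[ℤ] ↥(Lam M)) :
    bcPar M ((dcZ M l hl hlM).baseChange ℂ w) = dcC M l hl hlM (bcPar M w) :=
  bcPar_baseChange (dcZ M l hl hlM) (dcC M l hl hlM) (dcC_castHom l hl hlM) w

end BaseChange

end Fermat.Agent.ES.LR.Final12
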