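import Fermat.Agent.ES.PET.ReducedFinal17
import Fermat.Agent.ES.J7.EigenVec1
import Fermat.Prelude.Thm_CongruenceSubgroup_one_mem_strictPeriods_Gamma0
import Fermat.Prelude.Def_FLTPrelim_ModularRep

/-!
# The strict Hecke bound `‖T_p‖ < p + 1` on `S_2(Γ₀(N))`, `p ∤ N` (S41, chapter (R), analytic input)

For `f ∈ S_2(Γ₀(N))`, `f ≠ 0`, and a prime `p ∤ N`:

* `normSqPet_heckeT_lt`, `petB_heckeT_lt`: `⟨T_p f, T_p f⟩ < (p + 1)² ⟨f, f⟩` for the Petersson form
  of record `PetGamma10.petB`;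
* `norm_eigenvalue_lt`: every eigenvalue of `T_p` has absolute value `< p + 1`;
* `norm_qCoeff_lt`: `‖a_p(f)‖ < p + 1` for a normalised eigenform;
* `eq_zero_of_heckeT_heckeT_eq`, `ker_sq_sub_heckeT_sq`: `(p + 1)² - T_p²` is injective;
* `eq_zero_of_gram_eq_zero`: the Gram matrix `[[p+1, T_p], [T_p, p+1]]` of the two degeneracy maps is
  injective on `S_2(Γ₀(N))²`.

Proof.  With `β_i` the `p + 1` representatives of `Γ₀(N) \ Γ₀(N) diag(1,p) Γ₀(N)` and
`D(F) = |F|² y²`, the function `R = ∑_i D(f|β_i - T_p f/(p+1))` equals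
`∑_i D(f) ∘ β_i - D(T_p f)/(p+1)`; it is `Γ₀(N)`-invariant (`DoubleCoset27.permG`), nonnegative, and
by double-coset unfolding (`SelfAdjAbs17.unfold_real_nonneg`) `∫ w R = (p+1)‖f‖² - ‖T_p f‖²/(p+1)`.
If this vanishes then `R = 0`, so `f|β_∞ = f|β_0`, i.e. `f(τ) = p² f(p² τ)`, which contradicts the
exponential decay of `f` at `i∞` unless `f = 0`.
-/

set_option linter.unusedSectionVars false
set_option linter.style.haveILetI false

open Matrix CongruenceSubgroup UpperHalfPlane MeasureTheory Filter Topology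
open scoped MatrixGroups ModularForm Manifold ComplexConjugate

namespace Fermat.Agent.ES.LR.HeckeBound17

open Fermat.Agent.ES.HEQ.DoubleCoset27 Matrix.SpecialLinearGroup
  Fermat.Agent.ES.PET.SelfAdjHecke17 Fermat.Agent.ES.PET.PetForm10
  Fermat.Agent.ES.PET.PetGamma10 Fermat.Agent.ES.PET.PartitionGamma5 Fermat.Agent.ES.PET
  Fermat.Agent.ES.PET.ReducedFinal17

section core

variable {p : ℕ} [hp : Fact p.Prime] {N : ℕ} [NeZero N]

/-- The real Petersson density `|F|² y²`. -/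
noncomputable def dens (F : ℍ → ℂ) (z : ℍ) : ℝ := Complex.normSq (F z) * z.im ^ 2

theorem dens_nonneg (F : ℍ → ℂ) (z : ℍ) : 0 ≤ dens F z :=
  mul_nonneg (Complex.normSq_nonneg _) (sq_nonneg _)

theorem petersson_self_eq_dens (F : ℍ → ℂ) (z : ℍ) : petersson 2 F F z = ((dens F z : ℝ) : ℂ) := by
  rw [petersson_self]
  simp [dens]

theorem dens_eq_zero {F : ℍ → ℂ} {z : ℍ} (h : dens F z = 0) : F z = 0 := by
  rcases mul_eq_zero.mp h with h1 | h1
  · exact Complex.normSq_eq_zero.mp h1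
  · exact absurd h1 (pow_ne_zero 2 z.im_ne_zero)

/-- `|A - B|² y² = |A|² y² - 2 Re(conj A · B) y² + |B|² y²`. -/
theorem dens_sub (A B : ℍ → ℂ) (z : ℍ) :
    dens (A - B) z = dens A z - 2 * (petersson 2 A B z).re + dens B z := by
  have h : (petersson 2 A B z).re = (A z).re * (B z).re * z.im ^ 2 + (A z).im * (B z).im * z.im ^ 2 := by
    unfold petersson
    have : ((z.im : ℂ) ^ (2 : ℤ)) = ((z.im ^ 2 : ℝ) : ℂ) := by push_cast; rfl
    rw [this, Complex.re_mul_ofReal]
    simp only [Complex.mul_re, Complex.conj_re, Complex.conj_im]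
    ring
  rw [h]
  simp only [dens, Pi.sub_apply, Complex.normSq_apply, Complex.sub_re, Complex.sub_im]
  ring

theorem dens_slash {α : GL (Fin 2) ℝ} (hα : 0 < α.det.val) (F : ℍ → ℂ) (z : ℍ) :
    dens (F ∣[(2 : ℤ)] α) z = dens F (α • z) := by
  have h := petersson_slash_of_det_pos hα F F z
  rw [petersson_self_eq_dens, petersson_self_eq_dens] at h
  exact_mod_cast h

theorem dens_real_smul (t : ℝ) (G : ℍ → ℂ) (z : ℍ) : dens ((t : ℂ) • G) z = t ^ 2 * dens G z := by
  simp only [dens, Pi.smul_apply, smul_eq_mul, Complex.normSq_mul, Complex.normSq_ofReal]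
  ring

theorem petersson_real_smul_right_re (t : ℝ) (A G : ℍ → ℂ) (z : ℍ) :
    (petersson 2 A ((t : ℂ) • G) z).re = t * (petersson 2 A G z).re := by
  rw [petersson_smul_right, Complex.re_ofReal_mul]

/-- The key pointwise expansion. -/
theorem sum_dens_sub (F G : ℍ → ℂ) (t : ℝ) (z : ℍ) :
    ∑ i : Option (ZMod p), dens (F ∣[(2 : ℤ)] glBeta p i - (t : ℂ) • G) z
      = ∑ i : Option (ZMod p), dens F (glBeta p i • z)
        - 2 * t * (petersson 2 (ModularForm.heckeT 2 p F) G z).re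
        + ((p : ℝ) + 1) * t ^ 2 * dens G z := by
  have hcard : (Fintype.card (Option (ZMod p)) : ℝ) = (p : ℝ) + 1 := by
    rw [Fintype.card_option, ZMod.card]
    push_cast
    rfl
  simp only [dens_sub, dens_real_smul, petersson_real_smul_right_re,
    dens_slash (det_glBeta_pos _)]
  rw [Finset.sum_add_distrib, Finset.sum_sub_distrib, heckeT_eq_sum, petersson_sum_left,
    Complex.re_sum, Finset.sum_const, Finset.card_univ, nsmul_eq_mul, hcard, Finset.mul_sum]
  congr 1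
  · congr 1
    refine Finset.sum_congr rfl fun i _ => ?_
    ring
  · ring

omit hp in
theorem dens_smul_of_mem (f : CuspForm (Gamma0 N) 2) (γ : SL(2, ℤ)) (hγ : γ ∈ Gamma0 N) (z : ℍ) :
    dens (⇑f) (γ • z) = dens (⇑f) z := by
  have h := cuspForm_petersson_smul N 2 f f γ hγ z
  rw [petersson_self_eq_dens, petersson_self_eq_dens] at h
  exact_mod_cast h

/-- The Hecke transform of the density. -/
noncomputable def heckeDens (p : ℕ) [Fact p.Prime] (F : ℍ → ℂ) (z : ℍ) : ℝ :=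
  ∑ i : Option (ZMod p), dens F (glBeta p i • z)

theorem heckeDens_smul_of_mem (hpN : ¬ p ∣ N) (f : CuspForm (Gamma0 N) 2) (γ : SL(2, ℤ))
    (hγ : γ ∈ Gamma0 N) (z : ℍ) :
    heckeDens p (⇑f) (γ • z) = heckeDens p (⇑f) z := by
  unfold heckeDens
  have h1 : ∀ i : Option (ZMod p), dens (⇑f) (glBeta p i • (γ • z))
      = dens (⇑f) (glBeta p (permG (⟨γ, hγ⟩ : Gamma0 N) i) • z) := by
    intro i
    have h2 := glBeta_smul_smul_G hpN (⟨γ, hγ⟩ : Gamma0 N) i z
    simp only at h2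
    rw [h2, dens_smul_of_mem f _ (cocG hpN (⟨γ, hγ⟩ : Gamma0 N) i).2]
  rw [Finset.sum_congr rfl fun i _ => h1 i]
  exact Equiv.sum_comp (permG (⟨γ, hγ⟩ : Gamma0 N)) fun i => dens (⇑f) (glBeta p i • z)

theorem continuous_dens {F : ℍ → ℂ} (hF : Continuous F) : Continuous (dens F) := by
  unfold dens
  exact (Complex.continuous_normSq.comp hF).mul (UpperHalfPlane.continuous_im.pow 2)

theorem continuous_heckeDens {F : ℍ → ℂ} (hF : Continuous F) : Continuous (heckeDens p F) := by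
  unfold heckeDens
  exact continuous_finsetSum _ fun i _ => (continuous_dens hF).comp (continuous_const_smul _)

/-- The point `p^(2m) τ`. -/
noncomputable def dil (p : ℕ) (m : ℕ) (τ : ℍ) : ℍ := ModularForm.heckeDiagMatrix (p ^ (2 * m)) • τ

theorem coe_dil (m : ℕ) (τ : ℍ) : ((dil p m τ : ℍ) : ℂ) = (p : ℂ) ^ (2 * m) * (τ : ℂ) := by
  unfold dil
  rw [ModularForm.coe_heckeDiagMatrix_smul (pow_ne_zero _ hp.out.ne_zero)]
  push_cast
  rfl

theorem im_dil (m : ℕ) (τ : ℍ) : (dil p m τ).im = (p : ℝ) ^ (2 * m) * τ.im := by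
  have h := congrArg Complex.im (coe_dil (p := p) m τ)
  rw [UpperHalfPlane.coe_im] at h
  rw [h]
  have : ((p : ℂ) ^ (2 * m)) = (((p : ℝ) ^ (2 * m) : ℝ) : ℂ) := by push_cast; rfl
  rw [this, Complex.im_ofReal_mul, UpperHalfPlane.coe_im]

/-- If `F|β_∞ = F|β_0` then `F τ = p² F(p² τ)`. -/
theorem apply_eq_of_slash_eq {F : ℍ → ℂ}
    (h : F ∣[(2 : ℤ)] glBeta p none = F ∣[(2 : ℤ)] glBeta p (some 0)) (m : ℕ) (τ : ℍ) :
    F τ = (p : ℂ) ^ (2 * m) * F (dil p m τ) := by
  have hp0 : p ≠ 0 := hp.out.ne_zero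
  have hpc : (p : ℂ) ≠ 0 := by exact_mod_cast hp0
  -- one step
  have step : ∀ τ : ℍ, F τ = (p : ℂ) ^ 2 * F (dil p 1 τ) := by
    intro τ
    have h1 := congrFun h (ModularForm.heckeDiagMatrix p • τ)
    rw [glBeta_none, glBeta_some, ModularForm.slash_heckeDiagMatrix_apply 2 hp0,
      ModularForm.slash_heckeMatrix_apply 2 hp0] at h1
    have e1 : ModularForm.heckeMatrix p (0 : ZMod p).val • (ModularForm.heckeDiagMatrix p • τ) = τ := by
      apply UpperHalfPlane.ext
      rw [ModularForm.coe_heckeMatrix_smul hp0, ModularForm.coe_heckeDiagMatrix_smul hp0]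
      simp only [ZMod.val_zero, Nat.cast_zero, add_zero]
      field_simp
    have e2 : ModularForm.heckeDiagMatrix p • (ModularForm.heckeDiagMatrix p • τ) = dil p 1 τ := by
      apply UpperHalfPlane.ext
      rw [coe_dil, ModularForm.coe_heckeDiagMatrix_smul hp0, ModularForm.coe_heckeDiagMatrix_smul hp0]
      ring
    rw [e1, e2] at h1
    have h2 : F τ = (p : ℂ) * ((p : ℂ) ^ ((2 : ℤ) - 1) * F (dil p 1 τ)) := by
      rw [h1, ← mul_assoc, mul_inv_cancel₀ hpc, one_mul]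
    rw [h2, show (2 : ℤ) - 1 = 1 by norm_num, zpow_one]
    ring
  induction m generalizing τ with
  | zero =>
    have : dil p 0 τ = τ := by
      apply UpperHalfPlane.ext
      rw [coe_dil]
      simp
    rw [this]
    simp
  | succ m ih =>
    rw [ih τ, step (dil p m τ)]
    have : dil p 1 (dil p m τ) = dil p (m + 1) τ := by
      apply UpperHalfPlane.ext
      rw [coe_dil, coe_dil, coe_dil]
      ring
    rw [this]
    ring

/-- **Equality case**: a cusp form with `f|β_∞ = f|β_0` vanishes (`f(τ) = p² f(p² τ)` contradicts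
the exponential decay at `i∞`). -/
theorem eq_zero_of_slash_eq (f : CuspForm (Gamma0 N) 2)
    (h : (⇑f) ∣[(2 : ℤ)] glBeta p none = (⇑f) ∣[(2 : ℤ)] glBeta p (some 0)) : f = 0 := by
  have hp1 : (1 : ℝ) < p := by exact_mod_cast hp.out.one_lt
  have hp0 : (0 : ℝ) < p := by linarith
  have hdecay := CuspFormClass.exp_decay_atImInfty (h := 1) f one_pos
    (CongruenceSubgroup.one_mem_strictPeriods_Gamma0 N)
  obtain ⟨C, hC⟩ := hdecay.bound
  obtain ⟨A, hA⟩ := (atImInfty_mem _).mp hC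
  apply DFunLike.coe_injective
  funext τ
  show f τ = 0
  rw [← norm_le_zero_iff]
  set y := τ.im with hy
  have hy0 : 0 < y := τ.im_pos
  set c : ℝ := 2 * Real.pi * y with hc
  have hc0 : 0 < c := by positivity
  -- the sequence `x_m = c p^(2m)`
  have hx : Tendsto (fun m : ℕ => c * (p : ℝ) ^ (2 * m)) atTop atTop := by
    refine Tendsto.const_mul_atTop hc0 ?_
    have : Tendsto (fun m : ℕ => ((p : ℝ) ^ 2) ^ m) atTop atTop :=
      tendsto_pow_atTop_atTop_of_one_lt (by nlinarith)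
    refine this.congr fun m => ?_
    rw [pow_mul]
  have hlim : Tendsto (fun m : ℕ => (C / c) * ((c * (p : ℝ) ^ (2 * m)) ^ 1
      * Real.exp (-(c * (p : ℝ) ^ (2 * m))))) atTop (𝓝 0) := by
    have h1 := (Real.tendsto_pow_mul_exp_neg_atTop_nhds_zero 1).comp hx
    have h2 := h1.const_mul (C / c)
    simpa using h2
  refine ge_of_tendsto hlim ?_
  have hev : ∀ᶠ m : ℕ in atTop, A ≤ (p : ℝ) ^ (2 * m) * y := by
    have : Tendsto (fun m : ℕ => (p : ℝ) ^ (2 * m) * y) atTop atTop := by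
      have h3 : Tendsto (fun m : ℕ => ((p : ℝ) ^ 2) ^ m) atTop atTop :=
        tendsto_pow_atTop_atTop_of_one_lt (by nlinarith)
      refine (h3.atTop_mul_const hy0).congr fun m => ?_
      rw [pow_mul]
    exact this.eventually_ge_atTop A
  filter_upwards [hev] with m hm
  have hb := hA (dil p m τ) (by rw [im_dil]; exact hm)
  simp only [Set.mem_ofPred_eq] at hb
  rw [apply_eq_of_slash_eq h m τ, norm_mul, norm_pow, Complex.norm_natCast]
  rw [Real.norm_eq_abs, abs_of_pos (Real.exp_pos _), im_dil] at hb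
  have hpm : (0 : ℝ) < (p : ℝ) ^ (2 * m) := by positivity
  calc (p : ℝ) ^ (2 * m) * ‖f (dil p m τ)‖
      ≤ (p : ℝ) ^ (2 * m) * (C * Real.exp (-2 * Real.pi * ((p : ℝ) ^ (2 * m) * y) / 1)) := by
        gcongr
    _ = C / c * ((c * (p : ℝ) ^ (2 * m)) ^ 1 * Real.exp (-(c * (p : ℝ) ^ (2 * m)))) := by
        have : -2 * Real.pi * ((p : ℝ) ^ (2 * m) * y) / 1 = -(c * (p : ℝ) ^ (2 * m)) := by
          rw [hc]; ring
        rw [this]
        field_simp

omit hp in
theorem exists_dens_le (f : CuspForm (Gamma0 N) 2) : ∃ C : ℝ, ∀ z, dens (⇑f) z ≤ C := by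
  obtain ⟨C, hC⟩ := cuspForm_petersson_bounded N 2 f f
  refine ⟨C, fun z => ?_⟩
  have h := hC z
  rw [petersson_self_eq_dens, Complex.norm_real, Real.norm_eq_abs] at h
  exact (le_abs_self _).trans h

omit hp in
theorem dens_smul_of_mem_GamG (f : CuspForm (Gamma0 N) 2) {γ : GL (Fin 2) ℝ} (hγ : γ ∈ GamG N)
    (z : ℍ) : dens (⇑f) (γ • z) = dens (⇑f) z := by
  rw [← dens_slash (det_pos_of_mem_GamG hγ), slash_eq_of_mem f hγ]

section integral

variable {w : ℍ → ENNReal} (hw : Unfold12.IsPartition (Gamma0 N) (volume : Measure ℍ) w)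
  (hwf : ∫⁻ x, w x ∂(volume : Measure ℍ) ≠ ⊤)

include hw hwf

/-- **Unfolding**: `∫ w · (T_p |f|² y²) = (p + 1) ∫ w · |f|² y²`. -/
theorem integral_heckeDens (hpN : ¬ p ∣ N) (f : CuspForm (Gamma0 N) 2) :
    ∫ x, (w x).toReal * heckeDens p (⇑f) x ∂(volume : Measure ℍ)
      = ((p : ℝ) + 1) * ∫ x, (w x).toReal * dens (⇑f) x ∂(volume : Measure ℍ) := by
  obtain ⟨C, hC⟩ := exists_dens_le f
  have hcont : Continuous (dens (⇑f)) := continuous_dens (CuspFormClass.holo f).continuous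
  haveI := countable_GamG N
  have key := SelfAdjAbs17.unfold_real_nonneg (μ := (volume : Measure ℍ)) (GamG N) hw.1
    (ae_tsum_GamG hw) hwf (glBeta p) (bRep p) injective_left injective_right
    (range_left_eq_range_right hpN) (fun _ x => dens (⇑f) x) (fun _ => hcont.measurable)
    (fun _ x => dens_nonneg _ x) (C := C) (fun _ x => hC x) (fun _ x => hC x)
    (fun _ _ => rfl)
    (fun _ γ x => (dens_smul_of_mem_GamG f (inv_mem γ.2) x).symm)
  have hcard : (Fintype.card (Option (ZMod p)) : ℝ) = (p : ℝ) + 1 := by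
    rw [Fintype.card_option, ZMod.card]
    push_cast
    rfl
  simp only [Finset.sum_const, Finset.card_univ, nsmul_eq_mul, hcard] at key
  rw [← key, ← integral_finsetSum]
  · refine integral_congr_ae (Eventually.of_forall fun x => ?_)
    simp only [heckeDens, Finset.mul_sum]
  · intro i _
    exact SelfAdjAbs17.integrable_toReal_mul hw.1 hwf
      ((hcont.comp (continuous_const_smul _)).measurable) (C := C) fun x => by
        rw [abs_of_nonneg (dens_nonneg _ _)]
        exact hC _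

end integral

/-- The defect `∑_i |F|β_i - T_p F/(p+1)|² y²`. -/
noncomputable def defect (p : ℕ) [Fact p.Prime] (F : ℍ → ℂ) (z : ℍ) : ℝ :=
  ∑ i : Option (ZMod p),
    dens (F ∣[(2 : ℤ)] glBeta p i - (((1 / ((p : ℝ) + 1) : ℝ)) : ℂ) • ModularForm.heckeT 2 p F) z

theorem defect_nonneg (F : ℍ → ℂ) (z : ℍ) : 0 ≤ defect p F z :=
  Finset.sum_nonneg fun _ _ => dens_nonneg _ _

theorem defect_eq (F : ℍ → ℂ) (z : ℍ) :
    defect p F z = heckeDens p F z - dens (ModularForm.heckeT 2 p F) z / ((p : ℝ) + 1) := by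
  have hp1 : (0 : ℝ) < (p : ℝ) + 1 := by positivity
  unfold defect
  rw [sum_dens_sub, petersson_self_eq_dens, Complex.ofReal_re]
  unfold heckeDens
  field_simp
  ring

theorem slash_eq_of_defect_eq_zero {F : ℍ → ℂ} (h : ∀ z, defect p F z = 0) (i : Option (ZMod p)) :
    F ∣[(2 : ℤ)] glBeta p i = (((1 / ((p : ℝ) + 1) : ℝ)) : ℂ) • ModularForm.heckeT 2 p F := by
  funext z
  have h1 := (Finset.sum_eq_zero_iff_of_nonneg fun i _ => dens_nonneg _ z).mp (h z) i (Finset.mem_univ i)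
  have h2 := dens_eq_zero h1
  rw [Pi.sub_apply, sub_eq_zero] at h2
  exact h2

section integral

variable {w : ℍ → ENNReal} (hw : Unfold12.IsPartition (Gamma0 N) (volume : Measure ℍ) w)
  (hwf : ∫⁻ x, w x ∂(volume : Measure ℍ) ≠ ⊤)

include hw hwf

/-- **The operator norm of `T_p` on `S_2(Γ₀(N))` is `< p + 1`** (integral form, any partition function
of finite mass). -/
theorem integral_dens_heckeT_lt (hpN : ¬ p ∣ N) (f : CuspForm (Gamma0 N) 2) (hf : f ≠ 0) :
    ∫ x, (w x).toReal * dens (⇑(CuspForm.heckeTLin 2 hp.out hpN f)) x ∂(volume : Measure ℍ)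
      < ((p : ℝ) + 1) ^ 2 * ∫ x, (w x).toReal * dens (⇑f) x ∂(volume : Measure ℍ) := by
  have hp1 : (0 : ℝ) < (p : ℝ) + 1 := by positivity
  set Tf := CuspForm.heckeTLin 2 hp.out hpN f with hTf
  have hT : (⇑Tf : ℍ → ℂ) = ModularForm.heckeT 2 p ⇑f := CuspForm.coe_heckeTLin_apply 2 hp.out hpN f
  obtain ⟨C, hC⟩ := exists_dens_le f
  obtain ⟨C', hC'⟩ := exists_dens_le Tf
  have hcf : Continuous (⇑f : ℍ → ℂ) := (CuspFormClass.holo f).continuous
  have hcT : Continuous (⇑Tf : ℍ → ℂ) := (CuspFormClass.holo Tf).continuous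
  have hcH : Continuous (heckeDens p (⇑f)) := continuous_heckeDens hcf
  have hcD : Continuous (dens (⇑Tf)) := continuous_dens hcT
  -- integrability
  have hint1 : Integrable (fun x => (w x).toReal * heckeDens p (⇑f) x) (volume : Measure ℍ) := by
    refine SelfAdjAbs17.integrable_toReal_mul hw.1 hwf hcH.measurable
      (C := ∑ _i : Option (ZMod p), C) fun x => ?_
    unfold heckeDens
    rw [abs_of_nonneg (Finset.sum_nonneg fun _ _ => dens_nonneg _ _)]
    exact Finset.sum_le_sum fun i _ => hC _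
  have hint2 : Integrable (fun x => (w x).toReal * dens (⇑Tf) x) (volume : Measure ℍ) :=
    SelfAdjAbs17.integrable_toReal_mul hw.1 hwf hcD.measurable (C := C') fun x => by
      rw [abs_of_nonneg (dens_nonneg _ _)]
      exact hC' _
  have hdef : ∀ x, (w x).toReal * defect p (⇑f) x
      = (w x).toReal * heckeDens p (⇑f) x - (w x).toReal * dens (⇑Tf) x / ((p : ℝ) + 1) := by
    intro x
    rw [defect_eq, ← hT]
    ring
  have hintD : Integrable (fun x => (w x).toReal * defect p (⇑f) x) (volume : Measure ℍ) := by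
    simp only [hdef]
    exact hint1.sub (hint2.div_const _)
  have hval : ∫ x, (w x).toReal * defect p (⇑f) x ∂(volume : Measure ℍ)
      = ((p : ℝ) + 1) * ∫ x, (w x).toReal * dens (⇑f) x ∂(volume : Measure ℍ)
        - (∫ x, (w x).toReal * dens (⇑Tf) x ∂(volume : Measure ℍ)) / ((p : ℝ) + 1) := by
    simp only [hdef]
    rw [integral_sub hint1 (hint2.div_const _), integral_div, integral_heckeDens hw hwf hpN f]
  have hnn : ∀ x, 0 ≤ (w x).toReal * defect p (⇑f) x := fun x =>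
    mul_nonneg ENNReal.toReal_nonneg (defect_nonneg _ _)
  by_contra hlt
  rw [not_lt] at hlt
  -- the integral of the defect vanishes
  have hzero : ∫ x, (w x).toReal * defect p (⇑f) x ∂(volume : Measure ℍ) = 0 := by
    refine le_antisymm ?_ (integral_nonneg hnn)
    rw [hval, sub_nonpos, le_div_iff₀ hp1]
    calc ((p : ℝ) + 1) * (∫ x, (w x).toReal * dens (⇑f) x ∂(volume : Measure ℍ)) * ((p : ℝ) + 1)
        = ((p : ℝ) + 1) ^ 2 * ∫ x, (w x).toReal * dens (⇑f) x ∂(volume : Measure ℍ) := by ring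
      _ ≤ _ := hlt
  have hae := (integral_eq_zero_iff_of_nonneg_ae (Eventually.of_forall hnn) hintD).mp hzero
  have h0' : ∀ᵐ z ∂(volume : Measure ℍ),
      (((w z).toReal : ℝ) : ℂ) * ((defect p (⇑f) z : ℝ) : ℂ) = 0 := by
    filter_upwards [hae] with z hz
    rw [← Complex.ofReal_mul]
    exact_mod_cast hz
  have hinv : ∀ γ ∈ Gamma0 N, ∀ z : ℍ,
      ((defect p (⇑f) (γ • z) : ℝ) : ℂ) = ((defect p (⇑f) z : ℝ) : ℂ) := by
    intro γ hγ z
    rw [defect_eq, defect_eq, ← hT, heckeDens_smul_of_mem hpN f γ hγ, dens_smul_of_mem Tf γ hγ]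
  have hP := ae_eq_zero_of_partition (Gamma0 N) (w := fun z => (w z).toReal)
    (P := fun z => ((defect p (⇑f) z : ℝ) : ℂ)) hw.hasSum_toReal hinv h0'
  have hcont : Continuous fun z : ℍ => ((defect p (⇑f) z : ℝ) : ℂ) := by
    have : (fun z : ℍ => ((defect p (⇑f) z : ℝ) : ℂ))
        = fun z : ℍ => ((heckeDens p (⇑f) z - dens (⇑Tf) z / ((p : ℝ) + 1) : ℝ) : ℂ) := by
      funext z
      rw [defect_eq, ← hT]
    rw [this]
    exact Complex.continuous_ofReal.comp (hcH.sub (hcD.div_const _))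
  have hall := eq_zero_of_ae_eq_zero hcont hP
  have hall' : ∀ z, defect p (⇑f) z = 0 := fun z => by
    have := congrFun hall z
    simp only [Pi.zero_apply] at this
    exact_mod_cast this
  apply hf
  apply eq_zero_of_slash_eq (p := p) f
  rw [slash_eq_of_defect_eq_zero hall' none, slash_eq_of_defect_eq_zero hall' (some 0)]

end integral

end core

section final

variable {p : ℕ} {N : ℕ} [NeZero N]

/-- The Petersson norm square, as a real number. -/
noncomputable def normSqPet (f : CuspForm (Gamma0 N) 2) : ℝ :=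
  ∫ x, (wΓ (Gamma0 N) x).toReal * dens (⇑f) x ∂(volume : Measure ℍ)

theorem petB_self_eq (f : CuspForm (Gamma0 N) 2) : petB N 2 f f = ((normSqPet f : ℝ) : ℂ) := by
  rw [petB_two, normSqPet, ← integral_complex_ofReal]
  refine integral_congr_ae (Eventually.of_forall fun z => ?_)
  simp only [petersson_self_eq_dens, Complex.real_smul, Complex.ofReal_mul]

theorem normSqPet_nonneg (f : CuspForm (Gamma0 N) 2) : 0 ≤ normSqPet f :=
  integral_nonneg fun _ => mul_nonneg ENNReal.toReal_nonneg (dens_nonneg _ _)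

theorem normSqPet_pos {f : CuspForm (Gamma0 N) 2} (hf : f ≠ 0) : 0 < normSqPet f := by
  refine lt_of_le_of_ne (normSqPet_nonneg f) fun h => hf ?_
  apply petB_definite 2 f
  rw [petB_self_eq, ← h, Complex.ofReal_zero]

theorem normSqPet_smul (c : ℂ) (f : CuspForm (Gamma0 N) 2) :
    normSqPet (c • f) = ‖c‖ ^ 2 * normSqPet f := by
  have h : petB N 2 (c • f) (c • f) = conj c * (c * petB N 2 f f) := by
    rw [petB_smul_left, petB_smul_right]
  rw [petB_self_eq, petB_self_eq, ← mul_assoc, Complex.conj_mul', ← Complex.ofReal_pow,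
    ← Complex.ofReal_mul] at h
  exact_mod_cast h

/-- **`‖T_p f‖ < (p + 1) ‖f‖`** for the Petersson norm, `f ≠ 0`, `p ∤ N`. -/
theorem normSqPet_heckeT_lt (hp : p.Prime) (hpN : ¬ p ∣ N) {f : CuspForm (Gamma0 N) 2}
    (hf : f ≠ 0) :
    normSqPet (CuspForm.heckeTLin 2 hp hpN f) < ((p : ℝ) + 1) ^ 2 * normSqPet f := by
  haveI : Fact p.Prime := ⟨hp⟩
  exact integral_dens_heckeT_lt (isPartition_wΓ (Gamma0 N)) (lintegral_wΓ_ne_top (Gamma0 N)) hpN f hf

/-- The same, for the Petersson form of record. -/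
theorem petB_heckeT_lt (hp : p.Prime) (hpN : ¬ p ∣ N) {f : CuspForm (Gamma0 N) 2} (hf : f ≠ 0) :
    (petB N 2 (CuspForm.heckeTLin 2 hp hpN f) (CuspForm.heckeTLin 2 hp hpN f)).re
      < ((p : ℝ) + 1) ^ 2 * (petB N 2 f f).re := by
  rw [petB_self_eq, petB_self_eq, Complex.ofReal_re, Complex.ofReal_re]
  exact normSqPet_heckeT_lt hp hpN hf

/-- **Every eigenvalue of `T_p` on `S_2(Γ₀(N))`, `p ∤ N`, has absolute value `< p + 1`.** -/
theorem norm_eigenvalue_lt (hp : p.Prime) (hpN : ¬ p ∣ N) {f : CuspForm (Gamma0 N) 2} (hf : f ≠ 0)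
    {c : ℂ} (h : CuspForm.heckeTLin 2 hp hpN f = c • f) : ‖c‖ < (p : ℝ) + 1 := by
  have h1 := normSqPet_heckeT_lt hp hpN hf
  rw [h, normSqPet_smul] at h1
  have h2 : ‖c‖ ^ 2 < ((p : ℝ) + 1) ^ 2 := lt_of_mul_lt_mul_right h1 (normSqPet_nonneg f)
  exact lt_of_pow_lt_pow_left₀ 2 (by positivity) h2

/-- **The strict Hecke bound** `|a_p(f)| < p + 1` for a normalised eigenform of weight 2 on
`Γ₀(N)`, `p ∤ N`. -/
theorem norm_qCoeff_lt (hp : p.Prime) (hpN : ¬ p ∣ N) {f : CuspForm (Gamma0 N) 2}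
    (hf : f.IsNormalizedEigenform) : ‖ModularFormClass.qCoeff f p‖ < (p : ℝ) + 1 :=
  norm_eigenvalue_lt hp hpN hf.ne_zero (Fermat.Agent.ES.J7.EigenVec1.heckeTLin_eq_smul hf hp hpN)

/-- `(p + 1)² - T_p²` is injective on `S_2(Γ₀(N))`. -/
theorem eq_zero_of_heckeT_heckeT_eq (hp : p.Prime) (hpN : ¬ p ∣ N) {f : CuspForm (Gamma0 N) 2}
    (h : CuspForm.heckeTLin 2 hp hpN (CuspForm.heckeTLin 2 hp hpN f) = (((p : ℂ) + 1) ^ 2) • f) :
    f = 0 := by
  by_contra hf
  have h1 := petB_heckeT_lt hp hpN hf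
  rw [petB_adjoint N p hp hpN f, h, petB_smul_right] at h1
  have h2 : ((((p : ℂ) + 1) ^ 2) * petB N 2 f f).re = ((p : ℝ) + 1) ^ 2 * (petB N 2 f f).re := by
    have : (((p : ℂ) + 1) ^ 2) = ((((p : ℝ) + 1) ^ 2 : ℝ) : ℂ) := by push_cast; rfl
    rw [this, Complex.re_ofReal_mul]
  rw [h2] at h1
  exact lt_irrefl _ h1

theorem ker_sq_sub_heckeT_sq (hp : p.Prime) (hpN : ¬ p ∣ N) :
    LinearMap.ker ((((p : ℂ) + 1) ^ 2) • (LinearMap.id : CuspForm (Gamma0 N) 2 →ₗ[ℂ] _)
      - CuspForm.heckeTLin 2 hp hpN ∘ₗ CuspForm.heckeTLin 2 hp hpN) = ⊥ := by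
  rw [LinearMap.ker_eq_bot']
  intro f hf
  apply eq_zero_of_heckeT_heckeT_eq hp hpN
  rw [LinearMap.sub_apply, LinearMap.smul_apply, LinearMap.id_apply, LinearMap.comp_apply,
    sub_eq_zero] at hf
  exact hf.symm

/-- The Gram matrix `α†α = [[p+1, T_p], [T_p, p+1]]` of the two degeneracy maps is injective on
`S_2(Γ₀(N))²`. -/
theorem eq_zero_of_gram_eq_zero (hp : p.Prime) (hpN : ¬ p ∣ N) {x y : CuspForm (Gamma0 N) 2}
    (h1 : ((p : ℂ) + 1) • x + CuspForm.heckeTLin 2 hp hpN y = 0)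
    (h2 : CuspForm.heckeTLin 2 hp hpN x + ((p : ℂ) + 1) • y = 0) : x = 0 ∧ y = 0 := by
  have hp1 : ((p : ℂ) + 1) ≠ 0 := by
    have : ((p : ℂ) + 1) = ((p + 1 : ℕ) : ℂ) := by push_cast; rfl
    rw [this]
    exact_mod_cast Nat.succ_ne_zero p
  have hx : x = 0 := by
    apply eq_zero_of_heckeT_heckeT_eq hp hpN
    have e1 : CuspForm.heckeTLin 2 hp hpN x = -(((p : ℂ) + 1) • y) := eq_neg_of_add_eq_zero_left h2
    have e2 : CuspForm.heckeTLin 2 hp hpN y = -(((p : ℂ) + 1) • x) := eq_neg_of_add_eq_zero_right h1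
    rw [e1, map_neg, map_smul, e2, smul_neg, neg_neg, smul_smul, sq]
  refine ⟨hx, ?_⟩
  rw [hx, map_zero, zero_add] at h2
  exact (smul_eq_zero.mp h2).resolve_left hp1

end final

end Fermat.Agent.ES.LR.HeckeBound17
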