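/-
Program L (S41, level raising), chapter OCC + Q (helper16).

* `sq_sub_dcZ_sq_injective` **(Q)**: `(q+1)² − T_q²` is injective on the lattice `Λ_N = Lam N`
  (`q ∤ N`), from the strict Hecke bound (`HeckeBound17`) and Eichler–Shimura (`periodEquiv`).
* `exists_reduction`: an eigenvector in `K ⊗ M` (`M` finite free over `ℤ`) reduces, along any valuation
  subring `O` of `K`, to a nonzero vector of `κ(O) ⊗ M` with the reduced eigenvalues.
* `exists_occurrence` **(OCC)**: under S41's hypotheses on `(f, 𝔪)` there are a field `k` of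
  characteristic `p` and a nonzero `v ∈ k ⊗ Λ_N` with `T_ℓ v = a_ℓ(W) v` for all good `ℓ ∤ N`, `ℓ ≠ p`,
  and `T_q² v = (q+1)² v`.
-/
import Mathlib
import Fermat.Agent.ES.HEQ.FaithFinal26
import Fermat.Agent.ES.J7.EigenChar1
import Fermat.Agent.ES.LR.HeckeBound17

set_option autoImplicit false
set_option linter.unusedSectionVars false

noncomputable section

namespace Fermat.Agent.ES.LR.Occur16

open CongruenceSubgroup CuspForm TensorProduct ModularCurve ModularCurve.Period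
open Fermat.Agent.ES.HEQ.FaithFinal26 Fermat.Agent.ES.HEQ.FaithInst26

/-- **(Q)** `(q+1)² − T_q²` is injective on `Λ_N`. -/
theorem sq_sub_dcZ_sq_injective {N q : ℕ} [NeZero N] (hq : q.Prime) (hqN : ¬ q ∣ N) (y : ↥(Lam N))
    (h : (((q : ℤ) + 1) ^ 2) • y - dcZ N q hq hqN (dcZ N q hq hqN y) = 0) : y = 0 := by
  set S : Set ℕ := {ℓ | ℓ.Prime ∧ ℓ ∣ N} with hSdef
  have hS : ∀ r : ℕ, r.Prime → r ∣ N → r ∈ S := fun r hr hrN => ⟨hr, hrN⟩
  have hqS : q ∉ S := fun hh => hqN hh.2
  set x : ↥(heckeAlgebra N 2 S) := heckeAlgebra.T hq hqN hqS with hxdef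
  have hx : heckeLam S hS x = dcZ N q hq hqN := heckeLam_T' S hS q hq hqN hqS
  set pr := (periodEquiv N).symm (castParC N y) with hpr
  have hfg : periodHomPair N (pr.1, pr.2) =
      ((castParC N y : ↥(ParC N)) : Additive (Gamma0 N) →+ ℂ) := by
    rw [← coe_periodEquiv, Prod.mk.eta, hpr, LinearEquiv.apply_symm_apply]
  have h1 := heckeLam_period S hS (x * x) y pr.1 pr.2 hfg
  have h2 : heckeLam S hS (x * x) y = (((q : ℤ) + 1) ^ 2) • y := by
    rw [map_mul, Module.End.mul_apply, hx]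
    exact (sub_eq_zero.mp h).symm
  have hxx : ((x * x : ↥(heckeAlgebra N 2 S)) : Module.End ℂ (CuspForm (Gamma0 N) 2)) =
      heckeTLin 2 hq hqN * heckeTLin 2 hq hqN := rfl
  rw [h2, hxx, Module.End.mul_apply, Module.End.mul_apply] at h1
  have h3 : ((castParC N ((((q : ℤ) + 1) ^ 2) • y) : ↥(ParC N)) : Additive (Gamma0 N) →+ ℂ) =
      periodHomPair N ((((q : ℤ) + 1) ^ 2) • (pr.1, pr.2)) := by
    rw [map_zsmul (periodHomPair N), hfg, map_zsmul (castParC N)]
    rfl
  rw [h3] at h1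
  have h4 := (eichlerShimura N).1 h1
  have hc : ((((q : ℤ) + 1) ^ 2 : ℤ) : ℂ) = ((q : ℂ) + 1) ^ 2 := by push_cast; rfl
  have hf0 : pr.1 = 0 := by
    apply Fermat.Agent.ES.LR.HeckeBound17.eq_zero_of_heckeT_heckeT_eq hq hqN
    have := congrArg Prod.fst h4
    simp only [Prod.smul_fst] at this
    rw [← this, ← hc, Int.cast_smul_eq_zsmul]
  have hg0 : pr.2 = 0 := by
    apply Fermat.Agent.ES.LR.HeckeBound17.eq_zero_of_heckeT_heckeT_eq hq hqN
    have := congrArg Prod.snd h4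
    simp only [Prod.smul_snd] at this
    rw [← this, ← hc, Int.cast_smul_eq_zsmul]
  have h5 : castParC N y = 0 := by
    apply Subtype.ext
    rw [← hfg, hf0, hg0]
    exact map_zero (periodHomPair N)
  exact castParC_injective N (by rw [h5, map_zero])

/-! ### reduction of an eigenvector along a valuation subring -/

section reduction

variable {M : Type*} [AddCommGroup M] {ι : Type*} [Fintype ι] [DecidableEq ι]
  (b : Module.Basis ι ℤ M)

/-- the vector of `R ⊗ M` with coordinates `d` in the basis `1 ⊗ b i`. -/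
def vec (R : Type*) [CommRing R] (d : ι → R) : R ⊗[ℤ] M := ∑ i, d i • ((1 : R) ⊗ₜ[ℤ] b i)

/-- the integer matrix of an endomorphism. -/
def mat (T : Module.End ℤ M) (k i : ι) : ℤ := b.repr (T (b i)) k

theorem vec_eq (R : Type*) [CommRing R] (d : ι → R) :
    vec b R d = (Algebra.TensorProduct.basis R b).equivFun.symm d := by
  rw [Module.Basis.equivFun_symm_apply]
  simp only [Algebra.TensorProduct.basis_apply]
  rfl

theorem vec_injective (R : Type*) [CommRing R] : Function.Injective (vec b R) := by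
  intro d d' h
  rw [vec_eq, vec_eq] at h
  exact (Algebra.TensorProduct.basis R b).equivFun.symm.injective h

theorem exists_vec (R : Type*) [CommRing R] (v : R ⊗[ℤ] M) : ∃ d, v = vec b R d :=
  ⟨(Algebra.TensorProduct.basis R b).equivFun v, by rw [vec_eq, LinearEquiv.symm_apply_apply]⟩

theorem vec_smul (R : Type*) [CommRing R] (r : R) (d : ι → R) :
    r • vec b R d = vec b R (fun k => r * d k) := by
  unfold vec
  rw [Finset.smul_sum]
  simp_rw [smul_smul]

theorem vec_zero (R : Type*) [CommRing R] : vec b R (fun _ => (0 : R)) = 0 := by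
  unfold vec
  simp

theorem baseChange_vec (R : Type*) [CommRing R] (T : Module.End ℤ M) (d : ι → R) :
    T.baseChange R (vec b R d) = vec b R (fun k => ∑ i, (mat b T k i : R) * d i) := by
  have key : ∀ i, (1 : R) ⊗ₜ[ℤ] T (b i) = ∑ k, (mat b T k i : R) • ((1 : R) ⊗ₜ[ℤ] b k) := by
    intro i
    conv_lhs => rw [← b.sum_repr (T (b i))]
    rw [TensorProduct.tmul_sum]
    refine Finset.sum_congr rfl fun k _ => ?_
    rw [TensorProduct.tmul_smul, Int.cast_smul_eq_zsmul]
    rfl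
  unfold vec
  rw [map_sum]
  simp_rw [map_smul, LinearMap.baseChange_tmul, key, Finset.smul_sum, smul_smul]
  rw [Finset.sum_comm]
  refine Finset.sum_congr rfl fun k _ => ?_
  rw [Finset.sum_smul]
  refine Finset.sum_congr rfl fun i _ => ?_
  rw [mul_comm]

end reduction

/-- **Reduction of eigenvectors.**  `M` finite free over `ℤ`, `O` a valuation subring of the field
`K`, `ρ : O →+* κ` a ring homomorphism to a field (e.g. the residue map), `v ≠ 0` in `K ⊗ M`.  There
is a nonzero `w ∈ κ ⊗ M` such that every eigen-relation `T v = r v` (`T ∈ End_ℤ M`, `r ∈ O`) reduces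
to `T w = ρ(r) w`. -/
theorem exists_reduction {K : Type*} [Field K] (O : ValuationSubring K) {κ : Type*} [Field κ]
    (ρ : O →+* κ) {M : Type*}
    [AddCommGroup M] [Module.Free ℤ M] [Module.Finite ℤ M] (v : K ⊗[ℤ] M) (hv : v ≠ 0) :
    ∃ w : κ ⊗[ℤ] M, w ≠ 0 ∧
      ∀ (T : Module.End ℤ M) (r : O), T.baseChange K v = (r : K) • v →
        T.baseChange κ w = ρ r • w := by
  classical
  let b := Module.Free.chooseBasis ℤ M
  obtain ⟨c, rfl⟩ := exists_vec b K v
  -- a nonzero coordinate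
  have hex : ∃ j, c j ≠ 0 := by
    by_contra hne
    apply hv
    have : c = fun _ => (0 : K) := funext fun i => not_not.mp fun hi => hne ⟨i, hi⟩
    rw [this, vec_zero]
  obtain ⟨j, hj⟩ := hex
  -- the coordinate of largest valuation
  obtain ⟨j0, -, hj0⟩ := Finset.exists_max_image Finset.univ (fun i => O.valuation (c i))
    ⟨j, Finset.mem_univ j⟩
  have hc0 : c j0 ≠ 0 := by
    intro h0
    have h1 := hj0 j (Finset.mem_univ j)
    simp only [h0, map_zero] at h1
    exact hj ((Valuation.zero_iff _).mp (le_antisymm h1 zero_le))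
  have hpos : 0 < O.valuation (c j0) := zero_lt_iff.mpr (fun h => hc0 ((Valuation.zero_iff _).mp h))
  have hmem : ∀ i, c i / c j0 ∈ O := by
    intro i
    rw [← ValuationSubring.valuation_le_one_iff, map_div₀]
    exact (div_le_one₀ hpos).mpr (hj0 i (Finset.mem_univ i))
  let o : _ → O := fun i => ⟨c i / c j0, hmem i⟩
  have ho0 : o j0 = 1 := Subtype.ext (div_self hc0)
  refine ⟨vec b κ (fun i => ρ (o i)), ?_, ?_⟩
  · intro h0
    rw [← vec_zero b κ] at h0
    have := congrFun (vec_injective b _ h0) j0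
    simp only [ho0, map_one] at this
    exact one_ne_zero this
  · intro T r hT
    rw [baseChange_vec, vec_smul] at hT
    have hk := fun k => congrFun (vec_injective b K hT) k
    rw [baseChange_vec, vec_smul]
    congr 1
    funext k
    have h1 : ∑ i, ((mat b T k i : ℤ) : K) * ((o i : O) : K) = (r : K) * ((o k : O) : K) := by
      have := hk k
      show ∑ i, ((mat b T k i : ℤ) : K) * (c i / c j0) = (r : K) * (c k / c j0)
      rw [← mul_div_assoc, ← this, Finset.sum_div]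
      refine Finset.sum_congr rfl fun i _ => ?_
      rw [mul_div_assoc]
    have h2 : ∑ i, ((mat b T k i : ℤ) : O) * o i = r * o k := by
      apply Subtype.ext
      push_cast
      exact h1
    have h3 := congrArg ρ h2
    rw [map_sum, map_mul] at h3
    simp_rw [map_mul, map_intCast] at h3
    exact h3

/-- **(OCC)** -/
theorem exists_occurrence {N p q : ℕ} [NeZero N] (hp : p.Prime) (hq : q.Prime) (hqN : ¬ q ∣ N)
    (W : WeierstrassCurve ℤ)
    (f : CuspForm (Gamma0 N) 2) (𝔪 : Ideal (integralClosure ℤ ℂ))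
    (hf : f.IsNormalizedEigenform) (hmax : 𝔪.IsMaximal) (hpm : (p : integralClosure ℤ ℂ) ∈ 𝔪)
    (hcong : ∀ ℓ : ℕ, ℓ.Prime → W.IsGoodPrimeFor ℓ → ¬ ℓ ∣ N → ℓ ≠ p →
      ∃ a : integralClosure ℤ ℂ, (a : ℂ) = ModularFormClass.qCoeff f ℓ ∧
        a - ((W.apOfModel ℓ : ℤ) : integralClosure ℤ ℂ) ∈ 𝔪)
    (hLR : ∃ a : integralClosure ℤ ℂ, (a : ℂ) = ModularFormClass.qCoeff f q ∧
      a ^ 2 - ((q : integralClosure ℤ ℂ) + 1) ^ 2 ∈ 𝔪) :
    ∃ (k : Type) (_ : Field k) (_ : CharP k p) (v : k ⊗[ℤ] ↥(Lam N)), v ≠ 0 ∧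
      (∀ (ℓ : ℕ) (hℓ : ℓ.Prime) (hℓN : ¬ ℓ ∣ N), W.IsGoodPrimeFor ℓ → ℓ ≠ p →
          (dcZ N ℓ hℓ hℓN).baseChange k v = ((W.apOfModel ℓ : ℤ) : k) • v) ∧
      (dcZ N q hq hqN).baseChange k ((dcZ N q hq hqN).baseChange k v) = (((q : k) + 1) ^ 2) • v := by
  classical
  set S : Set ℕ := {ℓ | ℓ.Prime ∧ ℓ ∣ N} with hSdef
  have hS : ∀ r : ℕ, r.Prime → r ∣ N → r ∈ S := fun r hr hrN => ⟨hr, hrN⟩
  -- an eigenvector over `ℂ`
  obtain ⟨v, hv0, hv⟩ := exists_eigenvector S hS (K := ℂ) (Fermat.Agent.ES.J7.EigenChar1.chiC hf S)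
  -- a valuation subring of `ℂ` dominating `(ℤ̄, 𝔪)`
  let A : Subring ℂ := (integralClosure ℤ ℂ).toSubring
  let I : Ideal ↥A := 𝔪
  have hI : I ≠ ⊤ := hmax.ne_top
  obtain ⟨O, hAO, hIO⟩ := Ideal.image_subset_nonunits_valuationSubring I hI
  let j : ↥(integralClosure ℤ ℂ) →+* ↥O :=
    { toFun := fun a => ⟨(a : ℂ), hAO a.2⟩
      map_one' := rfl
      map_mul' := fun _ _ => rfl
      map_zero' := rfl
      map_add' := fun _ _ => rfl }
  let φ : ↥(integralClosure ℤ ℂ) →+* IsLocalRing.ResidueField ↥O := (IsLocalRing.residue ↥O).comp j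
  have hker : ∀ a : ↥(integralClosure ℤ ℂ), a ∈ 𝔪 → φ a = 0 := by
    intro a ha
    show IsLocalRing.residue ↥O (j a) = 0
    rw [IsLocalRing.residue_eq_zero_iff]
    have h1 : (a : ℂ) ∈ O.nonunits := hIO ⟨a, ha, rfl⟩
    obtain ⟨h2, h3⟩ := (ValuationSubring.mem_nonunits_iff_exists_mem_maximalIdeal).mp h1
    exact h3
  have hφ : ∀ (a : ↥(integralClosure ℤ ℂ)) (n : ℤ), a - (n : ↥(integralClosure ℤ ℂ)) ∈ 𝔪 →
      φ a = (n : IsLocalRing.ResidueField ↥O) := by
    intro a n h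
    have := hker _ h
    rw [map_sub, map_intCast, sub_eq_zero] at this
    exact this
  obtain ⟨w, hw0, hw⟩ := exists_reduction O (IsLocalRing.residue ↥O) v hv0
  refine ⟨IsLocalRing.ResidueField ↥O, inferInstance, ?_, w, hw0, ?_, ?_⟩
  · rw [CharP.charP_iff_prime_eq_zero hp]
    have := hker _ hpm
    rwa [map_natCast] at this
  · intro ℓ hℓ hℓN hgood hℓp
    obtain ⟨a, ha, ham⟩ := hcong ℓ hℓ hgood hℓN hℓp
    have hℓS : ℓ ∉ S := fun h => hℓN h.2
    have h1 := hv (heckeAlgebra.T hℓ hℓN hℓS)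
    rw [heckeLam_T' S hS ℓ hℓ hℓN hℓS, Fermat.Agent.ES.J7.EigenChar1.chiC_T hf hℓ hℓN hℓS, ← ha] at h1
    have h2 := hw (dcZ N ℓ hℓ hℓN) (j a) h1
    rw [h2]
    congr 1
    exact hφ a _ ham
  · obtain ⟨a, ha, ham⟩ := hLR
    have hqS : q ∉ S := fun h => hqN h.2
    have h1 := hv (heckeAlgebra.T hq hqN hqS)
    rw [heckeLam_T' S hS q hq hqN hqS, Fermat.Agent.ES.J7.EigenChar1.chiC_T hf hq hqN hqS, ← ha] at h1
    have h2 := hw (dcZ N q hq hqN) (j a) h1
    rw [h2, map_smul, h2, smul_smul]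
    congr 1
    have h3 := hker _ ham
    rw [map_sub, map_pow, map_pow, map_add, map_natCast, map_one, sub_eq_zero] at h3
    rw [← sq]
    exact h3

end Fermat.Agent.ES.LR.Occur16
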