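/-
Program L (S41), chapter OP (helper28): the operator `U_q` on homomorphisms `Γ₀(M) → A`, `q ∣ M`,
in the explicit form of `DoubleCoset27`: representatives `β_j = !![1, j; 0, q]`, `j : ZMod q`
(`= beta q (some j)`), and for `γ ∈ Γ₀(M)`: `β_j γ = cocU γ j * β_{permU γ j}` with
`cocU γ j ∈ Γ₀(M)`; `(UqAdd φ) γ = ∑ j, φ (cocU γ j)`.

The point `∞ = none` of `P¹(F_q) = Option (ZMod q)` is fixed by `Γ₀(M)` and
`coc γ none = μ γ μ⁻¹`, `μ = diag(q, 1)` (`twistSL`).

Mathlib + prelude + `DoubleCoset27`/`DoubleCosetPar27` only.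
-/
import Mathlib
import Fermat.Agent.ES.HEQ.DoubleCosetPar27

set_option autoImplicit false

open Matrix CongruenceSubgroup ModularCurve.Period
open scoped MatrixGroups

namespace Fermat.Agent.ES.LR.UqOp28

open Fermat.Agent.ES.HEQ.DoubleCoset27 Fermat.Agent.ES.HEQ.DoubleCosetPar27

variable {q : ℕ} [hq : Fact q.Prime] {M : ℕ}

/-! ### the point `∞` -/

omit hq in
/-- the lower left entry of an element of `Γ₀(M)` is divisible by `q ∣ M`. -/
theorem dvd_lower_left (hqM : q ∣ M) {γ : SL(2, ℤ)} (hγ : γ ∈ Gamma0 M) :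
    (q : ℤ) ∣ (γ : Matrix (Fin 2) (Fin 2) ℤ) 1 0 := by
  rw [Gamma0_mem] at hγ
  have h1 : (M : ℤ) ∣ (γ : Matrix (Fin 2) (Fin 2) ℤ) 1 0 :=
    (ZMod.intCast_zmod_eq_zero_iff_dvd _ M).mp hγ
  exact dvd_trans (Int.natCast_dvd_natCast.mpr hqM) h1

/-- `μ γ μ⁻¹` for `μ = diag(q, 1)` and `γ` with lower left entry `q * c'`. -/
def twistSL (q : ℕ) (γ : SL(2, ℤ)) (c' : ℤ)
    (hc : (γ : Matrix (Fin 2) (Fin 2) ℤ) 1 0 = (q : ℤ) * c') : SL(2, ℤ) :=
  ⟨!![(γ : Matrix (Fin 2) (Fin 2) ℤ) 0 0, (q : ℤ) * (γ : Matrix (Fin 2) (Fin 2) ℤ) 0 1;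
      c', (γ : Matrix (Fin 2) (Fin 2) ℤ) 1 1], by
    have hd : (γ : Matrix (Fin 2) (Fin 2) ℤ) 0 0 * (γ : Matrix (Fin 2) (Fin 2) ℤ) 1 1
        - (γ : Matrix (Fin 2) (Fin 2) ℤ) 0 1 * (γ : Matrix (Fin 2) (Fin 2) ℤ) 1 0 = 1 := by
      rw [← Matrix.det_fin_two]; exact γ.2
    rw [Matrix.det_fin_two_of]
    rw [hc] at hd
    linear_combination hd⟩

omit hq in
theorem coe_twistSL (γ : SL(2, ℤ)) (c' : ℤ)
    (hc : (γ : Matrix (Fin 2) (Fin 2) ℤ) 1 0 = (q : ℤ) * c') :
    ((twistSL q γ c' hc : SL(2, ℤ)) : Matrix (Fin 2) (Fin 2) ℤ)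
      = !![(γ : Matrix (Fin 2) (Fin 2) ℤ) 0 0, (q : ℤ) * (γ : Matrix (Fin 2) (Fin 2) ℤ) 0 1;
          c', (γ : Matrix (Fin 2) (Fin 2) ℤ) 1 1] := rfl

omit hq in
theorem beta_none_mul (γ : SL(2, ℤ)) (c' : ℤ)
    (hc : (γ : Matrix (Fin 2) (Fin 2) ℤ) 1 0 = (q : ℤ) * c') :
    beta q none * (γ : Matrix (Fin 2) (Fin 2) ℤ)
      = ((twistSL q γ c' hc : SL(2, ℤ)) : Matrix (Fin 2) (Fin 2) ℤ) * beta q none := by
  rw [coe_twistSL, beta_none]
  ext i j
  fin_cases i <;> fin_cases j <;>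
    simp [Matrix.mul_apply, Fin.sum_univ_two, hc, mul_comm]

/-- `Γ₀(M)` fixes `∞ ∈ P¹(F_q)` when `q ∣ M`, and the cocycle there is the twist. -/
theorem perm_coc_none (γ : SL(2, ℤ)) (c' : ℤ)
    (hc : (γ : Matrix (Fin 2) (Fin 2) ℤ) 1 0 = (q : ℤ) * c') :
    perm γ (none : Option (ZMod q)) = none ∧ coc γ (none : Option (ZMod q)) = twistSL q γ c' hc :=
  eq_of_beta_mul (beta_none_mul γ c' hc)

theorem perm_none (hqM : q ∣ M) {γ : SL(2, ℤ)} (hγ : γ ∈ Gamma0 M) :
    perm γ (none : Option (ZMod q)) = none := by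
  obtain ⟨c', hc⟩ := dvd_lower_left hqM hγ
  exact (perm_coc_none γ c' hc).1

theorem exists_perm_some (hqM : q ∣ M) {γ : SL(2, ℤ)} (hγ : γ ∈ Gamma0 M) (j : ZMod q) :
    ∃ j' : ZMod q, permEquiv γ (some j) = some j' := by
  rcases h : permEquiv γ (some j) with _ | j'
  · exfalso
    have h2 : permEquiv γ (some j) = permEquiv γ none := by
      rw [h, permEquiv_apply, perm_none hqM hγ]
    exact Option.some_ne_none j ((permEquiv γ).injective h2)
  · exact ⟨j', rfl⟩

/-! ### `permU` and `cocU` -/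

/-- the permutation of `ZMod q` induced by `γ ∈ Γ₀(M)`. -/
noncomputable def permU (γ : Gamma0 M) : Equiv.Perm (ZMod q) :=
  Equiv.removeNone (permEquiv (γ : SL(2, ℤ)))

theorem some_permU (hqM : q ∣ M) (γ : Gamma0 M) (j : ZMod q) :
    some (permU γ j) = perm (γ : SL(2, ℤ)) (some j) :=
  Equiv.removeNone_some _ (exists_perm_some hqM γ.2 j)

theorem coc_some_mem (hqM : q ∣ M) {γ : SL(2, ℤ)} (hγ : γ ∈ Gamma0 M) (j : ZMod q) :
    coc γ (some j) ∈ Gamma0 M := by
  obtain ⟨j', hj'⟩ := exists_perm_some hqM hγ j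
  rw [permEquiv_apply] at hj'
  have e10 := congrFun (congrFun (beta_mul γ (some j)) 1) 0
  rw [hj'] at e10
  simp only [Matrix.mul_apply, Fin.sum_univ_two, beta_some, Matrix.of_apply, Matrix.cons_val',
    Matrix.cons_val_zero, Matrix.cons_val_one, Matrix.cons_val_fin_one, zero_mul, zero_add,
    mul_one, mul_zero, add_zero] at e10
  rw [Gamma0_mem] at hγ ⊢
  rw [← e10]
  push_cast
  rw [hγ, mul_zero]

/-- `coc` at the finite points, on `Γ₀(M)`. -/
noncomputable def cocU (hqM : q ∣ M) (γ : Gamma0 M) (j : ZMod q) : Gamma0 M :=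
  ⟨coc (γ : SL(2, ℤ)) (some j), coc_some_mem hqM γ.2 j⟩

@[simp] theorem coe_cocU (hqM : q ∣ M) (γ : Gamma0 M) (j : ZMod q) :
    ((cocU hqM γ j : Gamma0 M) : SL(2, ℤ)) = coc (γ : SL(2, ℤ)) (some j) := rfl

/-- the defining identity `β_j γ = cocU γ j * β_{permU γ j}`. -/
theorem beta_some_mul (hqM : q ∣ M) (γ : Gamma0 M) (j : ZMod q) :
    beta q (some j) * ((γ : SL(2, ℤ)) : Matrix (Fin 2) (Fin 2) ℤ)
      = (((cocU hqM γ j : Gamma0 M) : SL(2, ℤ)) : Matrix (Fin 2) (Fin 2) ℤ)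
        * beta q (some (permU γ j)) := by
  rw [some_permU hqM, coe_cocU]
  exact beta_mul _ _

@[simp] theorem permU_one (j : ZMod q) : permU (1 : Gamma0 M) j = j := by
  apply Option.some_injective
  rw [permU, Equiv.removeNone_some _ ⟨j, by simp⟩]
  simp

theorem permU_mul (hqM : q ∣ M) (γ δ : Gamma0 M) (j : ZMod q) :
    permU (γ * δ) j = permU δ (permU γ j) := by
  apply Option.some_injective
  rw [some_permU hqM, some_permU hqM, some_permU hqM, Subgroup.coe_mul, perm_mul]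

@[simp] theorem cocU_one (hqM : q ∣ M) (j : ZMod q) : cocU hqM (1 : Gamma0 M) j = 1 :=
  Subtype.ext (by simp)

theorem cocU_mul (hqM : q ∣ M) (γ δ : Gamma0 M) (j : ZMod q) :
    cocU hqM (γ * δ) j = cocU hqM γ j * cocU hqM δ (permU γ j) := by
  apply Subtype.ext
  rw [Subgroup.coe_mul, coe_cocU, coe_cocU, coe_cocU, Subgroup.coe_mul, coc_mul, some_permU hqM]

theorem permU_pow (hqM : q ∣ M) (γ : Gamma0 M) (m : ℕ) (j : ZMod q) :
    permU (γ ^ m) j = ((permU γ) ^ m) j := by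
  induction m generalizing j with
  | zero => simp
  | succ m ih => rw [pow_succ', permU_mul hqM, ih, pow_succ, Equiv.Perm.mul_apply]

/-! ### the operator -/

/-- the operator `U_q` on additive homomorphisms `Γ₀(M) → A`. -/
noncomputable def UqAdd (hqM : q ∣ M) {A : Type*} [AddCommGroup A] (φ : Additive (Gamma0 M) →+ A) :
    Additive (Gamma0 M) →+ A where
  toFun γ := ∑ j : ZMod q, φ (Additive.ofMul (cocU hqM (Additive.toMul γ) j))
  map_zero' := by simp
  map_add' γ δ := by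
    have h1 : ∀ j : ZMod q,
        φ (Additive.ofMul (cocU hqM (Additive.toMul (γ + δ)) j))
          = φ (Additive.ofMul (cocU hqM (Additive.toMul γ) j))
            + φ (Additive.ofMul (cocU hqM (Additive.toMul δ) (permU (Additive.toMul γ) j))) := by
      intro j
      rw [toMul_add, cocU_mul, ofMul_mul, map_add]
    simp only [h1, Finset.sum_add_distrib]
    congr 1
    exact Equiv.sum_comp (permU (Additive.toMul γ))
      (fun j => φ (Additive.ofMul (cocU hqM (Additive.toMul δ) j)))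

theorem UqAdd_apply (hqM : q ∣ M) {A : Type*} [AddCommGroup A] (φ : Additive (Gamma0 M) →+ A)
    (γ : Gamma0 M) :
    UqAdd hqM φ (Additive.ofMul γ) = ∑ j : ZMod q, φ (Additive.ofMul (cocU hqM γ j)) := rfl

theorem UqAdd_add (hqM : q ∣ M) {A : Type*} [AddCommGroup A] (φ ψ : Additive (Gamma0 M) →+ A) :
    UqAdd hqM (φ + ψ) = UqAdd hqM φ + UqAdd hqM ψ := by
  ext γ
  simp [UqAdd, Finset.sum_add_distrib]

theorem UqAdd_comp (hqM : q ∣ M) {A B : Type*} [AddCommGroup A] [AddCommGroup B] (f : A →+ B)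
    (φ : Additive (Gamma0 M) →+ A) : UqAdd hqM (f.comp φ) = f.comp (UqAdd hqM φ) := by
  ext γ
  simp [UqAdd]

/-! ### parabolic homomorphisms -/

/-- the cocycle of a power is the sum along the path. -/
theorem map_cocU_pow (hqM : q ∣ M) {A : Type*} [AddCommGroup A] (φ : Additive (Gamma0 M) →+ A)
    (γ : Gamma0 M) (m : ℕ) (j : ZMod q) :
    φ (Additive.ofMul (cocU hqM (γ ^ m) j))
      = ∑ s ∈ Finset.range m, φ (Additive.ofMul (cocU hqM γ (((permU γ) ^ s) j))) := by
  induction m with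
  | zero => simp
  | succ m ih =>
    rw [pow_succ, cocU_mul, ofMul_mul, map_add, ih, Finset.sum_range_succ, permU_pow hqM]

/-- `UqAdd φ γ = 0` as soon as `φ` kills all `cocU (γ^m) j` with `j` fixed by `permU (γ^m)`. -/
theorem UqAdd_apply_eq_zero (hqM : q ∣ M) {A : Type*} [AddCommGroup A]
    (φ : Additive (Gamma0 M) →+ A) (γ : Gamma0 M)
    (h : ∀ (m : ℕ) (j : ZMod q), 0 < m → permU (γ ^ m) j = j →
      φ (Additive.ofMul (cocU hqM (γ ^ m) j)) = 0) :
    UqAdd hqM φ (Additive.ofMul γ) = 0 := by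
  classical
  rw [UqAdd_apply]
  refine sum_eq_zero_of_cycle_sums (permU γ)
    (fun j => φ (Additive.ofMul (cocU hqM γ j))) ?_ Finset.univ (fun j _ => Finset.mem_univ _)
  intro j m hm hfix
  rw [← map_cocU_pow]
  exact h m j hm (by rw [permU_pow hqM]; exact hfix)

/-- `UqAdd` preserves parabolic homomorphisms. -/
theorem isParabolicHom_UqAdd (hqM : q ∣ M) {A : Type*} [AddCommGroup A]
    {φ : Additive (Gamma0 M) →+ A} (hφ : IsParabolicHom (Gamma0 M) φ) :
    IsParabolicHom (Gamma0 M) (UqAdd hqM φ) := by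
  intro γ hγ
  refine UqAdd_apply_eq_zero hqM φ γ ?_
  intro m j _ hfix
  refine hφ _ ?_
  have hfix' : perm ((γ ^ m : Gamma0 M) : SL(2, ℤ)) (some j) = some j := by
    rw [← some_permU hqM, hfix]
  rw [coe_cocU, trace_coc_of_fixed hfix', Subgroup.coe_pow]
  exact trace_pow_sq_eq_four _ hγ m

/-- the operator `U_q` on `parabolicHoms R Γ₀(M) A`. -/
noncomputable def UqPar (hqM : q ∣ M) (R : Type*) [Semiring R] (A : Type*) [AddCommGroup A]
    [Module R A] : parabolicHoms R (Gamma0 M) A →ₗ[R] parabolicHoms R (Gamma0 M) A where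
  toFun φ := ⟨UqAdd hqM φ.1, isParabolicHom_UqAdd hqM φ.2⟩
  map_add' φ ψ := Subtype.ext (UqAdd_add hqM φ.1 ψ.1)
  map_smul' c φ := Subtype.ext <| by
    ext γ
    show UqAdd hqM (c • φ.1) γ = c • UqAdd hqM φ.1 γ
    simp [UqAdd, Finset.smul_sum]

@[simp] theorem coe_UqPar (hqM : q ∣ M) (R : Type*) [Semiring R] (A : Type*) [AddCommGroup A]
    [Module R A] (φ : parabolicHoms R (Gamma0 M) A) :
    ((UqPar hqM R A φ : parabolicHoms R (Gamma0 M) A) : Additive (Gamma0 M) →+ A)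
      = UqAdd hqM φ.1 := rfl

/-! ### the action on the upper half plane -/

/-- `β_j (γ z) = cocU γ j (β_{permU γ j} z)`. -/
theorem glBeta_some_smul_smul (hqM : q ∣ M) (γ : Gamma0 M) (j : ZMod q) (z : UpperHalfPlane) :
    glBeta q (some j) • ((γ : SL(2, ℤ)) • z)
      = ((cocU hqM γ j : Gamma0 M) : SL(2, ℤ)) • (glBeta q (some (permU γ j)) • z) := by
  rw [some_permU hqM, coe_cocU]
  exact glBeta_smul_smul (γ : SL(2, ℤ)) (some j) z

/-! ### compatibility with `charInvolution` -/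

theorem nu_none : nu (none : Option (ZMod q)) = none := by
  have h := jConjMat_beta (p := q) none
  have h0 : jConjMat (beta q none) = beta q none := by
    rw [beta_none]
    ext i j
    fin_cases i <;> fin_cases j <;> simp [jConjMat]
  have h' : ((1 : SL(2, ℤ)) : Matrix (Fin 2) (Fin 2) ℤ) * beta q none
      = (nuU (none : Option (ZMod q)) : Matrix (Fin 2) (Fin 2) ℤ) * beta q (nu none) := by
    rw [Matrix.SpecialLinearGroup.coe_one, Matrix.one_mul, ← h, h0]
  exact (decomp_unique h').1.symm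

theorem exists_nu_some (j : ZMod q) : ∃ j' : ZMod q, nuEquiv (some j) = some j' := by
  rcases h : nuEquiv (some j) with _ | j'
  · exfalso
    have h2 : nuEquiv (some j) = nuEquiv (none : Option (ZMod q)) := by
      rw [h]; exact nu_none.symm
    exact Option.some_ne_none j (nuEquiv.injective h2)
  · exact ⟨j', rfl⟩

/-- the permutation of `ZMod q` induced by conjugation with `diag(1,-1)` (it is `j ↦ -j`). -/
noncomputable def nuZ : Equiv.Perm (ZMod q) := Equiv.removeNone nuEquiv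

theorem some_nuZ (j : ZMod q) : some (nuZ j) = nu (some j) :=
  Equiv.removeNone_some _ (exists_nu_some j)

/-- `UqAdd` commutes with the prelude's `charInvolution`, pointwise form. -/
theorem UqAdd_charInvolution_apply (hqM : q ∣ M) (R : Type*) [Semiring R] {A : Type*}
    [AddCommGroup A] [Module R A] (ψ : Additive (Gamma0 M) →+ A) (γ : Gamma0 M) :
    UqAdd hqM (charInvolution M R A ψ) (Additive.ofMul γ)
      = charInvolution M R A (UqAdd hqM ψ) (Additive.ofMul γ) := by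
  rw [charInvolution_apply, toMul_ofMul, UqAdd_apply, UqAdd_apply]
  rw [← Equiv.sum_comp (nuZ (q := q))
    (fun j => ψ (Additive.ofMul (cocU hqM (jConjGamma0 M γ) j)))]
  let u : ZMod q → Gamma0 M := fun j => ⟨nuU (some j), nuU_mem_Gamma0 M (some j)⟩
  have hterm : ∀ j : ZMod q,
      ψ (Additive.ofMul (cocU hqM (jConjGamma0 M γ) (nuZ j)))
        = ψ (Additive.ofMul (jConjGamma0 M (cocU hqM γ j)))
          + (ψ (Additive.ofMul (u (permU γ j))) - ψ (Additive.ofMul (u j))) := by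
    intro j
    have hc : cocU hqM (jConjGamma0 M γ) (nuZ j)
        = (u j)⁻¹ * jConjGamma0 M (cocU hqM γ j) * u (permU γ j) := by
      apply Subtype.ext
      rw [coe_cocU, jConjGamma0_coe, some_nuZ]
      have h2 := (perm_coc_jConj (γ : SL(2, ℤ)) (some j)).2
      rw [h2, ← some_permU hqM]
      rfl
    rw [hc, ofMul_mul, ofMul_mul, ofMul_inv, map_add, map_add, map_neg]
    abel
  simp only [hterm, charInvolution_apply, toMul_ofMul, Finset.sum_add_distrib,
    Finset.sum_sub_distrib]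
  rw [Equiv.sum_comp (permU γ) (fun j => ψ (Additive.ofMul (u j))), sub_self, add_zero]

/-- `UqAdd` commutes with the prelude's `charInvolution`. -/
theorem UqAdd_charInvolution (hqM : q ∣ M) (R : Type*) [Semiring R] {A : Type*} [AddCommGroup A]
    [Module R A] (ψ : Additive (Gamma0 M) →+ A) :
    UqAdd hqM (charInvolution M R A ψ) = charInvolution M R A (UqAdd hqM ψ) :=
  AddMonoidHom.ext fun γ' => UqAdd_charInvolution_apply hqM R ψ (Additive.toMul γ')

end Fermat.Agent.ES.LR.UqOp28
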