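/-
Program L (S41, level raising), chapter FIN (helper12): **the assembly of S41 from the chapter
contracts**.

* `CoreStatement` : the literal CORE statement of L_PLAN27 (`exists_new_eigensystem`, with the extra
  hypothesis `h21 : t2 ∘ i1 = T_q`), as a `Prop`.
* `dcZ_commute` : the double coset operators on `Λ` commute.
* `result_of_contracts` : S41's conclusion from CORE + the (OP), (I2), (Q), (I1), (OCC) contracts in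
  the shapes announced by their owners; (EC) and chapter FIN (`Final12`) are already plugged in.
-/
import Mathlib
import Fermat.Prelude.Def_FLTPrelim_ModularRep
import Fermat.Prelude.Def_FreyPackage_LevelRaising
import Fermat.Agent.ES.LR.Final12
import Fermat.Agent.ES.EC.ECFinal8
import Fermat.Agent.ES.LR.DegeneracyPar27
import Fermat.Agent.ES.LR.UqOp28
import Fermat.Agent.ES.LR.Occur16

set_option autoImplicit false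
set_option linter.unusedVariables false
open WeierstrassCurve WeierstrassCurve.Affine WeierstrassCurve.Affine.Point
open scoped CongruenceSubgroup
open WeierstrassCurve

noncomputable section

namespace Fermat.Agent.ES.LR.Assemble12

open ModularCurve ModularCurve.Period CongruenceSubgroup CuspForm TensorProduct
open Fermat.Agent.ES.HEQ.FaithInst26 Fermat.Agent.ES.HEQ.FaithFinal26
open Fermat.Agent.ES.LR.Final12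

/-- the literal CORE statement of L_PLAN27 (+ h21). -/
def CoreStatement : Prop :=
  ∀ {p q : ℕ} (hp : p.Prime)
  {Y X : Type} [AddCommGroup Y] [Module.Free ℤ Y] [Module.Finite ℤ Y] [AddCommGroup X]
  [Module.Free ℤ X] [Module.Finite ℤ X]
  {ι : Type} (TY : ι → Module.End ℤ Y) (TX : ι → Module.End ℤ X) (a : ι → ℤ)
  (hTY : ∀ i j, Commute (TY i) (TY j)) (hTX : ∀ i j, Commute (TX i) (TX j))
  (Tq : Module.End ℤ Y) (hTq : ∀ i, Commute Tq (TY i))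
  (i1 i2 : Y →ₗ[ℤ] X) (t1 t2 : X →ₗ[ℤ] Y)
  (hi1 : ∀ i y, i1 (TY i y) = TX i (i1 y)) (hi2 : ∀ i y, i2 (TY i y) = TX i (i2 y))
  (h11 : ∀ y, t1 (i1 y) = ((q:ℤ)+1) • y) (h22 : ∀ y, t2 (i2 y) = ((q:ℤ)+1) • y)
  (h12 : ∀ y, t1 (i2 y) = Tq y) (h21 : ∀ y, t2 (i1 y) = Tq y)
  (EY : LinearMap.BilinForm ℤ Y) (EX : LinearMap.BilinForm ℤ X)
  (hEY : ∀ f : Y →ₗ[ℤ] ℤ, ∃ y, ∀ y', EY y y' = f y') (hEYl : ∀ y, (∀ y', EY y y' = 0) → y = 0)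
  (hEX : ∀ f : X →ₗ[ℤ] ℤ, ∃ x, ∀ x', EX x x' = f x') (hEXl : ∀ x, (∀ x', EX x x' = 0) → x = 0)
  (hsaY : ∀ i y y', EY (TY i y) y' = EY y (TY i y'))
  (hsaX : ∀ i x x', EX (TX i x) x' = EX x (TX i x'))
  (hsaq : ∀ y y', EY (Tq y) y' = EY y (Tq y'))
  (hadj1 : ∀ y x, EX (i1 y) x = EY y (t1 x)) (hadj2 : ∀ y x, EX (i2 y) x = EY y (t2 x))
  (hQ : ∀ y : Y, (((q:ℤ)+1)^2) • y - Tq (Tq y) = 0 → y = 0)
  (i0 : ι) (e0 : ℤ) (hne : ¬ (p:ℤ) ∣ a i0 - e0)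
  (hI1 : ∀ y1 y2 : Y, (∃ x, i1 y1 + i2 y2 = (p:ℤ) • x) →
    (∃ y, TY i0 y1 - e0 • y1 = (p:ℤ) • y) ∧ (∃ y, TY i0 y2 - e0 • y2 = (p:ℤ) • y))
  (hocc : ∃ (k : Type) (_ : Field k) (_ : CharP k p) (v : TensorProduct ℤ k Y), v ≠ 0 ∧
      (∀ i, (TY i).baseChange k v = ((a i : ℤ) : k) • v) ∧
      (Tq.baseChange k) ((Tq.baseChange k) v) = (((q:k)+1)^2) • v),
  ∃ (lam : ι → integralClosure ℤ ℂ) (𝔪' : Ideal (integralClosure ℤ ℂ))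
    (w : TensorProduct ℤ ℂ X), 𝔪'.IsMaximal ∧ (p : integralClosure ℤ ℂ) ∈ 𝔪' ∧ w ≠ 0 ∧
    (t1.baseChange ℂ) w = 0 ∧ (t2.baseChange ℂ) w = 0 ∧
    (∀ i, (TX i).baseChange ℂ w = ((lam i : ℂ)) • w) ∧
    ∀ i, lam i - ((a i : ℤ) : integralClosure ℤ ℂ) ∈ 𝔪'

/-- commutation of the double coset operators on `Λ`. -/
theorem dcZ_commute {N : ℕ} [NeZero N] (l l' : ℕ) (hl : l.Prime) (hlN : ¬ l ∣ N)
    (hl' : l'.Prime) (hl'N : ¬ l' ∣ N) :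
    Commute (dcZ N l hl hlN) (dcZ N l' hl' hl'N) := by
  have hS : ∀ q : ℕ, q.Prime → q ∣ N → q ∈ {r : ℕ | r.Prime ∧ r ∣ N} := fun q hq hqN => ⟨hq, hqN⟩
  have hlS : l ∉ {r : ℕ | r.Prime ∧ r ∣ N} := fun h => hlN h.2
  have hl'S : l' ∉ {r : ℕ | r.Prime ∧ r ∣ N} := fun h => hl'N h.2
  rw [← heckeLam_T' _ hS l hl hlN hlS, ← heckeLam_T' _ hS l' hl' hl'N hl'S]
  show _ * _ = _ * _
  rw [← map_mul, ← map_mul, mul_comm]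


/-- **the assembly of S41 from the chapter contracts** (skeleton). -/
theorem result_of_contracts (hCore : CoreStatement)
    (E : WeierstrassCurve ℚ) [E.IsElliptic] {W : WeierstrassCurve ℤ} (hW : W.IsIntegralModelOf E)
    {p N q' : ℕ} (hp : p.Prime) (hp2 : p ≠ 2) (hN : 0 < N) (hq' : q'.Prime) (hq'N : ¬ q' ∣ N)
    (hq'p : q' ≠ p)
    (hirr : GaloisRepIsIrreducible (K := AlgebraicClosure ℚ) ℚ E p)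
    (f : CuspForm (CongruenceSubgroup.Gamma0 N) 2) (𝔪 : Ideal (integralClosure ℤ ℂ))
    (hf : f.IsNormalizedEigenform) (hmax : 𝔪.IsMaximal) (hpm : (p : integralClosure ℤ ℂ) ∈ 𝔪)
    (hcong : ∀ ℓ : ℕ, ℓ.Prime → W.IsGoodPrimeFor ℓ → ¬ ℓ ∣ N → ℓ ≠ p →
      ∃ a : integralClosure ℤ ℂ, (a : ℂ) = ModularFormClass.qCoeff f ℓ ∧
        a - ((W.apOfModel ℓ : ℤ) : integralClosure ℤ ℂ) ∈ 𝔪)
    (hLR : ∃ a : integralClosure ℤ ℂ, (a : ℂ) = ModularFormClass.qCoeff f q' ∧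
      a ^ 2 - ((q' : integralClosure ℤ ℂ) + 1) ^ 2 ∈ 𝔪)
    [NeZero N] [NeZero (N * q')]
    -- (OP)
    (i1 i2 : ↥(Lam N) →ₗ[ℤ] ↥(Lam (N * q'))) (t1 t2 : ↥(Lam (N * q')) →ₗ[ℤ] ↥(Lam N))
    (hi1 : ∀ (ℓ : ℕ) (hℓ : ℓ.Prime) (hℓN : ¬ ℓ ∣ N) (hℓM : ¬ ℓ ∣ N * q') (y : ↥(Lam N)),
      i1 (dcZ N ℓ hℓ hℓN y) = dcZ (N * q') ℓ hℓ hℓM (i1 y))
    (hi2 : ∀ (ℓ : ℕ) (hℓ : ℓ.Prime) (hℓN : ¬ ℓ ∣ N) (hℓM : ¬ ℓ ∣ N * q') (y : ↥(Lam N)),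
      i2 (dcZ N ℓ hℓ hℓN y) = dcZ (N * q') ℓ hℓ hℓM (i2 y))
    (h11 : ∀ y, t1 (i1 y) = ((q' : ℤ) + 1) • y) (h22 : ∀ y, t2 (i2 y) = ((q' : ℤ) + 1) • y)
    (h12 : ∀ y, t1 (i2 y) = dcZ N q' hq' hq'N y) (h21 : ∀ y, t2 (i1 y) = dcZ N q' hq' hq'N y)
    (t1C t2C : (Additive (Gamma0 (N * q')) →+ ℂ) →ₗ[ℂ] (Additive (Gamma0 N) →+ ℂ))
    (ht1C : ∀ x, t1C (castHom (N * q') x) = castHom N (t1 x))
    (ht2C : ∀ x, t2C (castHom (N * q') x) = castHom N (t2 x))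
    (UC : Module.End ℂ (Additive (Gamma0 (N * q')) →+ ℂ))
    (hUper : ∀ g : CuspForm (Gamma0 (N * q')) 2,
      periodMap (N * q') (heckeULin 2 (Dvd.intro_left N rfl) g) = UC (periodMap (N * q') g))
    (hUinv : ∀ φ, UC (charInvolution (N * q') ℂ ℂ φ) = charInvolution (N * q') ℂ ℂ (UC φ))
    (hUsq : ∀ φ, t1C φ = 0 → t2C φ = 0 → UC (UC φ) = φ)
    -- (I2)
    (EY : LinearMap.BilinForm ℤ ↥(Lam N)) (EX : LinearMap.BilinForm ℤ ↥(Lam (N * q')))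
    (hEY : ∀ f : ↥(Lam N) →ₗ[ℤ] ℤ, ∃ y, ∀ y', EY y y' = f y')
    (hEYl : ∀ y, (∀ y', EY y y' = 0) → y = 0)
    (hEX : ∀ f : ↥(Lam (N * q')) →ₗ[ℤ] ℤ, ∃ x, ∀ x', EX x x' = f x')
    (hEXl : ∀ x, (∀ x', EX x x' = 0) → x = 0)
    (hsaY : ∀ (ℓ : ℕ) (hℓ : ℓ.Prime) (hℓN : ¬ ℓ ∣ N) (y y' : ↥(Lam N)),
      EY (dcZ N ℓ hℓ hℓN y) y' = EY y (dcZ N ℓ hℓ hℓN y'))
    (hsaX : ∀ (ℓ : ℕ) (hℓ : ℓ.Prime) (hℓM : ¬ ℓ ∣ N * q') (x x' : ↥(Lam (N * q'))),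
      EX (dcZ (N * q') ℓ hℓ hℓM x) x' = EX x (dcZ (N * q') ℓ hℓ hℓM x'))
    (hadj1 : ∀ y x, EX (i1 y) x = EY y (t1 x)) (hadj2 : ∀ y x, EX (i2 y) x = EY y (t2 x))
    -- (Q), (I1), (OCC)
    (hQ : ∀ y : ↥(Lam N),
      (((q' : ℤ) + 1) ^ 2) • y - dcZ N q' hq' hq'N (dcZ N q' hq' hq'N y) = 0 → y = 0)
    (hI1 : ∀ (y1 y2 : ↥(Lam N)), (∃ x : ↥(Lam (N * q')), i1 y1 + i2 y2 = (p : ℤ) • x) →
      ∀ (ℓ : ℕ) (hℓ : ℓ.Prime) (hℓN : ¬ ℓ ∣ N),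
        (∃ y, dcZ N ℓ hℓ hℓN y1 - ((ℓ : ℤ) + 1) • y1 = (p : ℤ) • y) ∧
        (∃ y, dcZ N ℓ hℓ hℓN y2 - ((ℓ : ℤ) + 1) • y2 = (p : ℤ) • y))
    (hocc : ∃ (k : Type) (_ : Field k) (_ : CharP k p) (v : k ⊗[ℤ] ↥(Lam N)), v ≠ 0 ∧
      (∀ (ℓ : ℕ) (hℓ : ℓ.Prime) (hℓN : ¬ ℓ ∣ N), W.IsGoodPrimeFor ℓ → ℓ ≠ p →
          (dcZ N ℓ hℓ hℓN).baseChange k v = ((W.apOfModel ℓ : ℤ) : k) • v) ∧
      (dcZ N q' hq' hq'N).baseChange k ((dcZ N q' hq' hq'N).baseChange k v) =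
        (((q' : k) + 1) ^ 2) • v) :
    ∃ (g : CuspForm (CongruenceSubgroup.Gamma0 (N * q')) 2) (𝔪' : Ideal (integralClosure ℤ ℂ)),
      g.IsNormalizedEigenform ∧ 𝔪'.IsMaximal ∧ (p : integralClosure ℤ ℂ) ∈ 𝔪' ∧
      (∀ ℓ : ℕ, ℓ.Prime → W.IsGoodPrimeFor ℓ → ¬ ℓ ∣ N * q' → ℓ ≠ p →
        ∃ a : integralClosure ℤ ℂ, (a : ℂ) = ModularFormClass.qCoeff g ℓ ∧
          a - ((W.apOfModel ℓ : ℤ) : integralClosure ℤ ℂ) ∈ 𝔪') ∧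
      g.IsNewAt q' := by
  classical
  -- the index type
  let ι : Type := {ℓ : ℕ // ℓ.Prime ∧ W.IsGoodPrimeFor ℓ ∧ ¬ ℓ ∣ N * q' ∧ ℓ ≠ p}
  have hιN : ∀ i : ι, ¬ (i : ℕ) ∣ N := fun i h => i.2.2.2.1 (Dvd.dvd.mul_right h q')
  -- (EC)
  obtain ⟨ℓ0, hℓ0, hℓ0T, hgood0, hℓ0p, hnd⟩ :=
    Fermat.Agent.ES.EC.ECFinal8.exists_good_prime_not_dvd_card E hW hp hp2 hirr
      (N * q').primeFactors
  have hℓ0M : ¬ ℓ0 ∣ N * q' := by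
    intro h
    exact hℓ0T (Nat.mem_primeFactors.mpr ⟨hℓ0, h, NeZero.ne _⟩)
  let i0 : ι := ⟨ℓ0, hℓ0, hgood0, hℓ0M, hℓ0p⟩
  -- CORE
  obtain ⟨lam, 𝔪', w, hmax', hpm', hw, hwt1, hwt2, hweig, hwcong⟩ :=
    hCore (p := p) (q := q') hp (Y := ↥(Lam N)) (X := ↥(Lam (N * q'))) (ι := ι)
      (fun i => dcZ N i.1 i.2.1 (hιN i)) (fun i => dcZ (N * q') i.1 i.2.1 i.2.2.2.1)
      (fun i => W.apOfModel i.1)
      (fun i j => dcZ_commute _ _ _ _ _ _) (fun i j => dcZ_commute _ _ _ _ _ _)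
      (dcZ N q' hq' hq'N) (fun i => dcZ_commute _ _ _ _ _ _)
      i1 i2 t1 t2
      (fun i y => hi1 i.1 i.2.1 (hιN i) i.2.2.2.1 y) (fun i y => hi2 i.1 i.2.1 (hιN i) i.2.2.2.1 y)
      h11 h22 h12 h21 EY EX hEY hEYl hEX hEXl
      (fun i y y' => hsaY i.1 i.2.1 (hιN i) y y') (fun i x x' => hsaX i.1 i.2.1 i.2.2.2.1 x x')
      (fun y y' => hsaY q' hq' hq'N y y') hadj1 hadj2 hQ i0 ((ℓ0 : ℤ) + 1)
      (by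
        intro h
        apply hnd
        have := (dvd_neg (a := (p : ℤ))).mpr h
        simpa using this)
      (fun y1 y2 h => hI1 y1 y2 h ℓ0 hℓ0 (hιN i0))
      (by
        obtain ⟨k, hk1, hk2, v, hv, hveig, hvq⟩ := hocc
        exact ⟨k, hk1, hk2, v, hv, fun i => hveig i.1 i.2.1 (hιN i) i.2.2.1 i.2.2.2.2, hvq⟩)
  -- FIN
  have hφ0 : bcPar (N * q') w ≠ 0 := bcPar_ne_zero (N * q') hw
  have hφt1 : t1C (bcPar (N * q') w) = 0 := by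
    rw [← bcPar_baseChange t1 t1C ht1C, hwt1, _root_.map_zero]
  have hφt2 : t2C (bcPar (N * q') w) = 0 := by
    rw [← bcPar_baseChange t2 t2C ht2C, hwt2, _root_.map_zero]
  let P : ℕ → Prop := fun ℓ => W.IsGoodPrimeFor ℓ ∧ ℓ ≠ p
  let lamC : ℕ → ℂ := fun ℓ =>
    if h : ℓ.Prime ∧ W.IsGoodPrimeFor ℓ ∧ ¬ ℓ ∣ N * q' ∧ ℓ ≠ p then ((lam ⟨ℓ, h⟩ : integralClosure ℤ ℂ) : ℂ)
    else 0
  have hlamC : ∀ i : ι, lamC i.1 = ((lam i : integralClosure ℤ ℂ) : ℂ) := by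
    intro i
    simp only [lamC]
    rw [dif_pos i.2]
  obtain ⟨g, hgn, hgl, hgq⟩ := exists_newform_of_hom_eigenvector (M := N * q') hq'
    (Dvd.intro_left N rfl) UC hUper hUinv P lamC (bcPar (N * q') w) (bcPar_mem (N * q') w) hφ0
    (by
      intro ℓ hℓ hℓM hP
      rw [← bcPar_dcZ, hweig ⟨ℓ, hℓ, hP.1, hℓM, hP.2⟩, map_smul, hlamC ⟨ℓ, hℓ, hP.1, hℓM, hP.2⟩])
    (hUsq _ hφt1 hφt2)
  refine ⟨g, 𝔪', hgn, hmax', hpm', ?_, hgq⟩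
  intro ℓ hℓ hgood hℓM hℓp
  refine ⟨lam ⟨ℓ, hℓ, hgood, hℓM, hℓp⟩, ?_, hwcong ⟨ℓ, hℓ, hgood, hℓM, hℓp⟩⟩
  rw [hgl ℓ hℓ hℓM ⟨hgood, hℓp⟩, hlamC ⟨ℓ, hℓ, hgood, hℓM, hℓp⟩]


/-! ### the literal vocabulary: `Degeneracy27`, `UqOp28`, `Occur16` plugged in -/

section Literal

open Fermat.Agent.ES.LR.Degeneracy27 Fermat.Agent.ES.LR.DegeneracyPar27 Fermat.Agent.ES.LR.UqOp28

/-- an additive operator on complex homs which is natural in the coefficient group is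
`ℂ`-linear. -/
def linOfNat {G H : Type*} [Group G] [Group H]
    (F : (Additive G →+ ℂ) →+ (Additive H →+ ℂ))
    (hnat : ∀ (f : ℂ →+ ℂ) (φ : Additive G →+ ℂ), F (f.comp φ) = f.comp (F φ)) :
    (Additive G →+ ℂ) →ₗ[ℂ] (Additive H →+ ℂ) where
  toFun := F
  map_add' := map_add F
  map_smul' c φ := by
    have h1 : c • φ = (AddMonoidHom.mulLeft c).comp φ := by
      ext x
      simp
    have h2 : c • F φ = (AddMonoidHom.mulLeft c).comp (F φ) := by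
      ext x
      simp
    rw [RingHom.id_apply, h2, ← hnat, ← h1]

@[simp] theorem linOfNat_apply {G H : Type*} [Group G] [Group H]
    (F : (Additive G →+ ℂ) →+ (Additive H →+ ℂ))
    (hnat : ∀ (f : ℂ →+ ℂ) (φ : Additive G →+ ℂ), F (f.comp φ) = f.comp (F φ))
    (φ : Additive G →+ ℂ) : linOfNat F hnat φ = F φ := rfl

set_option linter.unusedSectionVars false

variable {N q : ℕ} [NeZero N] [hqF : Fact q.Prime] [NeZero q]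

/-- `U_q` on complex homs, as a `ℂ`-linear map. -/
def UqC (hqM : q ∣ N * q) : Module.End ℂ (Additive (Gamma0 (N * q)) →+ ℂ) :=
  linOfNat (AddMonoidHom.mk' (UqAdd hqM) (UqAdd_add hqM)) (fun f φ => UqAdd_comp hqM f φ)

theorem UqC_apply (hqM : q ∣ N * q) (φ : Additive (Gamma0 (N * q)) →+ ℂ) :
    UqC hqM φ = UqAdd hqM φ := rfl

/-- **the assembly of S41 from the chapter contracts, literal vocabulary**: remaining inputs are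
CORE, the (OP) relations, the period compatibility of `U_q`, `U_q² = 1` on `ker t₁ ∩ ker t₂`,
(I2) and (I1). -/
theorem result_of_contracts' (hCore : CoreStatement)
    (E : WeierstrassCurve ℚ) [E.IsElliptic] {W : WeierstrassCurve ℤ} (hW : W.IsIntegralModelOf E)
    {p : ℕ} (hp : p.Prime) (hp2 : p ≠ 2) (hq' : q.Prime) (hq'N : ¬ q ∣ N) (hqp : q ≠ p)
    (hirr : GaloisRepIsIrreducible (K := AlgebraicClosure ℚ) ℚ E p)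
    (f : CuspForm (CongruenceSubgroup.Gamma0 N) 2) (𝔪 : Ideal (integralClosure ℤ ℂ))
    (hf : f.IsNormalizedEigenform) (hmax : 𝔪.IsMaximal) (hpm : (p : integralClosure ℤ ℂ) ∈ 𝔪)
    (hcong : ∀ ℓ : ℕ, ℓ.Prime → W.IsGoodPrimeFor ℓ → ¬ ℓ ∣ N → ℓ ≠ p →
      ∃ a : integralClosure ℤ ℂ, (a : ℂ) = ModularFormClass.qCoeff f ℓ ∧
        a - ((W.apOfModel ℓ : ℤ) : integralClosure ℤ ℂ) ∈ 𝔪)
    (hLR : ∃ a : integralClosure ℤ ℂ, (a : ℂ) = ModularFormClass.qCoeff f q ∧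
      a ^ 2 - ((q : integralClosure ℤ ℂ) + 1) ^ 2 ∈ 𝔪)
    -- (OP)
    (hi1 : ∀ (ℓ : ℕ) (hℓ : ℓ.Prime) (hℓN : ¬ ℓ ∣ N) (hℓM : ¬ ℓ ∣ N * q) (y : ↥(Lam N)),
      i1Par N q ℤ ℤ (dcZ N ℓ hℓ hℓN y) = dcZ (N * q) ℓ hℓ hℓM (i1Par N q ℤ ℤ y))
    (hi2 : ∀ (ℓ : ℕ) (hℓ : ℓ.Prime) (hℓN : ¬ ℓ ∣ N) (hℓM : ¬ ℓ ∣ N * q) (y : ↥(Lam N)),
      i2Par N q ℤ ℤ (dcZ N ℓ hℓ hℓN y) = dcZ (N * q) ℓ hℓ hℓM (i2Par N q ℤ ℤ y))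
    (h11 : ∀ y : ↥(Lam N), t1Par N q ℤ ℤ (i1Par N q ℤ ℤ y) = ((q : ℤ) + 1) • y)
    (h22 : ∀ y : ↥(Lam N), t2Par N q ℤ ℤ (i2Par N q ℤ ℤ y) = ((q : ℤ) + 1) • y)
    (h12 : ∀ y : ↥(Lam N), t1Par N q ℤ ℤ (i2Par N q ℤ ℤ y) = dcZ N q hq' hq'N y)
    (h21 : ∀ y : ↥(Lam N), t2Par N q ℤ ℤ (i1Par N q ℤ ℤ y) = dcZ N q hq' hq'N y)
    (hqM : q ∣ N * q)
    (hUper : ∀ g : CuspForm (Gamma0 (N * q)) 2,
      periodMap (N * q) (heckeULin 2 hqM g) = UqAdd hqM (periodMap (N * q) g))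
    (hUsq : ∀ φ : Additive (Gamma0 (N * q)) →+ ℂ, t1 N q φ = 0 → t2 N q φ = 0 →
      UqAdd hqM (UqAdd hqM φ) = φ)
    -- (I2)
    (EY : LinearMap.BilinForm ℤ ↥(Lam N)) (EX : LinearMap.BilinForm ℤ ↥(Lam (N * q)))
    (hEY : ∀ f : ↥(Lam N) →ₗ[ℤ] ℤ, ∃ y, ∀ y', EY y y' = f y')
    (hEYl : ∀ y, (∀ y', EY y y' = 0) → y = 0)
    (hEX : ∀ f : ↥(Lam (N * q)) →ₗ[ℤ] ℤ, ∃ x, ∀ x', EX x x' = f x')
    (hEXl : ∀ x, (∀ x', EX x x' = 0) → x = 0)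
    (hsaY : ∀ (ℓ : ℕ) (hℓ : ℓ.Prime) (hℓN : ¬ ℓ ∣ N) (y y' : ↥(Lam N)),
      EY (dcZ N ℓ hℓ hℓN y) y' = EY y (dcZ N ℓ hℓ hℓN y'))
    (hsaX : ∀ (ℓ : ℕ) (hℓ : ℓ.Prime) (hℓM : ¬ ℓ ∣ N * q) (x x' : ↥(Lam (N * q))),
      EX (dcZ (N * q) ℓ hℓ hℓM x) x' = EX x (dcZ (N * q) ℓ hℓ hℓM x'))
    (hadj1 : ∀ y x, EX (i1Par N q ℤ ℤ y) x = EY y (t1Par N q ℤ ℤ x))
    (hadj2 : ∀ y x, EX (i2Par N q ℤ ℤ y) x = EY y (t2Par N q ℤ ℤ x))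
    -- (I1)
    (hI1 : ∀ (y1 y2 : ↥(Lam N)),
      (∃ x : ↥(Lam (N * q)), i1Par N q ℤ ℤ y1 + i2Par N q ℤ ℤ y2 = (p : ℤ) • x) →
      ∀ (ℓ : ℕ) (hℓ : ℓ.Prime) (hℓN : ¬ ℓ ∣ N),
        (∃ y, dcZ N ℓ hℓ hℓN y1 - ((ℓ : ℤ) + 1) • y1 = (p : ℤ) • y) ∧
        (∃ y, dcZ N ℓ hℓ hℓN y2 - ((ℓ : ℤ) + 1) • y2 = (p : ℤ) • y)) :
    ∃ (g : CuspForm (CongruenceSubgroup.Gamma0 (N * q)) 2) (𝔪' : Ideal (integralClosure ℤ ℂ)),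
      g.IsNormalizedEigenform ∧ 𝔪'.IsMaximal ∧ (p : integralClosure ℤ ℂ) ∈ 𝔪' ∧
      (∀ ℓ : ℕ, ℓ.Prime → W.IsGoodPrimeFor ℓ → ¬ ℓ ∣ N * q → ℓ ≠ p →
        ∃ a : integralClosure ℤ ℂ, (a : ℂ) = ModularFormClass.qCoeff g ℓ ∧
          a - ((W.apOfModel ℓ : ℤ) : integralClosure ℤ ℂ) ∈ 𝔪') ∧
      g.IsNewAt q := by
  exact result_of_contracts hCore E hW hp hp2 (Nat.pos_of_ne_zero (NeZero.ne N)) hq' hq'N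
    hqp hirr f 𝔪 hf hmax hpm hcong hLR
    (i1Par N q ℤ ℤ) (i2Par N q ℤ ℤ) (t1Par N q ℤ ℤ) (t2Par N q ℤ ℤ) hi1 hi2 h11 h22 h12 h21
    (linOfNat (t1 N q) (fun f φ => coresAdd_comp f _ _ φ))
    (linOfNat (t2 N q) (fun f φ => coresAdd_comp f _ _ φ))
    (fun x => coresAdd_comp (Int.castAddHom ℂ) _ _ _)
    (fun x => coresAdd_comp (Int.castAddHom ℂ) _ _ _)
    (UqC hqM) hUper (fun φ => UqAdd_charInvolution hqM ℂ φ)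
    (fun φ h1 h2 => hUsq φ h1 h2)
    EY EX hEY hEYl hEX hEXl hsaY hsaX hadj1 hadj2
    (Fermat.Agent.ES.LR.Occur16.sq_sub_dcZ_sq_injective hq' hq'N) hI1
    (Fermat.Agent.ES.LR.Occur16.exists_occurrence hp hq' hq'N W f 𝔪 hf hmax hpm hcong hLR)

end Literal

end Fermat.Agent.ES.LR.Assemble12
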