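/-
Program L (S41), chapter OP, brick (a), layer 2 (helper5): the degeneracy maps `i₁`, `i₂` of
`Degeneracy27` commute with the double coset operators `T_l`, `l ∤ N q`:

* `i1_tdcAdd`, `i2_tdcAdd` on `Additive (Gamma0 N) →+ A`, any abelian `A`;
* `i1Par_tdcPar`, `i2Par_tdcPar` on `parabolicHoms R (Gamma0 N) A`;
* `i1_dcZ`, `i2_dcZ` on the lattices `Lam N → Lam (N q)` (the shape `hi1`, `hi2` of CORE).
-/
import Mathlib
import Fermat.Agent.ES.LR.DegHecke5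
import Fermat.Agent.ES.LR.DegeneracyPar27
import Fermat.Agent.ES.HEQ.FaithFinal26

set_option autoImplicit false
set_option linter.unusedSectionVars false

open Matrix CongruenceSubgroup ModularCurve.Period
open scoped MatrixGroups

namespace Fermat.Agent.ES.LR.DegHeckeLam5

open Fermat.Agent.ES.HEQ.DoubleCoset27 Fermat.Agent.ES.HEQ.DoubleCosetPar27
open Fermat.Agent.ES.LR.Degeneracy27 Fermat.Agent.ES.LR.DegeneracyPar27
open Fermat.Agent.ES.LR.DegHecke5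
open Fermat.Agent.ES.HEQ.FaithInst26 Fermat.Agent.ES.HEQ.FaithFinal26

/-- `diag(q,1) γ = twistH(γ) diag(q,1)`. -/
theorem mu_mul_eq_twistH_mul (N q : ℕ) [NeZero q] (γ : Gamma0 (N * q)) :
    !![(q : ℤ), 0; 0, 1] * ((γ : SL(2, ℤ)) : Matrix (Fin 2) (Fin 2) ℤ)
      = (((twistH N q γ : Gamma0 N) : SL(2, ℤ)) : Matrix (Fin 2) (Fin 2) ℤ)
        * !![(q : ℤ), 0; 0, 1] := by
  have h00 := twistH_apply_zero_zero N q γ
  have h01 := twistH_apply_zero_one N q γ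
  have h10 := twistH_apply_one_zero N q γ
  have h11 := twistH_apply_one_one N q γ
  ext a b
  fin_cases a <;> fin_cases b <;>
    simp only [Matrix.mul_apply, Fin.sum_univ_two, Fin.zero_eta, Fin.mk_one, Fin.isValue,
      Matrix.of_apply, Matrix.cons_val', Matrix.cons_val_zero, Matrix.cons_val_one,
      Matrix.cons_val_fin_one, h00, h01, h11, zero_mul, mul_zero, add_zero, zero_add, one_mul,
      mul_one]
  · ring
  · rw [← h10]; ring

section Add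

variable {l : ℕ} [Fact l.Prime] (N q : ℕ) [NeZero q] (hlN : ¬ l ∣ N) (hlNq : ¬ l ∣ N * q)
variable {A : Type*} [AddCommGroup A]

/-- `i₁ ∘ T_l = T_l ∘ i₁` on `Hom(Γ₀(N), A)`. -/
theorem i1_tdcAdd (φ : Additive (Gamma0 N) →+ A) :
    i1 N q (tdcAdd hlN φ) = tdcAdd hlNq (i1 N q φ) :=
  (tdcAdd_comp_of_coe_eq hlN hlNq (inclH N q) (fun _ => rfl) φ).symm

/-- `i₂ ∘ T_l = T_l ∘ i₂` on `Hom(Γ₀(N), A)`. -/
theorem i2_tdcAdd (φ : Additive (Gamma0 N) →+ A) :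
    i2 N q (tdcAdd hlN φ) = tdcAdd hlNq (i2 N q φ) :=
  (tdcAdd_comp_of_twist (fun h => hlNq (h.mul_left N)) hlN hlNq (twistH N q)
    (mu_mul_eq_twistH_mul N q) φ).symm

end Add

section Par

variable {l : ℕ} [Fact l.Prime] (N q : ℕ) [NeZero q] [NeZero N] (hlN : ¬ l ∣ N)
  (hlNq : ¬ l ∣ N * q)
variable (R : Type*) [Semiring R] (A : Type*) [AddCommGroup A] [Module R A]

theorem i1Par_tdcPar (φ : parabolicHoms R (Gamma0 N) A) :
    i1Par N q R A (tdcPar hlN R A φ) = tdcPar hlNq R A (i1Par N q R A φ) :=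
  Subtype.ext (i1_tdcAdd N q hlN hlNq φ.1)

theorem i2Par_tdcPar (φ : parabolicHoms R (Gamma0 N) A) :
    i2Par N q R A (tdcPar hlN R A φ) = tdcPar hlNq R A (i2Par N q R A φ) :=
  Subtype.ext (i2_tdcAdd N q hlN hlNq φ.1)

end Par

section Lattice

variable (N q : ℕ) [NeZero q] [NeZero N]

/-- **`i₁ ∘ T_l = T_l ∘ i₁`** on the lattices (`l ∤ N q`). -/
theorem i1_dcZ (l : ℕ) (hl : l.Prime) (hlN : ¬ l ∣ N) (hlNq : ¬ l ∣ N * q) (y : ↥(Lam N)) :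
    i1Par N q ℤ ℤ (dcZ N l hl hlN y) = dcZ (N * q) l hl hlNq (i1Par N q ℤ ℤ y) :=
  haveI : Fact l.Prime := ⟨hl⟩
  i1Par_tdcPar N q hlN hlNq ℤ ℤ y

/-- **`i₂ ∘ T_l = T_l ∘ i₂`** on the lattices (`l ∤ N q`). -/
theorem i2_dcZ (l : ℕ) (hl : l.Prime) (hlN : ¬ l ∣ N) (hlNq : ¬ l ∣ N * q) (y : ↥(Lam N)) :
    i2Par N q ℤ ℤ (dcZ N l hl hlN y) = dcZ (N * q) l hl hlNq (i2Par N q ℤ ℤ y) :=
  haveI : Fact l.Prime := ⟨hl⟩
  i2Par_tdcPar N q hlN hlNq ℤ ℤ y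

end Lattice

end Fermat.Agent.ES.LR.DegHeckeLam5
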