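/-
Program L (S41), chapter OP, leaf (OP-1) (helper16): restriction followed by corestriction is
multiplication by the index, and the two degeneracy subgroups of `Γ₀(N)` have index `q + 1`.

* `transfer_comp_subtype` : `MonoidHom.transfer (Φ.comp H.subtype) g = Φ g ^ H.index`;
* `coresAdd_resAdd` : `coresAdd ι hι (resAdd ι φ) = ι.range.index • φ` (vocabulary of `Degeneracy27`);
* `index_range_inclH`, `index_range_twistH` : both ranges have index `q + 1` in `Γ₀(N)` (`q` prime,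
  `q ∤ N`): they are the stabilisers of `∞` and of `0` for the transitive action of `Γ₀(N)` on
  `P¹(F_q) = Option (ZMod q)` (`DoubleCoset27.perm`, `RepGamma19.exists_rep`);
* `t1_i1`, `t2_i2` (any coefficient group) and `t1Par_i1Par`, `t2Par_i2Par`, `t1Lam_i1Lam`,
  `t2Lam_i2Lam` (the shape `h11`, `h22` of CORE).
-/
import Mathlib
import Fermat.Agent.ES.LR.DegeneracyPar27
import Fermat.Agent.ES.HEQ.RepGamma19

set_option autoImplicit false
set_option linter.unusedSectionVars false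

open Matrix CongruenceSubgroup ModularCurve.Period
open scoped MatrixGroups

namespace Fermat.Agent.ES.LR.DegIndex16

open Fermat.Agent.ES.LR.Degeneracy27 Fermat.Agent.ES.LR.DegeneracyPar27
open Fermat.Agent.ES.HEQ.DoubleCoset27 Fermat.Agent.ES.HEQ.RepGamma19

/-! ### res then cores = index -/

section General

variable {G : Type*} [Group G]

/-- the transfer of the restriction of a character of `G` is its `index`-th power. -/
theorem transfer_comp_subtype (H : Subgroup G) [H.FiniteIndex] {A : Type*} [CommGroup A]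
    (Φ : G →* A) (g : G) :
    MonoidHom.transfer (Φ.comp H.subtype) g = Φ g ^ H.index := by
  classical
  let _ := H.fintypeQuotientOfFiniteIndex
  let _ : Fintype (Quotient (MulAction.orbitRel (Subgroup.zpowers g) (G ⧸ H))) := Fintype.ofFinite _
  rw [MonoidHom.transfer_eq_prod_quotient_orbitRel_zpowers_quot]
  have key : ∀ q : Quotient (MulAction.orbitRel (Subgroup.zpowers g) (G ⧸ H)),
      (Φ.comp H.subtype) ⟨q.out.out⁻¹ * g ^ Function.minimalPeriod (g • ·) q.out * q.out.out,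
        QuotientGroup.out_conj_pow_minimalPeriod_mem H g q.out⟩ =
      Φ g ^ Function.minimalPeriod (g • ·) q.out := by
    intro q
    rw [MonoidHom.comp_apply]
    show Φ (q.out.out⁻¹ * g ^ Function.minimalPeriod (g • ·) q.out * q.out.out) = _
    rw [map_mul, map_mul, map_inv, map_pow, mul_comm, ← mul_assoc, mul_inv_cancel, one_mul]
  simp_rw [key]
  rw [Finset.prod_pow_eq_pow_sum, ← Subgroup.index_eq_sum_minimalPeriod H g]

variable {G' : Type*} [Group G'] {A : Type*} [AddCommGroup A]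

/-- **res then cores = index.** -/
theorem coresAdd_resAdd (ι : G' →* G) (hι : Function.Injective ι) [ι.range.FiniteIndex]
    (φ : Additive G →+ A) :
    coresAdd ι hι (resAdd ι φ) = ι.range.index • φ := by
  apply AddMonoidHom.ext
  intro g
  obtain ⟨g, rfl⟩ := Additive.ofMul.surjective g
  rw [coresAdd_apply]
  have h : rangeChar ι hι (resAdd ι φ) =
      (AddMonoidHom.toMultiplicativeRight φ).comp ι.range.subtype := by
    apply MonoidHom.ext
    rintro ⟨x, g', rfl⟩
    rw [rangeChar_apply]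
    rfl
  rw [h, transfer_comp_subtype, toAdd_pow]
  rfl

/-- the index of a point stabiliser of a transitive action given by `ρ : G →* Perm X`. -/
theorem index_eq_card_of_transitive {X : Type*} [Finite X] (ρ : G →* Equiv.Perm X) (x0 : X)
    (htrans : ∀ x, ∃ g, ρ g x0 = x) (H : Subgroup G) (hH : ∀ g, g ∈ H ↔ ρ g x0 = x0) :
    H.index = Nat.card X := by
  let _ : MulAction G X := MulAction.compHom X ρ
  have hstab : H = MulAction.stabilizer G x0 := by
    ext g
    rw [hH, MulAction.mem_stabilizer_iff]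
    rfl
  have horb : MulAction.orbit G x0 = Set.univ := by
    ext x
    simp only [Set.mem_univ, iff_true]
    obtain ⟨g, hg⟩ := htrans x
    exact ⟨g, hg⟩
  rw [hstab, MulAction.index_stabilizer, horb, Set.ncard_univ]

end General

/-! ### The two stabilisers -/

section Stab

variable {q : ℕ} [hq : Fact q.Prime]

private theorem q_ne_zero : (q : ℤ) ≠ 0 := by exact_mod_cast hq.out.ne_zero

/-- `γ` fixes `∞` iff `q ∣ c`. -/
theorem perm_none_iff (g : SL(2, ℤ)) :
    perm g (none : Option (ZMod q)) = none ↔ (q : ℤ) ∣ g 1 0 := by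
  constructor
  · intro h
    have e := congrFun (congrFun (beta_mul g (none : Option (ZMod q))) 1) 0
    rw [h] at e
    simp only [beta_none, Matrix.mul_apply, Fin.sum_univ_two, Matrix.of_apply, Matrix.cons_val',
      Matrix.cons_val_zero, Matrix.cons_val_one, Matrix.cons_val_fin_one, zero_mul, one_mul,
      zero_add, mul_zero, add_zero] at e
    exact ⟨coc g none 1 0, by rw [e]; ring⟩
  · exact perm_none_of_dvd g

/-- `γ` fixes `0` iff `q ∣ b`. -/
theorem perm_some_zero_iff (g : SL(2, ℤ)) :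
    perm g (some (0 : ZMod q)) = some 0 ↔ (q : ℤ) ∣ g 0 1 := by
  have hval : ((0 : ZMod q).val : ℤ) = 0 := by simp
  constructor
  · intro h
    have e := congrFun (congrFun (beta_mul g (some (0 : ZMod q))) 0) 1
    rw [h] at e
    simp only [beta_some, hval, Matrix.mul_apply, Fin.sum_univ_two, Matrix.of_apply,
      Matrix.cons_val', Matrix.cons_val_zero, Matrix.cons_val_one, Matrix.cons_val_fin_one,
      zero_mul, one_mul, add_zero, mul_zero, zero_add] at e
    exact ⟨coc g (some 0) 0 1, by rw [e]; ring⟩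
  · rintro ⟨b', hb'⟩
    have hdet : g 0 0 * g 1 1 - g 0 1 * g 1 0 = 1 := by
      have := g.2
      rwa [Matrix.det_fin_two] at this
    let g' : SL(2, ℤ) := ⟨!![g 0 0, b'; (q : ℤ) * g 1 0, g 1 1], by
      rw [Matrix.det_fin_two_of]
      rw [hb'] at hdet
      linear_combination hdet⟩
    have key : beta q (some (0 : ZMod q)) * (g : Matrix (Fin 2) (Fin 2) ℤ)
        = (g' : Matrix (Fin 2) (Fin 2) ℤ) * beta q (some (0 : ZMod q)) := by
      ext a b
      fin_cases a <;> fin_cases b <;>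
        simp [g', beta_some, Matrix.mul_apply, Fin.sum_univ_two, hb'] <;> ring
    exact (eq_of_beta_mul key).1

variable (N : ℕ)

/-- the left action of `Γ₀(N)` on `P¹(F_q)`: `γ ↦ perm γ⁻¹`. -/
noncomputable def rho : Gamma0 N →* Equiv.Perm (Option (ZMod q)) where
  toFun γ := permG γ⁻¹
  map_one' := by
    ext i
    simp
  map_mul' γ δ := by
    apply Equiv.ext
    intro i
    rw [_root_.mul_inv_rev, Equiv.Perm.mul_apply]
    exact permG_mul δ⁻¹ γ⁻¹ i

theorem rho_apply (γ : Gamma0 N) (i : Option (ZMod q)) :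
    rho N γ i = perm ((γ : SL(2, ℤ))⁻¹) i := rfl

theorem rho_fix_iff (γ : Gamma0 N) (i : Option (ZMod q)) :
    rho N γ i = i ↔ perm (γ : SL(2, ℤ)) i = i := by
  rw [rho_apply]
  constructor
  · intro h
    have := congrArg (perm (γ : SL(2, ℤ))) h
    rw [← perm_mul, inv_mul_cancel, perm_one] at this
    exact this.symm
  · intro h
    have := congrArg (perm ((γ : SL(2, ℤ))⁻¹)) h
    rw [← perm_mul, mul_inv_cancel, perm_one] at this
    exact this.symm

variable {N}

theorem rho_transitive_none (hqN : ¬ q ∣ N) (i : Option (ZMod q)) :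
    ∃ γ : Gamma0 N, rho N γ none = i := by
  obtain ⟨γ, hγ, hi⟩ := exists_rep (p := q) hqN i
  refine ⟨(⟨γ, hγ⟩ : Gamma0 N)⁻¹, ?_⟩
  rw [rho_apply]
  simpa using hi

theorem rho_transitive (hqN : ¬ q ∣ N) (i0 i : Option (ZMod q)) :
    ∃ γ : Gamma0 N, rho N γ i0 = i := by
  obtain ⟨g0, h0⟩ := rho_transitive_none hqN i0
  obtain ⟨g, hg⟩ := rho_transitive_none hqN i
  refine ⟨g * g0⁻¹, ?_⟩
  rw [map_mul, Equiv.Perm.mul_apply, ← h0, map_inv, Equiv.Perm.inv_def, Equiv.symm_apply_apply, hg]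

end Stab

/-! ### The indices -/

section Index

variable (N q : ℕ) [hq : Fact q.Prime] [NeZero q] [NeZero N]

theorem card_option_zmod : Nat.card (Option (ZMod q)) = q + 1 := by
  rw [Nat.card_eq_fintype_card, Fintype.card_option, ZMod.card]

theorem mem_range_inclH_iff (γ : Gamma0 N) :
    γ ∈ (inclH N q).range ↔ (γ : SL(2, ℤ)) ∈ Gamma0 (N * q) := by
  constructor
  · rintro ⟨δ, rfl⟩
    exact δ.2
  · intro hγ
    exact ⟨⟨(γ : SL(2, ℤ)), hγ⟩, rfl⟩

variable {N q}

theorem mem_range_inclH_iff_dvd (hqN : ¬ q ∣ N) (γ : Gamma0 N) :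
    γ ∈ (inclH N q).range ↔ (q : ℤ) ∣ ((γ : SL(2, ℤ)) : Matrix (Fin 2) (Fin 2) ℤ) 1 0 := by
  rw [mem_range_inclH_iff, Gamma0_mem, ZMod.intCast_zmod_eq_zero_iff_dvd]
  have hN : (N : ℤ) ∣ ((γ : SL(2, ℤ)) : Matrix (Fin 2) (Fin 2) ℤ) 1 0 := by
    have := γ.2
    rwa [Gamma0_mem, ZMod.intCast_zmod_eq_zero_iff_dvd] at this
  have hcop : IsCoprime (N : ℤ) (q : ℤ) := by
    rw [Int.isCoprime_iff_gcd_eq_one, Int.gcd_natCast_natCast]
    exact (Nat.Coprime.symm ((Nat.Prime.coprime_iff_not_dvd hq.out).mpr hqN))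
  push_cast
  constructor
  · intro h
    exact dvd_trans (dvd_mul_left _ _) h
  · intro h
    exact hcop.mul_dvd hN h

theorem mem_range_twistH_iff_dvd (γ : Gamma0 N) :
    γ ∈ (twistH N q).range ↔ (q : ℤ) ∣ ((γ : SL(2, ℤ)) : Matrix (Fin 2) (Fin 2) ℤ) 0 1 := by
  have hq' : (q : ℤ) ≠ 0 := by exact_mod_cast hq.out.ne_zero
  constructor
  · rintro ⟨δ, rfl⟩
    rw [twistH_apply_zero_one]
    exact dvd_mul_right _ _
  · rintro ⟨b', hb'⟩
    have hN : (N : ℤ) ∣ ((γ : SL(2, ℤ)) : Matrix (Fin 2) (Fin 2) ℤ) 1 0 := by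
      have := γ.2
      rwa [Gamma0_mem, ZMod.intCast_zmod_eq_zero_iff_dvd] at this
    have hdet : ((γ : SL(2, ℤ)) : Matrix (Fin 2) (Fin 2) ℤ) 0 0 *
        ((γ : SL(2, ℤ)) : Matrix (Fin 2) (Fin 2) ℤ) 1 1 -
        ((γ : SL(2, ℤ)) : Matrix (Fin 2) (Fin 2) ℤ) 0 1 *
        ((γ : SL(2, ℤ)) : Matrix (Fin 2) (Fin 2) ℤ) 1 0 = 1 := by
      rw [← Matrix.det_fin_two]; exact (γ : SL(2, ℤ)).2
    let M : Matrix (Fin 2) (Fin 2) ℤ :=
      !![((γ : SL(2, ℤ)) : Matrix (Fin 2) (Fin 2) ℤ) 0 0, b';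
        (q : ℤ) * ((γ : SL(2, ℤ)) : Matrix (Fin 2) (Fin 2) ℤ) 1 0,
        ((γ : SL(2, ℤ)) : Matrix (Fin 2) (Fin 2) ℤ) 1 1]
    have hM : M.det = 1 := by
      rw [Matrix.det_fin_two_of]
      rw [hb'] at hdet
      linear_combination hdet
    let g : SL(2, ℤ) := ⟨M, hM⟩
    have hmem : g ∈ Gamma0 (N * q) := by
      rw [Gamma0_mem, ZMod.intCast_zmod_eq_zero_iff_dvd]
      show ((N * q : ℕ) : ℤ) ∣ M 1 0
      simp only [M, Matrix.of_apply, Matrix.cons_val_one, Matrix.cons_val_zero]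
      obtain ⟨c, hc⟩ := hN
      rw [hc]
      push_cast
      exact ⟨c, by ring⟩
    refine ⟨⟨g, hmem⟩, ?_⟩
    apply Subtype.ext
    apply Subtype.ext
    rw [coe_twistH]
    show twistMat q M = _
    ext i j
    fin_cases i <;> fin_cases j
    · simp [twistMat, M]
    · simp only [twistMat, M, Matrix.of_apply, Matrix.cons_val_zero, Matrix.cons_val_one,
        Fin.zero_eta, Fin.mk_one]
      rw [hb']
    · simp [twistMat, M, Int.mul_ediv_cancel_left _ hq']
    · simp [twistMat, M]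

/-- `[Γ₀(N) : Γ₀(N q)] = q + 1`. -/
theorem index_range_inclH (hqN : ¬ q ∣ N) : (inclH N q).range.index = q + 1 := by
  rw [← card_option_zmod q]
  refine index_eq_card_of_transitive (rho N) (none : Option (ZMod q))
    (rho_transitive_none hqN) _ (fun γ => ?_)
  rw [mem_range_inclH_iff_dvd hqN, rho_fix_iff, perm_none_iff]

/-- `[Γ₀(N) : μ Γ₀(N q) μ⁻¹] = q + 1`. -/
theorem index_range_twistH (hqN : ¬ q ∣ N) : (twistH N q).range.index = q + 1 := by
  rw [← card_option_zmod q]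
  refine index_eq_card_of_transitive (rho N) (some (0 : ZMod q))
    (rho_transitive hqN _) _ (fun γ => ?_)
  rw [mem_range_twistH_iff_dvd, rho_fix_iff, perm_some_zero_iff]

/-! ### `t₁ i₁ = t₂ i₂ = q + 1` -/

variable {A : Type*} [AddCommGroup A]

theorem t1_i1 (hqN : ¬ q ∣ N) (φ : Additive (Gamma0 N) →+ A) :
    t1 N q (i1 N q φ) = (q + 1) • φ := by
  unfold t1 i1
  rw [coresAdd_resAdd, index_range_inclH hqN]

theorem t2_i2 (hqN : ¬ q ∣ N) (φ : Additive (Gamma0 N) →+ A) :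
    t2 N q (i2 N q φ) = (q + 1) • φ := by
  unfold t2 i2
  rw [coresAdd_resAdd, index_range_twistH hqN]

variable (R : Type*) [Semiring R] (A) [Module R A]

theorem t1Par_i1Par (hqN : ¬ q ∣ N) (φ : parabolicHoms R (Gamma0 N) A) :
    t1Par N q R A (i1Par N q R A φ) = (q + 1) • φ := by
  apply Subtype.ext
  rw [coe_t1Par, coe_i1Par, t1_i1 hqN]
  rfl

theorem t2Par_i2Par (hqN : ¬ q ∣ N) (φ : parabolicHoms R (Gamma0 N) A) :
    t2Par N q R A (i2Par N q R A φ) = (q + 1) • φ := by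
  apply Subtype.ext
  rw [coe_t2Par, coe_i2Par, t2_i2 hqN]
  rfl

/-- CORE's `h11`. -/
theorem t1Lam_i1Lam (hqN : ¬ q ∣ N) (y : parabolicHoms ℤ (Gamma0 N) ℤ) :
    t1Par N q ℤ ℤ (i1Par N q ℤ ℤ y) = ((q : ℤ) + 1) • y := by
  rw [t1Par_i1Par ℤ ℤ hqN]
  have : ((q : ℤ) + 1) = ((q + 1 : ℕ) : ℤ) := by push_cast; rfl
  rw [this, natCast_zsmul]

/-- CORE's `h22`. -/
theorem t2Lam_i2Lam (hqN : ¬ q ∣ N) (y : parabolicHoms ℤ (Gamma0 N) ℤ) :
    t2Par N q ℤ ℤ (i2Par N q ℤ ℤ y) = ((q : ℤ) + 1) • y := by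
  rw [t2Par_i2Par ℤ ℤ hqN]
  have : ((q : ℤ) + 1) = ((q + 1 : ℕ) : ℤ) := by push_cast; rfl
  rw [this, natCast_zsmul]

end Index

end Fermat.Agent.ES.LR.DegIndex16
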