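import Fermat.Agent.ES.HEQ.DoubleCoset27

set_option autoImplicit false

/-!
# Program L, chapter (I1): the Eisenstein telescoping

If an additive homomorphism `φ : Γ₀(N) → A` factors through `γ ↦ γ₀₀ mod N`, then the double coset
operator `T_p` (`p ∤ N`, `DoubleCoset27.tdcAdd`) acts on it by `p + 1`.

Proof: `β_i γ = coc γ i * β_{σ i}`; comparing the `(0,0)` entries mod `N` gives
`(coc γ i)₀₀ * b (σ i) ≡ b i * γ₀₀` with `b i = (β_i)₀₀ ∈ {1, p}`; choose `D k ∈ Γ₀(N)` with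
`(D k)₀₀ ≡ b k`; then `φ (coc γ i) + φ (D (σ i)) = φ γ + φ (D i)` and the sum over `i` telescopes.
-/

namespace Fermat.Agent.ES.LR.EisTelescope9

open Matrix CongruenceSubgroup Fermat.Agent.ES.HEQ.DoubleCoset27
open scoped MatrixGroups

variable {p : ℕ} [hp : Fact p.Prime] {N : ℕ}

/-- the `(0,0)` entry mod `N` is multiplicative on `Γ₀(N)`. -/
theorem mul_zero_zero (γ δ : Gamma0 N) :
    ((((γ * δ : Gamma0 N) : SL(2, ℤ)) 0 0 : ℤ) : ZMod N)
      = (((γ : SL(2, ℤ)) 0 0 : ℤ) : ZMod N) * (((δ : SL(2, ℤ)) 0 0 : ℤ) : ZMod N) := by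
  have hδ : (((δ : SL(2, ℤ)) 1 0 : ℤ) : ZMod N) = 0 := Gamma0_mem.mp δ.2
  rw [Subgroup.coe_mul, Matrix.SpecialLinearGroup.coe_mul, Matrix.mul_apply, Fin.sum_univ_two]
  push_cast
  rw [hδ, mul_zero, add_zero]

/-- comparing `(0,0)` entries in `β_i γ = coc γ i * β_{σ i}`. -/
theorem entry_congr (hpN : ¬ p ∣ N) (γ : Gamma0 N) (i : Option (ZMod p)) :
    ((beta p i 0 0 : ℤ) : ZMod N) * (((γ : SL(2, ℤ)) 0 0 : ℤ) : ZMod N)
      = ((((cocG hpN γ i : Gamma0 N) : SL(2, ℤ)) 0 0 : ℤ) : ZMod N)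
        * ((beta p (permG γ i) 0 0 : ℤ) : ZMod N) := by
  have hγ : (((γ : SL(2, ℤ)) 1 0 : ℤ) : ZMod N) = 0 := Gamma0_mem.mp γ.2
  have e := congrFun (congrFun (beta_mul (γ : SL(2, ℤ)) i) 0) 0
  simp only [Matrix.mul_apply, Fin.sum_univ_two, beta_one_zero, mul_zero, add_zero] at e
  have e' := congrArg (Int.cast : ℤ → ZMod N) e
  push_cast at e'
  rw [hγ, mul_zero, add_zero] at e'
  simpa using e'

/-- an element of `Γ₀(N)` with upper left entry `≡ p`. -/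
theorem exists_delta (hpN : ¬ p ∣ N) :
    ∃ δ : Gamma0 N, (((δ : SL(2, ℤ)) 0 0 : ℤ) : ZMod N) = (p : ZMod N) := by
  have hcop : IsCoprime (p : ℤ) (N : ℤ) := by
    rw [Int.isCoprime_iff_gcd_eq_one]
    exact (Nat.Prime.coprime_iff_not_dvd hp.out).mpr hpN
  obtain ⟨d, b, h⟩ := hcop
  -- `d * p + b * N = 1`
  have hdet : (!![(p : ℤ), -b; (N : ℤ), d]).det = 1 := by
    rw [Matrix.det_fin_two_of]; linarith
  let g : SL(2, ℤ) := ⟨!![(p : ℤ), -b; (N : ℤ), d], hdet⟩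
  have hg : g ∈ Gamma0 N := by
    rw [Gamma0_mem]
    show (((!![(p : ℤ), -b; (N : ℤ), d] : Matrix (Fin 2) (Fin 2) ℤ) 1 0 : ℤ) : ZMod N) = 0
    simp
  refine ⟨⟨g, hg⟩, ?_⟩
  show (((!![(p : ℤ), -b; (N : ℤ), d] : Matrix (Fin 2) (Fin 2) ℤ) 0 0 : ℤ) : ZMod N) = (p : ZMod N)
  simp

/-- representatives `D k ∈ Γ₀(N)` with `(D k)₀₀ ≡ (β_k)₀₀`. -/
theorem exists_reps (hpN : ¬ p ∣ N) :
    ∃ D : Option (ZMod p) → Gamma0 N, ∀ k,
      ((((D k : Gamma0 N) : SL(2, ℤ)) 0 0 : ℤ) : ZMod N) = ((beta p k 0 0 : ℤ) : ZMod N) := by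
  obtain ⟨δ, hδ⟩ := exists_delta (p := p) (N := N) hpN
  refine ⟨fun k => match k with
    | none => δ
    | some _ => 1, ?_⟩
  intro k
  cases k with
  | none => simpa using hδ
  | some j => simp

/-- **Eisenstein telescoping.** -/
theorem tdcAdd_eq_smul_of_factors (hpN : ¬ p ∣ N) {A : Type*} [AddCommGroup A]
    (φ : Additive (Gamma0 N) →+ A)
    (hφ : ∀ γ γ' : Gamma0 N, (((γ : SL(2, ℤ)) 0 0 : ℤ) : ZMod N) = (((γ' : SL(2, ℤ)) 0 0 : ℤ) : ZMod N) →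
      φ (Additive.ofMul γ) = φ (Additive.ofMul γ')) :
    tdcAdd hpN φ = (p + 1) • φ := by
  obtain ⟨D, hD⟩ := exists_reps (p := p) (N := N) hpN
  refine AddMonoidHom.ext fun γ' => ?_
  obtain ⟨γ, rfl⟩ : ∃ γ : Gamma0 N, Additive.ofMul γ = γ' := ⟨Additive.toMul γ', rfl⟩
  rw [tdcAdd_apply]
  have key : ∀ i : Option (ZMod p),
      φ (Additive.ofMul (cocG hpN γ i)) + φ (Additive.ofMul (D (permG γ i)))
        = φ (Additive.ofMul γ) + φ (Additive.ofMul (D i)) := by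
    intro i
    have e1 : φ (Additive.ofMul (cocG hpN γ i)) + φ (Additive.ofMul (D (permG γ i)))
        = φ (Additive.ofMul (cocG hpN γ i * D (permG γ i))) := by rw [ofMul_mul, map_add]
    have e2 : φ (Additive.ofMul γ) + φ (Additive.ofMul (D i))
        = φ (Additive.ofMul (γ * D i)) := by rw [ofMul_mul, map_add]
    rw [e1, e2]
    apply hφ
    rw [mul_zero_zero, mul_zero_zero, hD, hD, ← entry_congr hpN γ i, mul_comm]
  have hsum : ∑ i : Option (ZMod p), φ (Additive.ofMul (D (permG γ i)))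
      = ∑ i : Option (ZMod p), φ (Additive.ofMul (D i)) :=
    Equiv.sum_comp (permG γ) (fun i => φ (Additive.ofMul (D i)))
  have h2 : ∑ i : Option (ZMod p), (φ (Additive.ofMul (cocG hpN γ i))
      + φ (Additive.ofMul (D (permG γ i))))
      = ∑ i : Option (ZMod p), (φ (Additive.ofMul γ) + φ (Additive.ofMul (D i))) :=
    Finset.sum_congr rfl (fun i _ => key i)
  rw [Finset.sum_add_distrib, Finset.sum_add_distrib, hsum] at h2
  have h3 := add_right_cancel h2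
  rw [h3, Finset.sum_const, Finset.card_univ, Fintype.card_option, ZMod.card]
  rfl

end Fermat.Agent.ES.LR.EisTelescope9
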