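import Fermat.Agent.ES.MEN.IharaHom26
import Fermat.Agent.ES.LR.EisTelescope9
import Fermat.Agent.ES.HEQ.FaithFinal26
import Fermat.Agent.ES.LR.DegeneracyPar27

/-!
# Program L, chapter (I1): Ihara's lemma on the lattice `Λ = Lam N` (helper26)

`y₁, y₂ ∈ Lam N = parabolicHoms ℤ Γ₀(N) ℤ`, `q ∤ N` prime, `p` an odd prime.  If
`y₁(γ) + y₂(μ γ μ⁻¹) ≡ 0 mod p` for every `γ ∈ Γ₀(Nq)` (`μ = diag(q,1)`), then
`(T_ℓ − (ℓ+1)) y_k ∈ p · Lam N` for every prime `ℓ ∤ N` (`T_ℓ = dcZ N ℓ`, the double coset operator).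

Proof: `ψ₁ := y₁ mod p` on `Γ₀(N)` and `ψ₂ := −y₂ mod p` agree on the base of the amalgam
`Γ₀(N) *_{Γ₀(Nq)} Γ₀(N)` (`Amalgam11`), hence (`IharaHom26.ihara_hom`, i.e. (MEN)) both depend only on
`γ₀₀ mod N`; then the Eisenstein telescoping (`EisTelescope9`).

The hypothesis is stated on matrix entries (`ihara_core`), so that it does not depend on the literal
definitions of the degeneracy maps; `ihara_of_apply` is the version for any `i1 i2 : Lam N → Lam (N*q)`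
given by restriction along maps `inclH twistH : Γ₀(Nq) → Γ₀(N)` with the expected matrix entries.
-/

set_option autoImplicit false

noncomputable section

namespace Fermat.Agent.ES.LR.Ihara26

open Matrix MatrixGroups CongruenceSubgroup ModularCurve.Period
open Fermat.Agent.ES.MEN.Amalgam11 Fermat.Agent.ES.MEN.IharaHom26
open Fermat.Agent.ES.HEQ.DoubleCoset27 Fermat.Agent.ES.HEQ.DoubleCosetPar27
open Fermat.Agent.ES.HEQ.FaithInst26 Fermat.Agent.ES.HEQ.FaithFinal26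
open Fermat.Agent.ES.LR.EisTelescope9
open Fermat.Agent.ES.LR.Degeneracy27 Fermat.Agent.ES.LR.DegeneracyPar27

variable {N : ℕ}

/-- an element of `Λ` all of whose values are divisible by `p` is `p` times an element of `Λ`. -/
theorem exists_eq_smul_of_forall_dvd {p : ℕ} (hp : p ≠ 0) (z : ↥(Lam N))
    (h : ∀ γ : Gamma0 N, (p : ℤ) ∣ (z : Additive (Gamma0 N) →+ ℤ) (Additive.ofMul γ)) :
    ∃ y : ↥(Lam N), z = (p : ℤ) • y := by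
  have hp0 : (p : ℤ) ≠ 0 := by exact_mod_cast hp
  let y0 : Additive (Gamma0 N) →+ ℤ :=
    { toFun := fun γ => (z : Additive (Gamma0 N) →+ ℤ) γ / (p : ℤ)
      map_zero' := by simp
      map_add' := fun a b => by
        rw [map_add]
        exact Int.add_ediv_of_dvd_right (h (Additive.toMul b)) }
  have hy0 : y0 ∈ Lam N := by
    have hz := z.2
    rw [mem_parabolicHoms_iff] at hz ⊢
    intro γ hγ
    show (z : Additive (Gamma0 N) →+ ℤ) (Additive.ofMul γ) / (p : ℤ) = 0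
    rw [hz γ hγ, Int.zero_ediv]
  refine ⟨⟨y0, hy0⟩, ?_⟩
  apply Subtype.ext
  ext γ
  show (z : Additive (Gamma0 N) →+ ℤ) (Additive.ofMul γ)
    = (p : ℤ) • ((z : Additive (Gamma0 N) →+ ℤ) (Additive.ofMul γ) / (p : ℤ))
  rw [smul_eq_mul, Int.mul_ediv_cancel' (h γ)]

/-- the reduction mod `p` of an additive character, as a multiplicative character. -/
def redHom (p : ℕ) (y : Additive (Gamma0 N) →+ ℤ) : ↥(Gamma0 N) →* Multiplicative (ZMod p) :=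
  AddMonoidHom.toMultiplicativeRight ((Int.castAddHom (ZMod p)).comp y)

theorem redHom_apply (p : ℕ) (y : Additive (Gamma0 N) →+ ℤ) (γ : Gamma0 N) :
    redHom p y γ = Multiplicative.ofAdd ((y (Additive.ofMul γ) : ℤ) : ZMod p) := rfl

theorem redHom_eq_iff (p : ℕ) (y y' : Additive (Gamma0 N) →+ ℤ) (γ γ' : Gamma0 N) :
    redHom p y γ = redHom p y' γ' ↔
      (p : ℤ) ∣ y (Additive.ofMul γ) - y' (Additive.ofMul γ') := by
  rw [redHom_apply, redHom_apply, Multiplicative.ofAdd.injective.eq_iff,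
    ZMod.intCast_eq_intCast_iff_dvd_sub]
  constructor
  · intro h; have := dvd_neg.mpr h; simpa using this
  · intro h; have := dvd_neg.mpr h; simpa using this

variable [NeZero N]

/-- **Ihara's lemma on `Λ`, matrix entry form.** -/
theorem ihara_core {p q : ℕ} (hp : p.Prime) (hp2 : p ≠ 2) [hq : Fact q.Prime] (hqN : ¬ q ∣ N)
    (y1 y2 : ↥(Lam N))
    (h : ∀ γ δ : Gamma0 N,
      ((δ : SL(2,ℤ)) : Matrix (Fin 2) (Fin 2) ℤ) 0 0 = ((γ : SL(2,ℤ)) : Matrix (Fin 2) (Fin 2) ℤ) 0 0 →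
      ((δ : SL(2,ℤ)) : Matrix (Fin 2) (Fin 2) ℤ) 0 1
        = (q : ℤ) * ((γ : SL(2,ℤ)) : Matrix (Fin 2) (Fin 2) ℤ) 0 1 →
      ((γ : SL(2,ℤ)) : Matrix (Fin 2) (Fin 2) ℤ) 1 0
        = (q : ℤ) * ((δ : SL(2,ℤ)) : Matrix (Fin 2) (Fin 2) ℤ) 1 0 →
      ((δ : SL(2,ℤ)) : Matrix (Fin 2) (Fin 2) ℤ) 1 1 = ((γ : SL(2,ℤ)) : Matrix (Fin 2) (Fin 2) ℤ) 1 1 →
      (p : ℤ) ∣ (y1 : Additive (Gamma0 N) →+ ℤ) (Additive.ofMul γ)
        + (y2 : Additive (Gamma0 N) →+ ℤ) (Additive.ofMul δ))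
    (ℓ : ℕ) (hℓ : ℓ.Prime) (hℓN : ¬ ℓ ∣ N) :
    (∃ y : ↥(Lam N), dcZ N ℓ hℓ hℓN y1 - ((ℓ : ℤ) + 1) • y1 = (p : ℤ) • y) ∧
    (∃ y : ↥(Lam N), dcZ N ℓ hℓ hℓN y2 - ((ℓ : ℤ) + 1) • y2 = (p : ℤ) • y) := by
  have : Fact ℓ.Prime := ⟨hℓ⟩
  have hN : 0 < N := Nat.pos_of_ne_zero (NeZero.ne N)
  have hq0 : (q : ℚ) ≠ 0 := by exact_mod_cast hq.out.ne_zero
  have hpar1 := y1.2
  have hpar2 := y2.2
  rw [mem_parabolicHoms_iff] at hpar1 hpar2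
  -- the two multiplicative characters
  set ψ₁ : ↥(Gamma0 N) →* Multiplicative (ZMod p) :=
    redHom p (y1 : Additive (Gamma0 N) →+ ℤ) with hψ₁
  set ψ₂ : ↥(Gamma0 N) →* Multiplicative (ZMod p) :=
    redHom p (-(y2 : Additive (Gamma0 N) →+ ℤ)) with hψ₂
  have hpow : ∀ c : Multiplicative (ZMod p), c ^ p = 1 := by
    intro c
    apply Multiplicative.toAdd.injective
    rw [toAdd_pow, toAdd_one]
    simp
  have hc : ∀ γ δ : ↥(Gamma0 N),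
      castQ (γ : SL(2,ℤ)) = twist q (castQ (δ : SL(2,ℤ))) → ψ₁ γ = ψ₂ δ := by
    intro γ δ hγδ
    have hm := congrArg (fun z : SL(2,ℚ) => (z : Matrix (Fin 2) (Fin 2) ℚ)) hγδ
    simp only [twist_apply] at hm
    have e00 := congrFun (congrFun hm 0) 0
    have e01 := congrFun (congrFun hm 0) 1
    have e10 := congrFun (congrFun hm 1) 0
    have e11 := congrFun (congrFun hm 1) 1
    simp only [Matrix.of_apply, Matrix.cons_val', Matrix.cons_val_zero, Matrix.cons_val_one,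
      Matrix.cons_val_fin_one, castQ_apply] at e00 e01 e10 e11
    have a00 : ((δ : SL(2,ℤ)) : Matrix (Fin 2) (Fin 2) ℤ) 0 0
        = ((γ : SL(2,ℤ)) : Matrix (Fin 2) (Fin 2) ℤ) 0 0 := by exact_mod_cast e00.symm
    have a01 : ((δ : SL(2,ℤ)) : Matrix (Fin 2) (Fin 2) ℤ) 0 1
        = (q : ℤ) * ((γ : SL(2,ℤ)) : Matrix (Fin 2) (Fin 2) ℤ) 0 1 := by
      have : (((δ : SL(2,ℤ)) : Matrix (Fin 2) (Fin 2) ℤ) 0 1 : ℚ)
          = (q : ℚ) * (((γ : SL(2,ℤ)) : Matrix (Fin 2) (Fin 2) ℤ) 0 1 : ℚ) := by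
        rw [e01]; field_simp
      exact_mod_cast this
    have a10 : ((γ : SL(2,ℤ)) : Matrix (Fin 2) (Fin 2) ℤ) 1 0
        = (q : ℤ) * ((δ : SL(2,ℤ)) : Matrix (Fin 2) (Fin 2) ℤ) 1 0 := by exact_mod_cast e10
    have a11 : ((δ : SL(2,ℤ)) : Matrix (Fin 2) (Fin 2) ℤ) 1 1
        = ((γ : SL(2,ℤ)) : Matrix (Fin 2) (Fin 2) ℤ) 1 1 := by exact_mod_cast e11.symm
    have hd := h γ δ a00 a01 a10 a11
    rw [hψ₁, hψ₂, redHom_eq_iff]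
    simpa [sub_neg_eq_add] using hd
  have h₁ : ∀ γ : ↥(Gamma0 N),
      ((γ : SL(2,ℤ)) : Matrix (Fin 2) (Fin 2) ℤ) 0 0 = 1 →
      ((γ : SL(2,ℤ)) : Matrix (Fin 2) (Fin 2) ℤ) 0 1 = 0 →
      ((γ : SL(2,ℤ)) : Matrix (Fin 2) (Fin 2) ℤ) 1 1 = 1 → ψ₁ γ = 1 := by
    intro γ a b d
    have ht : ((γ : SL(2,ℤ)) : Matrix (Fin 2) (Fin 2) ℤ).trace ^ 2 = 4 := by
      rw [Matrix.trace_fin_two, a, d]; norm_num
    rw [hψ₁, redHom_apply, hpar1 γ ht]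
    simp
  have h₂ : ∀ γ : ↥(Gamma0 N),
      ((γ : SL(2,ℤ)) : Matrix (Fin 2) (Fin 2) ℤ) 0 0 = 1 →
      ((γ : SL(2,ℤ)) : Matrix (Fin 2) (Fin 2) ℤ) 1 0 = 0 →
      ((γ : SL(2,ℤ)) : Matrix (Fin 2) (Fin 2) ℤ) 1 1 = 1 → ψ₂ γ = 1 := by
    intro γ a b d
    have ht : ((γ : SL(2,ℤ)) : Matrix (Fin 2) (Fin 2) ℤ).trace ^ 2 = 4 := by
      rw [Matrix.trace_fin_two, a, d]; norm_num
    rw [hψ₂, redHom_apply, AddMonoidHom.neg_apply, hpar2 γ ht]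
    simp
  have key := ihara_hom hN hqN p (hp.odd_of_ne_two hp2) hpow ψ₁ ψ₂ hc h₁ h₂
  -- both `y_k mod p` factor through `γ₀₀ mod N`
  have fac : ∀ (y : ↥(Lam N)),
      (∀ γ γ' : ↥(Gamma0 N), (N : ℤ) ∣ ((γ : SL(2,ℤ)) : Matrix (Fin 2) (Fin 2) ℤ) 0 0 -
          ((γ' : SL(2,ℤ)) : Matrix (Fin 2) (Fin 2) ℤ) 0 0 →
        (p : ℤ) ∣ (y : Additive (Gamma0 N) →+ ℤ) (Additive.ofMul γ)
          - (y : Additive (Gamma0 N) →+ ℤ) (Additive.ofMul γ')) →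
      ∃ y' : ↥(Lam N), dcZ N ℓ hℓ hℓN y - ((ℓ : ℤ) + 1) • y = (p : ℤ) • y' := by
    intro y hy
    apply exists_eq_smul_of_forall_dvd hp.ne_zero
    intro γ
    set φ : Additive (Gamma0 N) →+ ZMod p :=
      (Int.castAddHom (ZMod p)).comp (y : Additive (Gamma0 N) →+ ℤ) with hφ
    have hfac : ∀ γ γ' : Gamma0 N,
        (((γ : SL(2, ℤ)) 0 0 : ℤ) : ZMod N) = (((γ' : SL(2, ℤ)) 0 0 : ℤ) : ZMod N) →
        φ (Additive.ofMul γ) = φ (Additive.ofMul γ') := by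
      intro γ γ' hγ
      rw [ZMod.intCast_eq_intCast_iff_dvd_sub] at hγ
      have h1 := hy γ' γ hγ
      show (((y : Additive (Gamma0 N) →+ ℤ) (Additive.ofMul γ) : ℤ) : ZMod p)
        = (((y : Additive (Gamma0 N) →+ ℤ) (Additive.ofMul γ') : ℤ) : ZMod p)
      rw [ZMod.intCast_eq_intCast_iff_dvd_sub]
      exact h1
    have ht := tdcAdd_eq_smul_of_factors hℓN φ hfac
    rw [hφ, tdcAdd_comp] at ht
    have ht' := DFunLike.congr_fun ht (Additive.ofMul γ)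
    have e1 : ((dcZ N ℓ hℓ hℓN y - ((ℓ : ℤ) + 1) • y : ↥(Lam N)) : Additive (Gamma0 N) →+ ℤ)
        (Additive.ofMul γ)
        = tdcAdd hℓN (y : Additive (Gamma0 N) →+ ℤ) (Additive.ofMul γ)
          - ((ℓ : ℤ) + 1) * (y : Additive (Gamma0 N) →+ ℤ) (Additive.ofMul γ) := by
      rw [dcZ_eq N ℓ hℓ hℓN]
      rfl
    rw [e1, ← ZMod.intCast_zmod_eq_zero_iff_dvd]
    have e2 : ((tdcAdd hℓN (y : Additive (Gamma0 N) →+ ℤ) (Additive.ofMul γ) : ℤ) : ZMod p)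
        = ((ℓ : ZMod p) + 1) * (((y : Additive (Gamma0 N) →+ ℤ) (Additive.ofMul γ) : ℤ) : ZMod p) := by
      have : ((tdcAdd hℓN (y : Additive (Gamma0 N) →+ ℤ) (Additive.ofMul γ) : ℤ) : ZMod p)
          = ((ℓ + 1) • ((Int.castAddHom (ZMod p)).comp (y : Additive (Gamma0 N) →+ ℤ)))
            (Additive.ofMul γ) := ht'
      rw [this, AddMonoidHom.smul_apply, nsmul_eq_mul]
      push_cast
      rfl
    push_cast
    rw [e2]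
    ring
  constructor
  · apply fac y1
    intro γ γ' hγ
    have := (key γ γ' hγ).1
    rw [hψ₁, redHom_eq_iff] at this
    exact this
  · apply fac y2
    intro γ γ' hγ
    have := (key γ γ' hγ).2
    rw [hψ₂, redHom_eq_iff] at this
    have h2 := dvd_neg.mpr this
    have e : -((-(y2 : Additive (Gamma0 N) →+ ℤ)) (Additive.ofMul γ)
        - (-(y2 : Additive (Gamma0 N) →+ ℤ)) (Additive.ofMul γ'))
        = (y2 : Additive (Gamma0 N) →+ ℤ) (Additive.ofMul γ)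
          - (y2 : Additive (Gamma0 N) →+ ℤ) (Additive.ofMul γ') := by
      rw [AddMonoidHom.neg_apply, AddMonoidHom.neg_apply]; ring
    rw [e] at h2
    exact h2

/-- **Ihara's lemma on `Λ`**, for restriction along any two maps `inclH twistH : Γ₀(Nq) → Γ₀(N)` with
`inclH γ = γ` and `twistH γ = μ γ μ⁻¹ = (a, q b; c / q, d)` (entrywise). -/
theorem ihara_of_apply {p q : ℕ} (hp : p.Prime) (hp2 : p ≠ 2) [hq : Fact q.Prime] (hqN : ¬ q ∣ N)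
    (inclH twistH : Gamma0 (N * q) → Gamma0 N)
    (hincl : ∀ γ : Gamma0 (N * q), ((inclH γ : Gamma0 N) : SL(2,ℤ)) = (γ : SL(2,ℤ)))
    (htw00 : ∀ γ : Gamma0 (N * q), ((twistH γ : Gamma0 N) : SL(2,ℤ)) 0 0 = (γ : SL(2,ℤ)) 0 0)
    (htw01 : ∀ γ : Gamma0 (N * q),
      ((twistH γ : Gamma0 N) : SL(2,ℤ)) 0 1 = (q : ℤ) * (γ : SL(2,ℤ)) 0 1)
    (htw10 : ∀ γ : Gamma0 (N * q),
      (γ : SL(2,ℤ)) 1 0 = (q : ℤ) * ((twistH γ : Gamma0 N) : SL(2,ℤ)) 1 0)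
    (htw11 : ∀ γ : Gamma0 (N * q), ((twistH γ : Gamma0 N) : SL(2,ℤ)) 1 1 = (γ : SL(2,ℤ)) 1 1)
    (y1 y2 : ↥(Lam N))
    (h : ∀ γ : Gamma0 (N * q),
      (p : ℤ) ∣ (y1 : Additive (Gamma0 N) →+ ℤ) (Additive.ofMul (inclH γ))
        + (y2 : Additive (Gamma0 N) →+ ℤ) (Additive.ofMul (twistH γ)))
    (ℓ : ℕ) (hℓ : ℓ.Prime) (hℓN : ¬ ℓ ∣ N) :
    (∃ y : ↥(Lam N), dcZ N ℓ hℓ hℓN y1 - ((ℓ : ℤ) + 1) • y1 = (p : ℤ) • y) ∧
    (∃ y : ↥(Lam N), dcZ N ℓ hℓ hℓN y2 - ((ℓ : ℤ) + 1) • y2 = (p : ℤ) • y) := by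
  refine ihara_core hp hp2 hqN y1 y2 ?_ ℓ hℓ hℓN
  intro γ δ a00 a01 a10 a11
  -- `γ ∈ Γ₀(Nq)`
  have hδ : (N : ℤ) ∣ ((δ : SL(2,ℤ)) : Matrix (Fin 2) (Fin 2) ℤ) 1 0 := by
    have := Gamma0_mem.mp δ.2
    rwa [ZMod.intCast_zmod_eq_zero_iff_dvd] at this
  have hγmem : (γ : SL(2,ℤ)) ∈ Gamma0 (N * q) := by
    rw [Gamma0_mem, ZMod.intCast_zmod_eq_zero_iff_dvd]
    show ((N * q : ℕ) : ℤ) ∣ ((γ : SL(2,ℤ)) : Matrix (Fin 2) (Fin 2) ℤ) 1 0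
    rw [a10]
    push_cast
    rw [mul_comm (N : ℤ) (q : ℤ)]
    exact mul_dvd_mul_left _ hδ
  set γ' : Gamma0 (N * q) := ⟨(γ : SL(2,ℤ)), hγmem⟩ with hγ'
  have e1 : inclH γ' = γ := Subtype.ext (hincl γ')
  have hq0 : (q : ℤ) ≠ 0 := by exact_mod_cast hq.out.ne_zero
  have e2 : twistH γ' = δ := by
    apply Subtype.ext
    ext i j
    fin_cases i <;> fin_cases j
    · show ((twistH γ' : Gamma0 N) : SL(2,ℤ)) 0 0 = (δ : SL(2,ℤ)) 0 0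
      rw [htw00 γ']; exact a00.symm
    · show ((twistH γ' : Gamma0 N) : SL(2,ℤ)) 0 1 = (δ : SL(2,ℤ)) 0 1
      rw [htw01 γ']; exact a01.symm
    · show ((twistH γ' : Gamma0 N) : SL(2,ℤ)) 1 0 = (δ : SL(2,ℤ)) 1 0
      have := htw10 γ'
      have h2 : (q : ℤ) * ((twistH γ' : Gamma0 N) : SL(2,ℤ)) 1 0 = (q : ℤ) * (δ : SL(2,ℤ)) 1 0 := by
        rw [← this]; exact a10
      exact mul_left_cancel₀ hq0 h2
    · show ((twistH γ' : Gamma0 N) : SL(2,ℤ)) 1 1 = (δ : SL(2,ℤ)) 1 1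
      rw [htw11 γ']; exact a11.symm
  have := h γ'
  rwa [e1, e2] at this

/-- **Ihara's lemma on `Λ`** (chapter (I1) of Program L, the literal contract of `L_PLAN27`): if
`i₁ y₁ + i₂ y₂ ∈ p · Lam (N q)` (`i₁`, `i₂` the two degeneracy maps of `DegeneracyPar27`) then
`(T_ℓ − (ℓ + 1)) y_k ∈ p · Lam N` for every prime `ℓ ∤ N`. -/
theorem ihara {p q : ℕ} [NeZero q] (hp : p.Prime) (hp2 : p ≠ 2) (hq : q.Prime) (hqN : ¬ q ∣ N)
    (y1 y2 : ↥(Lam N))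
    (h : ∃ x : ↥(Lam (N * q)), i1Par N q ℤ ℤ y1 + i2Par N q ℤ ℤ y2 = (p : ℤ) • x)
    (ℓ : ℕ) (hℓ : ℓ.Prime) (hℓN : ¬ ℓ ∣ N) :
    (∃ y : ↥(Lam N), dcZ N ℓ hℓ hℓN y1 - ((ℓ : ℤ) + 1) • y1 = (p : ℤ) • y) ∧
    (∃ y : ↥(Lam N), dcZ N ℓ hℓ hℓN y2 - ((ℓ : ℤ) + 1) • y2 = (p : ℤ) • y) := by
  have : Fact q.Prime := ⟨hq⟩
  obtain ⟨x, hx⟩ := h
  refine ihara_of_apply hp hp2 hqN (inclH N q) (twistH N q) (coe_inclH N q)
    (twistH_apply_zero_zero N q) (twistH_apply_zero_one N q)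
    (fun γ => (twistH_apply_one_zero N q γ).symm) (twistH_apply_one_one N q) y1 y2 ?_ ℓ hℓ hℓN
  intro γ
  have h1 := congrArg (fun z : ↥(Lam (N * q)) =>
    (z : Additive (Gamma0 (N * q)) →+ ℤ) (Additive.ofMul γ)) hx
  have h2 : (y1 : Additive (Gamma0 N) →+ ℤ) (Additive.ofMul (inclH N q γ))
      + (y2 : Additive (Gamma0 N) →+ ℤ) (Additive.ofMul (twistH N q γ))
      = (p : ℤ) * (x : Additive (Gamma0 (N * q)) →+ ℤ) (Additive.ofMul γ) := h1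
  rw [h2]
  exact dvd_mul_right _ _

/-- the same with the conclusion in "mod `p`" form on values. -/
theorem ihara_apply {p q : ℕ} [NeZero q] (hp : p.Prime) (hp2 : p ≠ 2) (hq : q.Prime) (hqN : ¬ q ∣ N)
    (y1 y2 : ↥(Lam N))
    (h : ∀ γ : Gamma0 (N * q), (p : ℤ) ∣ (y1 : Additive (Gamma0 N) →+ ℤ) (Additive.ofMul (inclH N q γ))
      + (y2 : Additive (Gamma0 N) →+ ℤ) (Additive.ofMul (twistH N q γ)))
    (ℓ : ℕ) (hℓ : ℓ.Prime) (hℓN : ¬ ℓ ∣ N) :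
    (∃ y : ↥(Lam N), dcZ N ℓ hℓ hℓN y1 - ((ℓ : ℤ) + 1) • y1 = (p : ℤ) • y) ∧
    (∃ y : ↥(Lam N), dcZ N ℓ hℓ hℓN y2 - ((ℓ : ℤ) + 1) • y2 = (p : ℤ) • y) := by
  have : Fact q.Prime := ⟨hq⟩
  exact ihara_of_apply hp hp2 hqN (inclH N q) (twistH N q) (coe_inclH N q)
    (twistH_apply_zero_zero N q) (twistH_apply_zero_one N q)
    (fun γ => (twistH_apply_one_zero N q γ).symm) (twistH_apply_one_one N q) y1 y2 h ℓ hℓ hℓN

end Fermat.Agent.ES.LR.Ihara26
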