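/-
Program L (S41), chapter OP (helper28): the relations between the degeneracy maps of
`Degeneracy27` and the double coset operator `T_q` of `DoubleCoset27`:

* `t1_i1`, `t2_i2` : `t_k ∘ i_k = (q + 1) •`;
* `t1_i2`, `t2_i1` : `t_1 ∘ i_2 = t_2 ∘ i_1 = tdcAdd` (`= T_q`),

on `Additive (Gamma0 N) →+ A` for every abelian group `A` (`q` prime, `q ∤ N`), and on
`parabolicHoms R (Gamma0 N) A`.

All four are instances of one abstract lemma, `coresAdd_resAdd_eq_sum`: if a group `G` acts (on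
the right, by `perm`) transitively on a finite set `Ω`, `coc : G → Ω → G₂` is a cocycle,
`ι : G' →* G` is injective with range the stabiliser of a base point `i₀` and
`θ g' = coc (ι g') i₀`, then the transfer along `ι` of `φ ∘ θ` is `γ ↦ ∑ i, φ (coc γ i)`.
The link with Mathlib's `MonoidHom.transfer` is `transfer_eq_prod_section`.
-/
import Mathlib
import Fermat.Agent.ES.LR.DegeneracyPar27
import Fermat.Agent.ES.LR.UqOp28
import Fermat.Agent.ES.HEQ.RepGamma19

set_option autoImplicit false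

open Matrix CongruenceSubgroup ModularCurve.Period
open scoped MatrixGroups

namespace Fermat.Agent.ES.LR.DegRel28

open Subgroup MulAction Fermat.Agent.ES.LR.Degeneracy27 Fermat.Agent.ES.LR.DegeneracyPar27
open Fermat.Agent.ES.HEQ.DoubleCoset27 Fermat.Agent.ES.HEQ.DoubleCosetPar27



section Transfer

variable {G : Type*} [Group G] {H : Subgroup G} {A : Type*} [CommGroup A]

theorem section_mem (t : G ⧸ H → G) (ht : ∀ q, (t q : G ⧸ H) = q) (g : G) (q : G ⧸ H) :
    (t (g • q))⁻¹ * g * t q ∈ H := by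
  rw [mul_assoc, ← QuotientGroup.eq, ht]
  conv_lhs => rw [← ht q]
  rfl

/-- Mathlib's transfer, computed with an arbitrary section of `G → G ⧸ H`. -/
theorem transfer_eq_prod_section [H.FiniteIndex] [inst : Fintype (G ⧸ H)] (ϕ : H →* A)
    (t : G ⧸ H → G) (ht : ∀ q, (t q : G ⧸ H) = q) (g : G) :
    MonoidHom.transfer ϕ g = ∏ q : G ⧸ H, ϕ ⟨(t (g • q))⁻¹ * g * t q, section_mem t ht g q⟩ := by
  classical
  have hfin : inst = H.fintypeQuotientOfFiniteIndex := Subsingleton.elim _ _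
  subst hfin
  let T : H.LeftTransversal := ⟨Set.range t, isComplement_range_left ht⟩
  have hT : ∀ q, ((T.2.leftQuotientEquiv q : Set.range t) : G) = t q :=
    fun q => IsComplement.leftQuotientEquiv_apply ht q
  rw [MonoidHom.transfer_def ϕ T g]
  unfold Subgroup.leftTransversals.diff
  let _ := H.fintypeQuotientOfFiniteIndex
  refine (Fintype.prod_equiv (MulAction.toPerm g) _ _ (fun q => ?_)).symm
  congr 1
  apply Subtype.ext
  simp only [smul_apply_eq_smul_apply_inv_smul, hT, MulAction.toPerm_apply, inv_smul_smul,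
    smul_eq_mul, mul_assoc]

end Transfer

section LemmaT

variable {G G' G₂ : Type*} [Group G] [Group G'] [Group G₂] {Ω : Type*} [Fintype Ω]
  {A : Type*} [AddCommGroup A]

theorem coresAdd_resAdd_eq_sum
    (perm : G → Ω → Ω) (hp1 : ∀ i, perm 1 i = i)
    (hpm : ∀ γ δ i, perm (γ * δ) i = perm δ (perm γ i))
    (coc : G → Ω → G₂) (hcm : ∀ γ δ i, coc (γ * δ) i = coc γ i * coc δ (perm γ i))
    (i₀ : Ω) (htrans : ∀ i, ∃ r : G, perm r i₀ = i)
    (ι : G' →* G) (hι : Function.Injective ι) [ι.range.FiniteIndex]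
    (hrange : ∀ g : G, g ∈ ι.range ↔ perm g i₀ = i₀)
    (θ : G' →* G₂) (hθ : ∀ g', θ g' = coc (ι g') i₀)
    (φ : Additive G₂ →+ A) (γ : G) :
    coresAdd ι hι (resAdd θ φ) (Additive.ofMul γ) = ∑ i : Ω, φ (Additive.ofMul (coc γ i)) := by
  classical
  -- basic facts
  have hc1 : ∀ i, coc 1 i = 1 := by
    intro i
    have h := hcm 1 1 i
    rw [mul_one, hp1] at h
    exact (mul_eq_left.mp h.symm)
  have hpinv : ∀ g i, perm g⁻¹ (perm g i) = i := by
    intro g i; rw [← hpm, mul_inv_cancel, hp1]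
  have hpinv' : ∀ g i, perm g (perm g⁻¹ i) = i := by
    intro g i; rw [← hpm, inv_mul_cancel, hp1]
  have hcinv : ∀ g i, coc g⁻¹ (perm g i) = (coc g i)⁻¹ := by
    intro g i
    have h := hcm g g⁻¹ i
    rw [mul_inv_cancel, hc1] at h
    exact eq_inv_of_mul_eq_one_right h.symm
  choose r hr using htrans
  -- the bijection `Ω ≃ G ⧸ H`
  have hinj : Function.Injective (fun i : Ω => (((r i)⁻¹ : G) : G ⧸ ι.range)) := by
    intro i j hij
    have h1 : ((r i)⁻¹)⁻¹ * (r j)⁻¹ ∈ ι.range := QuotientGroup.eq.mp hij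
    rw [inv_inv, hrange, hpm, hr] at h1
    -- perm (r j)⁻¹ i = i₀
    have h2 := congrArg (perm (r j)) h1
    rw [hpinv', hr] at h2
    exact h2
  have hsurj : Function.Surjective (fun i : Ω => (((r i)⁻¹ : G) : G ⧸ ι.range)) := by
    intro c
    induction c using QuotientGroup.induction_on with
    | H g =>
      refine ⟨perm g⁻¹ i₀, ?_⟩
      show (((r (perm g⁻¹ i₀))⁻¹ : G) : G ⧸ ι.range) = (g : G ⧸ ι.range)
      rw [QuotientGroup.eq, inv_inv, hrange, hpm, hr, hpinv']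
  let E : Ω ≃ G ⧸ ι.range := Equiv.ofBijective _ ⟨hinj, hsurj⟩
  have hE : ∀ i, E i = (((r i)⁻¹ : G) : G ⧸ ι.range) := fun i => rfl
  let t : G ⧸ ι.range → G := fun c => (r (E.symm c))⁻¹
  have ht : ∀ c, (t c : G ⧸ ι.range) = c := by
    intro c
    show (((r (E.symm c))⁻¹ : G) : G ⧸ ι.range) = c
    rw [← hE, Equiv.apply_symm_apply]
  have hsmul : ∀ i, E.symm (γ • E i) = perm γ⁻¹ i := by
    intro i
    rw [Equiv.symm_apply_eq, hE, hE]
    show ((γ * (r i)⁻¹ : G) : G ⧸ ι.range) = _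
    rw [eq_comm, QuotientGroup.eq, inv_inv, hrange, ← mul_assoc, hpm, hpm, hr, hpinv']
    have := hpinv (r i) i₀
    rw [hr] at this
    exact this
  let _ : Fintype (G ⧸ ι.range) := Fintype.ofEquiv Ω E
  rw [coresAdd_apply, transfer_eq_prod_section (rangeChar ι hι (resAdd θ φ)) t ht γ, toAdd_prod]
  rw [← Equiv.sum_comp E]
  -- the character on the range
  have hchar : ∀ (x : G) (hx : x ∈ ι.range),
      Multiplicative.toAdd (rangeChar ι hι (resAdd θ φ) ⟨x, hx⟩)
        = φ (Additive.ofMul (coc x i₀)) := by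
    rintro x ⟨g', rfl⟩
    rw [rangeChar_apply, toAdd_ofAdd, resAdd_apply, hθ]
  let σ : Equiv.Perm Ω := ⟨perm γ⁻¹, perm γ, fun i => by rw [hpinv' γ i], fun i => by rw [hpinv γ i]⟩
  have hσ : ∀ i, σ i = perm γ⁻¹ i := fun i => rfl
  have hterm : ∀ i : Ω,
      Multiplicative.toAdd (rangeChar ι hι (resAdd θ φ)
        ⟨(t (γ • E i))⁻¹ * γ * t (E i), section_mem t ht γ (E i)⟩)
        = φ (Additive.ofMul (coc (r (σ i)) i₀)) + φ (Additive.ofMul (coc γ (σ i)))
          - φ (Additive.ofMul (coc (r i) i₀)) := by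
    intro i
    rw [hchar]
    have h1 : t (E i) = (r i)⁻¹ := by
      show (r (E.symm (E i)))⁻¹ = _
      rw [Equiv.symm_apply_apply]
    have h2 : t (γ • E i) = (r (σ i))⁻¹ := by
      show (r (E.symm (γ • E i)))⁻¹ = _
      rw [hsmul, hσ]
    rw [h1, h2, inv_inv, hcm, hcm, hpm, hr, hσ, hpinv', ← hσ]
    have h3 : coc (r i)⁻¹ i = (coc (r i) i₀)⁻¹ := by
      have := hcinv (r i) i₀
      rw [hr] at this
      exact this
    rw [h3, ofMul_mul, ofMul_mul, ofMul_inv, map_add, map_add, map_neg]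
    abel
  simp only [hterm, Finset.sum_add_distrib, Finset.sum_sub_distrib]
  rw [Equiv.sum_comp σ (fun i => φ (Additive.ofMul (coc (r i) i₀))),
    Equiv.sum_comp σ (fun i => φ (Additive.ofMul (coc γ i)))]
  abel

end LemmaT


/-! ### the action of `Γ₀(N)` on `P¹(F_q) = Option (ZMod q)` -/

section Gamma0

variable {q : ℕ} [hq : Fact q.Prime] {N : ℕ}

/-- `Γ₀(N)` is transitive on `P¹(F_q)`: base point `∞`. -/
theorem exists_permG_none (hqN : ¬ q ∣ N) (i : Option (ZMod q)) :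
    ∃ r : Gamma0 N, permG r (none : Option (ZMod q)) = i := by
  obtain ⟨γ, hγ, h⟩ := Fermat.Agent.ES.HEQ.RepGamma19.exists_rep hqN i
  exact ⟨⟨γ, hγ⟩, h⟩

/-- `Γ₀(N)` is transitive on `P¹(F_q)`: base point `0`. -/
theorem exists_permG_zero (hqN : ¬ q ∣ N) (i : Option (ZMod q)) :
    ∃ r : Gamma0 N, permG r (some (0 : ZMod q)) = i := by
  obtain ⟨r₀, h₀⟩ := exists_permG_none (N := N) hqN (some (0 : ZMod q))
  obtain ⟨r₁, h₁⟩ := exists_permG_none (N := N) hqN i
  refine ⟨r₀⁻¹ * r₁, ?_⟩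
  have h2 : permG r₀⁻¹ (some (0 : ZMod q)) = none := by
    rw [← h₀, ← permG_mul r₀ r₀⁻¹, mul_inv_cancel, permG_one]
  rw [permG_mul, h2, h₁]

theorem isCoprime_N_q (hqN : ¬ q ∣ N) : IsCoprime (N : ℤ) (q : ℤ) := by
  rw [Int.isCoprime_iff_gcd_eq_one, Int.gcd_natCast_natCast]
  exact (Nat.Coprime.symm ((Nat.Prime.coprime_iff_not_dvd hq.out).mpr hqN))

/-- the range of the inclusion is the stabiliser of `∞`. -/
theorem mem_range_inclH_iff (hqN : ¬ q ∣ N) (g : Gamma0 N) :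
    g ∈ (inclH N q).range ↔ permG g (none : Option (ZMod q)) = none := by
  constructor
  · rintro ⟨γ', rfl⟩
    rw [permG_apply, coe_inclH]
    exact Fermat.Agent.ES.LR.UqOp28.perm_none (Dvd.intro_left N rfl) γ'.2
  · intro h
    rw [permG_apply] at h
    have e10 := congrFun (congrFun (beta_mul (g : SL(2, ℤ)) (none : Option (ZMod q))) 1) 0
    rw [h] at e10
    simp only [Matrix.mul_apply, Fin.sum_univ_two, beta_none, Matrix.of_apply, Matrix.cons_val',
      Matrix.cons_val_zero, Matrix.cons_val_one, Matrix.cons_val_fin_one, zero_mul, zero_add,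
      one_mul, mul_zero, add_zero] at e10
    have hqd : (q : ℤ) ∣ ((g : SL(2, ℤ)) : Matrix (Fin 2) (Fin 2) ℤ) 1 0 := ⟨_, by rw [e10]; ring⟩
    have hNd : (N : ℤ) ∣ ((g : SL(2, ℤ)) : Matrix (Fin 2) (Fin 2) ℤ) 1 0 := by
      have := g.2
      rw [Gamma0_mem] at this
      exact (ZMod.intCast_zmod_eq_zero_iff_dvd _ N).mp this
    have hmem : (g : SL(2, ℤ)) ∈ Gamma0 (N * q) := by
      rw [Gamma0_mem, ZMod.intCast_zmod_eq_zero_iff_dvd]
      push_cast
      exact (isCoprime_N_q hqN).mul_dvd hNd hqd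
    exact ⟨⟨(g : SL(2, ℤ)), hmem⟩, Subtype.ext rfl⟩

variable [NeZero q]

/-- the cocycle at `∞` is the twist. -/
theorem twistH_eq_cocG (hqN : ¬ q ∣ N) (γ' : Gamma0 (N * q)) :
    twistH N q γ' = cocG hqN (inclH N q γ') (none : Option (ZMod q)) := by
  have hc : ((γ' : SL(2, ℤ)) : Matrix (Fin 2) (Fin 2) ℤ) 1 0
      = (q : ℤ) * (((γ' : SL(2, ℤ)) : Matrix (Fin 2) (Fin 2) ℤ) 1 0 / (q : ℤ)) :=
    (Int.mul_ediv_cancel' (q_dvd_lower_left N q γ')).symm
  apply Subtype.ext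
  rw [coe_cocG, coe_inclH,
    (Fermat.Agent.ES.LR.UqOp28.perm_coc_none (γ' : SL(2, ℤ)) _ hc).2]
  apply Subtype.ext
  rfl

theorem beta_zero_mul_twistH (γ' : Gamma0 (N * q)) :
    beta q (some (0 : ZMod q)) * (((twistH N q γ' : Gamma0 N) : SL(2, ℤ)) :
        Matrix (Fin 2) (Fin 2) ℤ)
      = ((γ' : SL(2, ℤ)) : Matrix (Fin 2) (Fin 2) ℤ) * beta q (some (0 : ZMod q)) := by
  have h10 := twistH_apply_one_zero N q γ'
  have h00 := twistH_apply_zero_zero N q γ'
  have h01 := twistH_apply_zero_one N q γ'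
  have h11 := twistH_apply_one_one N q γ'
  ext i j
  fin_cases i <;> fin_cases j <;>
    simp only [beta_some, Matrix.mul_apply, Fin.sum_univ_two, Matrix.of_apply, Matrix.cons_val',
      Matrix.cons_val_zero, Matrix.cons_val_one, Matrix.cons_val_fin_one, Fin.zero_eta,
      Fin.mk_one, ZMod.val_zero, Nat.cast_zero, zero_mul, zero_add, one_mul, mul_zero, add_zero,
      mul_one, h00, h01, h10, h11]
  · ring
  · ring

/-- the twisted group fixes `0`, and the cocycle there is the inverse twist. -/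
theorem perm_coc_zero_twistH (γ' : Gamma0 (N * q)) :
    perm ((twistH N q γ' : Gamma0 N) : SL(2, ℤ)) (some (0 : ZMod q)) = some 0 ∧
      coc ((twistH N q γ' : Gamma0 N) : SL(2, ℤ)) (some (0 : ZMod q)) = (γ' : SL(2, ℤ)) :=
  eq_of_beta_mul (beta_zero_mul_twistH γ')

theorem inclH_eq_cocG (hqN : ¬ q ∣ N) (γ' : Gamma0 (N * q)) :
    inclH N q γ' = cocG hqN (twistH N q γ') (some (0 : ZMod q)) := by
  apply Subtype.ext
  rw [coe_cocG, coe_inclH, (perm_coc_zero_twistH γ').2]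

/-- the range of the twist is the stabiliser of `0`. -/
theorem mem_range_twistH_iff (g : Gamma0 N) :
    g ∈ (twistH N q).range ↔ permG g (some (0 : ZMod q)) = some 0 := by
  constructor
  · rintro ⟨γ', rfl⟩
    rw [permG_apply]
    exact (perm_coc_zero_twistH γ').1
  · intro h
    rw [permG_apply] at h
    have hb := beta_mul (g : SL(2, ℤ)) (some (0 : ZMod q))
    rw [h] at hb
    have e00 := congrFun (congrFun hb 0) 0
    have e01 := congrFun (congrFun hb 0) 1
    have e10 := congrFun (congrFun hb 1) 0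
    have e11 := congrFun (congrFun hb 1) 1
    simp only [Matrix.mul_apply, Fin.sum_univ_two, beta_some, Matrix.of_apply, Matrix.cons_val',
      Matrix.cons_val_zero, Matrix.cons_val_one, Matrix.cons_val_fin_one, zero_mul, zero_add,
      one_mul, mul_zero, add_zero, mul_one, ZMod.val_zero, Nat.cast_zero] at e00 e01 e10 e11
    have hq0 : (q : ℤ) ≠ 0 := by exact_mod_cast NeZero.ne q
    have hNd : (N : ℤ) ∣ ((g : SL(2, ℤ)) : Matrix (Fin 2) (Fin 2) ℤ) 1 0 := by
      have := g.2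
      rw [Gamma0_mem] at this
      exact (ZMod.intCast_zmod_eq_zero_iff_dvd _ N).mp this
    have hmem : coc (g : SL(2, ℤ)) (some (0 : ZMod q)) ∈ Gamma0 (N * q) := by
      rw [Gamma0_mem, ZMod.intCast_zmod_eq_zero_iff_dvd, ← e10]
      push_cast
      obtain ⟨c, hc⟩ := hNd
      exact ⟨c, by rw [hc]; ring⟩
    refine ⟨⟨coc (g : SL(2, ℤ)) (some (0 : ZMod q)), hmem⟩, ?_⟩
    apply Subtype.ext
    apply Subtype.ext
    rw [coe_twistH]
    have h11' : (coc (g : SL(2, ℤ)) (some (0 : ZMod q)) : Matrix (Fin 2) (Fin 2) ℤ) 1 1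
        = ((g : SL(2, ℤ)) : Matrix (Fin 2) (Fin 2) ℤ) 1 1 :=
      mul_left_cancel₀ hq0 (by rw [e11]; ring)
    have h10' : (coc (g : SL(2, ℤ)) (some (0 : ZMod q)) : Matrix (Fin 2) (Fin 2) ℤ) 1 0 / (q : ℤ)
        = ((g : SL(2, ℤ)) : Matrix (Fin 2) (Fin 2) ℤ) 1 0 := by
      rw [← e10, Int.mul_ediv_cancel_left _ hq0]
    have h01' : (q : ℤ) * (coc (g : SL(2, ℤ)) (some (0 : ZMod q)) : Matrix (Fin 2) (Fin 2) ℤ) 0 1
        = ((g : SL(2, ℤ)) : Matrix (Fin 2) (Fin 2) ℤ) 0 1 := by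
      rw [e01]; ring
    ext i j
    fin_cases i <;> fin_cases j
    · show twistMat q _ 0 0 = _
      simp only [twistMat, Matrix.of_apply, Matrix.cons_val_zero]
      exact e00.symm
    · show twistMat q _ 0 1 = _
      simp only [twistMat, Matrix.of_apply, Matrix.cons_val_zero, Matrix.cons_val_one]
      exact h01'
    · show twistMat q _ 1 0 = _
      simp only [twistMat, Matrix.of_apply, Matrix.cons_val_zero, Matrix.cons_val_one]
      exact h10'
    · show twistMat q _ 1 1 = _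
      simp only [twistMat, Matrix.of_apply, Matrix.cons_val_one]
      exact h11'

end Gamma0

/-! ### the four relations -/

section Relations

theorem card_option_zmod (q : ℕ) [NeZero q] : Fintype.card (Option (ZMod q)) = q + 1 := by
  rw [Fintype.card_option, ZMod.card]

variable {q : ℕ} [hq : Fact q.Prime] [NeZero q] {N : ℕ} [NeZero N] (hqN : ¬ q ∣ N)
  {A : Type*} [AddCommGroup A]

include hqN

/-- `t₁ ∘ i₂ = T_q`, pointwise. -/
theorem t1_i2_apply (φ : Additive (Gamma0 N) →+ A) (γ : Gamma0 N) :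
    t1 N q (i2 N q φ) (Additive.ofMul γ) = tdcAdd hqN φ (Additive.ofMul γ) := by
  rw [tdcAdd_apply]
  exact coresAdd_resAdd_eq_sum (fun g i => permG g i) (fun i => permG_one i)
    (fun γ δ i => permG_mul γ δ i) (cocG hqN) (cocG_mul hqN) none (exists_permG_none hqN)
    (inclH N q) (inclH_injective N q) (mem_range_inclH_iff hqN) (twistH N q)
    (twistH_eq_cocG hqN) φ γ

/-- `t₁ ∘ i₂ = T_q`. -/
theorem t1_i2 (φ : Additive (Gamma0 N) →+ A) : t1 N q (i2 N q φ) = tdcAdd hqN φ :=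
  AddMonoidHom.ext fun γ => t1_i2_apply hqN φ (Additive.toMul γ)

/-- `t₂ ∘ i₁ = T_q`, pointwise. -/
theorem t2_i1_apply (φ : Additive (Gamma0 N) →+ A) (γ : Gamma0 N) :
    t2 N q (i1 N q φ) (Additive.ofMul γ) = tdcAdd hqN φ (Additive.ofMul γ) := by
  rw [tdcAdd_apply]
  exact coresAdd_resAdd_eq_sum (fun g i => permG g i) (fun i => permG_one i)
    (fun γ δ i => permG_mul γ δ i) (cocG hqN) (cocG_mul hqN) (some (0 : ZMod q))
    (exists_permG_zero hqN) (twistH N q) (twistH_injective N q) mem_range_twistH_iff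
    (inclH N q) (inclH_eq_cocG hqN) φ γ

/-- `t₂ ∘ i₁ = T_q`. -/
theorem t2_i1 (φ : Additive (Gamma0 N) →+ A) : t2 N q (i1 N q φ) = tdcAdd hqN φ :=
  AddMonoidHom.ext fun γ => t2_i1_apply hqN φ (Additive.toMul γ)

/-- `t₁ ∘ i₁ = q + 1`, pointwise. -/
theorem t1_i1_apply (φ : Additive (Gamma0 N) →+ A) (γ : Gamma0 N) :
    t1 N q (i1 N q φ) (Additive.ofMul γ) = (q + 1) • φ (Additive.ofMul γ) := by
  have h := coresAdd_resAdd_eq_sum (fun g i => permG g i) (fun i => permG_one i)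
    (fun γ δ i => permG_mul γ δ i) (fun (g : Gamma0 N) (_ : Option (ZMod q)) => g)
    (fun _ _ _ => rfl) none (exists_permG_none hqN)
    (inclH N q) (inclH_injective N q) (mem_range_inclH_iff hqN) (inclH N q)
    (fun _ => rfl) φ γ
  rw [Finset.sum_const, Finset.card_univ, card_option_zmod] at h
  exact h

/-- `t₁ ∘ i₁ = q + 1`. -/
theorem t1_i1 (φ : Additive (Gamma0 N) →+ A) : t1 N q (i1 N q φ) = (q + 1) • φ :=
  AddMonoidHom.ext fun γ => t1_i1_apply hqN φ (Additive.toMul γ)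

/-- `t₂ ∘ i₂ = q + 1`, pointwise. -/
theorem t2_i2_apply (φ : Additive (Gamma0 N) →+ A) (γ : Gamma0 N) :
    t2 N q (i2 N q φ) (Additive.ofMul γ) = (q + 1) • φ (Additive.ofMul γ) := by
  have h := coresAdd_resAdd_eq_sum (fun g i => permG g i) (fun i => permG_one i)
    (fun γ δ i => permG_mul γ δ i) (fun (g : Gamma0 N) (_ : Option (ZMod q)) => g)
    (fun _ _ _ => rfl) (some (0 : ZMod q)) (exists_permG_zero hqN)
    (twistH N q) (twistH_injective N q) mem_range_twistH_iff (twistH N q)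
    (fun _ => rfl) φ γ
  rw [Finset.sum_const, Finset.card_univ, card_option_zmod] at h
  exact h

/-- `t₂ ∘ i₂ = q + 1`. -/
theorem t2_i2 (φ : Additive (Gamma0 N) →+ A) : t2 N q (i2 N q φ) = (q + 1) • φ :=
  AddMonoidHom.ext fun γ => t2_i2_apply hqN φ (Additive.toMul γ)

/-! ### on parabolic homomorphisms -/

variable (R : Type*) [Semiring R] [Module R A]

theorem t1Par_i2Par (φ : parabolicHoms R (Gamma0 N) A) :
    t1Par N q R A (i2Par N q R A φ) = tdcPar hqN R A φ :=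
  Subtype.ext (t1_i2 hqN φ.1)

theorem t2Par_i1Par (φ : parabolicHoms R (Gamma0 N) A) :
    t2Par N q R A (i1Par N q R A φ) = tdcPar hqN R A φ :=
  Subtype.ext (t2_i1 hqN φ.1)

theorem t1Par_i1Par (φ : parabolicHoms R (Gamma0 N) A) :
    t1Par N q R A (i1Par N q R A φ) = (q + 1) • φ :=
  Subtype.ext (t1_i1 hqN φ.1)

theorem t2Par_i2Par (φ : parabolicHoms R (Gamma0 N) A) :
    t2Par N q R A (i2Par N q R A φ) = (q + 1) • φ :=
  Subtype.ext (t2_i2 hqN φ.1)

/-- the lattice form of `t₁ ∘ i₁ = q + 1`. -/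
theorem t1Par_i1Par_int (y : parabolicHoms ℤ (Gamma0 N) ℤ) :
    t1Par N q ℤ ℤ (i1Par N q ℤ ℤ y) = ((q : ℤ) + 1) • y := by
  rw [t1Par_i1Par hqN ℤ y]
  have : ((q : ℤ) + 1) = ((q + 1 : ℕ) : ℤ) := by push_cast; rfl
  rw [this, natCast_zsmul]

/-- the lattice form of `t₂ ∘ i₂ = q + 1`. -/
theorem t2Par_i2Par_int (y : parabolicHoms ℤ (Gamma0 N) ℤ) :
    t2Par N q ℤ ℤ (i2Par N q ℤ ℤ y) = ((q : ℤ) + 1) • y := by
  rw [t2Par_i2Par hqN ℤ y]
  have : ((q : ℤ) + 1) = ((q + 1 : ℕ) : ℤ) := by push_cast; rfl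
  rw [this, natCast_zsmul]

end Relations

end Fermat.Agent.ES.LR.DegRel28
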