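/-
Program L (S41), CORE assembly, part 1 (helper8): from "the annihilator of the `q`-new lattice
`K` lies in `ker θ`" to an eigenvector in `ℂ ⊗ K` whose system of eigenvalues is congruent to
`θ` (abstract Deligne–Serre lifting, `S49/CommAlg.exists_eigenvector_lift`).

* `polyAct T hT : MvPolynomial ι ℤ →ₐ[ℤ] Module.End ℤ M` — the action of the polynomial ring
  through a commuting family of endomorphisms;
* `exists_eigensystem_of_ann` — the lifting statement.
-/
import Mathlib
import Fermat.Agent.S49.CommAlg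

set_option autoImplicit false

open scoped TensorProduct

namespace Fermat.Agent.ES.LR.DSNew8

/-! ### The polynomial ring acting through a commuting family -/

section PolyAct

variable {M : Type*} [AddCommGroup M] {ι : Type*} (T : ι → Module.End ℤ M)
  (hT : ∀ i j, Commute (T i) (T j))

include hT in
theorem comm_range : ∀ a ∈ Set.range T, ∀ b ∈ Set.range T, a * b = b * a := by
  rintro _ ⟨i, rfl⟩ _ ⟨j, rfl⟩
  exact hT i j

/-- The action of `ℤ[X_i]` on `M` through the commuting family `T`. -/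
noncomputable def polyAct : MvPolynomial ι ℤ →ₐ[ℤ] Module.End ℤ M :=
  letI : CommRing (Algebra.adjoin ℤ (Set.range T)) :=
    Algebra.adjoinCommRingOfComm ℤ (comm_range T hT)
  (Algebra.adjoin ℤ (Set.range T)).val.comp
    (MvPolynomial.aeval fun i =>
      (⟨T i, Algebra.subset_adjoin ⟨i, rfl⟩⟩ : Algebra.adjoin ℤ (Set.range T)))

@[simp] theorem polyAct_X (i : ι) : polyAct T hT (MvPolynomial.X i) = T i := by
  unfold polyAct
  simp

theorem polyAct_commute (s s' : MvPolynomial ι ℤ) :
    Commute (polyAct T hT s) (polyAct T hT s') := by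
  unfold Commute SemiconjBy
  rw [← map_mul, ← map_mul, mul_comm]

theorem polyAct_C (n : ℤ) : polyAct T hT (MvPolynomial.C n) = n • (1 : Module.End ℤ M) := by
  rw [← MvPolynomial.algebraMap_eq, AlgHom.commutes, Algebra.algebraMap_eq_smul_one]

/-- Intertwining: a linear map commuting with the generators commutes with the whole action. -/
theorem polyAct_intertwine {M' : Type*} [AddCommGroup M'] (T' : ι → Module.End ℤ M')
    (hT' : ∀ i j, Commute (T' i) (T' j)) (f : M →ₗ[ℤ] M')
    (hf : ∀ i x, f (T i x) = T' i (f x)) (s : MvPolynomial ι ℤ) (x : M) :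
    f (polyAct T hT s x) = polyAct T' hT' s (f x) := by
  induction s using MvPolynomial.induction_on generalizing x with
  | C n => simp
  | add s s' hs hs' => simp [map_add, hs, hs']
  | mul_X s i hs =>
    rw [map_mul, map_mul, polyAct_X, polyAct_X, Module.End.mul_apply, Module.End.mul_apply,
      hs, hf]

end PolyAct

/-! ### Deligne–Serre lifting on a stable sublattice -/

section Lift

variable {X : Type*} [AddCommGroup X] [Module.Free ℤ X] [Module.Finite ℤ X]
  {ι : Type*} (TX : ι → Module.End ℤ X) (hTX : ∀ i j, Commute (TX i) (TX j))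

/-- The character "`X_i ↦ a i mod p`" of the polynomial ring. -/
noncomputable def evalChar (p : ℕ) (a : ι → ℤ) : MvPolynomial ι ℤ →+* ZMod p :=
  MvPolynomial.eval₂Hom (Int.castRingHom (ZMod p)) fun i => ((a i : ℤ) : ZMod p)

instance flat_int_complex : Module.Flat ℤ ℂ := by
  rw [IsDedekindDomain.flat_iff_torsion_eq_bot, ← Submodule.isTorsionFree_iff_torsion_eq_bot]
  infer_instance

/-- `K → ℂ ⊗ K` is injective for a torsion-free `K`. -/
theorem mk_one_injective (K : Type*) [AddCommGroup K] [Module.Free ℤ K] :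
    Function.Injective (TensorProduct.mk ℤ ℂ K 1) := by
  have h1 : Function.Injective (algebraMap ℤ ℂ) := (algebraMap ℤ ℂ).injective_int
  have := Module.Flat.rTensor_preserves_injective_linearMap (M := K)
    (Algebra.linearMap ℤ ℂ) h1
  intro x y hxy
  apply (TensorProduct.lid ℤ K).symm.injective
  apply this
  simpa using hxy

theorem baseChangeHom_eq (K : Type*) [AddCommGroup K] (f : Module.End ℤ K) :
    Module.End.baseChangeHom ℤ ℂ K f = f.baseChange ℂ := rfl

theorem baseChangeHom_injective (K : Type*) [AddCommGroup K] [Module.Free ℤ K] :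
    Function.Injective (Module.End.baseChangeHom ℤ ℂ K) := by
  rw [injective_iff_map_eq_zero]
  intro f hf
  ext x
  apply mk_one_injective K
  rw [baseChangeHom_eq] at hf
  have := LinearMap.congr_fun hf ((1 : ℂ) ⊗ₜ[ℤ] x)
  rw [LinearMap.baseChange_tmul] at this
  simpa using this

/-- **Deligne–Serre lifting on a Hecke-stable sublattice.**  If every polynomial in the `T_i`
killing `K` lies in the kernel of the character `X_i ↦ a i mod p`, there is an eigenvector in
`ℂ ⊗ K` with eigenvalues `lam i ≡ a i` modulo a maximal ideal over `p`. -/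
theorem exists_eigensystem_of_ann {p : ℕ} (hp : p.Prime) (a : ι → ℤ) (K : Submodule ℤ X)
    (hK : ∀ i, ∀ x ∈ K, TX i x ∈ K)
    (hAnn : ∀ s : MvPolynomial ι ℤ, (∀ x ∈ K, polyAct TX hTX s x = 0) → evalChar p a s = 0) :
    ∃ (lam : ι → integralClosure ℤ ℂ) (𝔪' : Ideal (integralClosure ℤ ℂ)) (u : ℂ ⊗[ℤ] K),
      𝔪'.IsMaximal ∧ (p : integralClosure ℤ ℂ) ∈ 𝔪' ∧ u ≠ 0 ∧
      (∀ i, ((TX i).restrict (hK i)).baseChange ℂ u =
        ((lam i : integralClosure ℤ ℂ) : ℂ) • u) ∧
      ∀ i, lam i - ((a i : ℤ) : integralClosure ℤ ℂ) ∈ 𝔪' := by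
  classical
  have : Fact p.Prime := ⟨hp⟩
  -- the restricted operators
  set TK : ι → Module.End ℤ K := fun i => (TX i).restrict (hK i) with hTKdef
  have hTK : ∀ i j, Commute (TK i) (TK j) := by
    intro i j
    ext x
    have := LinearMap.congr_fun (hTX i j).eq (x : X)
    simpa [TK, Module.End.mul_apply] using this
  -- polynomials killing `K`
  have hker : ∀ s, polyAct TK hTK s = 0 → evalChar p a s = 0 := by
    intro s hs
    apply hAnn s
    intro x hx
    have h1 := polyAct_intertwine TK hTK TX hTX K.subtype (fun i y => rfl) s ⟨x, hx⟩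
    rw [hs] at h1
    simpa using h1.symm
  -- the quotient ring acting faithfully on `K`
  let ρK : MvPolynomial ι ℤ →+* Module.End ℤ K := (polyAct TK hTK : _ →+* _)
  let A := MvPolynomial ι ℤ ⧸ RingHom.ker ρK
  let ρb : A →+* Module.End ℤ K := RingHom.kerLift ρK
  have hρb : Function.Injective ρb := RingHom.kerLift_injective ρK
  have : Module.Finite ℤ A :=
    Module.Finite.of_injective (ρb.toIntAlgHom.toLinearMap) hρb
  -- the character on the quotient
  let θb : A →+* ZMod p := Ideal.Quotient.lift (RingHom.ker ρK) (evalChar p a)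
    (fun s hs => hker s (RingHom.mem_ker.mp hs))
  -- the complex representation
  let ρ : A →+* Module.End ℂ (ℂ ⊗[ℤ] K) :=
    ((Module.End.baseChangeHom ℤ ℂ K : _ →ₐ[ℤ] _) : _ →+* _).comp ρb
  have hρ : Function.Injective ρ := (baseChangeHom_injective K).comp hρb
  have : (RingHom.ker θb).IsPrime := RingHom.ker_isPrime θb
  obtain ⟨w, χ, 𝔪', hw, heig, hmax, hle⟩ :=
    Fermat.Agent.S49.exists_eigenvector_lift ρ hρ (RingHom.ker θb)
  refine ⟨fun i => χ (Ideal.Quotient.mk _ (MvPolynomial.X i)), 𝔪', w, hmax, ?_, hw, ?_, ?_⟩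
  · have h1 : ((p : ℕ) : A) ∈ RingHom.ker θb := by
      rw [RingHom.mem_ker, map_natCast]
      exact ZMod.natCast_self p
    have h2 := hle h1
    rwa [Ideal.mem_comap, map_natCast] at h2
  · intro i
    have := heig (Ideal.Quotient.mk _ (MvPolynomial.X i))
    rw [← this]
    have e1 : ρ (Ideal.Quotient.mk _ (MvPolynomial.X i)) = (TK i).baseChange ℂ := by
      change Module.End.baseChangeHom ℤ ℂ K (ρb (Ideal.Quotient.mk _ (MvPolynomial.X i))) = _
      rw [baseChangeHom_eq]
      congr 1
      change RingHom.kerLift ρK (Ideal.Quotient.mk _ (MvPolynomial.X i)) = _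
      rw [RingHom.kerLift_mk]
      exact polyAct_X TK hTK i
    rw [e1]
  · intro i
    have h1 : Ideal.Quotient.mk (RingHom.ker ρK) (MvPolynomial.X i) - ((a i : ℤ) : A) ∈
        RingHom.ker θb := by
      rw [RingHom.mem_ker, map_sub, map_intCast]
      change evalChar p a (MvPolynomial.X i) - _ = 0
      simp [evalChar]
    have h2 := hle h1
    rwa [Ideal.mem_comap, map_sub, map_intCast] at h2

/-- **CORE, step (f).**  The same with `K = ker t1 ⊓ ker t2`, the eigenvector being transported
to `ℂ ⊗ X` (the shape of `exists_new_eigensystem` in L_PLAN27). -/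
theorem exists_new_eigensystem_of_ann {p : ℕ} (hp : p.Prime) {Y : Type*} [AddCommGroup Y]
    (a : ι → ℤ) (t1 t2 : X →ₗ[ℤ] Y)
    (hK : ∀ i x, t1 x = 0 → t2 x = 0 → t1 (TX i x) = 0 ∧ t2 (TX i x) = 0)
    (hAnn : ∀ s : MvPolynomial ι ℤ,
      (∀ x, t1 x = 0 → t2 x = 0 → polyAct TX hTX s x = 0) → evalChar p a s = 0) :
    ∃ (lam : ι → integralClosure ℤ ℂ) (𝔪' : Ideal (integralClosure ℤ ℂ)) (w : ℂ ⊗[ℤ] X),
      𝔪'.IsMaximal ∧ (p : integralClosure ℤ ℂ) ∈ 𝔪' ∧ w ≠ 0 ∧
      t1.baseChange ℂ w = 0 ∧ t2.baseChange ℂ w = 0 ∧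
      (∀ i, (TX i).baseChange ℂ w = ((lam i : integralClosure ℤ ℂ) : ℂ) • w) ∧
      ∀ i, lam i - ((a i : ℤ) : integralClosure ℤ ℂ) ∈ 𝔪' := by
  set K : Submodule ℤ X := LinearMap.ker t1 ⊓ LinearMap.ker t2 with hKdef
  have hmemK : ∀ x, x ∈ K ↔ t1 x = 0 ∧ t2 x = 0 := fun x => by
    rw [hKdef, Submodule.mem_inf, LinearMap.mem_ker, LinearMap.mem_ker]
  have hKstab : ∀ i, ∀ x ∈ K, TX i x ∈ K := fun i x hx =>
    (hmemK _).mpr (hK i x ((hmemK x).mp hx).1 ((hmemK x).mp hx).2)
  obtain ⟨lam, 𝔪', u, hmax, hp𝔪, hu, heig, hcong⟩ :=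
    exists_eigensystem_of_ann TX hTX hp a K hKstab
      (fun s hs => hAnn s fun x h1 h2 => hs x ((hmemK x).mpr ⟨h1, h2⟩))
  refine ⟨lam, 𝔪', K.subtype.baseChange ℂ u, hmax, hp𝔪, ?_, ?_, ?_, ?_, hcong⟩
  · have hinj : Function.Injective (K.subtype.baseChange ℂ) := by
      rw [LinearMap.baseChange_eq_ltensor]
      exact Module.Flat.lTensor_preserves_injective_linearMap K.subtype K.injective_subtype
    intro h0
    exact hu (hinj (h0.trans (map_zero _).symm))
  · rw [← LinearMap.comp_apply, ← LinearMap.baseChange_comp]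
    have : t1 ∘ₗ K.subtype = 0 := by
      ext x
      exact ((hmemK x).mp x.2).1
    rw [this, LinearMap.baseChange_zero, LinearMap.zero_apply]
  · rw [← LinearMap.comp_apply, ← LinearMap.baseChange_comp]
    have : t2 ∘ₗ K.subtype = 0 := by
      ext x
      exact ((hmemK x).mp x.2).2
    rw [this, LinearMap.baseChange_zero, LinearMap.zero_apply]
  · intro i
    rw [← LinearMap.comp_apply, ← LinearMap.baseChange_comp]
    have : TX i ∘ₗ K.subtype = K.subtype ∘ₗ (TX i).restrict (hKstab i) := by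
      ext x
      rfl
    rw [this, LinearMap.baseChange_comp, LinearMap.comp_apply, heig i, map_smul]

end Lift

end Fermat.Agent.ES.LR.DSNew8
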