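/-
Program L (S41), CORE (C-B) in helper4's literal shape (helper8): `DSNew8` restated with
`AevalComm4.aevalComm` and the divisibility form `(p:ℤ) ∣ MvPolynomial.eval a s` of the character.
-/
import Mathlib
import Fermat.Agent.ES.LR.DSNew8
import Fermat.Agent.ES.LR.AevalComm4

set_option autoImplicit false

open scoped TensorProduct

namespace Fermat.Agent.ES.LR.DSNewB8

open Fermat.Agent.ES.LR.DSNew8 Fermat.Agent.ES.LR.AevalComm4

theorem polyAct_eq_aevalComm {M : Type*} [AddCommGroup M] {ι : Type*}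
    (T : ι → Module.End ℤ M) (hT : ∀ i j, Commute (T i) (T j)) :
    polyAct T hT = aevalComm (O := ℤ) T hT :=
  MvPolynomial.algHom_ext fun i => by rw [polyAct_X, aevalComm_X]

theorem evalChar_apply {ι : Type*} (p : ℕ) (a : ι → ℤ) (s : MvPolynomial ι ℤ) :
    evalChar p a s = ((MvPolynomial.eval a s : ℤ) : ZMod p) := by
  unfold evalChar
  induction s using MvPolynomial.induction_on with
  | C n => simp
  | add s t hs ht => simp only [map_add, hs, ht, Int.cast_add]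
  | mul_X s i hs => simp only [map_mul, hs, Int.cast_mul, MvPolynomial.eval₂Hom_X',
      MvPolynomial.eval_X]

theorem evalChar_eq_zero_iff {ι : Type*} (p : ℕ) (a : ι → ℤ) (s : MvPolynomial ι ℤ) :
    evalChar p a s = 0 ↔ (p : ℤ) ∣ MvPolynomial.eval a s := by
  rw [evalChar_apply, ZMod.intCast_zmod_eq_zero_iff_dvd]

/-- **CORE (C-B), literal.** -/
theorem exists_eigensystem_of_ann {p : ℕ} (hp : p.Prime) {X : Type*} [AddCommGroup X]
    [Module.Free ℤ X] [Module.Finite ℤ X] {ι : Type*}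
    (TX : ι → Module.End ℤ X) (hTX : ∀ i j, Commute (TX i) (TX j)) (a : ι → ℤ)
    (K : Submodule ℤ X) (hK : ∀ i, ∀ x ∈ K, TX i x ∈ K)
    (hann : ∀ s : MvPolynomial ι ℤ, (∀ x ∈ K, aevalComm (O := ℤ) TX hTX s x = 0) →
      (p : ℤ) ∣ MvPolynomial.eval a s) :
    ∃ (lam : ι → integralClosure ℤ ℂ) (𝔪' : Ideal (integralClosure ℤ ℂ)) (w : ℂ ⊗[ℤ] X),
      𝔪'.IsMaximal ∧ (p : integralClosure ℤ ℂ) ∈ 𝔪' ∧ w ≠ 0 ∧
      w ∈ LinearMap.range (K.subtype.baseChange ℂ) ∧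
      (∀ i, (TX i).baseChange ℂ w = ((lam i : integralClosure ℤ ℂ) : ℂ) • w) ∧
      ∀ i, lam i - ((a i : ℤ) : integralClosure ℤ ℂ) ∈ 𝔪' := by
  obtain ⟨lam, 𝔪', u, hmax, hp𝔪, hu, heig, hcong⟩ :=
    DSNew8.exists_eigensystem_of_ann TX hTX hp a K hK (fun s hs => by
      rw [evalChar_eq_zero_iff]
      apply hann s
      intro x hx
      rw [← polyAct_eq_aevalComm]
      exact hs x hx)
  refine ⟨lam, 𝔪', K.subtype.baseChange ℂ u, hmax, hp𝔪, ?_, ⟨u, rfl⟩, ?_, hcong⟩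
  · have hinj : Function.Injective (K.subtype.baseChange ℂ) := by
      rw [LinearMap.baseChange_eq_ltensor]
      exact Module.Flat.lTensor_preserves_injective_linearMap K.subtype K.injective_subtype
    intro h0
    exact hu (hinj (h0.trans (map_zero _).symm))
  · intro i
    rw [← LinearMap.comp_apply, ← LinearMap.baseChange_comp]
    have : TX i ∘ₗ K.subtype = K.subtype ∘ₗ (TX i).restrict (hK i) := by
      ext x
      rfl
    rw [this, LinearMap.baseChange_comp, LinearMap.comp_apply, heig i, map_smul]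

/-- With `K = ker t1 ⊓ ker t2`: the conclusion of L_PLAN27's `exists_new_eigensystem`. -/
theorem exists_new_eigensystem_of_ann {p : ℕ} (hp : p.Prime) {X : Type*} [AddCommGroup X]
    [Module.Free ℤ X] [Module.Finite ℤ X] {ι : Type*} {Y : Type*} [AddCommGroup Y]
    (TX : ι → Module.End ℤ X) (hTX : ∀ i j, Commute (TX i) (TX j)) (a : ι → ℤ)
    (t1 t2 : X →ₗ[ℤ] Y)
    (hK : ∀ i x, t1 x = 0 → t2 x = 0 → t1 (TX i x) = 0 ∧ t2 (TX i x) = 0)
    (hann : ∀ s : MvPolynomial ι ℤ,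
      (∀ x : X, t1 x = 0 → t2 x = 0 → aevalComm (O := ℤ) TX hTX s x = 0) →
      (p : ℤ) ∣ MvPolynomial.eval a s) :
    ∃ (lam : ι → integralClosure ℤ ℂ) (𝔪' : Ideal (integralClosure ℤ ℂ)) (w : ℂ ⊗[ℤ] X),
      𝔪'.IsMaximal ∧ (p : integralClosure ℤ ℂ) ∈ 𝔪' ∧ w ≠ 0 ∧
      t1.baseChange ℂ w = 0 ∧ t2.baseChange ℂ w = 0 ∧
      (∀ i, (TX i).baseChange ℂ w = ((lam i : integralClosure ℤ ℂ) : ℂ) • w) ∧
      ∀ i, lam i - ((a i : ℤ) : integralClosure ℤ ℂ) ∈ 𝔪' := by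
  set K : Submodule ℤ X := LinearMap.ker t1 ⊓ LinearMap.ker t2 with hKdef
  have hmemK : ∀ x, x ∈ K ↔ t1 x = 0 ∧ t2 x = 0 := fun x => by
    rw [hKdef, Submodule.mem_inf, LinearMap.mem_ker, LinearMap.mem_ker]
  have hKstab : ∀ i, ∀ x ∈ K, TX i x ∈ K := fun i x hx =>
    (hmemK _).mpr (hK i x ((hmemK x).mp hx).1 ((hmemK x).mp hx).2)
  obtain ⟨lam, 𝔪', w, hmax, hp𝔪, hw, ⟨u, rfl⟩, heig, hcong⟩ :=
    exists_eigensystem_of_ann hp TX hTX a K hKstab
      (fun s hs => hann s fun x h1 h2 => hs x ((hmemK x).mpr ⟨h1, h2⟩))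
  refine ⟨lam, 𝔪', _, hmax, hp𝔪, hw, ?_, ?_, heig, hcong⟩
  · rw [← LinearMap.comp_apply, ← LinearMap.baseChange_comp]
    have : t1 ∘ₗ K.subtype = 0 := by
      ext x
      exact ((hmemK x).mp x.2).1
    rw [this, LinearMap.baseChange_zero, LinearMap.zero_apply]
  · rw [← LinearMap.comp_apply, ← LinearMap.baseChange_comp]
    have : t2 ∘ₗ K.subtype = 0 := by
      ext x
      exact ((hmemK x).mp x.2).2
    rw [this, LinearMap.baseChange_zero, LinearMap.zero_apply]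

end Fermat.Agent.ES.LR.DSNewB8
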