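import Mathlib

/-!
# Ribet's lattice argument for level raising, abstractly (S41, chapter (R), algebra core)

Mathlib only.  `O` is a PID with a prime element `ϖ` (for S41: `O = ℤ`, `ϖ = p`), `R` a commutative
`O`-algebra (the abstract Hecke ring, e.g. a polynomial ring in the `T_ℓ`), `𝔫` a prime ideal of `R`
containing `ϖ`; `A`, `L` are finite free `O`-modules with `R`-actions `ρA`, `ρL` (for S41:
`A = Λ_N × Λ_N`, `L = Λ_{Nq'}`), `α : A → L` is `R`-equivariant with adjoint `α' : L → A` for two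
bilinear forms `bA`, `bL` for which `R` acts by self-adjoint operators.

* `levelRaise`: if `bA` is nondegenerate, `bL` is nondegenerate modulo `ϖ`, `α' ∘ α` is injective,
  `ker (α mod ϖ)` is killed by some `e ∉ 𝔫` (Ihara's lemma + non-Eisenstein) and `𝔫` is in the
  support of `A / α'αA` (the level raising congruence), then `𝔫` is in the support of `ker α'`
  (the "new" lattice): every `s : R` killing `ker α'` lies in `𝔫`.
* `not_forall_exists_eq_of_eigenfunctional` (Lemma E): the support hypothesis follows from a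
  nonzero eigen-functional `ψ` of `R` and of `D = α'α`, whose `D`-eigenvalue lies in `𝔪`,
  for `𝔫 = χ⁻¹(𝔪)`.
* `levelRaise_of_eigenfunctional`, `levelRaise_int`: the two combined; the second one is the
  `O = ℤ`, `ϖ = p`, `ψ : A → ℂ`, `χ : R → integralClosure ℤ ℂ` instance.

No localisation, completion or idempotents are used: supports are handled through elements
`s ∉ 𝔫`, Cayley–Hamilton and one Gram determinant.

Proof of `levelRaise`.  Suppose `s₀ ∉ 𝔫` kills `K = ker α'`.  (1) `m A ⊆ α'α A` for some `m ≠ 0`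
(adjugate).  (2) For `y ∈ L` write `m s₀ y = α x + k` with `k ∈ K`; then `k ⊥ K` (as `s₀` is
self-adjoint and kills `K`), `k ⊥ α A` (adjointness) and `m L ⊆ α A + K`, so `k ⊥ L`, `k = 0`.
(3) `m = ϖ^j m'` with `ϖ ∤ m'`; Ihara iterated gives `ϖ^j y ∈ α A ⇒ e^j y ∈ α A`, hence
`s₁ L ⊆ α A` for `s₁ = e^j m' s₀ ∉ 𝔫`.  (4) For `x ∈ A` the functional `y ↦ bA(x, α⁻¹(s₁ y))` on `L`
is `bL(y₀, ·)` up to the Gram determinant `d` (prime to `ϖ`), whence `α' y₀ = d s₁ x`.
(5) `s₁ d s₁ A ⊆ α'(s₁ L) ⊆ α'α A`, contradicting the support hypothesis.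
-/

set_option autoImplicit false

namespace Fermat.Agent.ES.LR.LatticeRaise4

open Module Polynomial

section aux

variable {O : Type*} [CommRing O] [IsDomain O]

/-- An injective endomorphism of a finite free module over a domain has "finite index" image:
some nonzero scalar multiplies everything into the range. -/
theorem exists_ne_zero_smul_eq_apply {A : Type*} [AddCommGroup A] [Module O A] [Module.Finite O A]
    [Module.Free O A] (D : A →ₗ[O] A) (hD : Function.Injective D) :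
    ∃ m : O, m ≠ 0 ∧ ∀ x, ∃ y, m • x = D y := by
  classical
  let b := Module.Free.chooseBasis O A
  let M := LinearMap.toMatrix b b D
  have hdet : M.det ≠ 0 := by
    intro h
    obtain ⟨v, hv, hMv⟩ := Matrix.exists_mulVec_eq_zero_iff.mpr h
    apply hv
    have hx : ⇑(b.repr (b.equivFun.symm v)) = v := by
      rw [← Basis.equivFun_apply]; exact b.equivFun.apply_symm_apply v
    have h1 := LinearMap.toMatrix_mulVec_repr b b D (b.equivFun.symm v)
    rw [hx] at h1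
    have h2 : b.equivFun (D (b.equivFun.symm v)) = 0 := by
      rw [Basis.equivFun_apply, ← h1]; exact hMv
    have h3 : D (b.equivFun.symm v) = 0 := b.equivFun.map_eq_zero_iff.mp h2
    have h4 : b.equivFun.symm v = 0 := hD (by rw [h3, map_zero])
    exact b.equivFun.symm.map_eq_zero_iff.mp h4
  refine ⟨M.det, hdet, fun x => ⟨Matrix.toLin b b M.adjugate x, ?_⟩⟩
  have : D = Matrix.toLin b b M := (Matrix.toLin_toMatrix b b D).symm
  rw [this, ← LinearMap.comp_apply, ← Matrix.toLin_mul b b b, Matrix.mul_adjugate]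
  simp

end aux

section aux

variable {O : Type*} [CommRing O] [IsDomain O]

/-- A bilinear form on a finite free module over a domain which is left-nondegenerate modulo a prime
element `ϖ` is left-nondegenerate, and every functional becomes representable after multiplication
by the Gram determinant `d`, which is prime to `ϖ`. -/
theorem exists_gram_scalar {L : Type*} [AddCommGroup L] [Module O L] [Module.Finite O L]
    [Module.Free O L] {ϖ : O} (hϖ : Prime ϖ) (bL : L →ₗ[O] L →ₗ[O] O)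
    (hnd : ∀ x, (∀ y, ϖ ∣ bL x y) → ∃ x', x = ϖ • x') :
    ∃ d : O, ¬ ϖ ∣ d ∧ (∀ x, (∀ y, bL x y = 0) → x = 0) ∧
      ∀ μ : L →ₗ[O] O, ∃ y, ∀ z, bL y z = d * μ z := by
  classical
  let b := Module.Free.chooseBasis O L
  let G : Matrix (Module.Free.ChooseBasisIndex O L) (Module.Free.ChooseBasisIndex O L) O :=
    fun i j => bL (b i) (b j)
  -- the basic computation
  have hG : ∀ (c : Module.Free.ChooseBasisIndex O L → O) (j),
      bL (b.equivFun.symm c) (b j) = (Matrix.vecMul c G) j := by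
    intro c j
    rw [Basis.equivFun_symm_apply, map_sum, LinearMap.sum_apply]
    simp only [map_smul, LinearMap.smul_apply, smul_eq_mul, Matrix.vecMul, dotProduct, G]
  have hdet : ¬ ϖ ∣ G.det := by
    intro hdvd
    have hprime : (Ideal.span {ϖ}).IsPrime := (Ideal.span_singleton_prime hϖ.ne_zero).mpr hϖ
    let f : O →+* O ⧸ Ideal.span {ϖ} := Ideal.Quotient.mk _
    have hf : ∀ a : O, f a = 0 ↔ ϖ ∣ a := fun a => by
      rw [Ideal.Quotient.eq_zero_iff_mem, Ideal.mem_span_singleton]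
    have h0 : (f.mapMatrix G).det = 0 := by
      rw [← RingHom.map_det]; exact (hf _).mpr hdvd
    obtain ⟨cbar, hcbar, hc0⟩ := Matrix.exists_vecMul_eq_zero_iff.mpr h0
    apply hcbar
    choose c hc using fun i => Ideal.Quotient.mk_surjective (cbar i)
    have hdiv : ∀ j, ϖ ∣ bL (b.equivFun.symm c) (b j) := by
      intro j
      rw [hG, ← hf]
      have := congrFun hc0 j
      simp only [Matrix.vecMul, dotProduct, RingHom.mapMatrix_apply, Matrix.map_apply,
        Pi.zero_apply] at this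
      rw [← this]
      simp only [Matrix.vecMul, dotProduct, map_sum, map_mul]
      exact Finset.sum_congr rfl fun i _ => by rw [← hc i]
    obtain ⟨x', hx'⟩ := hnd (b.equivFun.symm c) (fun z => by
      rw [← b.sum_repr z, map_sum]
      exact Finset.dvd_sum fun j _ => by
        rw [map_smul, smul_eq_mul]
        exact Dvd.dvd.mul_left (hdiv j) _)
    ext i
    have h1 : c i = ϖ * b.equivFun x' i := by
      have h2 := congrArg b.equivFun hx'
      rw [LinearEquiv.apply_symm_apply, map_smul] at h2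
      have h3 := congrFun h2 i
      simpa using h3
    rw [← hc i, Pi.zero_apply]
    exact (hf _).mpr ⟨_, h1⟩
  have hdet0 : G.det ≠ 0 := fun h => hdet (h ▸ dvd_zero _)
  refine ⟨G.det, hdet, ?_, ?_⟩
  · intro x hx
    have h1 : Matrix.vecMul (b.equivFun x) G = 0 := by
      ext j
      rw [← hG, LinearEquiv.symm_apply_apply, hx, Pi.zero_apply]
    have h2 := Matrix.eq_zero_of_vecMul_eq_zero hdet0 h1
    exact b.equivFun.map_eq_zero_iff.mp h2
  · intro μ
    refine ⟨b.equivFun.symm (Matrix.vecMul (fun j => μ (b j)) G.adjugate), fun z => ?_⟩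
    have : bL (b.equivFun.symm (Matrix.vecMul (fun j => μ (b j)) G.adjugate)) = G.det • μ := by
      apply b.ext
      intro j
      rw [hG, Matrix.vecMul_vecMul, Matrix.adjugate_mul, Matrix.vecMul_smul, Matrix.vecMul_one]
      simp
    rw [this]; simp

end aux

section main

variable {O : Type*} [CommRing O] [IsDomain O] [IsPrincipalIdealRing O]

/-- In a PID, an element prime to the prime element `ϖ` stays outside every prime ideal `𝔫` of an
`O`-algebra that contains `ϖ`. -/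
theorem algebraMap_notMem_of_not_dvd {ϖ : O} (hϖ : Prime ϖ) {R : Type*} [CommRing R] [Algebra O R]
    (𝔫 : Ideal R) [h𝔫 : 𝔫.IsPrime] (hϖ𝔫 : algebraMap O R ϖ ∈ 𝔫) {d : O} (hd : ¬ ϖ ∣ d) :
    algebraMap O R d ∉ 𝔫 := by
  intro hmem
  have hmax : (Ideal.span {ϖ}).IsMaximal :=
    PrincipalIdealRing.isMaximal_of_irreducible hϖ.irreducible
  have hle : Ideal.span {ϖ} ≤ 𝔫.comap (algebraMap O R) := by
    rw [Ideal.span_singleton_le_iff_mem]; exact hϖ𝔫
  have hne : 𝔫.comap (algebraMap O R) ≠ ⊤ := (Ideal.comap_isPrime _ 𝔫).ne_top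
  have heq := hmax.eq_of_le hne hle
  have : d ∈ Ideal.span {ϖ} := by rw [heq]; exact hmem
  exact hd (Ideal.mem_span_singleton.mp this)

variable {ϖ : O} {R : Type*} [CommRing R] [Algebra O R]
  {A L : Type*} [AddCommGroup A] [Module O A] [Module.Finite O A] [Module.Free O A]
  [AddCommGroup L] [Module O L] [Module.Finite O L] [Module.Free O L]

/-- **Ribet's lattice argument (abstract level raising).** -/
theorem levelRaise (hϖ : Prime ϖ) (𝔫 : Ideal R) [h𝔫 : 𝔫.IsPrime] (hϖ𝔫 : algebraMap O R ϖ ∈ 𝔫)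
    (ρA : R →ₐ[O] Module.End O A) (ρL : R →ₐ[O] Module.End O L)
    (α : A →ₗ[O] L) (α' : L →ₗ[O] A) (hα : ∀ r x, α (ρA r x) = ρL r (α x))
    (bA : A →ₗ[O] A →ₗ[O] O) (bL : L →ₗ[O] L →ₗ[O] O)
    (hbA : ∀ r x y, bA (ρA r x) y = bA x (ρA r y))
    (hbL : ∀ r x y, bL (ρL r x) y = bL x (ρL r y))
    (hadj : ∀ x y, bL (α x) y = bA x (α' y)) (hadj' : ∀ x y, bL y (α x) = bA (α' y) x)
    (hndA : ∀ x, (∀ y, bA x y = 0) → x = 0)
    (hndL : ∀ x, (∀ y, ϖ ∣ bL x y) → ∃ x', x = ϖ • x')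
    (hinj : Function.Injective (α' ∘ₗ α))
    (hIhara : ∃ e : R, e ∉ 𝔫 ∧ ∀ x, (∃ y, α x = ϖ • y) → ∃ x', ρA e x = ϖ • x')
    (hD : ∀ s : R, s ∉ 𝔫 → ¬ ∀ x, ∃ y, ρA s x = α' (α y)) :
    ∀ s : R, (∀ y, α' y = 0 → ρL s y = 0) → s ∈ 𝔫 := by
  intro s₀ hs₀
  by_contra hs₀𝔫
  obtain ⟨e, he𝔫, hIh⟩ := hIhara
  -- `α'` is equivariant
  have hα' : ∀ r y, α' (ρL r y) = ρA r (α' y) := by
    intro r y
    have h : ∀ a, bA (α' (ρL r y) - ρA r (α' y)) a = 0 := fun a => by
      rw [map_sub, LinearMap.sub_apply, ← hadj', hbL, ← hα, hadj', hbA, sub_self]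
    exact sub_eq_zero.mp (hndA _ h)
  have hαinj : Function.Injective α := fun x y h => hinj (by simp [h])
  obtain ⟨m, hm0, hm⟩ := exists_ne_zero_smul_eq_apply (α' ∘ₗ α) hinj
  obtain ⟨d, hd, hndL', hrep⟩ := exists_gram_scalar hϖ bL hndL
  -- Step 2: `m s₀ L ⊆ α A`
  have step2 : ∀ y, ∃ x, m • ρL s₀ y = α x := by
    intro y
    obtain ⟨x, hx⟩ := hm (α' (ρL s₀ y))
    rw [LinearMap.comp_apply] at hx
    refine ⟨x, ?_⟩
    have hkK : α' (m • ρL s₀ y - α x) = 0 := by rw [map_sub, map_smul, hx, sub_self]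
    have hkK' : ∀ k', α' k' = 0 → bL (m • ρL s₀ y - α x) k' = 0 := by
      intro k' hk'
      rw [map_sub, LinearMap.sub_apply, map_smul, LinearMap.smul_apply, hbL, hs₀ k' hk', map_zero,
        smul_zero, hadj, hk', map_zero, sub_zero]
    have hkB : ∀ a, bL (m • ρL s₀ y - α x) (α a) = 0 := fun a => by
      rw [hadj', hkK, map_zero, LinearMap.zero_apply]
    have hkL : ∀ y', bL (m • ρL s₀ y - α x) y' = 0 := by
      intro y'
      obtain ⟨x', hx'⟩ := hm (α' y')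
      rw [LinearMap.comp_apply] at hx'
      have h1 : α' (m • y' - α x') = 0 := by rw [map_sub, map_smul, hx', sub_self]
      have h2 : m * bL (m • ρL s₀ y - α x) y' = 0 := by
        have h3 : m • y' = α x' + (m • y' - α x') := by abel
        calc m * bL (m • ρL s₀ y - α x) y' = bL (m • ρL s₀ y - α x) (m • y') := by
              rw [map_smul, smul_eq_mul]
          _ = 0 := by rw [h3, map_add, hkB, hkK' _ h1, add_zero]
      exact (mul_eq_zero.mp h2).resolve_left hm0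
    exact sub_eq_zero.mp (hndL' _ hkL)
  -- Step 3: Ihara, iterated
  have ihara : ∀ j : ℕ, ∀ y, (∃ a, ϖ ^ j • y = α a) → ∃ a', ρL (e ^ j) y = α a' := by
    intro j
    induction j with
    | zero =>
      rintro y ⟨a, ha⟩
      exact ⟨a, by simpa using ha⟩
    | succ j ih =>
      rintro y ⟨a, ha⟩
      obtain ⟨a₁, ha₁⟩ := hIh a ⟨ϖ ^ j • y, by rw [← ha, pow_succ', mul_smul]⟩
      have h1 : ϖ ^ j • ρL e y = α a₁ := by
        apply smul_right_injective L hϖ.ne_zero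
        show ϖ • ϖ ^ j • ρL e y = ϖ • α a₁
        rw [← map_smul α, ← ha₁, hα, ← ha, map_smul, pow_succ', mul_smul]
      obtain ⟨a', ha'⟩ := ih (ρL e y) ⟨a₁, h1⟩
      exact ⟨a', by rw [pow_succ, map_mul, Module.End.mul_apply, ha']⟩
  obtain ⟨j, m', hm', rfl⟩ := WfDvdMonoid.max_power_factor hm0 hϖ.irreducible
  have hm'𝔫 : algebraMap O R m' ∉ 𝔫 := algebraMap_notMem_of_not_dvd hϖ 𝔫 hϖ𝔫 hm'
  have hd𝔫 : algebraMap O R d ∉ 𝔫 := algebraMap_notMem_of_not_dvd hϖ 𝔫 hϖ𝔫 hd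
  have hρm' : ∀ (c : O) (y : L), ρL (algebraMap O R c) y = c • y := fun c y => by
    rw [AlgHom.commutes, Module.algebraMap_end_apply]
  have hρmA : ∀ (c : O) (x : A), ρA (algebraMap O R c) x = c • x := fun c x => by
    rw [AlgHom.commutes, Module.algebraMap_end_apply]
  -- `s₁ L ⊆ α A`
  have hs₁ : ∀ y, ∃ a, ρL (e ^ j * (algebraMap O R m' * s₀)) y = α a := by
    intro y
    obtain ⟨x, hx⟩ := step2 y
    obtain ⟨a', ha'⟩ := ihara j (m' • ρL s₀ y) ⟨x, by rw [← hx, mul_smul]⟩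
    exact ⟨a', by rw [← ha', map_mul, map_mul, Module.End.mul_apply, Module.End.mul_apply, hρm']⟩
  have hs₁𝔫 : e ^ j * (algebraMap O R m' * s₀) ∉ 𝔫 := by
    intro h
    rcases h𝔫.mem_or_mem h with h | h
    · exact he𝔫 (h𝔫.mem_of_pow_mem _ h)
    · rcases h𝔫.mem_or_mem h with h | h
      · exact hm'𝔫 h
      · exact hs₀𝔫 h
  obtain ⟨s₁, hs₁𝔫, hs₁⟩ : ∃ s₁ : R, s₁ ∉ 𝔫 ∧ ∀ y, ∃ a, ρL s₁ y = α a := ⟨_, hs₁𝔫, hs₁⟩
  -- the map `α⁻¹ ∘ s₁`
  let a : L →ₗ[O] A := (LinearEquiv.ofInjective α hαinj).symm.toLinearMap ∘ₗ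
    LinearMap.codRestrict (LinearMap.range α) (ρL s₁)
      (fun y => by obtain ⟨a, ha⟩ := hs₁ y; exact ⟨a, ha.symm⟩)
  have ha : ∀ y, α (a y) = ρL s₁ y := by
    intro y
    have := (LinearEquiv.ofInjective α hαinj).apply_symm_apply
      (LinearMap.codRestrict (LinearMap.range α) (ρL s₁)
        (fun y => by obtain ⟨a, ha⟩ := hs₁ y; exact ⟨a, ha.symm⟩) y)
    exact congrArg Subtype.val this
  have haα : ∀ x, a (α x) = ρA s₁ x := fun x => hαinj (by rw [ha, hα])
  -- Step 5: `d s₁ A ⊆ α' L`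
  have step5 : ∀ x, ∃ y, α' y = d • ρA s₁ x := by
    intro x
    obtain ⟨y₀, hy₀⟩ := hrep ((bA x) ∘ₗ a)
    refine ⟨y₀, ?_⟩
    have h : ∀ a', bA (α' y₀ - d • ρA s₁ x) a' = 0 := fun a' => by
      rw [map_sub, LinearMap.sub_apply, ← hadj', hy₀, LinearMap.comp_apply, haα, map_smul,
        LinearMap.smul_apply, hbA, smul_eq_mul, sub_self]
    exact sub_eq_zero.mp (hndA _ h)
  -- conclusion
  refine hD (s₁ * (algebraMap O R d * s₁)) ?_ ?_
  · intro h
    rcases h𝔫.mem_or_mem h with h | h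
    · exact hs₁𝔫 h
    · rcases h𝔫.mem_or_mem h with h | h
      · exact hd𝔫 h
      · exact hs₁𝔫 h
  · intro x
    obtain ⟨y₀, hy₀⟩ := step5 x
    obtain ⟨a₀, ha₀⟩ := hs₁ y₀
    refine ⟨a₀, ?_⟩
    rw [map_mul, map_mul, Module.End.mul_apply, Module.End.mul_apply, hρmA, ← hy₀, ← hα', ha₀]

end main

section eigen

variable {O : Type*} [CommRing O] {R : Type*} [CommRing R] [Algebra O R]
  {A : Type*} [AddCommGroup A] [Module O A] [Module.Finite O A]
  {S : Type*} [CommRing S] [Algebra O S]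
  {Ω : Type*} [AddCommGroup Ω] [Module S Ω] [Module O Ω] [IsScalarTower O S Ω]

/-- A monic polynomial all of whose lower coefficients lie in a prime ideal `𝔪` can only vanish at
elements of `𝔪`. -/
theorem mem_of_monic_eval_eq_zero {𝔪 : Ideal S} [h𝔪 : 𝔪.IsPrime] {P : S[X]} (hP : P.Monic)
    (hcoeff : ∀ k, k < P.natDegree → P.coeff k ∈ 𝔪) {c : S} (hc : P.eval c = 0) : c ∈ 𝔪 := by
  have h1 : P.eval c = ∑ i ∈ Finset.range P.natDegree, P.coeff i * c ^ i + c ^ P.natDegree := by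
    rw [Polynomial.eval_eq_sum_range, Finset.sum_range_succ, hP.coeff_natDegree, one_mul]
  have h2 : c ^ P.natDegree ∈ 𝔪 := by
    have h3 : c ^ P.natDegree = -∑ i ∈ Finset.range P.natDegree, P.coeff i * c ^ i := by
      rw [eq_neg_iff_add_eq_zero, add_comm, ← h1, hc]
    rw [h3]
    exact 𝔪.neg_mem (𝔪.sum_mem fun i hi => 𝔪.mul_mem_right _ (hcoeff i (Finset.mem_range.mp hi)))
  exact h𝔪.mem_of_pow_mem _ h2

/-- **Lemma E.** If a nonzero eigen-functional `ψ` of the Hecke ring `R` on the lattice `A`, with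
eigencharacter `χ`, is also an eigen-functional of `D` with eigenvalue `μ ∈ 𝔪`, then the prime
`χ⁻¹(𝔪)` is in the support of `A / D A`. -/
theorem not_forall_exists_eq_of_eigenfunctional
    (hΩ : ∀ (c : S) (v : Ω), c • v = 0 → c = 0 ∨ v = 0)
    (ρA : R →ₐ[O] Module.End O A) (D : A →ₗ[O] A)
    (χ : R →+* S) (𝔪 : Ideal S) [h𝔪 : 𝔪.IsPrime]
    (ψ : A →ₗ[O] Ω) (hψ0 : ψ ≠ 0) (hψ : ∀ r x, ψ (ρA r x) = χ r • ψ x)
    {μ : S} (hμ : μ ∈ 𝔪) (hψD : ∀ x, ψ (D x) = μ • ψ x) :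
    ∀ s : R, s ∉ 𝔪.comap χ → ¬ ∀ x, ∃ y, ρA s x = D y := by
  classical
  intro s hs hall
  apply hs
  rw [Ideal.mem_comap]
  obtain ⟨t, ht⟩ := (Module.Finite.fg_top : (⊤ : Submodule O A).FG)
  let P : Submodule S Ω := Submodule.span S (ψ '' (t : Set A))
  have hPfg : P.FG := Submodule.fg_span ((t.finite_toSet).image _)
  have hψP : ∀ x, ψ x ∈ P := by
    intro x
    have hx : x ∈ Submodule.span O (t : Set A) := by rw [ht]; trivial
    induction hx using Submodule.span_induction with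
    | mem x hx => exact Submodule.subset_span ⟨x, hx, rfl⟩
    | zero => rw [map_zero]; exact P.zero_mem
    | add x y _ _ hx hy => rw [map_add]; exact P.add_mem hx hy
    | smul a x _ hx =>
      rw [map_smul, ← algebraMap_smul S a (ψ x)]
      exact P.smul_mem _ hx
  have hstep : ∀ v ∈ P, ∃ v' ∈ P, χ s • v = μ • v' := by
    intro v hv
    induction hv using Submodule.span_induction with
    | mem v hv =>
      obtain ⟨x, -, rfl⟩ := hv
      obtain ⟨y, hy⟩ := hall x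
      exact ⟨ψ y, hψP y, by rw [← hψ, hy, hψD]⟩
    | zero => exact ⟨0, P.zero_mem, by simp⟩
    | add v w _ _ hv hw =>
      obtain ⟨v', hv', hv⟩ := hv
      obtain ⟨w', hw', hw⟩ := hw
      exact ⟨v' + w', P.add_mem hv' hw', by rw [smul_add, smul_add, hv, hw]⟩
    | smul a v _ hv =>
      obtain ⟨v', hv', hv⟩ := hv
      exact ⟨a • v', P.smul_mem _ hv', by rw [smul_comm, hv, smul_comm]⟩
  have : Module.Finite S P := Module.Finite.iff_fg.mpr hPfg
  let f : Module.End S P := algebraMap S (Module.End S P) (χ s)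
  have hrange : LinearMap.range f ≤ (Ideal.span {μ}) • (⊤ : Submodule S P) := by
    rintro _ ⟨v, rfl⟩
    obtain ⟨v', hv', hv⟩ := hstep v v.2
    have : f v = μ • (⟨v', hv'⟩ : P) := by
      apply Subtype.ext
      simpa [f, Module.algebraMap_end_apply] using hv
    rw [this]
    exact Submodule.smul_mem_smul (Ideal.mem_span_singleton_self μ) trivial
  obtain ⟨Q, hQmonic, -, hQcoeff, hQ⟩ :=
    LinearMap.exists_monic_and_natDegree_eq_and_coeff_mem_pow_and_aeval_eq_zero S f _ hrange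
  have hQ' : algebraMap S (Module.End S P) (Q.eval (χ s)) = 0 := by
    rw [← Polynomial.aeval_algebraMap_apply_eq_algebraMap_eval]; exact hQ
  -- a nonzero vector of `P`
  obtain ⟨x₀, hx₀⟩ : ∃ x₀, ψ x₀ ≠ 0 := by
    by_contra h
    exact hψ0 (LinearMap.ext fun x => by
      by_contra hx
      exact h ⟨x, hx⟩)
  have hQ0 : Q.eval (χ s) = 0 := by
    have h1 := congrArg (fun g : Module.End S P => ((g ⟨ψ x₀, hψP x₀⟩ : P) : Ω)) hQ'
    simp only [Module.algebraMap_end_apply, LinearMap.zero_apply, Submodule.coe_smul,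
      Submodule.coe_zero] at h1
    exact (hΩ _ _ h1).resolve_right hx₀
  refine mem_of_monic_eval_eq_zero hQmonic (fun k hk => ?_) hQ0
  have h2 := hQcoeff k
  have h3 : Ideal.span {μ} ^ (Q.natDegree - k) ≤ 𝔪 :=
    (Ideal.pow_le_self (Nat.sub_ne_zero_of_lt hk)).trans
      ((Ideal.span_singleton_le_iff_mem _).mpr hμ)
  exact h3 h2

end eigen

section combined

variable {O : Type*} [CommRing O] [IsDomain O] [IsPrincipalIdealRing O] {ϖ : O}
  {R : Type*} [CommRing R] [Algebra O R]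
  {A L : Type*} [AddCommGroup A] [Module O A] [Module.Finite O A] [Module.Free O A]
  [AddCommGroup L] [Module O L] [Module.Finite O L] [Module.Free O L]
  {S : Type*} [CommRing S] [Algebra O S]
  {Ω : Type*} [AddCommGroup Ω] [Module S Ω] [Module O Ω] [IsScalarTower O S Ω]

/-- `levelRaise` with the support hypothesis supplied by Lemma E: here `𝔫 = χ⁻¹(𝔪)`. -/
theorem levelRaise_of_eigenfunctional (hϖ : Prime ϖ)
    (ρA : R →ₐ[O] Module.End O A) (ρL : R →ₐ[O] Module.End O L)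
    (α : A →ₗ[O] L) (α' : L →ₗ[O] A) (hα : ∀ r x, α (ρA r x) = ρL r (α x))
    (bA : A →ₗ[O] A →ₗ[O] O) (bL : L →ₗ[O] L →ₗ[O] O)
    (hbA : ∀ r x y, bA (ρA r x) y = bA x (ρA r y))
    (hbL : ∀ r x y, bL (ρL r x) y = bL x (ρL r y))
    (hadj : ∀ x y, bL (α x) y = bA x (α' y)) (hadj' : ∀ x y, bL y (α x) = bA (α' y) x)
    (hndA : ∀ x, (∀ y, bA x y = 0) → x = 0)
    (hndL : ∀ x, (∀ y, ϖ ∣ bL x y) → ∃ x', x = ϖ • x')
    (hinj : Function.Injective (α' ∘ₗ α))
    (χ : R →ₐ[O] S) (𝔪 : Ideal S) [h𝔪 : 𝔪.IsPrime] (hϖ𝔪 : algebraMap O S ϖ ∈ 𝔪)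
    (hIhara : ∃ e : R, χ e ∉ 𝔪 ∧ ∀ x, (∃ y, α x = ϖ • y) → ∃ x', ρA e x = ϖ • x')
    (hΩ : ∀ (c : S) (v : Ω), c • v = 0 → c = 0 ∨ v = 0)
    (ψ : A →ₗ[O] Ω) (hψ0 : ψ ≠ 0) (hψ : ∀ r x, ψ (ρA r x) = χ r • ψ x)
    {μ : S} (hμ : μ ∈ 𝔪) (hψD : ∀ x, ψ (α' (α x)) = μ • ψ x) :
    ∀ s : R, (∀ y, α' y = 0 → ρL s y = 0) → χ s ∈ 𝔪 := by
  have : (𝔪.comap (χ : R →+* S)).IsPrime := Ideal.comap_isPrime _ 𝔪
  have hϖ𝔫 : algebraMap O R ϖ ∈ 𝔪.comap (χ : R →+* S) := by
    rw [Ideal.mem_comap]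
    have : (χ : R →+* S) (algebraMap O R ϖ) = algebraMap O S ϖ := χ.commutes ϖ
    rw [this]; exact hϖ𝔪
  intro s hs
  exact levelRaise hϖ (𝔪.comap (χ : R →+* S)) hϖ𝔫 ρA ρL α α' hα bA bL hbA hbL hadj hadj' hndA hndL
    hinj hIhara
    (not_forall_exists_eq_of_eigenfunctional hΩ ρA (α' ∘ₗ α) (χ : R →+* S) 𝔪 ψ hψ0 hψ hμ hψD) s hs

end combined

section int

variable {R : Type*} [CommRing R]
  {A L : Type*} [AddCommGroup A] [Module.Finite ℤ A] [Module.Free ℤ A]
  [AddCommGroup L] [Module.Finite ℤ L] [Module.Free ℤ L]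

/-- The instance used for S41: `O = ℤ`, `ϖ = p`, the eigen-functional takes complex values and
the eigencharacter takes values in the algebraic integers. -/
theorem levelRaise_int {p : ℕ} (hp : p.Prime)
    (ρA : R →+* Module.End ℤ A) (ρL : R →+* Module.End ℤ L)
    (α : A →ₗ[ℤ] L) (α' : L →ₗ[ℤ] A) (hα : ∀ r x, α (ρA r x) = ρL r (α x))
    (bA : A →ₗ[ℤ] A →ₗ[ℤ] ℤ) (bL : L →ₗ[ℤ] L →ₗ[ℤ] ℤ)
    (hbA : ∀ r x y, bA (ρA r x) y = bA x (ρA r y))
    (hbL : ∀ r x y, bL (ρL r x) y = bL x (ρL r y))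
    (hadj : ∀ x y, bL (α x) y = bA x (α' y)) (hadj' : ∀ x y, bL y (α x) = bA (α' y) x)
    (hndA : ∀ x, (∀ y, bA x y = 0) → x = 0)
    (hndL : ∀ x, (∀ y, (p : ℤ) ∣ bL x y) → ∃ x', x = (p : ℤ) • x')
    (hinj : Function.Injective (α' ∘ₗ α))
    (χ : R →+* integralClosure ℤ ℂ) (𝔪 : Ideal (integralClosure ℤ ℂ)) [h𝔪 : 𝔪.IsPrime]
    (hp𝔪 : (p : integralClosure ℤ ℂ) ∈ 𝔪)
    (hIhara : ∃ e : R, χ e ∉ 𝔪 ∧ ∀ x, (∃ y, α x = (p : ℤ) • y) → ∃ x', ρA e x = (p : ℤ) • x')
    (ψ : A →ₗ[ℤ] ℂ) (hψ0 : ψ ≠ 0) (hψ : ∀ r x, ψ (ρA r x) = (χ r : ℂ) * ψ x)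
    {μ : integralClosure ℤ ℂ} (hμ : μ ∈ 𝔪) (hψD : ∀ x, ψ (α' (α x)) = (μ : ℂ) * ψ x) :
    ∀ s : R, (∀ y, α' y = 0 → ρL s y = 0) → χ s ∈ 𝔪 := by
  have hΩ : ∀ (c : integralClosure ℤ ℂ) (v : ℂ), c • v = 0 → c = 0 ∨ v = 0 := by
    intro c v h
    rw [Subalgebra.smul_def, smul_eq_mul] at h
    rcases mul_eq_zero.mp h with h | h
    · exact Or.inl (Subtype.ext h)
    · exact Or.inr h
  exact levelRaise_of_eigenfunctional (O := ℤ) (ϖ := (p : ℤ)) (Nat.prime_iff_prime_int.mp hp)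
    ρA.toIntAlgHom ρL.toIntAlgHom α α' hα bA bL hbA hbL hadj hadj' hndA hndL hinj
    χ.toIntAlgHom 𝔪 (by simpa using hp𝔪) hIhara hΩ ψ hψ0
    (fun r x => by rw [Subalgebra.smul_def, smul_eq_mul]; exact hψ r x) hμ
    (fun x => by rw [Subalgebra.smul_def, smul_eq_mul]; exact hψD x)

end int

end Fermat.Agent.ES.LR.LatticeRaise4
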