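import Mathlib
import Fermat.Agent.ES.LR.LatticeRaise4
import Fermat.Agent.ES.LR.AevalComm4

/-!
# S41, CORE part A: the eigensystem `a` mod `p` is supported on the `q`-new lattice

Glue between L_PLAN27's literal CORE hypotheses and `LatticeRaise4.levelRaise`.

* `eq_zero_of_commute_of_range_le` (Fitting argument on a finite-dimensional space): commuting
  `S`, `D` with `S M ⊆ D M`; an eigenvector of `S` with nonzero eigenvalue killed by `D` is zero.
* `not_forall_exists_of_eigenvector` (Lemma E′): for commuting endomorphisms `S`, `D` of a finitely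
  generated abelian group `A`, a nonzero `u ∈ k ⊗ A` killed by `D` on which `S` has a nonzero
  eigenvalue forbids `S A ⊆ D A`.
* `aevalComm_selfAdjoint`: polynomials in commuting self-adjoint operators are self-adjoint.
* `dvd_eval_of_forall_ker` (**CORE-A**): `Y = Λ_N`, `X = Λ_{Nq}`, Hecke families `TY`, `TX`,
  degeneracy maps `i1 i2`, transfers `t1 t2`, alternating forms `EY` (nondegenerate), `EX`
  (nondegenerate mod `p`), `T_ℓ` self-adjoint, `i_k ⊣ t_k`, `(q+1)² - T_q²` injective, Ihara + one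
  non-Eisenstein prime, and a mod `p` eigenvector with `T_q² = (q+1)²`.  Then every polynomial `s` in
  the Hecke operators that kills `ker t1 ∩ ker t2` satisfies `p ∣ s(a)`.

`R = MvPolynomial ι ℤ` acts through `AevalComm4.aevalComm`; `𝔫 = {s | p ∣ s(a)}`; `A = Y × Y`,
`α = i1 + i2`, `α' = (t1, t2)`, `α'α = [[q+1, T_q], [T_q, q+1]]`; the vector `u = (w, -ε w)` with
`T_q w = ε (q+1) w` lies in the kernel of `α'α` mod `p`.
-/

set_option autoImplicit false

namespace Fermat.Agent.ES.LR.NewSupp4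

open Module TensorProduct Fermat.Agent.ES.LR.LatticeRaise4 Fermat.Agent.ES.LR.AevalComm4

section fitting

variable {k : Type*} [Field k] {M : Type*} [AddCommGroup M] [Module k M] [FiniteDimensional k M]

/-- **Fitting argument.** If `S` and `D` commute, `S M ⊆ D M`, and `u ∈ ker D` is an eigenvector of
`S` with nonzero eigenvalue, then `u = 0`. -/
theorem eq_zero_of_commute_of_range_le (S D : Module.End k M) (hSD : Commute S D)
    (hrange : ∀ x, S x ∈ LinearMap.range D) {u : M} (hDu : D u = 0) {c : k} (hc : c ≠ 0)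
    (hSu : S u = c • u) : u = 0 := by
  obtain ⟨n, hcompl, hn⟩ := ((LinearMap.eventually_isCompl_ker_pow_range_pow S).and
    (Filter.eventually_ge_atTop 1)).exists
  have hSP : Commute S (S ^ n) := (Commute.refl S).pow_right n
  have hDP : Commute D (S ^ n) := hSD.symm.pow_right n
  -- `u` lies in the stable image
  have hpow : ∀ m : ℕ, (S ^ m) u = c ^ m • u := by
    intro m
    induction m with
    | zero => simp
    | succ m ih => rw [pow_succ, Module.End.mul_apply, hSu, map_smul, ih, smul_smul, pow_succ']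
  have hu : u ∈ LinearMap.range (S ^ n) :=
    ⟨(c ^ n)⁻¹ • u, by rw [map_smul, hpow, smul_smul, inv_mul_cancel₀ (pow_ne_zero n hc), one_smul]⟩
  have hSM' : ∀ x ∈ LinearMap.range (S ^ n), S x ∈ LinearMap.range (S ^ n) := by
    rintro _ ⟨z, rfl⟩
    exact ⟨S z, by rw [← Module.End.mul_apply, ← hSP.eq, Module.End.mul_apply]⟩
  have hDM' : ∀ x ∈ LinearMap.range (S ^ n), D x ∈ LinearMap.range (S ^ n) := by
    rintro _ ⟨z, rfl⟩
    exact ⟨D z, by rw [← Module.End.mul_apply, ← hDP.eq, Module.End.mul_apply]⟩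
  have hDker : ∀ x ∈ LinearMap.ker (S ^ n), D x ∈ LinearMap.ker (S ^ n) := by
    intro x hx
    rw [LinearMap.mem_ker] at hx ⊢
    rw [← Module.End.mul_apply, ← hDP.eq, Module.End.mul_apply, hx, map_zero]
  have hinf : ∀ x, x ∈ LinearMap.ker (S ^ n) → x ∈ LinearMap.range (S ^ n) → x = 0 := by
    intro x h1 h2
    have : x ∈ LinearMap.ker (S ^ n) ⊓ LinearMap.range (S ^ n) := ⟨h1, h2⟩
    rw [hcompl.inf_eq_bot] at this
    exact (Submodule.mem_bot k).mp this
  -- `S M' ⊆ D M'`
  have key : ∀ x ∈ LinearMap.range (S ^ n), ∃ y' ∈ LinearMap.range (S ^ n), S x = D y' := by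
    intro x hx
    obtain ⟨y, hy⟩ := hrange x
    have hy_mem : y ∈ LinearMap.ker (S ^ n) ⊔ LinearMap.range (S ^ n) := by
      rw [hcompl.sup_eq_top]; trivial
    obtain ⟨y₀, hy₀, y', hy', rfl⟩ := Submodule.mem_sup.mp hy_mem
    refine ⟨y', hy', ?_⟩
    have h1 : D y₀ = S x - D y' := by rw [← hy, map_add, add_sub_cancel_right]
    have h2 : D y₀ = 0 := hinf _ (hDker _ hy₀)
      (h1 ▸ Submodule.sub_mem _ (hSM' x hx) (hDM' y' hy'))
    rw [← hy, map_add, h2, zero_add]
  -- `S` is injective on `M'`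
  have hSinj : ∀ x ∈ LinearMap.range (S ^ n), S x = 0 → x = 0 := by
    intro x hx hSx
    refine hinf x ?_ hx
    rw [LinearMap.mem_ker]
    obtain ⟨m, rfl⟩ : ∃ m, n = m + 1 := ⟨n - 1, by omega⟩
    rw [pow_succ, Module.End.mul_apply, hSx, map_zero]
  let S' : Module.End k (LinearMap.range (S ^ n)) := S.restrict hSM'
  let D' : Module.End k (LinearMap.range (S ^ n)) := D.restrict hDM'
  have hS'inj : Function.Injective S' := by
    rw [← LinearMap.ker_eq_bot, LinearMap.ker_eq_bot']
    intro x hx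
    apply Subtype.ext
    exact hSinj x.1 x.2 (congrArg Subtype.val hx)
  have hS'surj : Function.Surjective S' := LinearMap.injective_iff_surjective.mp hS'inj
  have hD'surj : Function.Surjective D' := by
    intro z
    obtain ⟨x, rfl⟩ := hS'surj z
    obtain ⟨y', hy', hxy⟩ := key x.1 x.2
    exact ⟨⟨y', hy'⟩, Subtype.ext hxy.symm⟩
  have hD'inj : Function.Injective D' := LinearMap.injective_iff_surjective.mpr hD'surj
  have : (⟨u, hu⟩ : LinearMap.range (S ^ n)) = 0 := by
    apply hD'inj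
    rw [map_zero]
    exact Subtype.ext hDu
  exact congrArg Subtype.val this

end fitting

section modp

variable {A : Type*} [AddCommGroup A] [Module.Finite ℤ A]

/-- **Lemma E′** (mod `p` occurrence ⇒ support).  If `S`, `D` are commuting endomorphisms of a
finitely generated abelian group `A` and some nonzero `u ∈ k ⊗ A` (`k` a field) is killed by `D`
and is an eigenvector of `S` with nonzero eigenvalue, then `S A ⊄ D A`. -/
theorem not_forall_exists_of_eigenvector (S D : Module.End ℤ A) (hSD : Commute S D)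
    {k : Type*} [Field k] {u : k ⊗[ℤ] A} (hu : u ≠ 0) (hDu : D.baseChange k u = 0) {c : k}
    (hc : c ≠ 0) (hSu : S.baseChange k u = c • u) : ¬ ∀ x, ∃ y, S x = D y := by
  intro hall
  apply hu
  refine eq_zero_of_commute_of_range_le (k := k) (S.baseChange k) (D.baseChange k) ?_ ?_ hDu hc hSu
  · show S.baseChange k * D.baseChange k = D.baseChange k * S.baseChange k
    rw [← LinearMap.baseChange_mul, ← LinearMap.baseChange_mul, hSD.eq]
  · intro x
    induction x using TensorProduct.induction_on with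
    | zero => rw [map_zero]; exact Submodule.zero_mem _
    | tmul b a =>
      obtain ⟨y, hy⟩ := hall a
      exact ⟨b ⊗ₜ y, by rw [LinearMap.baseChange_tmul, LinearMap.baseChange_tmul, hy]⟩
    | add x y hx hy => rw [map_add]; exact Submodule.add_mem _ hx hy

end modp

section selfadjoint

variable {ι : Type*} {M : Type*} [AddCommGroup M]

/-- Polynomials in commuting self-adjoint operators are self-adjoint. -/
theorem aevalComm_selfAdjoint (T : ι → Module.End ℤ M) (hT : ∀ i j, Commute (T i) (T j))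
    (B : M →ₗ[ℤ] M →ₗ[ℤ] ℤ) (hB : ∀ i x y, B (T i x) y = B x (T i y)) (s : MvPolynomial ι ℤ)
    (x y : M) : B (aevalComm T hT s x) y = B x (aevalComm T hT s y) := by
  induction s using MvPolynomial.induction_on generalizing x y with
  | C c => simp
  | add s t hs ht => simp [hs, ht]
  | mul_X s i hs =>
    have hcomm : T i (aevalComm T hT s y) = aevalComm T hT s (T i y) := by
      have := (commute_aevalComm T hT (B := T i) (fun j => hT i j) s).eq
      exact congrArg (fun f : Module.End ℤ M => f y) this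
    rw [map_mul, aevalComm_X, Module.End.mul_apply, Module.End.mul_apply, hs, hB, hcomm]

end selfadjoint

section glue

variable {p q : ℕ}
  {Y X : Type*} [AddCommGroup Y] [Module.Free ℤ Y] [Module.Finite ℤ Y]
  [AddCommGroup X] [Module.Free ℤ X] [Module.Finite ℤ X]
  {ι : Type*}

/-- **CORE, part A.**  Under the hypotheses of L_PLAN27's `exists_new_eigensystem` (with alternating
forms, plain nondegeneracy at the lower level and nondegeneracy mod `p` at the higher level), every
polynomial in the Hecke operators that kills the new lattice `ker t1 ∩ ker t2` vanishes mod `p` at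
the eigensystem `a`. -/
theorem dvd_eval_of_forall_ker (hp : p.Prime)
    (TY : ι → Module.End ℤ Y) (TX : ι → Module.End ℤ X) (a : ι → ℤ)
    (hTY : ∀ i j, Commute (TY i) (TY j)) (hTX : ∀ i j, Commute (TX i) (TX j))
    (Tq : Module.End ℤ Y) (hTq : ∀ i, Commute Tq (TY i))
    (i1 i2 : Y →ₗ[ℤ] X) (t1 t2 : X →ₗ[ℤ] Y)
    (hi1 : ∀ i y, i1 (TY i y) = TX i (i1 y)) (hi2 : ∀ i y, i2 (TY i y) = TX i (i2 y))
    (h11 : ∀ y, t1 (i1 y) = ((q : ℤ) + 1) • y) (h22 : ∀ y, t2 (i2 y) = ((q : ℤ) + 1) • y)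
    (h12 : ∀ y, t1 (i2 y) = Tq y)
    (EY : LinearMap.BilinForm ℤ Y) (EX : LinearMap.BilinForm ℤ X)
    (hEYalt : ∀ y, EY y y = 0) (hEXalt : ∀ x, EX x x = 0)
    (hEYl : ∀ y, (∀ y', EY y y' = 0) → y = 0)
    (hEXp : ∀ x, (∀ x', (p : ℤ) ∣ EX x x') → ∃ x₁, x = (p : ℤ) • x₁)
    (hsaY : ∀ i y y', EY (TY i y) y' = EY y (TY i y'))
    (hsaX : ∀ i x x', EX (TX i x) x' = EX x (TX i x'))
    (hsaq : ∀ y y', EY (Tq y) y' = EY y (Tq y'))
    (hadj1 : ∀ y x, EX (i1 y) x = EY y (t1 x)) (hadj2 : ∀ y x, EX (i2 y) x = EY y (t2 x))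
    (hQ : ∀ y : Y, (((q : ℤ) + 1) ^ 2) • y - Tq (Tq y) = 0 → y = 0)
    (i0 : ι) (e0 : ℤ) (hne : ¬ (p : ℤ) ∣ a i0 - e0)
    (hI1 : ∀ y1 y2 : Y, (∃ x, i1 y1 + i2 y2 = (p : ℤ) • x) →
      (∃ y, TY i0 y1 - e0 • y1 = (p : ℤ) • y) ∧ (∃ y, TY i0 y2 - e0 • y2 = (p : ℤ) • y))
    (hocc : ∃ (k : Type) (_ : Field k) (_ : CharP k p) (v : k ⊗[ℤ] Y), v ≠ 0 ∧
      (∀ i, (TY i).baseChange k v = ((a i : ℤ) : k) • v) ∧
      (Tq.baseChange k) ((Tq.baseChange k) v) = (((q : k) + 1) ^ 2) • v) :
    ∀ s : MvPolynomial ι ℤ,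
      (∀ x : X, t1 x = 0 → t2 x = 0 → aevalComm TX hTX s x = 0) →
        (p : ℤ) ∣ MvPolynomial.eval a s := by
  classical
  -- skew-symmetry
  have hEYskew : ∀ y y', EY y y' = -EY y' y := fun y y' =>
    ((LinearMap.IsAlt.neg (B := EY) hEYalt) y' y).symm
  have hEXskew : ∀ x x', EX x x' = -EX x' x := fun x x' =>
    ((LinearMap.IsAlt.neg (B := EX) hEXalt) x' x).symm
  have hadj1' : ∀ y x, EX x (i1 y) = EY (t1 x) y := fun y x => by
    rw [hEXskew, hadj1, ← hEYskew]
  have hadj2' : ∀ y x, EX x (i2 y) = EY (t2 x) y := fun y x => by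
    rw [hEXskew, hadj2, ← hEYskew]
  have h21 : ∀ y, t2 (i1 y) = Tq y := by
    intro y
    have h : ∀ y', EY (t2 (i1 y) - Tq y) y' = 0 := fun y' => by
      rw [map_sub, LinearMap.sub_apply, ← hadj2', hadj1, h12, hsaq, sub_self]
    exact sub_eq_zero.mp (hEYl _ h)
  -- the actions
  let ρY : MvPolynomial ι ℤ →ₐ[ℤ] Module.End ℤ Y := aevalComm TY hTY
  let ρX : MvPolynomial ι ℤ →ₐ[ℤ] Module.End ℤ X := aevalComm TX hTX
  let ρA : MvPolynomial ι ℤ →ₐ[ℤ] Module.End ℤ (Y × Y) :=
    (LinearMap.prodMapAlgHom ℤ Y Y).comp (ρY.prod ρY)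
  have hρA : ∀ r (x : Y × Y), ρA r x = (ρY r x.1, ρY r x.2) := fun r x => rfl
  let α : Y × Y →ₗ[ℤ] X := i1.coprod i2
  let α' : X →ₗ[ℤ] Y × Y := t1.prod t2
  have hαdef : ∀ x : Y × Y, α x = i1 x.1 + i2 x.2 := fun x => rfl
  have hα'def : ∀ x : X, α' x = (t1 x, t2 x) := fun x => rfl
  let bA : (Y × Y) →ₗ[ℤ] (Y × Y) →ₗ[ℤ] ℤ :=
    EY.compl₁₂ (LinearMap.fst ℤ Y Y) (LinearMap.fst ℤ Y Y) +
      EY.compl₁₂ (LinearMap.snd ℤ Y Y) (LinearMap.snd ℤ Y Y)
  have hbAdef : ∀ x y : Y × Y, bA x y = EY x.1 y.1 + EY x.2 y.2 := fun x y => rfl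
  have hα : ∀ r x, α (ρA r x) = ρX r (α x) := by
    intro r x
    rw [hαdef, hρA, hαdef, map_add]
    show i1 (aevalComm TY hTY r x.1) + i2 (aevalComm TY hTY r x.2) = _
    rw [aevalComm_intertwine TY hTY TX hTX i1 hi1, aevalComm_intertwine TY hTY TX hTX i2 hi2]
  have hbA : ∀ r x y, bA (ρA r x) y = bA x (ρA r y) := by
    intro r x y
    rw [hbAdef, hbAdef, hρA, hρA]
    show EY (aevalComm TY hTY r x.1) y.1 + EY (aevalComm TY hTY r x.2) y.2 = _
    rw [aevalComm_selfAdjoint TY hTY EY hsaY, aevalComm_selfAdjoint TY hTY EY hsaY]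
  have hbL : ∀ r x y, EX (ρX r x) y = EX x (ρX r y) := fun r x y =>
    aevalComm_selfAdjoint TX hTX EX hsaX r x y
  have hadj : ∀ x y, EX (α x) y = bA x (α' y) := by
    intro x y
    rw [hαdef, hbAdef, hα'def, map_add, LinearMap.add_apply, hadj1, hadj2]
  have hadj' : ∀ x y, EX y (α x) = bA (α' y) x := by
    intro x y
    rw [hαdef, hbAdef, hα'def, map_add, hadj1', hadj2']
  have hndA : ∀ x, (∀ y, bA x y = 0) → x = 0 := by
    intro x hx
    have h1 : x.1 = 0 := hEYl _ fun y' => by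
      have := hx (y', 0)
      rw [hbAdef] at this
      simpa using this
    have h2 : x.2 = 0 := hEYl _ fun y' => by
      have := hx (0, y')
      rw [hbAdef] at this
      simpa using this
    exact Prod.ext h1 h2
  have hD : ∀ x : Y × Y, α' (α x) =
      (((q : ℤ) + 1) • x.1 + Tq x.2, Tq x.1 + ((q : ℤ) + 1) • x.2) := by
    intro x
    rw [hα'def, hαdef, map_add, map_add, h11, h12, h21, h22]
  have hinj : Function.Injective (α' ∘ₗ α) := by
    rw [← LinearMap.ker_eq_bot, LinearMap.ker_eq_bot']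
    intro x hx
    rw [LinearMap.comp_apply, hD] at hx
    have hx1 : ((q : ℤ) + 1) • x.1 + Tq x.2 = 0 := congrArg Prod.fst hx
    have hx2 : Tq x.1 + ((q : ℤ) + 1) • x.2 = 0 := congrArg Prod.snd hx
    have e1 : x.1 = 0 := by
      apply hQ
      have h1 : ((q : ℤ) + 1) • (((q : ℤ) + 1) • x.1 + Tq x.2) - Tq (Tq x.1 + ((q : ℤ) + 1) • x.2)
          = 0 := by rw [hx1, hx2]; simp
      rw [← h1]
      simp only [smul_add, map_add, map_smul, smul_smul, pow_two]
      abel
    have e2 : x.2 = 0 := by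
      apply hQ
      have h1 : ((q : ℤ) + 1) • (Tq x.1 + ((q : ℤ) + 1) • x.2) - Tq (((q : ℤ) + 1) • x.1 + Tq x.2)
          = 0 := by rw [hx1, hx2]; simp
      rw [← h1]
      simp only [smul_add, map_add, map_smul, smul_smul, pow_two]
      abel
    exact Prod.ext e1 e2
  -- `α'` is equivariant
  have hα' : ∀ r y, α' (ρX r y) = ρA r (α' y) := by
    intro r y
    have h : ∀ z, bA (α' (ρX r y) - ρA r (α' y)) z = 0 := fun z => by
      rw [map_sub, LinearMap.sub_apply, ← hadj', hbL, ← hα, hadj', hbA, sub_self]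
    exact sub_eq_zero.mp (hndA _ h)
  -- the prime `𝔫`
  have hpZ : Prime (p : ℤ) := Nat.prime_iff_prime_int.mp hp
  have hspan : (Ideal.span {(p : ℤ)}).IsPrime :=
    (Ideal.span_singleton_prime hpZ.ne_zero).mpr hpZ
  let 𝔫 : Ideal (MvPolynomial ι ℤ) := Ideal.comap (MvPolynomial.eval a) (Ideal.span {(p : ℤ)})
  have h𝔫 : 𝔫.IsPrime := Ideal.comap_isPrime _ _
  have hmem : ∀ s : MvPolynomial ι ℤ, s ∈ 𝔫 ↔ (p : ℤ) ∣ MvPolynomial.eval a s := fun s => by
    rw [Ideal.mem_comap, Ideal.mem_span_singleton]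
  have hp𝔫 : algebraMap ℤ (MvPolynomial ι ℤ) (p : ℤ) ∈ 𝔫 := by
    rw [hmem, MvPolynomial.algebraMap_eq, MvPolynomial.eval_C]
  -- Ihara
  have hIhara : ∃ e : MvPolynomial ι ℤ, e ∉ 𝔫 ∧
      ∀ x, (∃ y, α x = (p : ℤ) • y) → ∃ x', ρA e x = (p : ℤ) • x' := by
    refine ⟨MvPolynomial.X i0 - MvPolynomial.C e0, ?_, ?_⟩
    · rw [hmem, map_sub, MvPolynomial.eval_X, MvPolynomial.eval_C]
      exact hne
    · rintro x ⟨y, hy⟩
      obtain ⟨⟨z1, hz1⟩, ⟨z2, hz2⟩⟩ := hI1 x.1 x.2 ⟨y, hy⟩
      refine ⟨(z1, z2), ?_⟩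
      rw [hρA]
      show (aevalComm TY hTY (MvPolynomial.X i0 - MvPolynomial.C e0) x.1,
        aevalComm TY hTY (MvPolynomial.X i0 - MvPolynomial.C e0) x.2) = _
      rw [map_sub, aevalComm_X, aevalComm_C, Prod.smul_mk, ← hz1, ← hz2]
      simp
  -- the support hypothesis from the occurrence of the eigensystem mod `p`
  have hSupp : ∀ s : MvPolynomial ι ℤ, s ∉ 𝔫 → ¬ ∀ x, ∃ y, ρA s x = α' (α y) := by
    intro s hs
    obtain ⟨k, _, _, v, hv0, hvT, hvq⟩ := hocc
    have hc : ((MvPolynomial.eval a s : ℤ) : k) ≠ 0 := by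
      rw [Ne, CharP.intCast_eq_zero_iff k p]
      exact fun h => hs ((hmem s).mpr h)
    have hcomm_k : ∀ i, (Tq.baseChange k) ∘ₗ ((TY i).baseChange k) =
        ((TY i).baseChange k) ∘ₗ (Tq.baseChange k) := fun i => by
      rw [← LinearMap.baseChange_comp, ← LinearMap.baseChange_comp]
      congr 1
      exact (hTq i).eq
    -- an eigenvector of `Tq` with eigenvalue `± (q + 1)`
    obtain ⟨w, ε, hw0, hε, hwT, hwq⟩ : ∃ (w : k ⊗[ℤ] Y) (ε : k), w ≠ 0 ∧ ε * ε = 1 ∧
        (∀ i, (TY i).baseChange k w = ((a i : ℤ) : k) • w) ∧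
        Tq.baseChange k w = (ε * ((q : k) + 1)) • w := by
      by_cases h : Tq.baseChange k v + ((q : k) + 1) • v = 0
      · refine ⟨v, -1, hv0, by ring, hvT, ?_⟩
        rw [neg_one_mul, neg_smul]
        exact eq_neg_of_add_eq_zero_left h
      · refine ⟨Tq.baseChange k v + ((q : k) + 1) • v, 1, h, by ring, fun i => ?_, ?_⟩
        · rw [map_add, map_smul, hvT, smul_add, smul_comm]
          congr 1
          have := congrArg (fun f => f v) (hcomm_k i)
          simp only [LinearMap.comp_apply] at this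
          rw [← this, hvT, map_smul]
        · rw [map_add, map_smul, hvq, one_mul, smul_add, smul_smul, ← pow_two, add_comm]
    -- the vector `u = (w, -ε w)`
    let inl_k := (LinearMap.inl ℤ Y Y).baseChange k
    let inr_k := (LinearMap.inr ℤ Y Y).baseChange k
    have hu : inl_k w - ε • inr_k w ≠ 0 := by
      intro h
      apply hw0
      have h1 := congrArg ((LinearMap.fst ℤ Y Y).baseChange k) h
      rw [map_sub, map_smul, map_zero] at h1
      have e1 : (LinearMap.fst ℤ Y Y).baseChange k (inl_k w) = w := by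
        show ((LinearMap.fst ℤ Y Y).baseChange k ∘ₗ (LinearMap.inl ℤ Y Y).baseChange k) w = w
        rw [← LinearMap.baseChange_comp, LinearMap.fst_comp_inl, LinearMap.baseChange_id,
          LinearMap.id_apply]
      have e2 : (LinearMap.fst ℤ Y Y).baseChange k (inr_k w) = 0 := by
        show ((LinearMap.fst ℤ Y Y).baseChange k ∘ₗ (LinearMap.inr ℤ Y Y).baseChange k) w = 0
        rw [← LinearMap.baseChange_comp, LinearMap.fst_comp_inr, LinearMap.baseChange_zero,
          LinearMap.zero_apply]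
      rwa [e1, e2, smul_zero, sub_zero] at h1
    refine not_forall_exists_of_eigenvector (ρA s) (α' ∘ₗ α) ?_ hu ?_ hc ?_
    · -- commute
      apply LinearMap.ext
      intro x
      show ρA s (α' (α x)) = α' (α (ρA s x))
      rw [hα, hα']
    · -- `D u = 0`
      have hDinl : (α' ∘ₗ α) ∘ₗ (LinearMap.inl ℤ Y Y) =
          ((q : ℤ) + 1) • (LinearMap.inl ℤ Y Y) + (LinearMap.inr ℤ Y Y) ∘ₗ Tq := by
        apply LinearMap.ext
        intro y
        simp only [LinearMap.comp_apply, hD, LinearMap.inl_apply, LinearMap.inr_apply,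
          LinearMap.add_apply, LinearMap.smul_apply, map_zero, smul_zero, add_zero, Prod.smul_mk,
          Prod.mk_add_mk, zero_add]
      have hDinr : (α' ∘ₗ α) ∘ₗ (LinearMap.inr ℤ Y Y) =
          (LinearMap.inl ℤ Y Y) ∘ₗ Tq + ((q : ℤ) + 1) • (LinearMap.inr ℤ Y Y) := by
        apply LinearMap.ext
        intro y
        simp only [LinearMap.comp_apply, hD, LinearMap.inl_apply, LinearMap.inr_apply,
          LinearMap.add_apply, LinearMap.smul_apply, map_zero, smul_zero, add_zero, Prod.smul_mk,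
          Prod.mk_add_mk, zero_add]
      have e1 : (α' ∘ₗ α).baseChange k (inl_k w) =
          ((q : k) + 1) • inl_k w + (ε * ((q : k) + 1)) • inr_k w := by
        show ((α' ∘ₗ α).baseChange k ∘ₗ (LinearMap.inl ℤ Y Y).baseChange k) w = _
        rw [← LinearMap.baseChange_comp, hDinl, LinearMap.baseChange_add, LinearMap.baseChange_smul,
          LinearMap.baseChange_comp, LinearMap.add_apply, LinearMap.smul_apply,
          LinearMap.comp_apply, hwq, map_smul]
        congr 1
        rw [← Int.cast_smul_eq_zsmul k]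
        push_cast
        rfl
      have e2 : (α' ∘ₗ α).baseChange k (inr_k w) =
          (ε * ((q : k) + 1)) • inl_k w + ((q : k) + 1) • inr_k w := by
        show ((α' ∘ₗ α).baseChange k ∘ₗ (LinearMap.inr ℤ Y Y).baseChange k) w = _
        rw [← LinearMap.baseChange_comp, hDinr, LinearMap.baseChange_add, LinearMap.baseChange_smul,
          LinearMap.baseChange_comp, LinearMap.add_apply, LinearMap.smul_apply,
          LinearMap.comp_apply, hwq, map_smul]
        congr 1
        rw [← Int.cast_smul_eq_zsmul k]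
        push_cast
        rfl
      rw [map_sub, map_smul, e1, e2, smul_add, smul_smul, smul_smul, ← mul_assoc, hε, one_mul]
      abel
    · -- `S u = c u`
      have hSinl : (ρA s) ∘ₗ (LinearMap.inl ℤ Y Y) = (LinearMap.inl ℤ Y Y) ∘ₗ (ρY s) := by
        apply LinearMap.ext
        intro y
        simp only [LinearMap.comp_apply, hρA, LinearMap.inl_apply, map_zero]
      have hSinr : (ρA s) ∘ₗ (LinearMap.inr ℤ Y Y) = (LinearMap.inr ℤ Y Y) ∘ₗ (ρY s) := by
        apply LinearMap.ext
        intro y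
        simp only [LinearMap.comp_apply, hρA, LinearMap.inr_apply, map_zero]
      have hρYw : (ρY s).baseChange k w = ((MvPolynomial.eval a s : ℤ) : k) • w := by
        have := aevalComm_baseChange_apply_eq_smul TY hTY (fun i => ((a i : ℤ) : k)) hwT s
        rw [this]
        congr 1
        have h2 := MvPolynomial.aeval_algebraMap_apply (R := ℤ) (A := ℤ) (B := k) a s
        rw [show (MvPolynomial.aeval a) s = MvPolynomial.eval a s from by
          rw [← MvPolynomial.coe_aeval_eq_eval]; rfl] at h2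
        rw [show (fun i => ((a i : ℤ) : k)) = (algebraMap ℤ k) ∘ a from rfl, h2, eq_intCast]
      have e1 : (ρA s).baseChange k (inl_k w) = ((MvPolynomial.eval a s : ℤ) : k) • inl_k w := by
        show ((ρA s).baseChange k ∘ₗ (LinearMap.inl ℤ Y Y).baseChange k) w = _
        rw [← LinearMap.baseChange_comp, hSinl, LinearMap.baseChange_comp, LinearMap.comp_apply,
          hρYw, map_smul]
      have e2 : (ρA s).baseChange k (inr_k w) = ((MvPolynomial.eval a s : ℤ) : k) • inr_k w := by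
        show ((ρA s).baseChange k ∘ₗ (LinearMap.inr ℤ Y Y).baseChange k) w = _
        rw [← LinearMap.baseChange_comp, hSinr, LinearMap.baseChange_comp, LinearMap.comp_apply,
          hρYw, map_smul]
      rw [map_sub, map_smul, e1, e2, smul_sub, smul_comm]
  -- conclusion
  intro s hs
  rw [← hmem]
  refine levelRaise hpZ 𝔫 hp𝔫 ρA ρX α α' hα bA EX hbA hbL hadj hadj' hndA hEXp hinj hIhara hSupp s
    ?_
  intro y hy
  rw [hα'def] at hy
  exact hs y (congrArg Prod.fst hy) (congrArg Prod.snd hy)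

end glue

end Fermat.Agent.ES.LR.NewSupp4
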