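import Mathlib
import Fermat.Agent.ES.LR.NewSupp4
import Fermat.Agent.ES.LR.DSNewB8

/-!
# S41, chapter CORE: `exists_new_eigensystem` (Ribet's lattice argument + Deligne–Serre lifting)

Assembly of `NewSupp4.dvd_eval_of_forall_ker` (CORE-A: the eigensystem `a` mod `p` is supported on
the `q`-new lattice `ker t1 ∩ ker t2`; heart = `LatticeRaise4.levelRaise`) and helper8's
`DSNewB8.exists_new_eigensystem_of_ann` (CORE-B: Deligne–Serre lifting on that lattice).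

* `exists_new_eigensystem_weak`: the statement with the hypotheses CORE really uses: alternating
  forms `EY`, `EX`; `EY` nondegenerate; `EX` nondegenerate modulo `p`; no `h21`.
* `exists_new_eigensystem`: L_PLAN27's literal statement (perfect forms, `h21`) plus the two
  hypotheses `hEYalt`, `hEXalt` that the forms are alternating.
-/

set_option autoImplicit false

namespace Fermat.Agent.ES.LR.LRCore4

open Module TensorProduct Fermat.Agent.ES.LR.AevalComm4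

variable {p q : ℕ}
  {Y X : Type*} [AddCommGroup Y] [Module.Free ℤ Y] [Module.Finite ℤ Y]
  [AddCommGroup X] [Module.Free ℤ X] [Module.Finite ℤ X]
  {ι : Type*}

/-- **CORE of S41**, with the hypotheses that are really used. -/
theorem exists_new_eigensystem_weak (hp : p.Prime)
    (TY : ι → Module.End ℤ Y) (TX : ι → Module.End ℤ X) (a : ι → ℤ)
    (hTY : ∀ i j, Commute (TY i) (TY j)) (hTX : ∀ i j, Commute (TX i) (TX j))
    (Tq : Module.End ℤ Y) (hTq : ∀ i, Commute Tq (TY i))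
    (i1 i2 : Y →ₗ[ℤ] X) (t1 t2 : X →ₗ[ℤ] Y)
    (hi1 : ∀ i y, i1 (TY i y) = TX i (i1 y)) (hi2 : ∀ i y, i2 (TY i y) = TX i (i2 y))
    (h11 : ∀ y, t1 (i1 y) = ((q : ℤ) + 1) • y) (h22 : ∀ y, t2 (i2 y) = ((q : ℤ) + 1) • y)
    (h12 : ∀ y, t1 (i2 y) = Tq y)
    (EY : LinearMap.BilinForm ℤ Y) (EX : LinearMap.BilinForm ℤ X)
    (hEYalt : ∀ y, EY y y = 0) (hEXalt : ∀ x, EX x x = 0)
    (hEYl : ∀ y, (∀ y', EY y y' = 0) → y = 0)
    (hEXp : ∀ x, (∀ x', (p : ℤ) ∣ EX x x') → ∃ x₁, x = (p : ℤ) • x₁)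
    (hsaY : ∀ i y y', EY (TY i y) y' = EY y (TY i y'))
    (hsaX : ∀ i x x', EX (TX i x) x' = EX x (TX i x'))
    (hsaq : ∀ y y', EY (Tq y) y' = EY y (Tq y'))
    (hadj1 : ∀ y x, EX (i1 y) x = EY y (t1 x)) (hadj2 : ∀ y x, EX (i2 y) x = EY y (t2 x))
    (hQ : ∀ y : Y, (((q : ℤ) + 1) ^ 2) • y - Tq (Tq y) = 0 → y = 0)
    (i0 : ι) (e0 : ℤ) (hne : ¬ (p : ℤ) ∣ a i0 - e0)
    (hI1 : ∀ y1 y2 : Y, (∃ x, i1 y1 + i2 y2 = (p : ℤ) • x) →
      (∃ y, TY i0 y1 - e0 • y1 = (p : ℤ) • y) ∧ (∃ y, TY i0 y2 - e0 • y2 = (p : ℤ) • y))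
    (hocc : ∃ (k : Type) (_ : Field k) (_ : CharP k p) (v : k ⊗[ℤ] Y), v ≠ 0 ∧
      (∀ i, (TY i).baseChange k v = ((a i : ℤ) : k) • v) ∧
      (Tq.baseChange k) ((Tq.baseChange k) v) = (((q : k) + 1) ^ 2) • v) :
    ∃ (lam : ι → integralClosure ℤ ℂ) (𝔪' : Ideal (integralClosure ℤ ℂ)) (w : ℂ ⊗[ℤ] X),
      𝔪'.IsMaximal ∧ (p : integralClosure ℤ ℂ) ∈ 𝔪' ∧ w ≠ 0 ∧
      (t1.baseChange ℂ) w = 0 ∧ (t2.baseChange ℂ) w = 0 ∧
      (∀ i, (TX i).baseChange ℂ w = ((lam i : ℂ)) • w) ∧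
      ∀ i, lam i - ((a i : ℤ) : integralClosure ℤ ℂ) ∈ 𝔪' := by
  have hEYskew : ∀ y y', EY y y' = -EY y' y := fun y y' =>
    ((LinearMap.IsAlt.neg (B := EY) hEYalt) y' y).symm
  have hEXskew : ∀ x x', EX x x' = -EX x' x := fun x x' =>
    ((LinearMap.IsAlt.neg (B := EX) hEXalt) x' x).symm
  have hadj1' : ∀ y x, EX x (i1 y) = EY (t1 x) y := fun y x => by
    rw [hEXskew, hadj1, ← hEYskew]
  have hadj2' : ∀ y x, EX x (i2 y) = EY (t2 x) y := fun y x => by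
    rw [hEXskew, hadj2, ← hEYskew]
  -- the transfers commute with the Hecke operators
  have ht1 : ∀ i x, t1 (TX i x) = TY i (t1 x) := by
    intro i x
    have h : ∀ y, EY (t1 (TX i x) - TY i (t1 x)) y = 0 := fun y => by
      rw [map_sub, LinearMap.sub_apply, ← hadj1', hsaX, ← hi1, hadj1', hsaY, sub_self]
    exact sub_eq_zero.mp (hEYl _ h)
  have ht2 : ∀ i x, t2 (TX i x) = TY i (t2 x) := by
    intro i x
    have h : ∀ y, EY (t2 (TX i x) - TY i (t2 x)) y = 0 := fun y => by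
      rw [map_sub, LinearMap.sub_apply, ← hadj2', hsaX, ← hi2, hadj2', hsaY, sub_self]
    exact sub_eq_zero.mp (hEYl _ h)
  refine Fermat.Agent.ES.LR.DSNewB8.exists_new_eigensystem_of_ann hp TX hTX a t1 t2 ?_ ?_
  · intro i x h1 h2
    exact ⟨by rw [ht1, h1, map_zero], by rw [ht2, h2, map_zero]⟩
  · exact Fermat.Agent.ES.LR.NewSupp4.dvd_eval_of_forall_ker hp TY TX a hTY hTX Tq hTq i1 i2 t1 t2
      hi1 hi2 h11 h22 h12 EY EX hEYalt hEXalt hEYl hEXp hsaY hsaX hsaq hadj1 hadj2 hQ i0 e0 hne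
      hI1 hocc

/-- **CORE of S41** in the literal shape of L_PLAN27 / `Assemble12.CoreStatement`, plus the two
hypotheses that the forms are alternating. -/
theorem exists_new_eigensystem (hp : p.Prime)
    (TY : ι → Module.End ℤ Y) (TX : ι → Module.End ℤ X) (a : ι → ℤ)
    (hTY : ∀ i j, Commute (TY i) (TY j)) (hTX : ∀ i j, Commute (TX i) (TX j))
    (Tq : Module.End ℤ Y) (hTq : ∀ i, Commute Tq (TY i))
    (i1 i2 : Y →ₗ[ℤ] X) (t1 t2 : X →ₗ[ℤ] Y)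
    (hi1 : ∀ i y, i1 (TY i y) = TX i (i1 y)) (hi2 : ∀ i y, i2 (TY i y) = TX i (i2 y))
    (h11 : ∀ y, t1 (i1 y) = ((q : ℤ) + 1) • y) (h22 : ∀ y, t2 (i2 y) = ((q : ℤ) + 1) • y)
    (h12 : ∀ y, t1 (i2 y) = Tq y) (_h21 : ∀ y, t2 (i1 y) = Tq y)
    (EY : LinearMap.BilinForm ℤ Y) (EX : LinearMap.BilinForm ℤ X)
    (hEYalt : ∀ y, EY y y = 0) (hEXalt : ∀ x, EX x x = 0)
    (_hEY : ∀ f : Y →ₗ[ℤ] ℤ, ∃ y, ∀ y', EY y y' = f y')
    (hEYl : ∀ y, (∀ y', EY y y' = 0) → y = 0)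
    (hEX : ∀ f : X →ₗ[ℤ] ℤ, ∃ x, ∀ x', EX x x' = f x')
    (hEXl : ∀ x, (∀ x', EX x x' = 0) → x = 0)
    (hsaY : ∀ i y y', EY (TY i y) y' = EY y (TY i y'))
    (hsaX : ∀ i x x', EX (TX i x) x' = EX x (TX i x'))
    (hsaq : ∀ y y', EY (Tq y) y' = EY y (Tq y'))
    (hadj1 : ∀ y x, EX (i1 y) x = EY y (t1 x)) (hadj2 : ∀ y x, EX (i2 y) x = EY y (t2 x))
    (hQ : ∀ y : Y, (((q : ℤ) + 1) ^ 2) • y - Tq (Tq y) = 0 → y = 0)
    (i0 : ι) (e0 : ℤ) (hne : ¬ (p : ℤ) ∣ a i0 - e0)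
    (hI1 : ∀ y1 y2 : Y, (∃ x, i1 y1 + i2 y2 = (p : ℤ) • x) →
      (∃ y, TY i0 y1 - e0 • y1 = (p : ℤ) • y) ∧ (∃ y, TY i0 y2 - e0 • y2 = (p : ℤ) • y))
    (hocc : ∃ (k : Type) (_ : Field k) (_ : CharP k p) (v : k ⊗[ℤ] Y), v ≠ 0 ∧
      (∀ i, (TY i).baseChange k v = ((a i : ℤ) : k) • v) ∧
      (Tq.baseChange k) ((Tq.baseChange k) v) = (((q : k) + 1) ^ 2) • v) :
    ∃ (lam : ι → integralClosure ℤ ℂ) (𝔪' : Ideal (integralClosure ℤ ℂ)) (w : ℂ ⊗[ℤ] X),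
      𝔪'.IsMaximal ∧ (p : integralClosure ℤ ℂ) ∈ 𝔪' ∧ w ≠ 0 ∧
      (t1.baseChange ℂ) w = 0 ∧ (t2.baseChange ℂ) w = 0 ∧
      (∀ i, (TX i).baseChange ℂ w = ((lam i : ℂ)) • w) ∧
      ∀ i, lam i - ((a i : ℤ) : integralClosure ℤ ℂ) ∈ 𝔪' := by
  have hpZ : (p : ℤ) ≠ 0 := by exact_mod_cast hp.ne_zero
  -- perfect ⇒ nondegenerate mod `p`
  have hEXp : ∀ x, (∀ x', (p : ℤ) ∣ EX x x') → ∃ x₁, x = (p : ℤ) • x₁ := by
    intro x hx
    choose g hg using hx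
    -- the functional `x' ↦ EX x x' / p`
    let f : X →ₗ[ℤ] ℤ :=
      { toFun := g
        map_add' := fun u v => by
          apply mul_left_cancel₀ hpZ
          rw [mul_add, ← hg, ← hg, ← hg, map_add]
        map_smul' := fun c u => by
          apply mul_left_cancel₀ hpZ
          rw [RingHom.id_apply, smul_eq_mul, mul_left_comm, ← hg, ← hg, map_smul, smul_eq_mul] }
    obtain ⟨x₁, hx₁⟩ := hEX f
    refine ⟨x₁, sub_eq_zero.mp (hEXl _ fun x' => ?_)⟩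
    rw [map_sub, LinearMap.sub_apply, map_smul, LinearMap.smul_apply, hx₁, smul_eq_mul]
    show EX x x' - (p : ℤ) * g x' = 0
    rw [← hg, sub_self]
  exact exists_new_eigensystem_weak hp TY TX a hTY hTX Tq hTq i1 i2 t1 t2 hi1 hi2 h11 h22 h12 EY EX
    hEYalt hEXalt hEYl hEXp hsaY hsaX hsaq hadj1 hadj2 hQ i0 e0 hne hI1 hocc

end Fermat.Agent.ES.LR.LRCore4
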