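import Mathlib
import Fermat.Agent.ES.LR.LRCore4

/-!
# S41, chapter CORE: the export consumed by the assembly (L_PLAN27 v2 `CoreStatement'`)

`exists_new_eigensystem'` = L_PLAN27 v1's CORE statement with `h21` and with the (I2) inputs
`hEY hEYl hEX hEXl` replaced by `hEYalt hEXalt hEYl hEXp` (alternating; nondegenerate at level `N`;
nondegenerate mod `p` at level `Nq`), binders in the order fixed by L_PLAN27 v2:
`… h12 h21 EY EX hEYalt hEXalt hEYl hEXp hsaY hsaX hsaq hadj1 hadj2 hQ i0 e0 hne hI1 hocc`.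
It is `LRCore4.exists_new_eigensystem_weak` with the (unused) hypothesis `h21` added.
-/

set_option autoImplicit false

namespace Fermat.Agent.ES.LR.LRCore4

open Module TensorProduct

variable {p q : ℕ}
  {Y X : Type*} [AddCommGroup Y] [Module.Free ℤ Y] [Module.Finite ℤ Y]
  [AddCommGroup X] [Module.Free ℤ X] [Module.Finite ℤ X]
  {ι : Type*}

/-- **CORE of S41**, literal L_PLAN27 v2 contract. -/
theorem exists_new_eigensystem' (hp : p.Prime)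
    (TY : ι → Module.End ℤ Y) (TX : ι → Module.End ℤ X) (a : ι → ℤ)
    (hTY : ∀ i j, Commute (TY i) (TY j)) (hTX : ∀ i j, Commute (TX i) (TX j))
    (Tq : Module.End ℤ Y) (hTq : ∀ i, Commute Tq (TY i))
    (i1 i2 : Y →ₗ[ℤ] X) (t1 t2 : X →ₗ[ℤ] Y)
    (hi1 : ∀ i y, i1 (TY i y) = TX i (i1 y)) (hi2 : ∀ i y, i2 (TY i y) = TX i (i2 y))
    (h11 : ∀ y, t1 (i1 y) = ((q : ℤ) + 1) • y) (h22 : ∀ y, t2 (i2 y) = ((q : ℤ) + 1) • y)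
    (h12 : ∀ y, t1 (i2 y) = Tq y) (_h21 : ∀ y, t2 (i1 y) = Tq y)
    (EY : LinearMap.BilinForm ℤ Y) (EX : LinearMap.BilinForm ℤ X)
    (hEYalt : ∀ y, EY y y = 0) (hEXalt : ∀ x, EX x x = 0)
    (hEYl : ∀ y, (∀ y', EY y y' = 0) → y = 0)
    (hEXp : ∀ x, (∀ x', (p : ℤ) ∣ EX x x') → ∃ x₁, x = (p : ℤ) • x₁)
    (hsaY : ∀ i y y', EY (TY i y) y' = EY y (TY i y'))
    (hsaX : ∀ i x x', EX (TX i x) x' = EX x (TX i x'))
    (hsaq : ∀ y y', EY (Tq y) y' = EY y (Tq y'))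
    (hadj1 : ∀ y x, EX (i1 y) x = EY y (t1 x)) (hadj2 : ∀ y x, EX (i2 y) x = EY y (t2 x))
    (hQ : ∀ y : Y, (((q : ℤ) + 1) ^ 2) • y - Tq (Tq y) = 0 → y = 0)
    (i0 : ι) (e0 : ℤ) (hne : ¬ (p : ℤ) ∣ a i0 - e0)
    (hI1 : ∀ y1 y2 : Y, (∃ x, i1 y1 + i2 y2 = (p : ℤ) • x) →
      (∃ y, TY i0 y1 - e0 • y1 = (p : ℤ) • y) ∧ (∃ y, TY i0 y2 - e0 • y2 = (p : ℤ) • y))
    (hocc : ∃ (k : Type) (_ : Field k) (_ : CharP k p) (v : k ⊗[ℤ] Y), v ≠ 0 ∧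
      (∀ i, (TY i).baseChange k v = ((a i : ℤ) : k) • v) ∧
      (Tq.baseChange k) ((Tq.baseChange k) v) = (((q : k) + 1) ^ 2) • v) :
    ∃ (lam : ι → integralClosure ℤ ℂ) (𝔪' : Ideal (integralClosure ℤ ℂ)) (w : ℂ ⊗[ℤ] X),
      𝔪'.IsMaximal ∧ (p : integralClosure ℤ ℂ) ∈ 𝔪' ∧ w ≠ 0 ∧
      (t1.baseChange ℂ) w = 0 ∧ (t2.baseChange ℂ) w = 0 ∧
      (∀ i, (TX i).baseChange ℂ w = ((lam i : ℂ)) • w) ∧
      ∀ i, lam i - ((a i : ℤ) : integralClosure ℤ ℂ) ∈ 𝔪' :=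
  exists_new_eigensystem_weak hp TY TX a hTY hTX Tq hTq i1 i2 t1 t2 hi1 hi2 h11 h22 h12 EY EX
    hEYalt hEXalt hEYl hEXp hsaY hsaX hsaq hadj1 hadj2 hQ i0 e0 hne hI1 hocc

end Fermat.Agent.ES.LR.LRCore4
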