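/-
Program L (S41), chapter OP, leaf `PeriodUq1` (helper1): **the period map and the operator `U_q`.**

Layer (A), generic: if a weight-2 cusp form `h` on `Γ₀(M)` is an "affine average" of another one,
`h τ = ∑ᵢ (aᵢ/dᵢ) f ((aᵢ τ + bᵢ)/dᵢ)`, and the affine maps `mᵢ` satisfy the coset identity
`mᵢ (γ z) = cᵢ • m_{π i} z` with `cᵢ ∈ Γ₀(M)`, then

  `periodMap M h γ = ∑ᵢ periodMap M f (cᵢ)`.

This is `PeriodHecke1.periodMap_heckeT_apply` with the Hecke operator abstracted away (same proof: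
`G z = ∑ᵢ prim f (mᵢ z)` is a primitive of `h`).

Layer (B): the instance `h = U_q g` (`CuspForm.heckeULin`), `I = Fin q`/`ZMod q`,
`mⱼ τ = (τ + j)/q`.
-/
import Mathlib
import Fermat.Agent.S21.Primitive
import Fermat.Agent.ES.HEQ.PeriodHecke1
import Fermat.Prelude.Def_ModularForm_HeckeOperatorForms
import Fermat.Agent.ES.LR.UqOp28

set_option autoImplicit false

open UpperHalfPlane hiding I
open Complex Filter Topology CongruenceSubgroup ModularCurve ModularCurve.Period
open scoped MatrixGroups ModularForm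

noncomputable section

namespace Fermat.Agent.ES.LR.PeriodUq1

open Fermat.Agent.S21.Primitive Fermat.Agent.ES.HEQ.PeriodHecke1

variable {M : ℕ} [NeZero M]

/-- **Generic equivariance of the period map** under an affine averaging operator. -/
theorem periodMap_affineAverage_apply
    (f h : CuspForm (Gamma0 M) 2) (γ : Gamma0 M)
    {I : Type*} [Fintype I] (m : I → ℍ → ℍ) (a b d : I → ℂ)
    (hm : ∀ (i : I) (τ : ℍ), ((m i τ : ℍ) : ℂ) = (a i * (τ : ℂ) + b i) / d i)
    (hh : ∀ τ : ℍ, h τ = ∑ i, a i / d i * f (m i τ))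
    (π : Equiv.Perm I) (c : I → Gamma0 M)
    (hc : ∀ (i : I) (z : ℍ),
      m i (((γ : Gamma0 M) : SL(2, ℤ)) • z) = (((c i : Gamma0 M) : SL(2, ℤ))) • m (π i) z) :
    periodMap M h (Additive.ofMul γ) = ∑ i, periodMap M f (Additive.ofMul (c i)) := by
  classical
  set F : ℍ → ℂ := prim f with hF
  set G : ℍ → ℂ := fun z => ∑ i, F (m i z) with hG
  -- `G` is a primitive of `h`
  have hGder : ∀ τ : ℍ, HasDerivAt (G ∘ ofComplex) (h τ) (τ : ℂ) := by
    intro τ
    rw [hh τ]
    have h2 : G ∘ ofComplex = fun w : ℂ => ∑ i, ((fun z : ℍ => F (m i z)) ∘ ofComplex) w := by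
      funext w
      rfl
    rw [h2]
    exact HasDerivAt.fun_sum fun i _ =>
      hasDerivAt_comp_affine (prim_hasDerivAt f) (m i) (a i) (b i) (d i) (hm i) τ
  obtain ⟨c₀, hc₀⟩ := sub_const_of_hasDerivAt hGder (prim_hasDerivAt h)
  -- periods
  have hper : ∀ z : ℍ, periodMap M h (Additive.ofMul γ) =
      G (((γ : Gamma0 M) : SL(2, ℤ)) • z) - G z := by
    intro z
    rw [periodMap_apply_prim h γ z]
    have e1 := hc₀ (((γ : Gamma0 M) : SL(2, ℤ)) • z)
    have e2 := hc₀ z
    linear_combination e2 - e1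
  rw [hper UpperHalfPlane.I]
  show ∑ i, F (m i (((γ : Gamma0 M) : SL(2, ℤ)) • UpperHalfPlane.I)) -
      ∑ i, F (m i UpperHalfPlane.I) = _
  have h3 : ∀ i, F (m i (((γ : Gamma0 M) : SL(2, ℤ)) • UpperHalfPlane.I)) =
      F (m (π i) UpperHalfPlane.I) + periodMap M f (Additive.ofMul (c i)) := by
    intro i
    rw [hc i, periodMap_apply_prim f (c i) (m (π i) UpperHalfPlane.I)]
    ring
  rw [Finset.sum_congr rfl fun i _ => h3 i, Finset.sum_add_distrib,
    Equiv.sum_comp π fun i => F (m i UpperHalfPlane.I)]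
  ring

/-! ### Layer (B): the operator `U_q` -/

section Uq

variable {q : ℕ} [NeZero q]

/-- the affine map `τ ↦ (τ + j)/q` of the representative `[[1, j], [0, q]]`. -/
theorem coe_heckeMatrix_val_smul (j : ZMod q) (τ : ℍ) :
    ((ModularForm.heckeMatrix q j.val • τ : ℍ) : ℂ) = ((1 : ℂ) * (τ : ℂ) + (j.val : ℂ)) / (q : ℂ) := by
  rw [ModularForm.coe_heckeMatrix_smul (NeZero.ne q), one_mul]

/-- sums over `ZMod q` through `val` are sums over `Finset.range q`. -/
theorem sum_zmod_val (F : ℕ → ℂ) : ∑ j : ZMod q, F j.val = ∑ i ∈ Finset.range q, F i := by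
  obtain ⟨n, rfl⟩ := Nat.exists_eq_succ_of_ne_zero (NeZero.ne q)
  rw [Finset.sum_range]
  rfl

/-- the prelude's `heckeU` in weight 2 as a sum over `ZMod q`. -/
theorem heckeU_two_apply (g : ℍ → ℂ) (τ : ℍ) :
    ModularForm.heckeU 2 q g τ
      = ∑ j : ZMod q, (1 : ℂ) / (q : ℂ) * g (ModularForm.heckeMatrix q j.val • τ) := by
  have hq0 : q ≠ 0 := NeZero.ne q
  rw [ModularForm.heckeU_apply 2 hq0, Finset.mul_sum,
    sum_zmod_val (fun i => (1 : ℂ) / (q : ℂ) * g (ModularForm.heckeMatrix q i • τ))]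
  refine Finset.sum_congr rfl fun j _ => ?_
  rw [one_div]

/-- **The period map and `U_q`**, abstract in the coset data: if `β_j γ = c_j β_{π j}` on `ℍ`
(`β_j = [[1, j], [0, q]]`, `j : ZMod q`, `c_j ∈ Γ₀(M)`), then
`periodMap M (U_q g) γ = ∑ⱼ periodMap M g (c_j)`. -/
theorem periodMap_heckeULin_apply (hqM : q ∣ M) (g : CuspForm (Gamma0 M) 2) (γ : Gamma0 M)
    (π : Equiv.Perm (ZMod q)) (c : ZMod q → Gamma0 M)
    (hc : ∀ (j : ZMod q) (z : ℍ),
      ModularForm.heckeMatrix q j.val • (((γ : Gamma0 M) : SL(2, ℤ)) • z)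
        = (((c j : Gamma0 M) : SL(2, ℤ))) • (ModularForm.heckeMatrix q (π j).val • z)) :
    periodMap M (CuspForm.heckeULin 2 hqM g) (Additive.ofMul γ)
      = ∑ j : ZMod q, periodMap M g (Additive.ofMul (c j)) := by
  refine periodMap_affineAverage_apply g (CuspForm.heckeULin 2 hqM g) γ (I := ZMod q)
    (fun j τ => ModularForm.heckeMatrix q j.val • τ) (fun _ => (1 : ℂ)) (fun j => (j.val : ℂ))
    (fun _ => (q : ℂ)) ?_ ?_ π c ?_
  · intro j τ
    exact coe_heckeMatrix_val_smul j τ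
  · intro τ
    have h1 : (CuspForm.heckeULin 2 hqM g) τ = ModularForm.heckeU 2 q (⇑g) τ := rfl
    rw [h1]
    exact heckeU_two_apply (⇑g) τ
  · intro j z
    exact hc j z

end Uq

section UqAdd

open Fermat.Agent.ES.HEQ.DoubleCoset27 Fermat.Agent.ES.LR.UqOp28

variable {q : ℕ} [hq : Fact q.Prime]

/-- **(OP-4) The period map intertwines `U_q` on cusp forms with the group-theoretic operator
`UqAdd`** (helper28's `UqOp28.UqAdd`): `periodMap M (U_q g) = UqAdd hqM (periodMap M g)`.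
This is literally `hUper` of `Assemble12.result_of_contracts'` (with `M = N * q`). -/
theorem periodMap_heckeULin (hqM : q ∣ M) (g : CuspForm (Gamma0 M) 2) :
    periodMap M (CuspForm.heckeULin 2 hqM g) = UqAdd hqM (periodMap M g) := by
  have : NeZero q := ⟨hq.out.ne_zero⟩
  refine AddMonoidHom.ext fun γ' => ?_
  obtain ⟨γ, rfl⟩ := Additive.ofMul.surjective γ'
  rw [UqAdd_apply]
  refine periodMap_heckeULin_apply hqM g γ (permU γ) (fun j => cocU hqM γ j) fun j z => ?_
  have h := glBeta_some_smul_smul hqM γ j z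
  rwa [glBeta_some, glBeta_some] at h

omit [NeZero M] in
/-- Subtraction version of `UqAdd_add`. -/
theorem UqAdd_sub (hqM : q ∣ M) {A : Type*} [AddCommGroup A]
    (φ ψ : Additive (Gamma0 M) →+ A) :
    UqAdd hqM (φ - ψ) = UqAdd hqM φ - UqAdd hqM ψ := by
  rw [eq_sub_iff_add_eq, ← UqAdd_add, sub_add_cancel]

/-- The pair period map `periodHomPair` intertwines `U_q × U_q` with `UqAdd`. -/
theorem periodHomPair_heckeULin (hqM : q ∣ M) (f g : CuspForm (Gamma0 M) 2) :
    periodHomPair M (CuspForm.heckeULin 2 hqM f, CuspForm.heckeULin 2 hqM g)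
      = UqAdd hqM (periodHomPair M (f, g)) := by
  rw [Fermat.Agent.S21.Primitive.periodHomPair_apply,
    Fermat.Agent.S21.Primitive.periodHomPair_apply,
    periodMap_heckeULin, periodMap_heckeULin, UqAdd_add, UqAdd_add, UqAdd_sub,
    UqAdd_charInvolution hqM ℂ, UqAdd_charInvolution hqM ℂ]

end UqAdd

end Fermat.Agent.ES.LR.PeriodUq1
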