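/-
Program L (S41), glue between (OP) and (I2) (helper5): the double coset operator `T_ℓ = dcZ M ℓ` is
self-adjoint for a pairing as soon as the degeneracy maps are adjoint (`i_k ⊣ t_k`) and
`t₁ ∘ i₂ = T_ℓ = t₂ ∘ i₁`:

  `E_M (t₁ i₂ x, y) = E_{Mℓ} (i₂ x, i₁ y) = E_M (x, t₂ i₁ y)`.

* `selfAdjoint_of_adj`, `selfAdjoint_of_adj_alt` : abstract linear algebra;
* `dcZ_selfAdjoint_of_adj` (two-sided adjointness), `dcZ_selfAdjoint_of_adj_alt` (one-sided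
  adjointness + alternating) : for `Lam M`, `Lam (M * ℓ)` and the literal `i_kPar`, `t_kPar`, `dcZ`;
* `dcZ_selfAdjoint_family` : for a family `E M` of alternating forms, in the literal shape of
  `hsaY`, `hsaX` of `Assemble12.result_of_contracts'`.
-/
import Mathlib
import Fermat.Agent.ES.LR.DegeneracyPar27
import Fermat.Agent.ES.HEQ.FaithFinal26

set_option autoImplicit false
set_option linter.unusedSectionVars false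

open CongruenceSubgroup ModularCurve.Period

namespace Fermat.Agent.ES.LR.SelfAdj5

open Fermat.Agent.ES.LR.Degeneracy27 Fermat.Agent.ES.LR.DegeneracyPar27
open Fermat.Agent.ES.HEQ.FaithInst26 Fermat.Agent.ES.HEQ.FaithFinal26

section Abstract

variable {R : Type*} [CommRing R] {Y X : Type*} [AddCommGroup Y] [Module R Y] [AddCommGroup X]
  [Module R X]

/-- two-sided adjointness: `E_Y (t₁ i₂ x, y) = E_X (i₂ x, i₁ y) = E_Y (x, t₂ i₁ y)`. -/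
theorem selfAdjoint_of_adj (EY : LinearMap.BilinForm R Y) (EX : LinearMap.BilinForm R X)
    (i1 i2 : Y →ₗ[R] X) (t1 t2 : X →ₗ[R] Y) (T : Y →ₗ[R] Y)
    (hadj1r : ∀ x y, EX x (i1 y) = EY (t1 x) y) (hadj2 : ∀ y x, EX (i2 y) x = EY y (t2 x))
    (h12 : ∀ y, t1 (i2 y) = T y) (h21 : ∀ y, t2 (i1 y) = T y) (x y : Y) :
    EY (T x) y = EY x (T y) := by
  rw [← h12 x, ← hadj1r, hadj2, h21]

/-- a skew form: `E (x, y) = - E (y, x)` for an alternating form. -/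
theorem skew_of_alt {M : Type*} [AddCommGroup M] [Module R M] (E : LinearMap.BilinForm R M)
    (halt : ∀ x, E x x = 0) (x y : M) : E x y = - E y x := by
  have h := halt (x + y)
  simp only [map_add, LinearMap.add_apply, halt, zero_add, add_zero] at h
  exact eq_neg_of_add_eq_zero_left ((add_comm _ _).trans h)

/-- one-sided adjointness for alternating forms. -/
theorem selfAdjoint_of_adj_alt (EY : LinearMap.BilinForm R Y) (EX : LinearMap.BilinForm R X)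
    (haltY : ∀ y, EY y y = 0) (haltX : ∀ x, EX x x = 0)
    (i1 i2 : Y →ₗ[R] X) (t1 t2 : X →ₗ[R] Y) (T : Y →ₗ[R] Y)
    (hadj1 : ∀ y x, EX (i1 y) x = EY y (t1 x)) (hadj2 : ∀ y x, EX (i2 y) x = EY y (t2 x))
    (h12 : ∀ y, t1 (i2 y) = T y) (h21 : ∀ y, t2 (i1 y) = T y) (x y : Y) :
    EY (T x) y = EY x (T y) := by
  refine selfAdjoint_of_adj EY EX i1 i2 t1 t2 T (fun x y => ?_) hadj2 h12 h21 x y
  rw [skew_of_alt EX haltX, hadj1, ← skew_of_alt EY haltY]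

end Abstract

section Lattice

variable (M ℓ : ℕ) [NeZero M] [NeZero ℓ]

/-- **`T_ℓ` is self-adjoint** (two-sided adjointness of the degeneracy maps). -/
theorem dcZ_selfAdjoint_of_adj (hℓ : ℓ.Prime) (hℓM : ¬ ℓ ∣ M)
    (EM : LinearMap.BilinForm ℤ ↥(Lam M)) (EMl : LinearMap.BilinForm ℤ ↥(Lam (M * ℓ)))
    (hadj1r : ∀ x y, EMl x (i1Par M ℓ ℤ ℤ y) = EM (t1Par M ℓ ℤ ℤ x) y)
    (hadj2 : ∀ y x, EMl (i2Par M ℓ ℤ ℤ y) x = EM y (t2Par M ℓ ℤ ℤ x))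
    (h12 : ∀ y : ↥(Lam M), t1Par M ℓ ℤ ℤ (i2Par M ℓ ℤ ℤ y) = dcZ M ℓ hℓ hℓM y)
    (h21 : ∀ y : ↥(Lam M), t2Par M ℓ ℤ ℤ (i1Par M ℓ ℤ ℤ y) = dcZ M ℓ hℓ hℓM y)
    (x y : ↥(Lam M)) :
    EM (dcZ M ℓ hℓ hℓM x) y = EM x (dcZ M ℓ hℓ hℓM y) :=
  selfAdjoint_of_adj EM EMl (i1Par M ℓ ℤ ℤ) (i2Par M ℓ ℤ ℤ) (t1Par M ℓ ℤ ℤ) (t2Par M ℓ ℤ ℤ)
    (dcZ M ℓ hℓ hℓM) hadj1r hadj2 h12 h21 x y

/-- **`T_ℓ` is self-adjoint** (alternating forms, one-sided adjointness `i_k ⊣ t_k`). -/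
theorem dcZ_selfAdjoint_of_adj_alt (hℓ : ℓ.Prime) (hℓM : ¬ ℓ ∣ M)
    (EM : LinearMap.BilinForm ℤ ↥(Lam M)) (EMl : LinearMap.BilinForm ℤ ↥(Lam (M * ℓ)))
    (haltM : ∀ y, EM y y = 0) (haltMl : ∀ x, EMl x x = 0)
    (hadj1 : ∀ y x, EMl (i1Par M ℓ ℤ ℤ y) x = EM y (t1Par M ℓ ℤ ℤ x))
    (hadj2 : ∀ y x, EMl (i2Par M ℓ ℤ ℤ y) x = EM y (t2Par M ℓ ℤ ℤ x))
    (h12 : ∀ y : ↥(Lam M), t1Par M ℓ ℤ ℤ (i2Par M ℓ ℤ ℤ y) = dcZ M ℓ hℓ hℓM y)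
    (h21 : ∀ y : ↥(Lam M), t2Par M ℓ ℤ ℤ (i1Par M ℓ ℤ ℤ y) = dcZ M ℓ hℓ hℓM y)
    (x y : ↥(Lam M)) :
    EM (dcZ M ℓ hℓ hℓM x) y = EM x (dcZ M ℓ hℓ hℓM y) :=
  selfAdjoint_of_adj_alt EM EMl haltM haltMl (i1Par M ℓ ℤ ℤ) (i2Par M ℓ ℤ ℤ) (t1Par M ℓ ℤ ℤ)
    (t2Par M ℓ ℤ ℤ) (dcZ M ℓ hℓ hℓM) hadj1 hadj2 h12 h21 x y

end Lattice

/-- **family version**, in the literal shape of `hsaY` / `hsaX` of `Assemble12`: a family of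
alternating forms `E M` on the lattices `Lam M` with `i_k ⊣ t_k` at every pair of levels
`(M, M ℓ)`, together with `t₁ i₂ = T_ℓ = t₂ i₁`, makes every `T_ℓ` (`ℓ ∤ M`) self-adjoint. -/
theorem dcZ_selfAdjoint_family
    (E : ∀ (M : ℕ) [NeZero M], LinearMap.BilinForm ℤ ↥(Lam M))
    (halt : ∀ (M : ℕ) [NeZero M] (y : ↥(Lam M)), E M y y = 0)
    (hadj1 : ∀ (M ℓ : ℕ) [NeZero M] [NeZero ℓ], ℓ.Prime → ¬ ℓ ∣ M →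
      ∀ (y : ↥(Lam M)) (x : ↥(Lam (M * ℓ))),
        E (M * ℓ) (i1Par M ℓ ℤ ℤ y) x = E M y (t1Par M ℓ ℤ ℤ x))
    (hadj2 : ∀ (M ℓ : ℕ) [NeZero M] [NeZero ℓ], ℓ.Prime → ¬ ℓ ∣ M →
      ∀ (y : ↥(Lam M)) (x : ↥(Lam (M * ℓ))),
        E (M * ℓ) (i2Par M ℓ ℤ ℤ y) x = E M y (t2Par M ℓ ℤ ℤ x))
    (h12 : ∀ (M ℓ : ℕ) [NeZero M] [NeZero ℓ] (hℓ : ℓ.Prime) (hℓM : ¬ ℓ ∣ M) (y : ↥(Lam M)),
      t1Par M ℓ ℤ ℤ (i2Par M ℓ ℤ ℤ y) = dcZ M ℓ hℓ hℓM y)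
    (h21 : ∀ (M ℓ : ℕ) [NeZero M] [NeZero ℓ] (hℓ : ℓ.Prime) (hℓM : ¬ ℓ ∣ M) (y : ↥(Lam M)),
      t2Par M ℓ ℤ ℤ (i1Par M ℓ ℤ ℤ y) = dcZ M ℓ hℓ hℓM y)
    (M : ℕ) [NeZero M] (ℓ : ℕ) (hℓ : ℓ.Prime) (hℓM : ¬ ℓ ∣ M) (x y : ↥(Lam M)) :
    E M (dcZ M ℓ hℓ hℓM x) y = E M x (dcZ M ℓ hℓ hℓM y) := by
  have : NeZero ℓ := ⟨hℓ.ne_zero⟩
  exact dcZ_selfAdjoint_of_adj_alt M ℓ hℓ hℓM (E M) (E (M * ℓ)) (halt M) (halt (M * ℓ))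
    (hadj1 M ℓ hℓ hℓM) (hadj2 M ℓ hℓ hℓM) (h12 M ℓ hℓ hℓM) (h21 M ℓ hℓ hℓM) x y

end Fermat.Agent.ES.LR.SelfAdj5
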