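/-
Program L (S41, level raising), chapter FIN (helper12): **S41 from (I2) and `U_q² = 1`**.

`Assemble12b.result_of_contracts'` with CORE (`LRCore4.exists_new_eigensystem'`), the relations
`t₁ i₂ = T_q = t₂ i₁` (`DegRel28`), the period compatibility of `U_q` (`PeriodUq1`) plugged in, and
the Hecke self-adjointness derived from the adjunctions (`SelfAdj5`).  The remaining inputs are

* (I2), in the literal shape of L_PLAN27_v2 §2: a family `E M` of alternating integral forms on the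
  lattices `Lam M`, nondegenerate, nondegenerate modulo the odd prime `p`, with `i_k ⊣ t_k`;
* `hUsq`: `U_q² = 1` on `ker t₁ ∩ ker t₂` (complex coefficients).
-/
import Mathlib
import Fermat.Agent.ES.LR.Assemble12b
import Fermat.Agent.ES.LR.LRCoreB4
import Fermat.Agent.ES.LR.DegRel28
import Fermat.Agent.ES.LR.PeriodUq1
import Fermat.Agent.ES.LR.SelfAdj5

set_option autoImplicit false
set_option linter.unusedVariables false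
set_option linter.unusedSectionVars false
open WeierstrassCurve WeierstrassCurve.Affine WeierstrassCurve.Affine.Point
open scoped CongruenceSubgroup
open WeierstrassCurve

noncomputable section

namespace Fermat.Agent.ES.LR.Assemble12c

open ModularCurve ModularCurve.Period CongruenceSubgroup CuspForm TensorProduct
open Fermat.Agent.ES.HEQ.FaithInst26 Fermat.Agent.ES.HEQ.FaithFinal26
open Fermat.Agent.ES.LR.Degeneracy27 Fermat.Agent.ES.LR.DegeneracyPar27 Fermat.Agent.ES.LR.UqOp28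

/-- `t₁ i₂ = T_ℓ` on the lattices, general level pair. -/
theorem h12_general (M ℓ : ℕ) [NeZero M] [NeZero ℓ] (hℓ : ℓ.Prime) (hℓM : ¬ ℓ ∣ M)
    (y : ↥(Lam M)) : t1Par M ℓ ℤ ℤ (i2Par M ℓ ℤ ℤ y) = dcZ M ℓ hℓ hℓM y :=
  haveI : Fact ℓ.Prime := ⟨hℓ⟩
  Fermat.Agent.ES.LR.DegRel28.t1Par_i2Par hℓM ℤ y

/-- `t₂ i₁ = T_ℓ` on the lattices, general level pair. -/
theorem h21_general (M ℓ : ℕ) [NeZero M] [NeZero ℓ] (hℓ : ℓ.Prime) (hℓM : ¬ ℓ ∣ M)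
    (y : ↥(Lam M)) : t2Par M ℓ ℤ ℤ (i1Par M ℓ ℤ ℤ y) = dcZ M ℓ hℓ hℓM y :=
  haveI : Fact ℓ.Prime := ⟨hℓ⟩
  Fermat.Agent.ES.LR.DegRel28.t2Par_i1Par hℓM ℤ y

variable {N q : ℕ} [NeZero N] [hqF : Fact q.Prime] [NeZero q]

/-- **S41 from (I2) and `U_q² = 1` on `ker t₁ ∩ ker t₂`.** -/
theorem result_of_I2
    (E : WeierstrassCurve ℚ) [E.IsElliptic] {W : WeierstrassCurve ℤ} (hW : W.IsIntegralModelOf E)
    {p : ℕ} (hp : p.Prime) (hp2 : p ≠ 2) (hq' : q.Prime) (hq'N : ¬ q ∣ N) (hqp : q ≠ p)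
    (hirr : GaloisRepIsIrreducible (K := AlgebraicClosure ℚ) ℚ E p)
    (f : CuspForm (CongruenceSubgroup.Gamma0 N) 2) (𝔪 : Ideal (integralClosure ℤ ℂ))
    (hf : f.IsNormalizedEigenform) (hmax : 𝔪.IsMaximal) (hpm : (p : integralClosure ℤ ℂ) ∈ 𝔪)
    (hcong : ∀ ℓ : ℕ, ℓ.Prime → W.IsGoodPrimeFor ℓ → ¬ ℓ ∣ N → ℓ ≠ p →
      ∃ a : integralClosure ℤ ℂ, (a : ℂ) = ModularFormClass.qCoeff f ℓ ∧
        a - ((W.apOfModel ℓ : ℤ) : integralClosure ℤ ℂ) ∈ 𝔪)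
    (hLR : ∃ a : integralClosure ℤ ℂ, (a : ℂ) = ModularFormClass.qCoeff f q ∧
      a ^ 2 - ((q : integralClosure ℤ ℂ) + 1) ^ 2 ∈ 𝔪)
    -- `U_q² = 1` on `ker t₁ ∩ ker t₂`
    (hqM : q ∣ N * q)
    (hUsq : ∀ φ : Additive (Gamma0 (N * q)) →+ ℂ, t1 N q φ = 0 → t2 N q φ = 0 →
      UqAdd hqM (UqAdd hqM φ) = φ)
    -- (I2)
    (EE : ∀ (M : ℕ) [NeZero M], LinearMap.BilinForm ℤ ↥(Lam M))
    (E_alt : ∀ (M : ℕ) [NeZero M] (y : ↥(Lam M)), EE M y y = 0)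
    (E_nondeg : ∀ (M : ℕ) [NeZero M] (x : ↥(Lam M)), (∀ y, EE M x y = 0) → x = 0)
    (E_nondeg_mod : ∀ (M : ℕ) [NeZero M] (x : ↥(Lam M)),
      (∀ y, (p : ℤ) ∣ EE M x y) → ∃ x', x = (p : ℤ) • x')
    (E_adj1 : ∀ (M ℓ : ℕ) [NeZero M] [NeZero ℓ], ℓ.Prime → ¬ ℓ ∣ M →
      ∀ (y : ↥(Lam M)) (x : ↥(Lam (M * ℓ))),
        EE (M * ℓ) (i1Par M ℓ ℤ ℤ y) x = EE M y (t1Par M ℓ ℤ ℤ x))
    (E_adj2 : ∀ (M ℓ : ℕ) [NeZero M] [NeZero ℓ], ℓ.Prime → ¬ ℓ ∣ M →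
      ∀ (y : ↥(Lam M)) (x : ↥(Lam (M * ℓ))),
        EE (M * ℓ) (i2Par M ℓ ℤ ℤ y) x = EE M y (t2Par M ℓ ℤ ℤ x)) :
    ∃ (g : CuspForm (CongruenceSubgroup.Gamma0 (N * q)) 2) (𝔪' : Ideal (integralClosure ℤ ℂ)),
      g.IsNormalizedEigenform ∧ 𝔪'.IsMaximal ∧ (p : integralClosure ℤ ℂ) ∈ 𝔪' ∧
      (∀ ℓ : ℕ, ℓ.Prime → W.IsGoodPrimeFor ℓ → ¬ ℓ ∣ N * q → ℓ ≠ p →
        ∃ a : integralClosure ℤ ℂ, (a : ℂ) = ModularFormClass.qCoeff g ℓ ∧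
          a - ((W.apOfModel ℓ : ℤ) : integralClosure ℤ ℂ) ∈ 𝔪') ∧
      g.IsNewAt q := by
  have hsa : ∀ (M : ℕ) [NeZero M] (ℓ : ℕ) (hℓ : ℓ.Prime) (hℓM : ¬ ℓ ∣ M) (x y : ↥(Lam M)),
      EE M (dcZ M ℓ hℓ hℓM x) y = EE M x (dcZ M ℓ hℓ hℓM y) := fun M _ ℓ hℓ hℓM x y =>
    Fermat.Agent.ES.LR.SelfAdj5.dcZ_selfAdjoint_family EE E_alt E_adj1 E_adj2 h12_general
      h21_general M ℓ hℓ hℓM x y
  exact Fermat.Agent.ES.LR.Assemble12b.result_of_contracts'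
    (fun hp => Fermat.Agent.ES.LR.LRCore4.exists_new_eigensystem' hp)
    E hW hp hp2 hq' hq'N hqp hirr f 𝔪 hf hmax hpm hcong hLR
    (h12_general N q hq' hq'N) (h21_general N q hq' hq'N) hqM
    (fun g => Fermat.Agent.ES.LR.PeriodUq1.periodMap_heckeULin hqM g) hUsq
    (EE N) (EE (N * q)) (E_alt N) (E_alt (N * q)) (E_nondeg N) (E_nondeg_mod (N * q))
    (fun ℓ hℓ hℓN y y' => hsa N ℓ hℓ hℓN y y')
    (fun ℓ hℓ hℓM x x' => hsa (N * q) ℓ hℓ hℓM x x')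
    (E_adj1 N q hq' hq'N) (E_adj2 N q hq' hq'N)

end Fermat.Agent.ES.LR.Assemble12c
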