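/-
Program L (S41, level raising), chapter OP, brick (OP-0) (helper27): evaluation of the corestriction
`coresAdd` of `Degeneracy27` (= Mathlib's `MonoidHom.transfer`) on EXPLICIT right-coset
representatives.

If `r : I → G` is a system of representatives of `ι.range \ G` (i.e. `i ↦ (r i)⁻¹ ι.range` is a
bijection onto `G ⧸ ι.range`) and `r i * g = ι (h i) * r (σ i)`, then
`coresAdd ι hι φ g = ∑ i, φ (h i)`.
-/
import Mathlib
import Fermat.Agent.ES.LR.Degeneracy27

set_option autoImplicit false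
set_option linter.unusedSectionVars false

namespace Fermat.Agent.ES.LR.TransferReps27

open Fermat.Agent.ES.LR.Degeneracy27

section Transfer

variable {G : Type*} [Group G] {H : Subgroup G}

theorem hcoc27_mem (t : G ⧸ H → G) (ht : ∀ q, (t q : G ⧸ H) = q) (g : G) (q : G ⧸ H) :
    (t (g • q))⁻¹ * g * t q ∈ H := by
  rw [mul_assoc, ← QuotientGroup.eq, ht, ← smul_eq_mul, ← MulAction.Quotient.smul_coe, ht]

/-- Mathlib's transfer, written with an arbitrary section of `G → G ⧸ H`. -/
theorem transfer_eq_prod_section [H.FiniteIndex] [Fintype (G ⧸ H)] {A : Type*} [CommGroup A]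
    (ϕ : H →* A) (t : G ⧸ H → G) (ht : ∀ q, (t q : G ⧸ H) = q) (g : G) :
    MonoidHom.transfer ϕ g = ∏ q : G ⧸ H, ϕ ⟨(t (g • q))⁻¹ * g * t q, hcoc27_mem t ht g q⟩ := by
  have hinst : ‹Fintype (G ⧸ H)› = H.fintypeQuotientOfFiniteIndex := Subsingleton.elim _ _
  subst hinst
  let _ := H.fintypeQuotientOfFiniteIndex
  let T : H.LeftTransversal := ⟨Set.range t, Subgroup.isComplement_range_left ht⟩
  rw [MonoidHom.transfer_def ϕ T g]
  unfold Subgroup.leftTransversals.diff
  simp only
  refine (Equiv.prod_comp (MulAction.toPerm g) _).symm.trans ?_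
  refine Fintype.prod_congr _ _ fun q => ?_
  congr 1
  ext
  simp only [MulAction.toPerm_apply, Subgroup.smul_apply_eq_smul_apply_inv_smul, inv_smul_smul,
    smul_eq_mul]
  rw [Subgroup.IsComplement.leftQuotientEquiv_apply ht,
    Subgroup.IsComplement.leftQuotientEquiv_apply ht, mul_assoc]

/-- Mathlib's transfer on explicit right-coset representatives `r i` (`i ↦ (r i)⁻¹ H` bijective
onto `G ⧸ H`), with `r i * g = h i * r (σ i)`, `h i ∈ H`. -/
theorem transfer_eq_prod_reps [H.FiniteIndex] {A : Type*} [CommGroup A] (ϕ : H →* A)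
    {I : Type*} [Fintype I] (r : I → G)
    (hr : Function.Bijective (fun i : I => (((r i)⁻¹ : G) : G ⧸ H)))
    (g : G) (σ : I → I) (h : I → H) (hrel : ∀ i, r i * g = (h i : G) * r (σ i)) :
    MonoidHom.transfer ϕ g = ∏ i, ϕ (h i) := by
  classical
  let _ := H.fintypeQuotientOfFiniteIndex
  let e : I ≃ G ⧸ H := Equiv.ofBijective _ hr
  have he : ∀ i, e i = (((r i)⁻¹ : G) : G ⧸ H) := fun i => rfl
  let t : G ⧸ H → G := fun q => (r (e.symm q))⁻¹
  have ht : ∀ q, (t q : G ⧸ H) = q := fun q => by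
    show (((r (e.symm q))⁻¹ : G) : G ⧸ H) = q
    rw [← he, Equiv.apply_symm_apply]
  -- `g • e (σ i) = e i`
  have hact : ∀ i, g • e (σ i) = e i := by
    intro i
    rw [he, he, MulAction.Quotient.smul_coe, smul_eq_mul, QuotientGroup.eq]
    have h1 : (g * (r (σ i))⁻¹)⁻¹ * (r i)⁻¹ = ((h i : G))⁻¹ := by
      have h2 : (h i : G) = r i * g * (r (σ i))⁻¹ := by rw [hrel i]; group
      rw [h2]; group
    rw [h1]
    exact H.inv_mem (h i).2
  have hσ : Function.Bijective σ := by
    have hinj : Function.Injective σ := by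
      intro i j hij
      have := hact i
      rw [hij, hact j] at this
      exact e.injective this.symm
    exact ⟨hinj, Finite.injective_iff_surjective.mp hinj⟩
  rw [transfer_eq_prod_section ϕ t ht g]
  -- reindex along `i ↦ e (σ i)`
  let f : I ≃ G ⧸ H := (Equiv.ofBijective σ hσ).trans e
  refine (Equiv.prod_comp f _).symm.trans ?_
  refine Fintype.prod_congr _ _ fun i => ?_
  congr 1
  ext
  show (t (g • e (σ i)))⁻¹ * g * t (e (σ i)) = (h i : G)
  rw [hact i]
  show ((r (e.symm (e i)))⁻¹)⁻¹ * g * (r (e.symm (e (σ i))))⁻¹ = (h i : G)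
  rw [Equiv.symm_apply_apply, Equiv.symm_apply_apply, inv_inv, hrel i]
  group

end Transfer

section Cores

variable {G' G : Type*} [Group G'] [Group G] {A : Type*} [AddCommGroup A]

/-- **(OP-0)** `coresAdd` on explicit right-coset representatives of `ι.range \ G`. -/
theorem coresAdd_apply_of_reps (ι : G' →* G) (hι : Function.Injective ι) [ι.range.FiniteIndex]
    {I : Type*} [Fintype I] (r : I → G)
    (hr : Function.Bijective (fun i : I => (((r i)⁻¹ : G) : G ⧸ ι.range)))
    (φ : Additive G' →+ A) (g : G) (σ : I → I) (h : I → G')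
    (hrel : ∀ i, r i * g = ι (h i) * r (σ i)) :
    coresAdd ι hι φ (Additive.ofMul g) = ∑ i, φ (Additive.ofMul (h i)) := by
  rw [coresAdd_apply]
  rw [transfer_eq_prod_reps (rangeChar ι hι φ) r hr g σ (fun i => ⟨ι (h i), h i, rfl⟩) hrel]
  rw [toAdd_prod]
  refine Finset.sum_congr rfl fun i _ => ?_
  rw [rangeChar_apply]
  rfl

/-- a convenient criterion for the representatives: `r i * (r j)⁻¹ ∈ ι.range → i = j` and every
`g` is of the form `ι g' * r i`. -/
theorem bijective_reps_of (ι : G' →* G) {I : Type*} (r : I → G)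
    (hinj : ∀ i j, r i * (r j)⁻¹ ∈ ι.range → i = j)
    (hsurj : ∀ g : G, ∃ i, ∃ g' : G', g = ι g' * r i) :
    Function.Bijective (fun i : I => (((r i)⁻¹ : G) : G ⧸ ι.range)) := by
  constructor
  · intro i j hij
    have h1 : ((r i)⁻¹)⁻¹ * (r j)⁻¹ ∈ ι.range := QuotientGroup.eq.mp hij
    rw [inv_inv] at h1
    exact hinj i j h1
  · intro x
    induction x using QuotientGroup.induction_on with
    | H g =>
      obtain ⟨i, g', hg⟩ := hsurj g⁻¹
      refine ⟨i, ?_⟩
      show (((r i)⁻¹ : G) : G ⧸ ι.range) = (g : G ⧸ ι.range)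
      rw [QuotientGroup.eq, inv_inv]
      have h2 : r i * g = (ι g')⁻¹ := by
        have h3 : g = (ι g' * r i)⁻¹ := by rw [← hg, inv_inv]
        rw [h3]; group
      rw [h2]
      exact ι.range.inv_mem ⟨g', rfl⟩

end Cores

end Fermat.Agent.ES.LR.TransferReps27
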