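/-
Program L (S41), chapter OP (helper19): `U_q² = 1` on `ker t₁ ∩ ker t₂`.

`q` prime, `q ∤ N`, `u q + v N = 1`.  `g0 = !![u, -v; N, q] ∈ Γ₀(N)`, `μ = diag(q, 1)`, `W = g0 μ` (an
Atkin–Lehner matrix: `W Γ₀(N q) W⁻¹ = Γ₀(N q)`), `wConj γ = W γ W⁻¹ = g0 (μ γ μ⁻¹) g0⁻¹`.

* right coset representatives of `Γ₀(N q)` in `Γ₀(N)`: `1`, `g0 T^j` (`j : ZMod q`);
* right coset representatives of `μ Γ₀(N q) μ⁻¹` in `Γ₀(N)`: `1`, `T^j g0`;
* hence (Mathlib's transfer evaluated on these representatives, `TransferReps27`):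
  `i₁ t₁ x = x + U_q (x ∘ wConj)`, `i₂ t₂ x = x + (U_q x) ∘ wConj`, and `x ∘ wConj ∘ wConj = x`;
* `t₁ x = 0 → t₂ x = 0 → U_q (U_q x) = x` for characters with values in any abelian group.
-/
import Mathlib
import Fermat.Agent.ES.HEQ.DoubleCoset27
import Fermat.Agent.ES.LR.Degeneracy27
import Fermat.Agent.ES.LR.TransferReps27
import Fermat.Agent.ES.LR.UqOp28
import Fermat.Agent.ES.LR.DegRel28

set_option autoImplicit false
set_option linter.unusedSectionVars false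

open Matrix CongruenceSubgroup
open scoped MatrixGroups

namespace Fermat.Agent.ES.LR.UqKer19

open Fermat.Agent.ES.HEQ.DoubleCoset27
open Fermat.Agent.ES.LR.Degeneracy27 Fermat.Agent.ES.LR.TransferReps27
open Fermat.Agent.ES.LR.UqOp28

/-! ### Matrices -/

section Matrices

variable {q : ℕ} [hq : Fact q.Prime] {N : ℕ} {u v : ℤ}

private theorem q_ne_zero : (q : ℤ) ≠ 0 := by exact_mod_cast hq.out.ne_zero

/-- `μ = diag(q, 1) = beta q none`. -/
theorem beta_none_eq : beta q none = !![(q : ℤ), 0; 0, 1] := rfl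

/-- `g0 = !![u, -v; N, q]`. -/
def g0 (huv : u * (q : ℤ) + v * (N : ℤ) = 1) : SL(2, ℤ) :=
  ⟨!![u, -v; (N : ℤ), (q : ℤ)], by rw [Matrix.det_fin_two_of]; linear_combination huv⟩

/-- `c0 = !![q u, -v; N, 1]`; `μ g0 μ = q c0`. -/
def c0 (huv : u * (q : ℤ) + v * (N : ℤ) = 1) : SL(2, ℤ) :=
  ⟨!![(q : ℤ) * u, -v; (N : ℤ), 1], by rw [Matrix.det_fin_two_of]; linear_combination huv⟩

variable (huv : u * (q : ℤ) + v * (N : ℤ) = 1)

omit hq in
@[simp] theorem coe_g0 : ((g0 huv : SL(2, ℤ)) : Matrix (Fin 2) (Fin 2) ℤ)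
    = !![u, -v; (N : ℤ), (q : ℤ)] := rfl

omit hq in
@[simp] theorem coe_c0 : ((c0 huv : SL(2, ℤ)) : Matrix (Fin 2) (Fin 2) ℤ)
    = !![(q : ℤ) * u, -v; (N : ℤ), 1] := rfl

omit hq in
theorem g0_mem : g0 huv ∈ Gamma0 N := by
  rw [Gamma0_mem]; simp

omit hq in
theorem c0_mem : c0 huv ∈ Gamma0 N := by
  rw [Gamma0_mem]; simp

omit hq in
/-- `μ g0 μ = q c0`. -/
theorem mu_g0_mu : beta q none * (g0 huv : Matrix (Fin 2) (Fin 2) ℤ) * beta q none
    = (q : ℤ) • (c0 huv : Matrix (Fin 2) (Fin 2) ℤ) := by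
  ext a b
  fin_cases a <;> fin_cases b <;>
    simp [beta_none, Matrix.mul_apply, Fin.sum_univ_two] <;> ring

/-- the translation `T^j`. -/
def tr (k : ℤ) : SL(2, ℤ) := ModularGroup.T ^ k

theorem coe_tr (k : ℤ) : ((tr k : SL(2, ℤ)) : Matrix (Fin 2) (Fin 2) ℤ) = !![1, k; 0, 1] :=
  ModularGroup.coe_T_zpow k

theorem tr_mem_Gamma0 (M : ℕ) (k : ℤ) : tr k ∈ Gamma0 M := by
  rw [Gamma0_mem, coe_tr]
  simp

omit hq in
/-- `μ β_j = q T^j`. -/
theorem mu_mul_beta_some (j : ZMod q) :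
    beta q none * beta q (some j) = (q : ℤ) • ((tr (j.val : ℤ) : SL(2, ℤ)) : Matrix (Fin 2) (Fin 2) ℤ) := by
  rw [coe_tr]
  ext a b
  fin_cases a <;> fin_cases b <;>
    simp [beta_none, beta_some, Matrix.mul_apply, Fin.sum_univ_two, -ZMod.natCast_val]

/-- cancellation of `μ` on the right. -/
theorem mul_mu_cancel {A B : Matrix (Fin 2) (Fin 2) ℤ}
    (h : A * beta q none = B * beta q none) : A = B := mul_beta_cancel none h

/-- cancellation of the scalar `q`. -/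
theorem smul_cancel {A B : Matrix (Fin 2) (Fin 2) ℤ} (h : (q : ℤ) • A = (q : ℤ) • B) : A = B := by
  ext a b
  have := congrFun (congrFun h a) b
  simp only [Matrix.smul_apply, smul_eq_mul] at this
  exact mul_left_cancel₀ q_ne_zero this

end Matrices

/-! ### The Atkin–Lehner conjugation -/

section WConj

variable {q : ℕ} [hq : Fact q.Prime] {N : ℕ} [NeZero N] {u v : ℤ}
  (huv : u * (q : ℤ) + v * (N : ℤ) = 1)

/-- `μ γ = (μ γ μ⁻¹) μ`. -/
theorem mu_mul_coe (γ : Gamma0 (N * q)) :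
    beta q none * ((γ : SL(2, ℤ)) : Matrix (Fin 2) (Fin 2) ℤ)
      = (((twistH N q γ : Gamma0 N) : SL(2, ℤ)) : Matrix (Fin 2) (Fin 2) ℤ) * beta q none := by
  have h := Int.mul_ediv_cancel' (q_dvd_lower_left N q γ)
  ext a b
  fin_cases a <;> fin_cases b <;>
    simp [beta_none, Matrix.mul_apply, Fin.sum_univ_two, twistMat, mul_comm]
  exact h.symm

/-- `W γ W⁻¹ = g0 (μ γ μ⁻¹) g0⁻¹` in `SL(2, ℤ)`. -/
def wSL (γ : Gamma0 (N * q)) : SL(2, ℤ) :=
  g0 huv * ((twistH N q γ : Gamma0 N) : SL(2, ℤ)) * (g0 huv)⁻¹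

theorem wSL_mul_g0 (γ : Gamma0 (N * q)) :
    wSL huv γ * g0 huv = g0 huv * ((twistH N q γ : Gamma0 N) : SL(2, ℤ)) := by
  rw [wSL, inv_mul_cancel_right]

theorem wSL_mem (γ : Gamma0 (N * q)) : wSL huv γ ∈ Gamma0 (N * q) := by
  rw [Gamma0_mem, ZMod.intCast_zmod_eq_zero_iff_dvd]
  obtain ⟨c', hc'⟩ := dvd_lower_left N q γ
  have h10 := twistH_apply_one_zero N q γ
  have h01 := twistH_apply_zero_one N q γ
  have h00 := twistH_apply_zero_zero N q γ
  have h11 := twistH_apply_one_one N q γ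
  set δ : Matrix (Fin 2) (Fin 2) ℤ := (((twistH N q γ : Gamma0 N) : SL(2, ℤ)) :
    Matrix (Fin 2) (Fin 2) ℤ) with hδ
  have hentry : ((wSL huv γ : SL(2, ℤ)) : Matrix (Fin 2) (Fin 2) ℤ) 1 0
      = ((N : ℤ) * δ 0 0 + (q : ℤ) * δ 1 0) * (q : ℤ) - ((N : ℤ) * δ 0 1 + (q : ℤ) * δ 1 1) * (N : ℤ) := by
    simp only [wSL, Matrix.SpecialLinearGroup.coe_mul, Matrix.SpecialLinearGroup.coe_inv, coe_g0,
      Matrix.adjugate_fin_two_of, ← hδ]
    simp [Matrix.mul_apply, Fin.sum_univ_two, Matrix.vecMul, dotProduct]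
    ring
  rw [hentry]
  refine ⟨((γ : SL(2, ℤ)) : Matrix (Fin 2) (Fin 2) ℤ) 0 0 + (q : ℤ) * c'
    - (N : ℤ) * ((γ : SL(2, ℤ)) : Matrix (Fin 2) (Fin 2) ℤ) 0 1
    - ((γ : SL(2, ℤ)) : Matrix (Fin 2) (Fin 2) ℤ) 1 1, ?_⟩
  rw [h00, h01, h11, h10, hc']
  push_cast
  ring

/-- the Atkin–Lehner conjugation `γ ↦ W γ W⁻¹` of `Γ₀(N q)`. -/
def wConj : Gamma0 (N * q) →* Gamma0 (N * q) where
  toFun γ := ⟨wSL huv γ, wSL_mem huv γ⟩
  map_one' := by
    apply Subtype.ext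
    show wSL huv 1 = 1
    rw [wSL, map_one, OneMemClass.coe_one, mul_one, mul_inv_cancel]
  map_mul' γ δ := by
    apply Subtype.ext
    show wSL huv (γ * δ) = wSL huv γ * wSL huv δ
    simp only [wSL, map_mul, Subgroup.coe_mul]
    group

@[simp] theorem coe_wConj (γ : Gamma0 (N * q)) :
    ((wConj huv γ : Gamma0 (N * q)) : SL(2, ℤ)) = wSL huv γ := rfl

/-- `W = g0 μ`. -/
def Wm : Matrix (Fin 2) (Fin 2) ℤ := (g0 huv : Matrix (Fin 2) (Fin 2) ℤ) * beta q none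

/-- `W γ = (W γ W⁻¹) W`. -/
theorem Wm_mul (γ : Gamma0 (N * q)) :
    Wm huv * ((γ : SL(2, ℤ)) : Matrix (Fin 2) (Fin 2) ℤ)
      = ((wConj huv γ : Gamma0 (N * q)) : SL(2, ℤ)) * Wm huv := by
  rw [Wm, Matrix.mul_assoc, mu_mul_coe, ← Matrix.mul_assoc, ← Matrix.mul_assoc,
    ← Matrix.SpecialLinearGroup.coe_mul, ← Matrix.SpecialLinearGroup.coe_mul, coe_wConj,
    wSL_mul_g0]

/-- cancellation of `W` on the right. -/
theorem mul_Wm_cancel {A B : Matrix (Fin 2) (Fin 2) ℤ} (h : A * Wm huv = B * Wm huv) : A = B := by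
  rw [Wm, ← Matrix.mul_assoc, ← Matrix.mul_assoc] at h
  have h2 := mul_mu_cancel h
  have h3 : A * (g0 huv : Matrix (Fin 2) (Fin 2) ℤ)
      * (((g0 huv)⁻¹ : SL(2, ℤ)) : Matrix (Fin 2) (Fin 2) ℤ)
      = B * (g0 huv : Matrix (Fin 2) (Fin 2) ℤ)
        * (((g0 huv)⁻¹ : SL(2, ℤ)) : Matrix (Fin 2) (Fin 2) ℤ) := by rw [h2]
  rwa [Matrix.mul_assoc, Matrix.mul_assoc, ← Matrix.SpecialLinearGroup.coe_mul, mul_inv_cancel,
    Matrix.SpecialLinearGroup.coe_one, Matrix.mul_one, Matrix.mul_one] at h3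

/-- `W² = q (g0 c0)`. -/
theorem Wm_mul_Wm : Wm (q := q) huv * Wm huv
    = (q : ℤ) • (((g0 huv * c0 huv : SL(2, ℤ)) : SL(2, ℤ)) : Matrix (Fin 2) (Fin 2) ℤ) := by
  rw [Wm, Matrix.mul_assoc, ← Matrix.mul_assoc (beta q none), mu_g0_mu, Matrix.mul_smul,
    Matrix.SpecialLinearGroup.coe_mul]

theorem g0_mul_c0_mem : g0 huv * c0 huv ∈ Gamma0 (N * q) := by
  rw [Gamma0_mem, ZMod.intCast_zmod_eq_zero_iff_dvd]
  refine ⟨u + 1, ?_⟩
  simp [Matrix.mul_apply, Fin.sum_univ_two]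
  ring

/-- `ε = W² / q ∈ Γ₀(N q)`. -/
def epsG : Gamma0 (N * q) := ⟨g0 huv * c0 huv, g0_mul_c0_mem huv⟩

/-- `W (W γ W⁻¹) W⁻¹ = ε γ ε⁻¹`. -/
theorem wConj_wConj (γ : Gamma0 (N * q)) :
    wConj huv (wConj huv γ) = epsG huv * γ * (epsG huv)⁻¹ := by
  rw [eq_mul_inv_iff_mul_eq]
  apply Subtype.ext
  apply Subtype.ext
  show (((wConj huv (wConj huv γ) : Gamma0 (N * q)) : SL(2, ℤ)) : Matrix (Fin 2) (Fin 2) ℤ)
      * ((g0 huv * c0 huv : SL(2, ℤ)) : Matrix (Fin 2) (Fin 2) ℤ)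
    = ((g0 huv * c0 huv : SL(2, ℤ)) : Matrix (Fin 2) (Fin 2) ℤ)
      * ((γ : SL(2, ℤ)) : Matrix (Fin 2) (Fin 2) ℤ)
  apply smul_cancel (q := q)
  rw [← Matrix.mul_smul, ← Matrix.smul_mul, ← Wm_mul_Wm, ← Matrix.mul_assoc, ← Wm_mul,
    Matrix.mul_assoc, Matrix.mul_assoc, ← Wm_mul]

/-- `x ∘ w ∘ w = x` on characters. -/
theorem map_wConj_wConj {A : Type*} [AddCommGroup A] (x : Additive (Gamma0 (N * q)) →+ A)
    (γ : Gamma0 (N * q)) :
    x (Additive.ofMul (wConj huv (wConj huv γ))) = x (Additive.ofMul γ) := by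
  rw [wConj_wConj, ofMul_mul, ofMul_mul, map_add, map_add, ofMul_inv, map_neg]
  abel

end WConj

/-! ### The representatives of `Γ₀(N q) \\ Γ₀(N)` -/

section Reps

variable {q : ℕ} [hq : Fact q.Prime] {N : ℕ} [NeZero N] {u v : ℤ}
  (huv : u * (q : ℤ) + v * (N : ℤ) = 1) (hqN : ¬ q ∣ N) (hqM : q ∣ N * q)

/-- representatives of `Γ₀(N q) \\ Γ₀(N)`: `1` and `g0 T^j`. -/
def rSL : Option (ZMod q) → SL(2, ℤ)
  | none => 1
  | some j => g0 huv * tr (j.val : ℤ)

theorem rSL_mem (i : Option (ZMod q)) : rSL huv i ∈ Gamma0 N := by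
  cases i with
  | none => exact one_mem _
  | some j => exact mul_mem (g0_mem huv) (tr_mem_Gamma0 N _)

theorem perm_rSL (i : Option (ZMod q)) : perm (rSL huv i) (none : Option (ZMod q)) = i := by
  cases i with
  | none => exact perm_one _
  | some j =>
    have key : beta q none * ((g0 huv * tr (j.val : ℤ) : SL(2, ℤ)) : Matrix (Fin 2) (Fin 2) ℤ)
        = (c0 huv : Matrix (Fin 2) (Fin 2) ℤ) * beta q (some j) := by
      rw [Matrix.SpecialLinearGroup.coe_mul, coe_tr]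
      ext a b
      fin_cases a <;> fin_cases b <;>
        (simp [beta_none, beta_some, Matrix.mul_apply, Fin.sum_univ_two, -ZMod.natCast_val]
         try ring)
    exact (eq_of_beta_mul key).1

/-- the representatives in `Γ₀(N)`. -/
def rG (i : Option (ZMod q)) : Gamma0 N := ⟨rSL huv i, rSL_mem huv i⟩

include hqN in
theorem rG_inj (i k : Option (ZMod q)) (h : rG huv i * (rG huv k)⁻¹ ∈ (inclH N q).range) :
    i = k := by
  rw [DegRel28.mem_range_inclH_iff hqN, permG_apply] at h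
  have h' : perm (rSL huv i * (rSL huv k)⁻¹) (none : Option (ZMod q)) = none := h
  have h1 : perm (rSL huv i) (none : Option (ZMod q))
      = perm (rSL huv k) (perm (rSL huv i * (rSL huv k)⁻¹) none) := by
    rw [← perm_mul, inv_mul_cancel_right]
  rw [h', perm_rSL, perm_rSL] at h1
  exact h1

include hqN in
theorem rG_surj (g : Gamma0 N) :
    ∃ i : Option (ZMod q), ∃ g' : Gamma0 (N * q), g = inclH N q g' * rG huv i := by
  have hmem : g * (rG huv (perm (g : SL(2, ℤ)) none))⁻¹ ∈ (inclH N q).range := by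
    rw [DegRel28.mem_range_inclH_iff hqN, permG_apply]
    show perm ((g : SL(2, ℤ)) * (rSL huv _)⁻¹) (none : Option (ZMod q)) = none
    rw [perm_mul]
    have h1 : perm (rSL huv (perm (g : SL(2, ℤ)) none))⁻¹
        (perm (rSL huv (perm (g : SL(2, ℤ)) none)) (none : Option (ZMod q))) = none := by
      rw [← perm_mul, mul_inv_cancel, perm_one]
    rwa [perm_rSL] at h1
  obtain ⟨g', hg'⟩ := hmem
  exact ⟨perm (g : SL(2, ℤ)) none, g', by rw [hg', inv_mul_cancel_right]⟩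

include hqN in
theorem rG_bijective : Function.Bijective (fun i : Option (ZMod q) =>
    (((rG huv i)⁻¹ : Gamma0 N) : Gamma0 N ⧸ (inclH N q).range)) :=
  bijective_reps_of (inclH N q) (rG huv) (rG_inj huv hqN) (rG_surj huv hqN)

/-- the key identity: `(g0 T^j) γ = (W (β_j γ β_{j'}⁻¹) W⁻¹) (g0 T^{j'})`. -/
theorem rSL_mul (γ : Gamma0 (N * q)) (j : ZMod q) :
    g0 huv * tr (j.val : ℤ) * (γ : SL(2, ℤ))
      = wSL huv (cocU hqM γ j) * (g0 huv * tr ((permU γ j).val : ℤ)) := by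
  apply Subtype.ext
  apply smul_cancel (q := q)
  simp only [Matrix.SpecialLinearGroup.coe_mul]
  have h := beta_some_mul hqM γ j
  calc (q : ℤ) • ((g0 huv : Matrix (Fin 2) (Fin 2) ℤ)
          * ((tr (j.val : ℤ) : SL(2, ℤ)) : Matrix (Fin 2) (Fin 2) ℤ)
          * ((γ : SL(2, ℤ)) : Matrix (Fin 2) (Fin 2) ℤ))
      = (g0 huv : Matrix (Fin 2) (Fin 2) ℤ)
          * ((q : ℤ) • ((tr (j.val : ℤ) : SL(2, ℤ)) : Matrix (Fin 2) (Fin 2) ℤ))
          * ((γ : SL(2, ℤ)) : Matrix (Fin 2) (Fin 2) ℤ) := by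
        rw [Matrix.mul_smul, Matrix.smul_mul]
    _ = Wm huv * (beta q (some j) * ((γ : SL(2, ℤ)) : Matrix (Fin 2) (Fin 2) ℤ)) := by
        rw [← mu_mul_beta_some, Wm]
        simp only [Matrix.mul_assoc]
    _ = ((wConj huv (cocU hqM γ j) : Gamma0 (N * q)) : SL(2, ℤ)) * Wm huv
          * beta q (some (permU γ j)) := by
        rw [h, ← Matrix.mul_assoc, Wm_mul]
    _ = (wSL huv (cocU hqM γ j) : Matrix (Fin 2) (Fin 2) ℤ)
          * ((g0 huv : Matrix (Fin 2) (Fin 2) ℤ)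
          * ((q : ℤ) • ((tr ((permU γ j).val : ℤ) : SL(2, ℤ)) : Matrix (Fin 2) (Fin 2) ℤ))) := by
        rw [← mu_mul_beta_some, Wm, coe_wConj]
        simp only [Matrix.mul_assoc]
    _ = _ := by
        rw [Matrix.mul_smul, Matrix.mul_smul]

/-- the same in `Γ₀(N)`. -/
theorem rG_mul_inclH (γ : Gamma0 (N * q)) (j : ZMod q) :
    rG huv (some j) * inclH N q γ
      = inclH N q (wConj huv (cocU hqM γ j)) * rG huv (some (permU γ j)) :=
  Subtype.ext (rSL_mul huv hqM γ j)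

include hqN in
/-- **`i₁ t₁ = 1 + U_q ∘ w`**, elementwise. -/
theorem t1_inclH_apply {A : Type*} [AddCommGroup A] (x : Additive (Gamma0 (N * q)) →+ A)
    (γ : Gamma0 (N * q)) :
    t1 N q x (Additive.ofMul (inclH N q γ))
      = x (Additive.ofMul γ)
        + ∑ j : ZMod q, x (Additive.ofMul (wConj huv (cocU hqM γ j))) := by
  have hk : ∀ i : Option (ZMod q), rG huv i * inclH N q γ
      = inclH N q (Option.elim i γ (fun j => wConj huv (cocU hqM γ j)))
        * rG huv (perm (γ : SL(2, ℤ)) i) := by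
    intro i
    cases i with
    | none =>
      rw [perm_none hqM γ.2]
      show (1 : Gamma0 N) * inclH N q γ = inclH N q γ * 1
      rw [one_mul, mul_one]
    | some j =>
      rw [← some_permU hqM]
      exact rG_mul_inclH huv hqM γ j
  have := coresAdd_apply_of_reps (inclH N q) (inclH_injective N q) (rG huv)
    (rG_bijective huv hqN) x (inclH N q γ) (perm (γ : SL(2, ℤ))) _ hk
  rw [t1, this, Fintype.sum_option]
  rfl

/-! ### The representatives of `μ Γ₀(N q) μ⁻¹ \\ Γ₀(N)` -/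

/-- `g0` in `Γ₀(N)`. -/
def g0G : Gamma0 N := ⟨g0 huv, g0_mem huv⟩

theorem inclH_wConj (γ : Gamma0 (N * q)) :
    inclH N q (wConj huv γ) = g0G huv * twistH N q γ * (g0G huv)⁻¹ :=
  Subtype.ext rfl

/-- `wConj` is surjective (an involution up to an inner automorphism). -/
theorem exists_wConj_eq (γ : Gamma0 (N * q)) : ∃ γ' : Gamma0 (N * q), wConj huv γ' = γ :=
  ⟨wConj huv ((epsG huv)⁻¹ * γ * epsG huv), by rw [wConj_wConj]; group⟩

/-- the range of the twist is the `g0`-conjugate of the range of the inclusion. -/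
theorem mem_range_twistH_iff (δ : Gamma0 N) :
    δ ∈ (twistH N q).range ↔ g0G huv * δ * (g0G huv)⁻¹ ∈ (inclH N q).range := by
  constructor
  · rintro ⟨γ', rfl⟩
    exact ⟨wConj huv γ', inclH_wConj huv γ'⟩
  · rintro ⟨γ'', h⟩
    obtain ⟨γ', rfl⟩ := exists_wConj_eq huv γ''
    rw [inclH_wConj] at h
    exact ⟨γ', mul_left_cancel (mul_right_cancel h)⟩

/-- representatives of `μ Γ₀(N q) μ⁻¹ \\ Γ₀(N)`: `1` and `T^j g0 = g0⁻¹ (g0 T^j) g0`. -/
def sG (i : Option (ZMod q)) : Gamma0 N := (g0G huv)⁻¹ * rG huv i * g0G huv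

include hqN in
theorem sG_inj (i k : Option (ZMod q)) (h : sG huv i * (sG huv k)⁻¹ ∈ (twistH N q).range) :
    i = k := by
  rw [mem_range_twistH_iff huv] at h
  have e : g0G huv * (sG huv i * (sG huv k)⁻¹) * (g0G huv)⁻¹ = rG huv i * (rG huv k)⁻¹ := by
    simp only [sG]
    group
  rw [e] at h
  exact rG_inj huv hqN i k h

include hqN in
theorem sG_surj (g : Gamma0 N) :
    ∃ i : Option (ZMod q), ∃ g' : Gamma0 (N * q), g = twistH N q g' * sG huv i := by
  obtain ⟨i, g'', h⟩ := rG_surj huv hqN (g0G huv * g * (g0G huv)⁻¹)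
  obtain ⟨g', rfl⟩ := exists_wConj_eq huv g''
  rw [inclH_wConj] at h
  refine ⟨i, g', ?_⟩
  calc g = (g0G huv)⁻¹ * (g0G huv * g * (g0G huv)⁻¹) * g0G huv := by group
    _ = (g0G huv)⁻¹ * (g0G huv * twistH N q g' * (g0G huv)⁻¹ * rG huv i) * g0G huv := by rw [h]
    _ = twistH N q g' * sG huv i := by
      simp only [sG]
      group

include hqN in
theorem sG_bijective : Function.Bijective (fun i : Option (ZMod q) =>
    (((sG huv i)⁻¹ : Gamma0 N) : Gamma0 N ⧸ (twistH N q).range)) :=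
  bijective_reps_of (twistH N q) (sG huv) (sG_inj huv hqN) (sG_surj huv hqN)

theorem sG_mul_twistH (γ : Gamma0 (N * q)) (j : ZMod q) :
    sG huv (some j) * twistH N q γ
      = twistH N q (cocU hqM (wConj huv γ) j) * sG huv (some (permU (wConj huv γ) j)) := by
  have H := rG_mul_inclH huv hqM (wConj huv γ) j
  rw [inclH_wConj, inclH_wConj] at H
  calc sG huv (some j) * twistH N q γ
      = (g0G huv)⁻¹ * (rG huv (some j) * (g0G huv * twistH N q γ * (g0G huv)⁻¹)) * g0G huv := by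
        simp only [sG]
        group
    _ = (g0G huv)⁻¹ * (g0G huv * twistH N q (cocU hqM (wConj huv γ) j) * (g0G huv)⁻¹
          * rG huv (some (permU (wConj huv γ) j))) * g0G huv := by rw [H]
    _ = _ := by
        simp only [sG]
        group

include hqN in
/-- **`i₂ t₂ = 1 + w ∘ U_q`**, elementwise. -/
theorem t2_twistH_apply {A : Type*} [AddCommGroup A] (x : Additive (Gamma0 (N * q)) →+ A)
    (γ : Gamma0 (N * q)) :
    t2 N q x (Additive.ofMul (twistH N q γ))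
      = x (Additive.ofMul γ)
        + ∑ j : ZMod q, x (Additive.ofMul (cocU hqM (wConj huv γ) j)) := by
  have hk : ∀ i : Option (ZMod q), sG huv i * twistH N q γ
      = twistH N q (Option.elim i γ (fun j => cocU hqM (wConj huv γ) j))
        * sG huv (perm ((wConj huv γ : Gamma0 (N * q)) : SL(2, ℤ)) i) := by
    intro i
    cases i with
    | none =>
      rw [perm_none hqM (wConj huv γ).2]
      have h1 : sG huv (none : Option (ZMod q)) = 1 := by
        show (g0G huv)⁻¹ * 1 * g0G huv = 1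
        group
      rw [h1, one_mul, mul_one]
      rfl
    | some j =>
      rw [← some_permU hqM]
      exact sG_mul_twistH huv hqM γ j
  have := coresAdd_apply_of_reps (twistH N q) (twistH_injective N q) (sG huv)
    (sG_bijective huv hqN) x (twistH N q γ)
    (perm ((wConj huv γ : Gamma0 (N * q)) : SL(2, ℤ))) _ hk
  rw [t2, this, Fintype.sum_option]
  rfl

end Reps

/-! ### The operator identities and the main theorem -/

section Main

variable {q : ℕ} [hq : Fact q.Prime] {N : ℕ} [NeZero N] {u v : ℤ}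
  (huv : u * (q : ℤ) + v * (N : ℤ) = 1) (hqN : ¬ q ∣ N) (hqM : q ∣ N * q)
  {A : Type*} [AddCommGroup A]

include hqN in
/-- **`i₁ ∘ t₁ = 1 + U_q ∘ w`**. -/
theorem i1_t1 (x : Additive (Gamma0 (N * q)) →+ A) :
    i1 N q (t1 N q x) = x + UqAdd hqM (resAdd (wConj huv) x) := by
  apply AddMonoidHom.ext
  intro γ
  obtain ⟨γ, rfl⟩ := Additive.ofMul.surjective γ
  rw [i1_apply, t1_inclH_apply huv hqN hqM, AddMonoidHom.add_apply, UqAdd_apply]
  rfl

include hqN in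
/-- **`i₂ ∘ t₂ = 1 + w ∘ U_q`**. -/
theorem i2_t2 (x : Additive (Gamma0 (N * q)) →+ A) :
    i2 N q (t2 N q x) = x + resAdd (wConj huv) (UqAdd hqM x) := by
  apply AddMonoidHom.ext
  intro γ
  obtain ⟨γ, rfl⟩ := Additive.ofMul.surjective γ
  rw [i2_apply, t2_twistH_apply huv hqN hqM, AddMonoidHom.add_apply, resAdd_apply, UqAdd_apply]

/-- **`w² = 1`** on characters. -/
theorem resAdd_wConj_wConj (x : Additive (Gamma0 (N * q)) →+ A) :
    resAdd (wConj huv) (resAdd (wConj huv) x) = x := by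
  apply AddMonoidHom.ext
  intro γ
  obtain ⟨γ, rfl⟩ := Additive.ofMul.surjective γ
  rw [resAdd_apply, resAdd_apply, map_wConj_wConj]

theorem UqAdd_neg (x : Additive (Gamma0 (N * q)) →+ A) : UqAdd hqM (-x) = -UqAdd hqM x := by
  apply AddMonoidHom.ext
  intro γ
  obtain ⟨γ, rfl⟩ := Additive.ofMul.surjective γ
  rw [AddMonoidHom.neg_apply, UqAdd_apply, UqAdd_apply, ← Finset.sum_neg_distrib]
  rfl

omit [NeZero N] in
include hqN in
theorem exists_bezout : ∃ u v : ℤ, u * (q : ℤ) + v * (N : ℤ) = 1 := by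
  have hcop : IsCoprime (q : ℤ) (N : ℤ) := by
    rw [Int.isCoprime_iff_gcd_eq_one, Int.gcd_natCast_natCast]
    exact (Nat.Prime.coprime_iff_not_dvd hq.out).mpr hqN
  obtain ⟨u, v, h⟩ := hcop
  exact ⟨u, v, h⟩

include hqN in
/-- **`U_q² = 1` on `ker t₁ ∩ ker t₂`**, for characters of `Γ₀(N q)` with values in any abelian
group. -/
theorem Uq_sq_of_ker (x : Additive (Gamma0 (N * q)) →+ A) (h1 : t1 N q x = 0)
    (h2 : t2 N q x = 0) : UqAdd hqM (UqAdd hqM x) = x := by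
  obtain ⟨u, v, huv⟩ := exists_bezout (q := q) hqN
  have e1 := i1_t1 huv hqN hqM x
  rw [h1, map_zero] at e1
  have e2 := i2_t2 huv hqN hqM x
  rw [h2, map_zero] at e2
  have hwU : resAdd (wConj huv) (UqAdd hqM x) = -x := by
    rw [eq_neg_iff_add_eq_zero, add_comm]
    exact e2.symm
  have hUw : UqAdd hqM (resAdd (wConj huv) x) = -x := by
    rw [eq_neg_iff_add_eq_zero, add_comm]
    exact e1.symm
  have hUx : UqAdd hqM x = -resAdd (wConj huv) x := by
    rw [← resAdd_wConj_wConj huv (UqAdd hqM x), hwU, map_neg]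
  rw [hUx, UqAdd_neg, hUw, neg_neg]

include hqN in
/-- the same on parabolic characters (e.g. on the lattice `Lam (N q)`, `R = A = ℤ`). -/
theorem UqPar_sq_of_ker (R : Type*) [Semiring R] [Module R A]
    (x : ModularCurve.Period.parabolicHoms R (Gamma0 (N * q)) A)
    (h1 : DegeneracyPar27.t1Par N q R A x = 0) (h2 : DegeneracyPar27.t2Par N q R A x = 0) :
    UqPar hqM R A (UqPar hqM R A x) = x := by
  apply Subtype.ext
  rw [coe_UqPar, coe_UqPar]
  exact Uq_sq_of_ker hqN hqM x.1 (congrArg Subtype.val h1) (congrArg Subtype.val h2)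

end Main

end Fermat.Agent.ES.LR.UqKer19
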