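/-
Program L (S41, level raising), chapter FIN (helper12): **S41 from (I2) alone**.

`Assemble12c.result_of_I2` with `U_q² = 1` on `ker t₁ ∩ ker t₂` (`UqKer19.Uq_sq_of_ker`) plugged in.
The only remaining input is (I2), in the literal shape of L_PLAN27_v2 §2: a family `EE M` of
alternating integral forms on the lattices `Lam M`, nondegenerate, nondegenerate modulo the odd
prime `p`, with `i_k ⊣ t_k`.
-/
import Mathlib
import Fermat.Agent.ES.LR.Assemble12c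
import Fermat.Agent.ES.LR.UqKer19

set_option autoImplicit false
set_option linter.unusedVariables false
set_option linter.unusedSectionVars false
open WeierstrassCurve WeierstrassCurve.Affine WeierstrassCurve.Affine.Point
open scoped CongruenceSubgroup
open WeierstrassCurve

noncomputable section

namespace Fermat.Agent.ES.LR.Assemble12d

open ModularCurve ModularCurve.Period CongruenceSubgroup CuspForm TensorProduct
open Fermat.Agent.ES.HEQ.FaithInst26 Fermat.Agent.ES.HEQ.FaithFinal26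
open Fermat.Agent.ES.LR.Degeneracy27 Fermat.Agent.ES.LR.DegeneracyPar27 Fermat.Agent.ES.LR.UqOp28

variable {N q : ℕ} [NeZero N] [hqF : Fact q.Prime] [NeZero q]

/-- **S41 from (I2).** -/
theorem result_of_I2
    (E : WeierstrassCurve ℚ) [E.IsElliptic] {W : WeierstrassCurve ℤ} (hW : W.IsIntegralModelOf E)
    {p : ℕ} (hp : p.Prime) (hp2 : p ≠ 2) (hq' : q.Prime) (hq'N : ¬ q ∣ N) (hqp : q ≠ p)
    (hirr : GaloisRepIsIrreducible (K := AlgebraicClosure ℚ) ℚ E p)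
    (f : CuspForm (CongruenceSubgroup.Gamma0 N) 2) (𝔪 : Ideal (integralClosure ℤ ℂ))
    (hf : f.IsNormalizedEigenform) (hmax : 𝔪.IsMaximal) (hpm : (p : integralClosure ℤ ℂ) ∈ 𝔪)
    (hcong : ∀ ℓ : ℕ, ℓ.Prime → W.IsGoodPrimeFor ℓ → ¬ ℓ ∣ N → ℓ ≠ p →
      ∃ a : integralClosure ℤ ℂ, (a : ℂ) = ModularFormClass.qCoeff f ℓ ∧
        a - ((W.apOfModel ℓ : ℤ) : integralClosure ℤ ℂ) ∈ 𝔪)
    (hLR : ∃ a : integralClosure ℤ ℂ, (a : ℂ) = ModularFormClass.qCoeff f q ∧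
      a ^ 2 - ((q : integralClosure ℤ ℂ) + 1) ^ 2 ∈ 𝔪)
    -- (I2)
    (EE : ∀ (M : ℕ) [NeZero M], LinearMap.BilinForm ℤ ↥(Lam M))
    (E_alt : ∀ (M : ℕ) [NeZero M] (y : ↥(Lam M)), EE M y y = 0)
    (E_nondeg : ∀ (M : ℕ) [NeZero M] (x : ↥(Lam M)), (∀ y, EE M x y = 0) → x = 0)
    (E_nondeg_mod : ∀ (M : ℕ) [NeZero M] (x : ↥(Lam M)),
      (∀ y, (p : ℤ) ∣ EE M x y) → ∃ x', x = (p : ℤ) • x')
    (E_adj1 : ∀ (M ℓ : ℕ) [NeZero M] [NeZero ℓ], ℓ.Prime → ¬ ℓ ∣ M →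
      ∀ (y : ↥(Lam M)) (x : ↥(Lam (M * ℓ))),
        EE (M * ℓ) (i1Par M ℓ ℤ ℤ y) x = EE M y (t1Par M ℓ ℤ ℤ x))
    (E_adj2 : ∀ (M ℓ : ℕ) [NeZero M] [NeZero ℓ], ℓ.Prime → ¬ ℓ ∣ M →
      ∀ (y : ↥(Lam M)) (x : ↥(Lam (M * ℓ))),
        EE (M * ℓ) (i2Par M ℓ ℤ ℤ y) x = EE M y (t2Par M ℓ ℤ ℤ x)) :
    ∃ (g : CuspForm (CongruenceSubgroup.Gamma0 (N * q)) 2) (𝔪' : Ideal (integralClosure ℤ ℂ)),
      g.IsNormalizedEigenform ∧ 𝔪'.IsMaximal ∧ (p : integralClosure ℤ ℂ) ∈ 𝔪' ∧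
      (∀ ℓ : ℕ, ℓ.Prime → W.IsGoodPrimeFor ℓ → ¬ ℓ ∣ N * q → ℓ ≠ p →
        ∃ a : integralClosure ℤ ℂ, (a : ℂ) = ModularFormClass.qCoeff g ℓ ∧
          a - ((W.apOfModel ℓ : ℤ) : integralClosure ℤ ℂ) ∈ 𝔪') ∧
      g.IsNewAt q :=
  Fermat.Agent.ES.LR.Assemble12c.result_of_I2 E hW hp hp2 hq' hq'N hqp hirr f 𝔪 hf hmax hpm
    hcong hLR (Dvd.intro_left N rfl)
    (fun φ h1 h2 => Fermat.Agent.ES.LR.UqKer19.Uq_sq_of_ker hq'N (Dvd.intro_left N rfl) φ h1 h2)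
    EE E_alt E_nondeg E_nondeg_mod E_adj1 E_adj2

end Fermat.Agent.ES.LR.Assemble12d
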