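/-
Program L (S41, level raising), chapter FIN (helper12): **S41 from (ND) alone**.

`Assemble12d.result_of_I2` with helper25's form `EDef25.EE`, its alternation `EDef25.EE_alt`, the
adjunctions `Match15.EE_adj1 / EE_adj2` and `LatticeNondeg5.par_nondeg_of_nondeg_mod` plugged in.
The only remaining input is the nondegeneracy of `EE M` modulo the odd prime `p`.
-/
import Mathlib
import Fermat.Agent.ES.LR.Assemble12d
import Fermat.Agent.ES.I2.EDef25
import Fermat.Agent.ES.I2.Match15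
import Fermat.Agent.ES.I2.LatticeNondeg5

set_option autoImplicit false
set_option linter.unusedVariables false
set_option linter.unusedSectionVars false
open WeierstrassCurve WeierstrassCurve.Affine WeierstrassCurve.Affine.Point
open scoped CongruenceSubgroup
open WeierstrassCurve

noncomputable section

namespace Fermat.Agent.ES.LR.Assemble12e

open ModularCurve ModularCurve.Period CongruenceSubgroup CuspForm TensorProduct
open Fermat.Agent.ES.HEQ.FaithInst26 Fermat.Agent.ES.HEQ.FaithFinal26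
open Fermat.Agent.ES.LR.Degeneracy27 Fermat.Agent.ES.LR.DegeneracyPar27 Fermat.Agent.ES.LR.UqOp28
open Fermat.Agent.ES.I2

variable {N q : ℕ} [NeZero N] [hqF : Fact q.Prime] [NeZero q]

/-- **S41 from the nondegeneracy of `EE` modulo `p`.** -/
theorem result_of_ND
    (E : WeierstrassCurve ℚ) [E.IsElliptic] {W : WeierstrassCurve ℤ} (hW : W.IsIntegralModelOf E)
    {p : ℕ} (hp : p.Prime) (hp2 : p ≠ 2) (hq' : q.Prime) (hq'N : ¬ q ∣ N) (hqp : q ≠ p)
    (hirr : GaloisRepIsIrreducible (K := AlgebraicClosure ℚ) ℚ E p)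
    (f : CuspForm (CongruenceSubgroup.Gamma0 N) 2) (𝔪 : Ideal (integralClosure ℤ ℂ))
    (hf : f.IsNormalizedEigenform) (hmax : 𝔪.IsMaximal) (hpm : (p : integralClosure ℤ ℂ) ∈ 𝔪)
    (hcong : ∀ ℓ : ℕ, ℓ.Prime → W.IsGoodPrimeFor ℓ → ¬ ℓ ∣ N → ℓ ≠ p →
      ∃ a : integralClosure ℤ ℂ, (a : ℂ) = ModularFormClass.qCoeff f ℓ ∧
        a - ((W.apOfModel ℓ : ℤ) : integralClosure ℤ ℂ) ∈ 𝔪)
    (hLR : ∃ a : integralClosure ℤ ℂ, (a : ℂ) = ModularFormClass.qCoeff f q ∧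
      a ^ 2 - ((q : integralClosure ℤ ℂ) + 1) ^ 2 ∈ 𝔪)
    -- (ND)
    (E_nondeg_mod : ∀ (M : ℕ) [NeZero M] (x : ↥(Lam M)),
      (∀ y, (p : ℤ) ∣ EDef25.EE M x y) → ∃ x', x = (p : ℤ) • x') :
    ∃ (g : CuspForm (CongruenceSubgroup.Gamma0 (N * q)) 2) (𝔪' : Ideal (integralClosure ℤ ℂ)),
      g.IsNormalizedEigenform ∧ 𝔪'.IsMaximal ∧ (p : integralClosure ℤ ℂ) ∈ 𝔪' ∧
      (∀ ℓ : ℕ, ℓ.Prime → W.IsGoodPrimeFor ℓ → ¬ ℓ ∣ N * q → ℓ ≠ p →
        ∃ a : integralClosure ℤ ℂ, (a : ℂ) = ModularFormClass.qCoeff g ℓ ∧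
          a - ((W.apOfModel ℓ : ℤ) : integralClosure ℤ ℂ) ∈ 𝔪') ∧
      g.IsNewAt q :=
  Fermat.Agent.ES.LR.Assemble12d.result_of_I2 E hW hp hp2 hq' hq'N hqp hirr f 𝔪 hf hmax hpm
    hcong hLR (fun M _ => EDef25.EE M) (fun M _ y => EDef25.EE_alt M y)
    (fun M _ x hx => LatticeNondeg5.par_nondeg_of_nondeg_mod (Gamma0 M)
      (Fermat.Agent.ES.HEQ.ParLattice11.fg_Gamma0 M) (EDef25.EE M) hp (E_nondeg_mod M) x hx)
    E_nondeg_mod
    (fun M ℓ _ _ _ _ y x => Match15.EE_adj1 M ℓ y x)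
    (fun M ℓ _ _ _ _ y x => Match15.EE_adj2 M ℓ y x)

end Fermat.Agent.ES.LR.Assemble12e
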