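/-
Program L (S41), chapter OP, brick (a) (helper5): the degeneracy maps commute with the double coset
operators `T_l` (`l ∤ N q`).

Layer 1 (this file, `DoubleCoset27` only): for a group homomorphism `θ : Γ₀(M') → Γ₀(M)` which is
either "the identity on matrices" (inclusion) or "conjugation by `diag(q, 1)`", pulling back along
`θ` commutes with `tdcAdd`, for EVERY additive homomorphism (no parabolicity needed).
-/
import Mathlib
import Fermat.Agent.ES.HEQ.DoubleCoset27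

set_option autoImplicit false

open Matrix CongruenceSubgroup
open scoped MatrixGroups

namespace Fermat.Agent.ES.LR.DegHecke5

open Fermat.Agent.ES.HEQ.DoubleCoset27

variable {l : ℕ} [hl : Fact l.Prime]

/-- (DH1) pull-back along an inclusion-like homomorphism commutes with the double coset operator. -/
theorem tdcAdd_comp_of_coe_eq {M M' : ℕ} (hlM : ¬ l ∣ M) (hlM' : ¬ l ∣ M')
    (θ : Gamma0 M' →* Gamma0 M) (hθ : ∀ γ, ((θ γ : Gamma0 M) : SL(2, ℤ)) = γ)
    {A : Type*} [AddCommGroup A] (φ : Additive (Gamma0 M) →+ A) :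
    tdcAdd hlM' (φ.comp (MonoidHom.toAdditive θ))
      = (tdcAdd hlM φ).comp (MonoidHom.toAdditive θ) := by
  ext γ
  induction γ using Additive.rec with
  | ofMul γ =>
  change tdcAdd hlM' (φ.comp (MonoidHom.toAdditive θ)) (Additive.ofMul γ)
      = tdcAdd hlM φ (Additive.ofMul (θ γ))
  rw [tdcAdd_apply, tdcAdd_apply]
  refine Finset.sum_congr rfl fun i _ => ?_
  change φ (Additive.ofMul (θ (cocG hlM' γ i))) = _
  congr 2
  apply Subtype.ext
  rw [hθ, coe_cocG, coe_cocG, hθ]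

/-- `diag(q, 1)`. -/
def mu (q : ℕ) : Matrix (Fin 2) (Fin 2) ℤ := !![(q : ℤ), 0; 0, 1]

theorem mul_mu_cancel {q : ℕ} (hq : q ≠ 0) {A B : Matrix (Fin 2) (Fin 2) ℤ}
    (h : A * mu q = B * mu q) : A = B := by
  ext a b
  have h0 := congrFun (congrFun h a) 0
  have h1 := congrFun (congrFun h a) 1
  simp only [mu, Matrix.mul_apply, Fin.sum_univ_two, Matrix.of_apply, Matrix.cons_val',
    Matrix.cons_val_zero, Matrix.cons_val_one, Matrix.cons_val_fin_one, mul_zero, add_zero,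
    zero_add, mul_one] at h0 h1
  have hq' : (q : ℤ) ≠ 0 := by exact_mod_cast hq
  fin_cases b
  · exact mul_right_cancel₀ hq' h0
  · exact h1

/-- the translation `[[1, k], [0, 1]]`. -/
def tr (k : ℤ) : SL(2, ℤ) := ModularGroup.T ^ k

theorem coe_tr (k : ℤ) : ((tr k : SL(2, ℤ)) : Matrix (Fin 2) (Fin 2) ℤ) = !![1, k; 0, 1] :=
  ModularGroup.coe_T_zpow k

theorem tr_mem_Gamma0 (M : ℕ) (k : ℤ) : tr k ∈ Gamma0 M := by
  rw [Gamma0_mem, coe_tr]
  simp

/-- the permutation `j ↦ q j` of `P¹(F_l)`. -/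
def sig (q : ℕ) : Option (ZMod l) → Option (ZMod l) := Option.map (fun j => (q : ZMod l) * j)

/-- the translation exponents. -/
def kk (q : ℕ) : Option (ZMod l) → ℤ
  | some j => ((q : ℤ) * (j.val : ℤ) - ((((q : ZMod l) * j).val : ℕ) : ℤ)) / (l : ℤ)
  | none => 0

theorem kk_spec (q : ℕ) (j : ZMod l) :
    (q : ℤ) * (j.val : ℤ) = ((((q : ZMod l) * j).val : ℕ) : ℤ) + kk q (some j) * (l : ℤ) := by
  have : NeZero l := ⟨hl.out.ne_zero⟩
  have hdvd : (l : ℤ) ∣ (q : ℤ) * (j.val : ℤ) - ((((q : ZMod l) * j).val : ℕ) : ℤ) := by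
    rw [← ZMod.intCast_zmod_eq_zero_iff_dvd]
    push_cast
    rw [ZMod.natCast_zmod_val, ZMod.natCast_zmod_val, sub_self]
  have := Int.ediv_mul_cancel hdvd
  simp only [kk]
  linarith

theorem mu_mul_beta (q : ℕ) (i : Option (ZMod l)) :
    mu q * beta l i
      = ((tr (kk q i) : SL(2, ℤ)) : Matrix (Fin 2) (Fin 2) ℤ) * beta l (sig q i) * mu q := by
  cases i with
  | none =>
    rw [coe_tr]
    ext a b
    fin_cases a <;> fin_cases b <;>
      simp [mu, sig, kk, Matrix.mul_apply, Fin.sum_univ_two, mul_comm]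
  | some j =>
    rw [coe_tr]
    have := kk_spec (l := l) q j
    simp only [ZMod.natCast_val] at this
    ext a b
    fin_cases a <;> fin_cases b <;>
      simp [mu, sig, Matrix.mul_apply, Fin.sum_univ_two]
    linarith


/-- conjugating the defining identity `β_i γ = coc γ i * β_{perm γ i}` by `diag(q, 1)`. -/
theorem perm_coc_twist {q : ℕ} (hq : q ≠ 0) {γ γ' c' : SL(2, ℤ)} (i : Option (ZMod l))
    (hγ : mu q * (γ : Matrix (Fin 2) (Fin 2) ℤ) = (γ' : Matrix (Fin 2) (Fin 2) ℤ) * mu q)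
    (hc : mu q * ((coc γ i : SL(2, ℤ)) : Matrix (Fin 2) (Fin 2) ℤ)
      = (c' : Matrix (Fin 2) (Fin 2) ℤ) * mu q) :
    perm γ' (sig q i) = sig q (perm γ i)
      ∧ coc γ' (sig q i) = (tr (kk q i))⁻¹ * c' * tr (kk q (perm γ i)) := by
  apply eq_of_beta_mul
  have H : ((tr (kk q i) : SL(2, ℤ)) : Matrix (Fin 2) (Fin 2) ℤ) * beta l (sig q i)
        * (γ' : Matrix (Fin 2) (Fin 2) ℤ)
      = (c' : Matrix (Fin 2) (Fin 2) ℤ)
        * ((tr (kk q (perm γ i)) : SL(2, ℤ)) : Matrix (Fin 2) (Fin 2) ℤ)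
        * beta l (sig q (perm γ i)) := by
    apply mul_mu_cancel hq
    calc ((tr (kk q i) : SL(2, ℤ)) : Matrix (Fin 2) (Fin 2) ℤ) * beta l (sig q i)
          * (γ' : Matrix (Fin 2) (Fin 2) ℤ) * mu q
        = ((tr (kk q i) : SL(2, ℤ)) : Matrix (Fin 2) (Fin 2) ℤ) * beta l (sig q i)
          * ((γ' : Matrix (Fin 2) (Fin 2) ℤ) * mu q) := by rw [Matrix.mul_assoc]
      _ = (((tr (kk q i) : SL(2, ℤ)) : Matrix (Fin 2) (Fin 2) ℤ) * beta l (sig q i) * mu q)
          * (γ : Matrix (Fin 2) (Fin 2) ℤ) := by rw [← hγ, ← Matrix.mul_assoc]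
      _ = mu q * (beta l i * (γ : Matrix (Fin 2) (Fin 2) ℤ)) := by
          rw [← mu_mul_beta, Matrix.mul_assoc]
      _ = (mu q * ((coc γ i : SL(2, ℤ)) : Matrix (Fin 2) (Fin 2) ℤ)) * beta l (perm γ i) := by
          rw [beta_mul, ← Matrix.mul_assoc]
      _ = (c' : Matrix (Fin 2) (Fin 2) ℤ) * (mu q * beta l (perm γ i)) := by
          rw [hc, Matrix.mul_assoc]
      _ = (c' : Matrix (Fin 2) (Fin 2) ℤ)
          * ((tr (kk q (perm γ i)) : SL(2, ℤ)) : Matrix (Fin 2) (Fin 2) ℤ)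
          * beta l (sig q (perm γ i)) * mu q := by
          rw [mu_mul_beta]; simp only [Matrix.mul_assoc]
  have hinv : (((tr (kk q i))⁻¹ : SL(2, ℤ)) : Matrix (Fin 2) (Fin 2) ℤ)
      * ((tr (kk q i) : SL(2, ℤ)) : Matrix (Fin 2) (Fin 2) ℤ) = 1 := by
    rw [← Matrix.SpecialLinearGroup.coe_mul, inv_mul_cancel, Matrix.SpecialLinearGroup.coe_one]
  calc beta l (sig q i) * (γ' : Matrix (Fin 2) (Fin 2) ℤ)
      = (((tr (kk q i))⁻¹ : SL(2, ℤ)) : Matrix (Fin 2) (Fin 2) ℤ)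
        * (((tr (kk q i) : SL(2, ℤ)) : Matrix (Fin 2) (Fin 2) ℤ) * beta l (sig q i)
          * (γ' : Matrix (Fin 2) (Fin 2) ℤ)) := by
        rw [Matrix.mul_assoc, ← Matrix.mul_assoc, hinv, Matrix.one_mul]
    _ = _ := by
        rw [H, Matrix.SpecialLinearGroup.coe_mul, Matrix.SpecialLinearGroup.coe_mul]
        simp only [Matrix.mul_assoc]


/-- `sig q` as a permutation, for `l ∤ q`. -/
noncomputable def sigEquiv {q : ℕ} (hlq : ¬ l ∣ q) : Equiv.Perm (Option (ZMod l)) :=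
  Equiv.optionCongr
    (Units.mulLeft (ZMod.unitOfCoprime q ((Nat.Prime.coprime_iff_not_dvd hl.out).mpr hlq).symm))

theorem sigEquiv_apply {q : ℕ} (hlq : ¬ l ∣ q) (i : Option (ZMod l)) :
    sigEquiv hlq i = sig q i := by
  cases i <;> simp [sigEquiv, sig]

/-- (DH2) pull-back along a homomorphism `θ` with `diag(q,1) γ = θ(γ) diag(q,1)` commutes with the
double coset operator `T_l`, `l ∤ q`. -/
theorem tdcAdd_comp_of_twist {M M' q : ℕ} (hlq : ¬ l ∣ q) (hlM : ¬ l ∣ M) (hlM' : ¬ l ∣ M')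
    (θ : Gamma0 M' →* Gamma0 M)
    (hθ : ∀ γ : Gamma0 M', !![(q : ℤ), 0; 0, 1] * ((γ : SL(2, ℤ)) : Matrix (Fin 2) (Fin 2) ℤ)
      = ((θ γ : SL(2, ℤ)) : Matrix (Fin 2) (Fin 2) ℤ) * !![(q : ℤ), 0; 0, 1])
    {A : Type*} [AddCommGroup A] (φ : Additive (Gamma0 M) →+ A) :
    tdcAdd hlM' (φ.comp (MonoidHom.toAdditive θ))
      = (tdcAdd hlM φ).comp (MonoidHom.toAdditive θ) := by
  have hq : q ≠ 0 := by rintro rfl; exact hlq (dvd_zero l)
  ext γ
  induction γ using Additive.rec with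
  | ofMul γ =>
  change tdcAdd hlM' (φ.comp (MonoidHom.toAdditive θ)) (Additive.ofMul γ)
      = tdcAdd hlM φ (Additive.ofMul (θ γ))
  rw [tdcAdd_apply, tdcAdd_apply]
  let tG : ℤ → Gamma0 M := fun k => ⟨tr k, tr_mem_Gamma0 M k⟩
  have key : ∀ i : Option (ZMod l), cocG hlM (θ γ) (sig q i)
      = (tG (kk q i))⁻¹ * θ (cocG hlM' γ i) * tG (kk q (permG γ i)) := by
    intro i
    apply Subtype.ext
    exact (perm_coc_twist hq i (hθ γ) (hθ (cocG hlM' γ i))).2
  have hR : ∑ i : Option (ZMod l), φ (Additive.ofMul (cocG hlM (θ γ) i))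
      = ∑ i : Option (ZMod l), φ (Additive.ofMul (cocG hlM (θ γ) (sig q i))) := by
    rw [← Equiv.sum_comp (sigEquiv hlq)]
    simp only [sigEquiv_apply]
  rw [hR]
  simp only [key, ofMul_mul, ofMul_inv, map_add, map_neg]
  rw [Finset.sum_add_distrib, Finset.sum_add_distrib, Finset.sum_neg_distrib]
  have h2 := Equiv.sum_comp (permG (p := l) γ)
    (fun i : Option (ZMod l) => φ (Additive.ofMul (tG (kk q i))))
  rw [h2]
  change _ = _ + _ + _
  abel_nf
  rfl

end Fermat.Agent.ES.LR.DegHecke5
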