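import Mathlib
import Fermat.Agent.ES.LR.TransferReps27
import Fermat.Agent.ES.LR.DegeneracyPar27
import Fermat.Agent.ES.HEQ.FaithFinal26

/-!
# Program L, chapter OP, brick (OP-2b) (helper26): `t₂ ∘ i₁ = T_q`

`t2 N q (i1 N q φ) = tdcAdd hqN φ` for every additive character `φ : Γ₀(N) → A` (`q` prime, `q ∤ N`):
the transfer along `twistH : Γ₀(Nq) → Γ₀(N)` (conjugation by `μ = diag(q,1)`) of the restriction of `φ`
to `Γ₀(Nq)` is the double coset operator `T_q` of `DoubleCoset27`.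

Proof.  `range twistH = {k ∈ Γ₀(N) : q ∣ k₀₁}` is the stabiliser of `some 0 ∈ P¹(F_q)` for the action
`perm` of `DoubleCoset27` (`β_0 * twistH h = h * β_0`, `β_0 = diag(1,q)`), and `coc (twistH h) 0 = h`.
`Γ₀(N)` is transitive on `P¹(F_q)`: choose `r i` with `perm (r i) 0 = i`; these are right coset
representatives, `r i * g = twistH (h i) * r (σ i)` with `σ = perm g` and
`h i = coc (r i) 0 * coc g i * (coc (r (σ i)) 0)⁻¹`; the outer factors telescope.
-/

set_option autoImplicit false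
set_option linter.unusedSectionVars false

open Matrix CongruenceSubgroup ModularCurve.Period
open scoped MatrixGroups

namespace Fermat.Agent.ES.LR.DegTq26

open Fermat.Agent.ES.HEQ.DoubleCoset27 Fermat.Agent.ES.HEQ.DoubleCosetPar27
open Fermat.Agent.ES.LR.Degeneracy27 Fermat.Agent.ES.LR.DegeneracyPar27
open Fermat.Agent.ES.LR.TransferReps27
open Fermat.Agent.ES.HEQ.FaithInst26 Fermat.Agent.ES.HEQ.FaithFinal26

variable {q : ℕ} [hq : Fact q.Prime]

/-- the base point `0 ∈ P¹(F_q)`. -/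
abbrev o : Option (ZMod q) := some 0

theorem beta_o : beta q (o : Option (ZMod q)) = !![1, 0; 0, (q : ℤ)] := by
  simp [beta]

/-- `β_0 * twistH h = h * β_0`. -/
theorem beta_o_mul_twistH (N : ℕ) [NeZero q] (h : Gamma0 (N * q)) :
    beta q o * (((twistH N q h : Gamma0 N) : SL(2, ℤ)) : Matrix (Fin 2) (Fin 2) ℤ)
      = ((h : SL(2, ℤ)) : Matrix (Fin 2) (Fin 2) ℤ) * beta q o := by
  have h00 := twistH_apply_zero_zero N q h
  have h01 := twistH_apply_zero_one N q h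
  have h10 := twistH_apply_one_zero N q h
  have h11 := twistH_apply_one_one N q h
  rw [beta_o]
  ext a b
  fin_cases a <;> fin_cases b <;>
    simp only [Matrix.mul_apply, Fin.sum_univ_two, Fin.zero_eta, Fin.mk_one, Fin.isValue,
      Matrix.of_apply, Matrix.cons_val', Matrix.cons_val_zero, Matrix.cons_val_one,
      Matrix.cons_val_fin_one, h00, h01, h11, zero_mul, mul_zero, add_zero, zero_add, one_mul,
      mul_one]
  · ring
  · rw [← h10]
  · ring

theorem perm_twistH (N : ℕ) [NeZero q] (h : Gamma0 (N * q)) :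
    perm ((twistH N q h : Gamma0 N) : SL(2, ℤ)) (o : Option (ZMod q)) = o :=
  (eq_of_beta_mul (beta_o_mul_twistH N h)).1

theorem coc_twistH (N : ℕ) [NeZero q] (h : Gamma0 (N * q)) :
    coc ((twistH N q h : Gamma0 N) : SL(2, ℤ)) (o : Option (ZMod q)) = (h : SL(2, ℤ)) :=
  (eq_of_beta_mul (beta_o_mul_twistH N h)).2

/-- the stabiliser of `0 ∈ P¹(F_q)` in `Γ₀(N)` is the range of `twistH`. -/
theorem exists_twistH_eq_of_perm (N : ℕ) [NeZero q] (k : Gamma0 N)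
    (hk : perm (k : SL(2, ℤ)) (o : Option (ZMod q)) = o) :
    ∃ h : Gamma0 (N * q), twistH N q h = k := by
  have hq0 : (q : ℤ) ≠ 0 := by exact_mod_cast hq.out.ne_zero
  have e := beta_mul (k : SL(2, ℤ)) (o : Option (ZMod q))
  rw [hk, beta_o] at e
  set c : SL(2, ℤ) := coc (k : SL(2, ℤ)) (o : Option (ZMod q)) with hc
  have e00 := congrFun (congrFun e 0) 0
  have e01 := congrFun (congrFun e 0) 1
  have e10 := congrFun (congrFun e 1) 0
  have e11 := congrFun (congrFun e 1) 1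
  simp only [Matrix.mul_apply, Fin.sum_univ_two, Matrix.of_apply, Matrix.cons_val',
    Matrix.cons_val_zero, Matrix.cons_val_one, Matrix.cons_val_fin_one, zero_mul, mul_zero,
    add_zero, zero_add, one_mul, mul_one] at e00 e01 e10 e11
  -- `e00 : k 0 0 = c 0 0`, `e01 : k 0 1 = c 0 1 * q`, `e10 : q * k 1 0 = c 1 0`,
  -- `e11 : q * k 1 1 = c 1 1 * q`
  have hkN : (N : ℤ) ∣ ((k : SL(2, ℤ)) : Matrix (Fin 2) (Fin 2) ℤ) 1 0 := by
    have := Gamma0_mem.mp k.2
    rwa [ZMod.intCast_zmod_eq_zero_iff_dvd] at this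
  have hcmem : c ∈ Gamma0 (N * q) := by
    rw [Gamma0_mem, ZMod.intCast_zmod_eq_zero_iff_dvd]
    show ((N * q : ℕ) : ℤ) ∣ (c : Matrix (Fin 2) (Fin 2) ℤ) 1 0
    rw [← e10]
    push_cast
    rw [mul_comm (N : ℤ) (q : ℤ)]
    exact mul_dvd_mul_left _ hkN
  refine ⟨⟨c, hcmem⟩, ?_⟩
  apply Subtype.ext
  apply Subtype.ext
  have h00 := twistH_apply_zero_zero N q ⟨c, hcmem⟩
  have h01 := twistH_apply_zero_one N q ⟨c, hcmem⟩
  have h10 := twistH_apply_one_zero N q ⟨c, hcmem⟩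
  have h11 := twistH_apply_one_one N q ⟨c, hcmem⟩
  ext a b
  fin_cases a <;> fin_cases b
  · show (((twistH N q ⟨c, hcmem⟩ : Gamma0 N) : SL(2, ℤ)) : Matrix (Fin 2) (Fin 2) ℤ) 0 0
      = ((k : SL(2, ℤ)) : Matrix (Fin 2) (Fin 2) ℤ) 0 0
    rw [h00]; exact e00.symm
  · show (((twistH N q ⟨c, hcmem⟩ : Gamma0 N) : SL(2, ℤ)) : Matrix (Fin 2) (Fin 2) ℤ) 0 1
      = ((k : SL(2, ℤ)) : Matrix (Fin 2) (Fin 2) ℤ) 0 1
    rw [h01]
    show (q : ℤ) * (c : Matrix (Fin 2) (Fin 2) ℤ) 0 1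
      = ((k : SL(2, ℤ)) : Matrix (Fin 2) (Fin 2) ℤ) 0 1
    rw [e01]; ring
  · show (((twistH N q ⟨c, hcmem⟩ : Gamma0 N) : SL(2, ℤ)) : Matrix (Fin 2) (Fin 2) ℤ) 1 0
      = ((k : SL(2, ℤ)) : Matrix (Fin 2) (Fin 2) ℤ) 1 0
    apply mul_left_cancel₀ hq0
    rw [h10]
    exact e10.symm
  · show (((twistH N q ⟨c, hcmem⟩ : Gamma0 N) : SL(2, ℤ)) : Matrix (Fin 2) (Fin 2) ℤ) 1 1
      = ((k : SL(2, ℤ)) : Matrix (Fin 2) (Fin 2) ℤ) 1 1
    rw [h11]
    show (c : Matrix (Fin 2) (Fin 2) ℤ) 1 1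
      = ((k : SL(2, ℤ)) : Matrix (Fin 2) (Fin 2) ℤ) 1 1
    apply mul_left_cancel₀ hq0
    rw [e11]; ring

/-- `Γ₀(N)` acts transitively on `P¹(F_q)` (`q ∤ N`): representatives. -/
theorem exists_reps (N : ℕ) (hqN : ¬ q ∣ N) :
    ∃ r : Option (ZMod q) → Gamma0 N, ∀ i, perm ((r i : Gamma0 N) : SL(2, ℤ)) (o : Option (ZMod q)) = i := by
  -- the representative for `∞`
  have hcop : IsCoprime (q : ℤ) (N : ℤ) := by
    rw [Int.isCoprime_iff_gcd_eq_one]
    exact (Nat.Prime.coprime_iff_not_dvd hq.out).mpr hqN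
  obtain ⟨d, b, hdb⟩ := hcop
  -- `d * q + b * N = 1`
  have hdet : (!![(q : ℤ), -b; (N : ℤ), d]).det = 1 := by
    rw [Matrix.det_fin_two_of]; linarith
  let rinf : SL(2, ℤ) := ⟨!![(q : ℤ), -b; (N : ℤ), d], hdet⟩
  have hrinf : rinf ∈ Gamma0 N := by
    rw [Gamma0_mem]
    show (((!![(q : ℤ), -b; (N : ℤ), d] : Matrix (Fin 2) (Fin 2) ℤ) 1 0 : ℤ) : ZMod N) = 0
    simp
  have hdetg : (!![(1 : ℤ), -b; (N : ℤ), (q : ℤ) * d]).det = 1 := by
    rw [Matrix.det_fin_two_of]; linarith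
  let ginf : SL(2, ℤ) := ⟨!![(1 : ℤ), -b; (N : ℤ), (q : ℤ) * d], hdetg⟩
  have hperm_inf : perm rinf (o : Option (ZMod q)) = none := by
    refine (eq_of_beta_mul (g := ginf) ?_).1
    rw [beta_o, beta_none]
    show !![1, 0; 0, (q : ℤ)] * !![(q : ℤ), -b; (N : ℤ), d]
      = !![(1 : ℤ), -b; (N : ℤ), (q : ℤ) * d] * !![(q : ℤ), 0; 0, 1]
    ext a c
    fin_cases a <;> fin_cases c <;> simp [Matrix.mul_apply, Fin.sum_univ_two]
    ring
  -- the representatives for `some j`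
  have hdetj : ∀ j : ZMod q, (!![(1 : ℤ), (j.val : ℤ); 0, 1]).det = 1 := by
    intro j
    rw [Matrix.det_fin_two_of]; ring
  let rj : ZMod q → SL(2, ℤ) := fun j => ⟨!![(1 : ℤ), (j.val : ℤ); 0, 1], hdetj j⟩
  have hrj : ∀ j, rj j ∈ Gamma0 N := by
    intro j
    rw [Gamma0_mem]
    show (((!![(1 : ℤ), (j.val : ℤ); 0, 1] : Matrix (Fin 2) (Fin 2) ℤ) 1 0 : ℤ) : ZMod N) = 0
    simp
  have hperm_j : ∀ j, perm (rj j) (o : Option (ZMod q)) = some j := by
    intro j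
    refine (eq_of_beta_mul (g := 1) ?_).1
    rw [beta_o, beta_some]
    show !![1, 0; 0, (q : ℤ)] * !![(1 : ℤ), (j.val : ℤ); 0, 1]
      = ((1 : SL(2, ℤ)) : Matrix (Fin 2) (Fin 2) ℤ) * !![1, (j.val : ℤ); 0, (q : ℤ)]
    rw [Matrix.SpecialLinearGroup.coe_one, Matrix.one_mul]
    ext a c
    fin_cases a <;> fin_cases c <;> simp [Matrix.mul_apply, Fin.sum_univ_two]
  refine ⟨fun i => match i with
    | none => ⟨rinf, hrinf⟩
    | some j => ⟨rj j, hrj j⟩, ?_⟩
  intro i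
  cases i with
  | none => exact hperm_inf
  | some j => exact hperm_j j

/-- `perm γ⁻¹ (perm γ i) = i`. -/
theorem perm_inv_perm (γ : SL(2, ℤ)) (i : Option (ZMod q)) : perm γ⁻¹ (perm γ i) = i := by
  rw [← perm_mul, mul_inv_cancel, perm_one]

theorem perm_perm_inv (γ : SL(2, ℤ)) (i : Option (ZMod q)) : perm γ (perm γ⁻¹ i) = i := by
  rw [← perm_mul, inv_mul_cancel, perm_one]

/-- `coc γ⁻¹ (perm γ i) = (coc γ i)⁻¹`. -/
theorem coc_inv_perm (γ : SL(2, ℤ)) (i : Option (ZMod q)) : coc γ⁻¹ (perm γ i) = (coc γ i)⁻¹ := by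
  have h := coc_mul γ γ⁻¹ i
  rw [mul_inv_cancel, coc_one] at h
  exact eq_inv_of_mul_eq_one_right h.symm

variable (N : ℕ) [NeZero q] [NeZero N] (hqN : ¬ q ∣ N)
variable {A : Type*} [AddCommGroup A]

/-- **(OP-2b)** `t₂ ∘ i₁ = T_q` on `Hom(Γ₀(N), A)`. -/
theorem t2_i1 (φ : Additive (Gamma0 N) →+ A) : t2 N q (i1 N q φ) = tdcAdd hqN φ := by
  obtain ⟨r, hr⟩ := exists_reps (q := q) N hqN
  apply AddMonoidHom.ext
  intro g'
  obtain ⟨g, rfl⟩ := Additive.ofMul.surjective g'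
  -- the stabiliser condition for `r i * g * (r (σ i))⁻¹`
  have hfix : ∀ i : Option (ZMod q),
      perm ((r i * g * (r (permG g i))⁻¹ : Gamma0 N) : SL(2, ℤ)) (o : Option (ZMod q)) = o := by
    intro i
    rw [Subgroup.coe_mul, Subgroup.coe_mul, Subgroup.coe_inv, perm_mul, perm_mul, hr i,
      permG_apply]
    have h1 := perm_inv_perm ((r (perm (g : SL(2, ℤ)) i) : Gamma0 N) : SL(2, ℤ))
      (o : Option (ZMod q))
    rw [hr] at h1
    exact h1
  choose h hh using fun i => exists_twistH_eq_of_perm (q := q) N _ (hfix i)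
  have hrel : ∀ i, r i * g = twistH N q (h i) * r (permG g i) := by
    intro i
    rw [hh i]; group
  -- the representatives
  have hinj : ∀ i j, r i * (r j)⁻¹ ∈ (twistH N q).range → i = j := by
    rintro i j ⟨k, hk⟩
    have h1 := perm_twistH (q := q) N k
    rw [hk, Subgroup.coe_mul, Subgroup.coe_inv, perm_mul, hr i] at h1
    have h2 := congrArg (perm ((r j : Gamma0 N) : SL(2, ℤ))) h1
    rw [perm_perm_inv, hr j] at h2
    exact h2
  have hsurj : ∀ γ : Gamma0 N, ∃ i, ∃ γ' : Gamma0 (N * q), γ = twistH N q γ' * r i := by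
    intro γ
    refine ⟨perm (γ : SL(2, ℤ)) o, ?_⟩
    have hfix' : perm ((γ * (r (perm (γ : SL(2, ℤ)) o))⁻¹ : Gamma0 N) : SL(2, ℤ))
        (o : Option (ZMod q)) = o := by
      rw [Subgroup.coe_mul, Subgroup.coe_inv, perm_mul]
      have h1 := perm_inv_perm ((r (perm (γ : SL(2, ℤ)) o) : Gamma0 N) : SL(2, ℤ))
        (o : Option (ZMod q))
      rw [hr] at h1
      exact h1
    obtain ⟨γ', hγ'⟩ := exists_twistH_eq_of_perm (q := q) N _ hfix'
    refine ⟨γ', ?_⟩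
    rw [hγ']; group
  have hbij := bijective_reps_of (twistH N q) r hinj hsurj
  show coresAdd (twistH N q) (twistH_injective N q) (i1 N q φ) (Additive.ofMul g) = _
  rw [coresAdd_apply_of_reps (twistH N q) (twistH_injective N q) r hbij (i1 N q φ) g
    (permG g) h hrel, tdcAdd_apply]
  -- the key identity
  have key : ∀ i, inclH N q (h i)
      = cocG hqN (r i) o * cocG hqN g i * (cocG hqN (r (permG g i)) o)⁻¹ := by
    intro i
    apply Subtype.ext
    rw [coe_inclH, Subgroup.coe_mul, Subgroup.coe_mul, Subgroup.coe_inv, coe_cocG, coe_cocG,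
      coe_cocG]
    rw [← coc_twistH (q := q) N (h i), hh i, Subgroup.coe_mul, Subgroup.coe_mul, Subgroup.coe_inv,
      coc_mul, coc_mul, perm_mul, hr i, permG_apply]
    congr 1
    have h1 := coc_inv_perm ((r (perm (g : SL(2, ℤ)) i) : Gamma0 N) : SL(2, ℤ))
      (o : Option (ZMod q))
    rw [hr] at h1
    exact h1
  have hsum : ∀ i, i1 N q φ (Additive.ofMul (h i))
      = φ (Additive.ofMul (cocG hqN (r i) o)) + φ (Additive.ofMul (cocG hqN g i))
        - φ (Additive.ofMul (cocG hqN (r (permG g i)) o)) := by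
    intro i
    rw [i1_apply, key i, ofMul_mul, ofMul_mul, ofMul_inv, map_add, map_add, map_neg]
    abel
  rw [Finset.sum_congr rfl (fun i _ => hsum i), Finset.sum_sub_distrib, Finset.sum_add_distrib]
  have hre : ∑ i : Option (ZMod q), φ (Additive.ofMul (cocG hqN (r (permG g i)) o))
      = ∑ i : Option (ZMod q), φ (Additive.ofMul (cocG hqN (r i) o)) :=
    Equiv.sum_comp (permG g) (fun i => φ (Additive.ofMul (cocG hqN (r i) o)))
  rw [hre]
  abel

/-- `t₂ ∘ i₁ = T_q` on parabolic characters. -/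
theorem t2Par_i1Par (R : Type*) [Semiring R] (A : Type*) [AddCommGroup A] [Module R A]
    (φ : parabolicHoms R (Gamma0 N) A) :
    t2Par N q R A (i1Par N q R A φ) = tdcPar hqN R A φ :=
  Subtype.ext (t2_i1 N hqN φ.1)

/-- `t₂ ∘ i₁ = T_q` on the lattices (CORE's `h21`). -/
theorem t2_i1_dcZ (hq' : q.Prime) (y : ↥(Lam N)) :
    t2Par N q ℤ ℤ (i1Par N q ℤ ℤ y) = dcZ N q hq' hqN y := by
  rw [dcZ_eq N q hq' hqN]
  exact t2Par_i1Par N hqN ℤ ℤ y

end Fermat.Agent.ES.LR.DegTq26
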