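/-
Program L (S41), CORE assembly, part 2 (helper8): "dual occurrence".

A system of eigenvalues of a commuting family of operators on a finite-dimensional vector space
which occurs on a vector also occurs on a linear functional (Nakayama's lemma for the polynomial
ring acting through the family).
-/
import Mathlib

set_option autoImplicit false

namespace Fermat.Agent.ES.LR.DualOcc8

section PolyActK

variable {k : Type*} [CommRing k] {V : Type*} [AddCommGroup V] [Module k V]
  {κ : Type*} (T : κ → Module.End k V) (hT : ∀ i j, Commute (T i) (T j))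

include hT in
theorem comm_range : ∀ a ∈ Set.range T, ∀ b ∈ Set.range T, a * b = b * a := by
  rintro _ ⟨i, rfl⟩ _ ⟨j, rfl⟩
  exact hT i j

/-- The action of `k[X_j]` on `V` through the commuting family `T`. -/
noncomputable def polyActK : MvPolynomial κ k →ₐ[k] Module.End k V :=
  letI : CommRing (Algebra.adjoin k (Set.range T)) :=
    Algebra.adjoinCommRingOfComm k (comm_range T hT)
  (Algebra.adjoin k (Set.range T)).val.comp
    (MvPolynomial.aeval fun i =>
      (⟨T i, Algebra.subset_adjoin ⟨i, rfl⟩⟩ : Algebra.adjoin k (Set.range T)))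

@[simp] theorem polyActK_X (i : κ) : polyActK T hT (MvPolynomial.X i) = T i := by
  unfold polyActK
  simp

end PolyActK

variable {k : Type*} [Field k] {V : Type*} [AddCommGroup V] [Module k V] [FiniteDimensional k V]
  {κ : Type*} (T : κ → Module.End k V) (hT : ∀ i j, Commute (T i) (T j)) (lam : κ → k)

include hT in
/-- If some nonzero `v` is a common eigenvector with eigenvalues `lam`, the images of the
`T j - lam j` do not span `V`. -/
theorem iSup_range_sub_ne_top {v : V} (hv0 : v ≠ 0) (hv : ∀ j, T j v = lam j • v) :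
    (⨆ j, LinearMap.range (T j - lam j • (1 : Module.End k V))) ≠ ⊤ := by
  classical
  intro htop
  let φ : MvPolynomial κ k →ₐ[k] Module.End k V := polyActK T hT
  let _ : Module (MvPolynomial κ k) V := Module.compHom V (φ : MvPolynomial κ k →+* Module.End k V)
  have hsmul : ∀ (b : MvPolynomial κ k) (x : V), b • x = φ b x := fun _ _ => rfl
  have : IsScalarTower k (MvPolynomial κ k) V := ⟨fun c b x => by
    rw [hsmul, hsmul, map_smul, LinearMap.smul_apply]⟩
  have : Module.Finite (MvPolynomial κ k) V :=
    Module.Finite.of_restrictScalars_finite k (MvPolynomial κ k) V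
  -- the generators of the "augmentation ideal"
  let g : κ → MvPolynomial κ k := fun j => MvPolynomial.X j - MvPolynomial.C (lam j)
  have hg : ∀ j x, g j • x = T j x - lam j • x := by
    intro j x
    rw [hsmul]
    simp only [g, map_sub, φ, polyActK_X, LinearMap.sub_apply]
    rw [← MvPolynomial.algebraMap_eq, AlgHom.commutes, Algebra.algebraMap_eq_smul_one,
      LinearMap.smul_apply, Module.End.one_apply]
  let I : Ideal (MvPolynomial κ k) := Ideal.span (Set.range g)
  -- `I` kills `v`
  have hIv : ∀ s ∈ I, s • v = 0 := by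
    intro s hs
    induction hs using Submodule.span_induction with
    | mem s hs =>
      obtain ⟨j, rfl⟩ := hs
      rw [hg, hv j, sub_self]
    | zero => exact zero_smul _ _
    | add s t _ _ hs ht => rw [add_smul, hs, ht, add_zero]
    | smul b s _ hs => rw [smul_eq_mul, mul_smul, hs, smul_zero]
  -- `V = I V`
  have hle' : ∀ x ∈ ⨆ j, LinearMap.range (T j - lam j • (1 : Module.End k V)),
      x ∈ (I • ⊤ : Submodule (MvPolynomial κ k) V) := by
    intro x hx
    induction hx using Submodule.iSup_induction' with
    | mem j x hx =>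
      obtain ⟨y, rfl⟩ := hx
      have : (T j - lam j • (1 : Module.End k V)) y = g j • y := by
        rw [hg]; simp
      rw [this]
      exact Submodule.smul_mem_smul (Ideal.subset_span ⟨j, rfl⟩) trivial
    | zero => exact Submodule.zero_mem _
    | add x y _ _ hx hy => exact Submodule.add_mem _ hx hy
  have hle : (⊤ : Submodule (MvPolynomial κ k) V) ≤ I • ⊤ := by
    intro x _
    apply hle'
    rw [htop]; trivial
  obtain ⟨r, hr, hr0⟩ := Submodule.exists_sub_one_mem_and_smul_eq_zero_of_fg_of_le_smul I ⊤
    Module.Finite.fg_top hle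
  have h1 : r • v = 0 := hr0 v trivial
  have h2 : (r - 1) • v = 0 := hIv _ hr
  rw [sub_smul, h1, one_smul, zero_sub, neg_eq_zero] at h2
  exact hv0 h2

include hT in
/-- **Dual occurrence.** -/
theorem exists_eigenfunctional {v : V} (hv0 : v ≠ 0) (hv : ∀ j, T j v = lam j • v) :
    ∃ ψ : V →ₗ[k] k, ψ ≠ 0 ∧ ∀ j x, ψ (T j x) = lam j * ψ x := by
  have hlt : (⨆ j, LinearMap.range (T j - lam j • (1 : Module.End k V))) < ⊤ :=
    lt_top_iff_ne_top.mpr (iSup_range_sub_ne_top T hT lam hv0 hv)
  obtain ⟨ψ, hψ0, hψ⟩ := Submodule.exists_le_ker_of_lt_top _ hlt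
  refine ⟨ψ, hψ0, fun j x => ?_⟩
  have hmem : (T j - lam j • (1 : Module.End k V)) x ∈ LinearMap.ker ψ :=
    hψ (Submodule.mem_iSup_of_mem j ⟨x, rfl⟩)
  rw [LinearMap.mem_ker] at hmem
  have : ψ (T j x) - lam j * ψ x = 0 := by
    rw [← hmem]
    simp
  exact sub_eq_zero.mp this

end Fermat.Agent.ES.LR.DualOcc8
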