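/-
Program L (S41, level raising), chapter FIN-prep (helper23).

A nonzero subspace `V` of `S₂(Γ₀(M))` which is stable under all Hecke operators of the Prelude
(`CuspForm.heckeTLin 2` for primes `ℓ ∤ M`, `CuspForm.heckeULin 2` for primes `ℓ ∣ M`) contains a
normalised eigenform (`exists_normalizedEigenform_mem`), and the eigenvalues of a normalised
eigenform are read off from its `q`-expansion (`qCoeff_eq_of_heckeTLin_eq_smul`,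
`qCoeff_eq_of_heckeULin_eq_smul`).

Inputs: finite-dimensionality of `S₂(Γ₀(M))` (`S21.Assembly.finite_cusp`), the common eigenvector
of a commuting family (`S49.commFamily_exists_eigenvector_mem`), the commutation theorems of the
Prelude, and the `q`-expansion bridge of `S49/QExp`.
-/
import Mathlib
import Fermat.Prelude.Thm_CuspForm_heckeTLin_comm
import Fermat.Prelude.Thm_CuspForm_heckeTLin_heckeULin_comm
import Fermat.Prelude.Thm_CuspForm_heckeULin_comm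
import Fermat.Agent.S49.QExp
import Fermat.Agent.S49.CommonEigen
import Fermat.Agent.S21.Assembly

set_option autoImplicit false

open CuspForm CongruenceSubgroup ModularFormClass

namespace Fermat.Agent.ES.LR.EigenformOfCommon23

variable {M : ℕ} [NeZero M]

/-- All Hecke operators of level `M` and weight `2`, indexed by the primes: `U_ℓ` for `ℓ ∣ M` and
`T_ℓ` for `ℓ ∤ M`. -/
noncomputable def heckeOp (M : ℕ) [NeZero M] (ℓ : Nat.Primes) :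
    Module.End ℂ (CuspForm (Gamma0 M) 2) :=
  if h : (ℓ : ℕ) ∣ M then CuspForm.heckeULin 2 h else CuspForm.heckeTLin 2 ℓ.2 h

theorem heckeOp_of_dvd (ℓ : Nat.Primes) (h : (ℓ : ℕ) ∣ M) :
    heckeOp M ℓ = CuspForm.heckeULin 2 h := by
  rw [heckeOp, dif_pos h]

theorem heckeOp_of_not_dvd (ℓ : Nat.Primes) (h : ¬ (ℓ : ℕ) ∣ M) :
    heckeOp M ℓ = CuspForm.heckeTLin 2 ℓ.2 h := by
  rw [heckeOp, dif_neg h]

theorem heckeOp_comm (ℓ ℓ' : Nat.Primes) : Commute (heckeOp M ℓ) (heckeOp M ℓ') := by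
  by_cases h : (ℓ : ℕ) ∣ M <;> by_cases h' : (ℓ' : ℕ) ∣ M
  · rw [heckeOp_of_dvd ℓ h, heckeOp_of_dvd ℓ' h']
    exact CuspForm.heckeULin_comm 2 h h'
  · rw [heckeOp_of_dvd ℓ h, heckeOp_of_not_dvd ℓ' h']
    exact (CuspForm.heckeTLin_heckeULin_comm 2 ℓ'.2 h' h).symm
  · rw [heckeOp_of_not_dvd ℓ h, heckeOp_of_dvd ℓ' h']
    exact CuspForm.heckeTLin_heckeULin_comm 2 ℓ.2 h h'
  · rw [heckeOp_of_not_dvd ℓ h, heckeOp_of_not_dvd ℓ' h']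
    exact CuspForm.heckeTLin_comm 2 ℓ.2 h ℓ'.2 h'

/-- A nonzero common eigenvector of all `T_ℓ` (`ℓ ∤ M`) and `U_ℓ` (`ℓ ∣ M`) becomes a normalised
eigenform after division by its first `q`-coefficient, which is nonzero. -/
theorem isNormalizedEigenform_inv_smul (w : CuspForm (Gamma0 M) 2) (hw : w ≠ 0) (lam : ℕ → ℂ)
    (hT : ∀ (ℓ : ℕ) (hℓ : ℓ.Prime) (hℓM : ¬ ℓ ∣ M), CuspForm.heckeTLin 2 hℓ hℓM w = lam ℓ • w)
    (hU : ∀ (ℓ : ℕ) (_ : ℓ.Prime) (hℓM : ℓ ∣ M), CuspForm.heckeULin 2 hℓM w = lam ℓ • w) :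
    qCoeff ⇑w 1 ≠ 0 ∧ ((qCoeff ⇑w 1)⁻¹ • w).IsNormalizedEigenform := by
  have h1 := Fermat.Agent.S49.qCoeff_one_ne_zero_of_eigenvector w hw lam hT hU
  refine ⟨h1, ?_⟩
  set f : CuspForm (Gamma0 M) 2 := (qCoeff ⇑w 1)⁻¹ • w with hf
  have hfT : ∀ (ℓ : ℕ) (hℓ : ℓ.Prime) (hℓM : ¬ ℓ ∣ M),
      CuspForm.heckeTLin 2 hℓ hℓM f = lam ℓ • f := by
    intro ℓ hℓ hℓM
    rw [hf, map_smul, hT ℓ hℓ hℓM, smul_comm]
  have hfU : ∀ (ℓ : ℕ) (_ : ℓ.Prime) (hℓM : ℓ ∣ M), CuspForm.heckeULin 2 hℓM f = lam ℓ • f := by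
    intro ℓ hℓ hℓM
    rw [hf, map_smul, hU ℓ hℓ hℓM, smul_comm]
  have hrel := Fermat.Agent.S49.heckeRel_qCoeff_of_eigenvector f lam hfT hfU
  have hf1 : qCoeff ⇑f 1 = 1 := by
    rw [hf, Fermat.Agent.S49.qCoeff_smul, inv_mul_cancel₀ h1]
  have hlam : ∀ ℓ : ℕ, ℓ.Prime → qCoeff ⇑f ℓ = lam ℓ := by
    intro ℓ hℓ
    have h := hrel ℓ hℓ 1
    have hnd : ¬ ℓ ∣ 1 := fun hd => hℓ.one_lt.ne' (Nat.dvd_one.mp hd)
    simp only [mul_one, if_neg hnd, mul_zero, add_zero] at h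
    rw [h, hf1, mul_one]
  refine Fermat.Agent.S49.isNormalizedEigenform_of_isEigensystem f ⟨hf1, ?_⟩
  intro ℓ hℓ n
  have h := hrel ℓ hℓ n
  simp only at h ⊢
  rw [h, hlam ℓ hℓ]

/-- **FIN-prep.**  A nonzero subspace of `S₂(Γ₀(M))` stable under all `T_ℓ` (`ℓ ∤ M` prime) and all
`U_ℓ` (`ℓ ∣ M` prime) contains a normalised eigenform. -/
theorem exists_normalizedEigenform_mem (V : Submodule ℂ (CuspForm (Gamma0 M) 2)) (hV : V ≠ ⊥)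
    (hT : ∀ (ℓ : ℕ) (hℓ : ℓ.Prime) (hℓM : ¬ ℓ ∣ M), ∀ g ∈ V, CuspForm.heckeTLin 2 hℓ hℓM g ∈ V)
    (hU : ∀ (ℓ : ℕ) (_ : ℓ.Prime) (hℓM : ℓ ∣ M), ∀ g ∈ V, CuspForm.heckeULin 2 hℓM g ∈ V) :
    ∃ g ∈ V, g.IsNormalizedEigenform := by
  classical
  have : Module.Finite ℂ (CuspForm (Gamma0 M) 2) := Fermat.Agent.S21.Assembly.finite_cusp M
  have hmaps : ∀ ℓ : Nat.Primes, ∀ x ∈ V, heckeOp M ℓ x ∈ V := by
    intro ℓ x hx
    by_cases h : (ℓ : ℕ) ∣ M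
    · rw [heckeOp_of_dvd ℓ h]
      exact hU ℓ ℓ.2 h x hx
    · rw [heckeOp_of_not_dvd ℓ h]
      exact hT ℓ ℓ.2 h x hx
  obtain ⟨w, hwV, hw0, hwe⟩ :=
    Fermat.Agent.S49.commFamily_exists_eigenvector_mem (heckeOp M) heckeOp_comm V hV hmaps
  choose μ hμ using hwe
  let lam : ℕ → ℂ := fun ℓ => if h : ℓ.Prime then μ ⟨ℓ, h⟩ else 0
  have hlamT : ∀ (ℓ : ℕ) (hℓ : ℓ.Prime) (hℓM : ¬ ℓ ∣ M),
      CuspForm.heckeTLin 2 hℓ hℓM w = lam ℓ • w := by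
    intro ℓ hℓ hℓM
    have h := hμ ⟨ℓ, hℓ⟩
    rw [heckeOp_of_not_dvd ⟨ℓ, hℓ⟩ hℓM] at h
    simp only [lam, dif_pos hℓ]
    exact h
  have hlamU : ∀ (ℓ : ℕ) (_ : ℓ.Prime) (hℓM : ℓ ∣ M),
      CuspForm.heckeULin 2 hℓM w = lam ℓ • w := by
    intro ℓ hℓ hℓM
    have h := hμ ⟨ℓ, hℓ⟩
    rw [heckeOp_of_dvd ⟨ℓ, hℓ⟩ hℓM] at h
    simp only [lam, dif_pos hℓ]
    exact h
  exact ⟨(qCoeff ⇑w 1)⁻¹ • w, V.smul_mem _ hwV,
    (isNormalizedEigenform_inv_smul w hw0 lam hlamT hlamU).2⟩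

omit [NeZero M] in
/-- Read-off at a prime not dividing the level: the `T_ℓ`-eigenvalue of a normalised eigenform is
its `ℓ`-th `q`-coefficient. -/
theorem qCoeff_eq_of_heckeTLin_eq_smul {g : CuspForm (Gamma0 M) 2} (hg : g.IsNormalizedEigenform)
    {ℓ : ℕ} (hℓ : ℓ.Prime) (hℓM : ¬ ℓ ∣ M) {c : ℂ}
    (h : CuspForm.heckeTLin 2 hℓ hℓM g = c • g) : qCoeff ⇑g ℓ = c := by
  have h1 := Fermat.Agent.S49.qCoeff_heckeTLin hℓ hℓM g 1
  have hnd : ¬ ℓ ∣ 1 := fun hd => hℓ.one_lt.ne' (Nat.dvd_one.mp hd)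
  rw [h, Fermat.Agent.S49.qCoeff_smul, hg.qCoeff_one, mul_one, one_mul, if_neg hnd, add_zero] at h1
  exact h1.symm

/-- Read-off at a prime dividing the level: the `U_q`-eigenvalue of a normalised eigenform is its
`q`-th `q`-coefficient. -/
theorem qCoeff_eq_of_heckeULin_eq_smul {g : CuspForm (Gamma0 M) 2} (hg : g.IsNormalizedEigenform)
    {q : ℕ} (hq : q.Prime) (hqM : q ∣ M) {c : ℂ}
    (h : CuspForm.heckeULin 2 hqM g = c • g) : qCoeff ⇑g q = c := by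
  have h1 := Fermat.Agent.S49.qCoeff_heckeULin hq hqM g 1
  rw [h, Fermat.Agent.S49.qCoeff_smul, hg.qCoeff_one, mul_one, one_mul] at h1
  exact h1.symm

end Fermat.Agent.ES.LR.EigenformOfCommon23
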