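import Mathlib

/-!
# The Manin pairing is formally non-degenerate (S41, chapter (I2), step (D1)/(P1))

See `I2_P3_NOTE17.md`.  `V` finite-dimensional over ANY field `k`, `B` a non-degenerate symmetric
bilinear form, `S`, `U` ANY two isometries (no relation, no hypothesis on the characteristic):

* `Datum.symb = (V^S + V^U)^⊥` (the symbols); every symbol is `x - S x = y - U y`
  (`IsIsom.exists_sub_eq`: `im (1 - g) = (V^g)^⊥` for an isometry `g`);
* `Datum.maninForm P P' = B P' x - B P' y` (`maninForm_apply_eq`, independent of the choices),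
  **skew** (`maninForm_skew`, from `IsIsom.key`), with **radical the boundary symbols**
  `{z - S z | S z = U z}` (`maninForm_eq_zero_iff`, `bdry`, `mem_bdry_iff_left/right`);
* `Datum.maninQuot` on `symb ⧸ bdry` is separating on both sides
  (`maninQuot_separatingLeft/Right`): the Manin pairing is non-degenerate on symbols modulo boundary
  symbols, in every characteristic (in particular over `𝔽_3` in the presence of elliptic points);
* `maninForm_eq_sixth`: for `S² = 1`, `U³ = 1`, `6 ≠ 0`: `B(P,P') = (1/6) [(P,P') + 2 (P, U P')]`;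
* permutation case: `stdForm`, `permEquiv`, `permDatum k σ υ` on `X → k`, and the orbit-sum
  description `mem_orthogonal_fixed_iff`, `mem_symb_permDatum` (at a fixed point of `σ` a symbol
  vanishes, in every characteristic).
-/

set_option autoImplicit false
set_option linter.unusedSectionVars false

open LinearMap Module

namespace Fermat.Agent.ES.LR.ManinDuality17

variable {k V : Type*} [Field k] [AddCommGroup V] [Module k V]

/-- `g` is an isometry of the bilinear form `B`. -/
def IsIsom (B : LinearMap.BilinForm k V) (g : V ≃ₗ[k] V) : Prop := ∀ x y, B (g x) (g y) = B x y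

/-- The fixed space of `g`. -/
def fixed (g : V ≃ₗ[k] V) : Submodule k V := LinearMap.ker ((g : V →ₗ[k] V) - LinearMap.id)

theorem mem_fixed {g : V ≃ₗ[k] V} {v : V} : v ∈ fixed g ↔ g v = v := by
  unfold fixed
  rw [LinearMap.mem_ker, LinearMap.sub_apply, LinearMap.id_apply, LinearEquiv.coe_coe, sub_eq_zero]

variable (B : LinearMap.BilinForm k V)

theorem IsIsom.apply_symm {g : V ≃ₗ[k] V} (hg : IsIsom B g) (x y : V) :
    B (g x) y = B x (g.symm y) := by
  have := hg x (g.symm y)
  rwa [LinearEquiv.apply_symm_apply] at this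

/-- (ii) of the note: for an isometry `g` of a symmetric form,
`(x - gx, x' - gx') = (x' - gx', x) + (x - gx, x')`. -/
theorem IsIsom.key (hs : B.IsSymm) {g : V ≃ₗ[k] V} (hg : IsIsom B g) (x x' : V) :
    B (x - g x) (x' - g x') = B (x' - g x') x + B (x - g x) x' := by
  have h1 : B (g x') x = B x (g x') := hs.eq (g x') x
  have h2 : B x' x = B x x' := hs.eq x' x
  simp only [map_sub, LinearMap.sub_apply, hg x x', h1, h2]
  ring

section fd

variable [FiniteDimensional k V]

/-- (i) of the note: for an isometry `g` of a non-degenerate symmetric form, `im (1 - g) = (V^g)^⊥`. -/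
theorem IsIsom.exists_sub_eq (hB : B.Nondegenerate) (hs : B.IsSymm) {g : V ≃ₗ[k] V}
    (hg : IsIsom B g) {P : V} (hP : P ∈ B.orthogonal (fixed g)) : ∃ x, x - g x = P := by
  set N : Submodule k V := LinearMap.range (LinearMap.id - (g : V →ₗ[k] V)) with hN
  have h1 : B.orthogonal N ≤ fixed g := by
    intro v hv
    rw [LinearMap.BilinForm.mem_orthogonal_iff] at hv
    rw [mem_fixed]
    have h2 : ∀ x, B x (v - g.symm v) = 0 := by
      intro x
      have h3 := hv (x - g x) ⟨x, by simp⟩
      rw [map_sub, LinearMap.sub_apply, hg.apply_symm] at h3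
      rw [map_sub, h3]
    have h4 : v - g.symm v = 0 := by
      have := hB.2 (v - g.symm v) h2
      exact this
    have h5 : g.symm v = v := (sub_eq_zero.mp h4).symm
    rw [← h5, LinearEquiv.apply_symm_apply, h5]
  have h6 : P ∈ B.orthogonal (B.orthogonal N) := LinearMap.BilinForm.orthogonal_le (B := B) h1 hP
  rw [LinearMap.BilinForm.orthogonal_orthogonal hB hs.isRefl] at h6
  obtain ⟨x, hx⟩ := h6
  exact ⟨x, by simpa using hx⟩

end fd

/-- A non-degenerate symmetric bilinear form with two isometries `S`, `U`. -/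
structure Datum (k V : Type*) [Field k] [AddCommGroup V] [Module k V] where
  B : LinearMap.BilinForm k V
  nondeg : B.Nondegenerate
  symm : B.IsSymm
  S : V ≃ₗ[k] V
  U : V ≃ₗ[k] V
  hS : IsIsom B S
  hU : IsIsom B U

namespace Datum

variable {k V : Type*} [Field k] [AddCommGroup V] [Module k V] (D : Datum k V)

/-- The symbols: vectors orthogonal to the `S`-invariants and to the `U`-invariants. -/
def symb : Submodule k V := D.B.orthogonal (fixed D.S ⊔ fixed D.U)

theorem mem_symb {P : V} :
    P ∈ D.symb ↔ P ∈ D.B.orthogonal (fixed D.S) ∧ P ∈ D.B.orthogonal (fixed D.U) := by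
  unfold symb
  simp only [LinearMap.BilinForm.mem_orthogonal_iff]
  constructor
  · intro h
    exact ⟨fun n hn => h n (Submodule.mem_sup_left hn), fun n hn => h n (Submodule.mem_sup_right hn)⟩
  · rintro ⟨h1, h2⟩ n hn
    obtain ⟨a, ha, b, hb, rfl⟩ := Submodule.mem_sup.mp hn
    rw [map_add, LinearMap.add_apply, h1 a ha, h2 b hb, add_zero]

theorem symb_apply_fixedS {P : V} (hP : P ∈ D.symb) {v : V} (hv : D.S v = v) : D.B P v = 0 := by
  rw [D.symm.eq]
  exact (D.mem_symb.mp hP).1 v (mem_fixed.mpr hv)

theorem symb_apply_fixedU {P : V} (hP : P ∈ D.symb) {v : V} (hv : D.U v = v) : D.B P v = 0 := by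
  rw [D.symm.eq]
  exact (D.mem_symb.mp hP).2 v (mem_fixed.mpr hv)

/-- independence of the choice of `x` with `x - Sx = P`. -/
theorem apply_eq_of_sub_S {P' : V} (hP' : P' ∈ D.symb) {x x₁ : V}
    (h : x - D.S x = x₁ - D.S x₁) : D.B P' x = D.B P' x₁ := by
  have hfix : D.S (x - x₁) = x - x₁ := by
    rw [map_sub]
    have : x - x₁ = D.S x - D.S x₁ := by
      have := sub_eq_sub_iff_sub_eq_sub.mp h
      exact this
    exact this.symm
  have := D.symb_apply_fixedS hP' hfix
  rw [map_sub, sub_eq_zero] at this
  exact this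

theorem apply_eq_of_sub_U {P' : V} (hP' : P' ∈ D.symb) {y y₁ : V}
    (h : y - D.U y = y₁ - D.U y₁) : D.B P' y = D.B P' y₁ := by
  have hfix : D.U (y - y₁) = y - y₁ := by
    rw [map_sub]
    have : y - y₁ = D.U y - D.U y₁ := sub_eq_sub_iff_sub_eq_sub.mp h
    exact this.symm
  have := D.symb_apply_fixedU hP' hfix
  rw [map_sub, sub_eq_zero] at this
  exact this

variable [FiniteDimensional k V]

theorem exists_S {P : V} (hP : P ∈ D.symb) : ∃ x, x - D.S x = P :=
  D.hS.exists_sub_eq D.B D.nondeg D.symm (D.mem_symb.mp hP).1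

theorem exists_U {P : V} (hP : P ∈ D.symb) : ∃ y, y - D.U y = P :=
  D.hU.exists_sub_eq D.B D.nondeg D.symm (D.mem_symb.mp hP).2

/-- a chosen `x` with `x - Sx = P`. -/
noncomputable def xS (P : D.symb) : V := (D.exists_S P.2).choose

theorem xS_spec (P : D.symb) : D.xS P - D.S (D.xS P) = P := (D.exists_S P.2).choose_spec

/-- a chosen `y` with `y - Uy = P`. -/
noncomputable def yU (P : D.symb) : V := (D.exists_U P.2).choose

theorem yU_spec (P : D.symb) : D.yU P - D.U (D.yU P) = P := (D.exists_U P.2).choose_spec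

/-- the value `(P', x - y)`. -/
noncomputable def val (P P' : D.symb) : k := D.B P' (D.xS P) - D.B P' (D.yU P)

/-- **the value does not depend on the choices**. -/
theorem val_eq (P P' : D.symb) {x y : V} (hx : x - D.S x = P) (hy : y - D.U y = P) :
    D.val P P' = D.B P' x - D.B P' y := by
  unfold val
  rw [D.apply_eq_of_sub_S P'.2 ((D.xS_spec P).trans hx.symm),
    D.apply_eq_of_sub_U P'.2 ((D.yU_spec P).trans hy.symm)]

/-- **The Manin form** `B(P, P') = (P', x - y)`, `P = x - Sx = y - Uy`. -/
noncomputable def maninForm : D.symb →ₗ[k] D.symb →ₗ[k] k :=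
  LinearMap.mk₂ k D.val
    (fun P₁ P₂ P' => by
      rw [D.val_eq (P₁ + P₂) P' (x := D.xS P₁ + D.xS P₂) (y := D.yU P₁ + D.yU P₂)
        (by rw [map_add, Submodule.coe_add, ← D.xS_spec P₁, ← D.xS_spec P₂]; abel)
        (by rw [map_add, Submodule.coe_add, ← D.yU_spec P₁, ← D.yU_spec P₂]; abel)]
      unfold val
      simp only [map_add]
      ring)
    (fun c P P' => by
      rw [D.val_eq (c • P) P' (x := c • D.xS P) (y := c • D.yU P)
        (by rw [map_smul, Submodule.coe_smul, ← smul_sub, D.xS_spec])
        (by rw [map_smul, Submodule.coe_smul, ← smul_sub, D.yU_spec])]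
      unfold val
      simp only [map_smul, smul_eq_mul]
      ring)
    (fun P P₁ P₂ => by
      unfold val
      simp only [Submodule.coe_add, map_add, LinearMap.add_apply]
      ring)
    (fun c P P' => by
      unfold val
      simp only [Submodule.coe_smul, map_smul, LinearMap.smul_apply, smul_eq_mul]
      ring)

theorem maninForm_apply_eq (P P' : D.symb) {x y : V} (hx : x - D.S x = P) (hy : y - D.U y = P) :
    D.maninForm P P' = D.B P' x - D.B P' y :=
  D.val_eq P P' hx hy

/-- **The Manin form is skew-symmetric** (no denominators, any characteristic). -/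
theorem maninForm_skew (P P' : D.symb) : D.maninForm P P' = - D.maninForm P' P := by
  rw [D.maninForm_apply_eq P P' (D.xS_spec P) (D.yU_spec P),
    D.maninForm_apply_eq P' P (D.xS_spec P') (D.yU_spec P')]
  have h1 := D.hS.key D.B D.symm (D.xS P) (D.xS P')
  have h2 := D.hU.key D.B D.symm (D.yU P) (D.yU P')
  rw [D.xS_spec, D.xS_spec] at h1
  rw [D.yU_spec, D.yU_spec] at h2
  linear_combination h2 - h1

theorem maninForm_self (h2 : (2 : k) ≠ 0) (P : D.symb) : D.maninForm P P = 0 := by
  have h := D.maninForm_skew P P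
  have h' : (2 : k) * D.maninForm P P = 0 := by linear_combination h
  exact (mul_eq_zero.mp h').resolve_left h2

/-- **The radical of the Manin form is the space of boundary symbols** `z - Sz`, `Sz = Uz`. -/
theorem maninForm_eq_zero_iff (P : D.symb) :
    (∀ P' : D.symb, D.maninForm P P' = 0) ↔ ∃ z : V, D.S z = D.U z ∧ (P : V) = z - D.S z := by
  constructor
  · intro h
    have h1 : D.xS P - D.yU P ∈ D.B.orthogonal D.symb := by
      rw [LinearMap.BilinForm.mem_orthogonal_iff]
      intro P' hP'
      have := h ⟨P', hP'⟩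
      rw [D.maninForm_apply_eq P ⟨P', hP'⟩ (D.xS_spec P) (D.yU_spec P)] at this
      rw [map_sub]
      exact this
    unfold symb at h1
    rw [LinearMap.BilinForm.orthogonal_orthogonal D.nondeg D.symm.isRefl] at h1
    obtain ⟨s, hs, u, hu, hsu⟩ := Submodule.mem_sup.mp h1
    rw [mem_fixed] at hs hu
    refine ⟨D.xS P - s, ?_, ?_⟩
    · have e1 : D.xS P - s = D.yU P + u := by
        rw [← sub_eq_zero]
        have : D.xS P - s - (D.yU P + u) = D.xS P - D.yU P - (s + u) := by abel
        rw [this, hsu, sub_self]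
      have e2 : (D.xS P - s) - D.S (D.xS P - s) = P := by
        rw [map_sub, hs, ← D.xS_spec P]; abel
      have e3 : (D.yU P + u) - D.U (D.yU P + u) = P := by
        rw [map_add, hu, ← D.yU_spec P]; abel
      rw [← e1] at e3
      have e4 := e2.trans e3.symm
      exact (sub_right_inj.mp e4)
    · rw [map_sub, hs, ← D.xS_spec P]; abel
  · rintro ⟨z, hz, hP⟩ P'
    rw [D.maninForm_apply_eq P P' (x := z) (y := z) hP.symm (by rw [← hz]; exact hP.symm), sub_self]

end Datum

namespace Datum

variable {k V : Type*} [Field k] [AddCommGroup V] [Module k V] (D : Datum k V)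
  [FiniteDimensional k V]

/-- The boundary symbols `z - Sz`, `Sz = Uz`, as a subspace of the symbols. -/
def bdry : Submodule k D.symb where
  carrier := {P | ∃ z : V, D.S z = D.U z ∧ (P : V) = z - D.S z}
  zero_mem' := ⟨0, by simp, by simp⟩
  add_mem' := by
    rintro P P' ⟨z, hz, hP⟩ ⟨z', hz', hP'⟩
    refine ⟨z + z', by rw [map_add, map_add, hz, hz'], ?_⟩
    rw [Submodule.coe_add, hP, hP', map_add]; abel
  smul_mem' := by
    rintro c P ⟨z, hz, hP⟩
    refine ⟨c • z, by rw [map_smul, map_smul, hz], ?_⟩
    rw [Submodule.coe_smul, hP, map_smul, smul_sub]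

theorem mem_bdry {P : D.symb} : P ∈ D.bdry ↔ ∃ z : V, D.S z = D.U z ∧ (P : V) = z - D.S z :=
  Iff.rfl

/-- the radical (left and right) of the Manin form is `bdry`. -/
theorem mem_bdry_iff_left (P : D.symb) : P ∈ D.bdry ↔ ∀ P' : D.symb, D.maninForm P P' = 0 :=
  (D.maninForm_eq_zero_iff P).symm

theorem mem_bdry_iff_right (P : D.symb) : P ∈ D.bdry ↔ ∀ P' : D.symb, D.maninForm P' P = 0 := by
  rw [mem_bdry_iff_left]
  constructor
  · intro h P'
    rw [maninForm_skew, h P', neg_zero]
  · intro h P'
    rw [maninForm_skew, h P', neg_zero]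

/-- The Manin form on `symb ⧸ bdry`. -/
noncomputable def maninQuot : (D.symb ⧸ D.bdry) →ₗ[k] (D.symb ⧸ D.bdry) →ₗ[k] k :=
  D.bdry.liftQ
    ((LinearMap.flip
      (D.bdry.liftQ (LinearMap.flip D.maninForm) (by
        intro P hP
        rw [LinearMap.mem_ker]
        refine LinearMap.ext fun P' => ?_
        rw [LinearMap.flip_apply, LinearMap.zero_apply]
        exact (D.mem_bdry_iff_right P).mp hP P'))))
    (by
      intro P hP
      rw [LinearMap.mem_ker]
      refine LinearMap.ext fun Q => ?_
      obtain ⟨P', rfl⟩ := D.bdry.mkQ_surjective Q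
      rw [LinearMap.flip_apply, LinearMap.zero_apply, Submodule.mkQ_apply, Submodule.liftQ_apply,
        LinearMap.flip_apply]
      exact (D.mem_bdry_iff_left P).mp hP P')

theorem maninQuot_mk (P P' : D.symb) :
    D.maninQuot (Submodule.Quotient.mk P) (Submodule.Quotient.mk P') = D.maninForm P P' := by
  unfold maninQuot
  rw [Submodule.liftQ_apply, LinearMap.flip_apply, Submodule.liftQ_apply, LinearMap.flip_apply]

theorem maninQuot_skew (a b : D.symb ⧸ D.bdry) : D.maninQuot a b = - D.maninQuot b a := by
  obtain ⟨P, rfl⟩ := D.bdry.mkQ_surjective a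
  obtain ⟨P', rfl⟩ := D.bdry.mkQ_surjective b
  simp only [Submodule.mkQ_apply, maninQuot_mk]
  exact D.maninForm_skew P P'

/-- **The Manin form is non-degenerate on symbols modulo boundary symbols.** -/
theorem maninQuot_eq_zero_left {a : D.symb ⧸ D.bdry} (h : ∀ b, D.maninQuot a b = 0) : a = 0 := by
  obtain ⟨P, rfl⟩ := D.bdry.mkQ_surjective a
  rw [Submodule.mkQ_apply, Submodule.Quotient.mk_eq_zero, mem_bdry_iff_left]
  intro P'
  have := h (Submodule.Quotient.mk P')
  rwa [Submodule.mkQ_apply, maninQuot_mk] at this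

theorem maninQuot_eq_zero_right {b : D.symb ⧸ D.bdry} (h : ∀ a, D.maninQuot a b = 0) : b = 0 := by
  apply D.maninQuot_eq_zero_left
  intro a
  rw [maninQuot_skew, h a, neg_zero]

theorem maninQuot_separatingLeft : D.maninQuot.SeparatingLeft := fun _ h =>
  D.maninQuot_eq_zero_left h

theorem maninQuot_separatingRight : D.maninQuot.SeparatingRight := fun _ h =>
  D.maninQuot_eq_zero_right h

end Datum

section perm

open Classical

variable (k : Type*) [Field k] {X : Type*} [Fintype X]

/-- The standard symmetric form on `X → k`. -/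
def stdForm : LinearMap.BilinForm k (X → k) :=
  LinearMap.mk₂ k (fun v w => ∑ x, v x * w x)
    (fun v v' w => by simp only [Pi.add_apply, add_mul, Finset.sum_add_distrib])
    (fun c v w => by simp only [Pi.smul_apply, smul_eq_mul, mul_assoc, Finset.mul_sum])
    (fun v w w' => by simp only [Pi.add_apply, mul_add, Finset.sum_add_distrib])
    (fun c v w => by
      simp only [Pi.smul_apply, smul_eq_mul, Finset.mul_sum]
      exact Finset.sum_congr rfl fun x _ => by ring)

theorem stdForm_apply (v w : X → k) : stdForm k v w = ∑ x, v x * w x := rfl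

theorem stdForm_isSymm : (stdForm k (X := X)).IsSymm :=
  ⟨fun v w => by
    simp only [stdForm_apply]
    exact Finset.sum_congr rfl fun x _ => mul_comm _ _⟩

theorem stdForm_single_left (x : X) (w : X → k) : stdForm k (Pi.single x 1) w = w x := by
  rw [stdForm_apply, Finset.sum_eq_single x]
  · simp
  · intro y _ hy
    rw [Pi.single_eq_of_ne hy, zero_mul]
  · intro h
    exact absurd (Finset.mem_univ x) h

theorem stdForm_nondegenerate : (stdForm k (X := X)).Nondegenerate := by
  refine ⟨fun v hv => ?_, fun w hw => ?_⟩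
  · funext x
    have := hv (Pi.single x 1)
    rw [(stdForm_isSymm k).eq, stdForm_single_left] at this
    exact this
  · funext x
    have := hw (Pi.single x 1)
    rw [stdForm_single_left] at this
    exact this

/-- The isometry of `X → k` attached to a permutation: `(permEquiv σ v) x = v (σ x)`. -/
def permEquiv (σ : Equiv.Perm X) : (X → k) ≃ₗ[k] (X → k) := LinearEquiv.funCongrLeft k k σ

@[simp] theorem permEquiv_apply (σ : Equiv.Perm X) (v : X → k) (x : X) :
    permEquiv k σ v x = v (σ x) := rfl

theorem permEquiv_isIsom (σ : Equiv.Perm X) : IsIsom (stdForm k) (permEquiv k σ) := by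
  intro v w
  simp only [stdForm_apply, permEquiv_apply]
  exact Equiv.sum_comp σ fun x => v x * w x

/-- The datum of two permutations `σ` (for `S`) and `υ` (for `U`). -/
def permDatum (σ υ : Equiv.Perm X) : Datum k (X → k) where
  B := stdForm k
  nondeg := stdForm_nondegenerate k
  symm := stdForm_isSymm k
  S := permEquiv k σ
  U := permEquiv k υ
  hS := permEquiv_isIsom k σ
  hU := permEquiv_isIsom k υ

theorem mem_fixed_permEquiv {σ : Equiv.Perm X} {f : X → k} :
    f ∈ fixed (permEquiv k σ) ↔ ∀ x, f (σ x) = f x := by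
  rw [mem_fixed]
  constructor
  · intro h x
    exact congrFun h x
  · intro h
    funext x
    exact h x

theorem apply_eq_of_sameCycle {σ : Equiv.Perm X} {f : X → k} (hf : ∀ x, f (σ x) = f x) {x y : X}
    (h : σ.SameCycle x y) : f x = f y := by
  obtain ⟨i, rfl⟩ := h
  have hpow : ∀ n : ℕ, ∀ z, f ((σ ^ n) z) = f z := by
    intro n
    induction n with
    | zero => intro z; simp
    | succ n ih =>
      intro z
      rw [pow_succ', Equiv.Perm.mul_apply, hf, ih]
  cases i with
  | ofNat n => exact (hpow n x).symm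
  | negSucc n =>
    have h1 := hpow (n + 1) ((σ ^ (Int.negSucc n)) x)
    rw [zpow_negSucc] at h1 ⊢
    rw [← Equiv.Perm.mul_apply, mul_inv_cancel, Equiv.Perm.one_apply] at h1
    exact h1

/-- **Orbit-sum description**: `P ⊥ (X → k)^σ` iff the sum of `P` over every cycle of `σ` vanishes
(at a fixed point of `σ` this says `P x = 0`, in every characteristic). -/
theorem mem_orthogonal_fixed_iff (σ : Equiv.Perm X) (P : X → k) :
    P ∈ (stdForm k).orthogonal (fixed (permEquiv k σ)) ↔
      ∀ x, ∑ y with σ.SameCycle x y, P y = 0 := by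
  rw [LinearMap.BilinForm.mem_orthogonal_iff]
  constructor
  · intro h x
    have hinv : (fun y => if σ.SameCycle x y then (1 : k) else 0) ∈ fixed (permEquiv k σ) := by
      rw [mem_fixed_permEquiv]
      intro y
      simp only [Equiv.Perm.sameCycle_apply_right]
    have := h _ hinv
    rw [stdForm_apply] at this
    rw [Finset.sum_filter]
    have e : ∑ y, (if σ.SameCycle x y then P y else 0)
        = ∑ y, (if σ.SameCycle x y then (1 : k) else 0) * P y :=
      Finset.sum_congr rfl fun y _ => by split_ifs <;> simp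
    rw [e]
    exact this
  · intro h f hf
    rw [mem_fixed_permEquiv] at hf
    rw [stdForm_apply]
    refine Finset.sum_cancels_of_partition_cancels (Equiv.Perm.SameCycle.setoid σ) ?_
    intro x _
    have h1 : ∀ a ∈ Finset.univ.filter (fun a => (Equiv.Perm.SameCycle.setoid σ).r a x),
        f a * P a = f x * P a := by
      intro a ha
      rw [Finset.mem_filter] at ha
      rw [apply_eq_of_sameCycle k hf ha.2]
    rw [Finset.sum_congr rfl h1, ← Finset.mul_sum]
    have h2 : (Finset.univ.filter fun a => (Equiv.Perm.SameCycle.setoid σ).r a x)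
        = Finset.univ.filter fun a => σ.SameCycle x a := by
      ext a
      simp only [Finset.mem_filter, Finset.mem_univ, true_and]
      exact ⟨fun h => Equiv.Perm.SameCycle.symm h, fun h => Equiv.Perm.SameCycle.symm h⟩
    rw [h2, h x, mul_zero]

/-- The symbols of a permutation datum: all cycle sums of `σ` and of `υ` vanish. -/
theorem mem_symb_permDatum (σ υ : Equiv.Perm X) (P : X → k) :
    P ∈ (permDatum k σ υ).symb ↔
      (∀ x, ∑ y with σ.SameCycle x y, P y = 0) ∧ (∀ x, ∑ y with υ.SameCycle x y, P y = 0) := by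
  rw [Datum.mem_symb]
  exact and_congr (mem_orthogonal_fixed_iff k σ P) (mem_orthogonal_fixed_iff k υ P)

end perm

namespace Datum

variable {k V : Type*} [Field k] [AddCommGroup V] [Module k V] (D : Datum k V)

/-- a vector which is both `g`-fixed and orthogonal to the `g`-fixed vectors vanishes, if the order `n`
of `g` is invertible in `k`. -/
theorem eq_zero_of_fixed_of_orthogonal {g : V ≃ₗ[k] V} (hg : IsIsom D.B g) {n : ℕ}
    (hn : (n : k) ≠ 0) (hgn : ∀ v, (g ^ n) v = v) {v : V} (hv : g v = v)
    (hperp : ∀ w, g w = w → D.B v w = 0) : v = 0 := by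
  apply D.nondeg.1
  intro w
  -- average of `w`
  have hpow : ∀ i : ℕ, D.B v ((g ^ i) w) = D.B v w := by
    intro i
    induction i with
    | zero => simp
    | succ i ih =>
      rw [pow_succ', LinearEquiv.mul_apply, ← hv, hg, hv, ih]
  set a : V := ∑ i ∈ Finset.range n, (g ^ i) w with ha
  have hfix : g a = a := by
    rw [ha, map_sum]
    have h1 : ∀ i ∈ Finset.range n, g ((g ^ i) w) = (g ^ (i + 1)) w := fun i _ => by
      rw [pow_succ', LinearEquiv.mul_apply]
    rw [Finset.sum_congr rfl h1]
    have e1 := Finset.sum_range_succ' (fun i => (g ^ i) w) n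
    have e2 := Finset.sum_range_succ (fun i => (g ^ i) w) n
    rw [e2] at e1
    simp only [pow_zero, LinearEquiv.coe_one, id_eq, hgn w] at e1
    exact (add_right_cancel e1).symm
  have h2 := hperp a hfix
  rw [ha, map_sum, Finset.sum_congr rfl (fun i _ => hpow i), Finset.sum_const, Finset.card_range,
    nsmul_eq_mul] at h2
  exact (mul_eq_zero.mp h2).resolve_left hn

/-- In characteristic `≠ 2`, a symbol is anti-invariant under an involution `S`. -/
theorem S_symb (h2 : (2 : k) ≠ 0) (hS2 : ∀ v, D.S (D.S v) = v) {P : V} (hP : P ∈ D.symb) :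
    D.S P = -P := by
  have hfix : D.S (P + D.S P) = P + D.S P := by rw [map_add, hS2]; abel
  have h0 : P + D.S P = 0 := by
    refine D.eq_zero_of_fixed_of_orthogonal D.hS (n := 2) (by exact_mod_cast h2) ?_ hfix ?_
    · intro v
      rw [pow_two, LinearEquiv.mul_apply, hS2]
    · intro w hw
      rw [map_add, LinearMap.add_apply, D.symb_apply_fixedS hP hw, zero_add,
        D.hS.apply_symm]
      have : D.S.symm w = w := by
        rw [LinearEquiv.symm_apply_eq, hw]
      rw [this, D.symb_apply_fixedS hP hw]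
  exact (eq_neg_of_add_eq_zero_right h0)

/-- In characteristic `≠ 3`, a symbol is killed by `1 + U + U²` for `U` of order 3. -/
theorem U_symb (h3 : (3 : k) ≠ 0) (hU3 : ∀ v, D.U (D.U (D.U v)) = v) {P : V} (hP : P ∈ D.symb) :
    P + D.U P + D.U (D.U P) = 0 := by
  have hfix : D.U (P + D.U P + D.U (D.U P)) = P + D.U P + D.U (D.U P) := by
    rw [map_add, map_add, hU3]; abel
  refine D.eq_zero_of_fixed_of_orthogonal D.hU (n := 3) (by exact_mod_cast h3) ?_ hfix ?_
  · intro v
    rw [pow_succ, pow_two, LinearEquiv.mul_apply, LinearEquiv.mul_apply, hU3]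
  · intro w hw
    have hsymm : D.U.symm w = w := by rw [LinearEquiv.symm_apply_eq, hw]
    rw [map_add, map_add, LinearMap.add_apply, LinearMap.add_apply, D.symb_apply_fixedU hP hw,
      D.hU.apply_symm, hsymm, D.symb_apply_fixedU hP hw, D.hU.apply_symm, hsymm, D.hU.apply_symm,
      hsymm, D.symb_apply_fixedU hP hw]
    ring

variable [FiniteDimensional k V]

/-- **Closed formula** when `S² = 1`, `U³ = 1` and `6` is invertible:
`B(P, P') = (1/6) [(P, P') + 2 (P, U P')]`. -/
theorem maninForm_eq_sixth (h2 : (2 : k) ≠ 0) (h3 : (3 : k) ≠ 0)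
    (hS2 : ∀ v, D.S (D.S v) = v) (hU3 : ∀ v, D.U (D.U (D.U v)) = v) (P P' : D.symb) :
    D.maninForm P P' = (6 : k)⁻¹ * (D.B P P' + 2 * D.B P (D.U P')) := by
  have hSP := D.S_symb h2 hS2 P.2
  have hUP := D.U_symb h3 hU3 P.2
  have hx : ((2 : k)⁻¹ • (P : V)) - D.S ((2 : k)⁻¹ • (P : V)) = P := by
    rw [map_smul, hSP, smul_neg, sub_neg_eq_add, ← add_smul, ← two_mul, mul_inv_cancel₀ h2,
      one_smul]
  have hy : ((3 : k)⁻¹ • ((P : V) - D.U (D.U P))) - D.U ((3 : k)⁻¹ • ((P : V) - D.U (D.U P))) = P := by
    rw [map_smul, ← smul_sub, map_sub, hU3]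
    have h4 : (P : V) - D.U (D.U P) - (D.U P - P) = (3 : k) • (P : V) := by
      have h5 : D.U (D.U (P : V)) = -(P : V) - D.U P := by
        rw [eq_sub_iff_add_eq, eq_neg_iff_add_eq_zero]
        rw [← hUP]; abel
      rw [h5]
      have : (3 : k) • (P : V) = (P : V) + P + P := by
        rw [show (3 : k) = 1 + 1 + 1 by norm_num, add_smul, add_smul, one_smul]
      rw [this]; abel
    rw [h4, smul_smul, inv_mul_cancel₀ h3, one_smul]
  rw [D.maninForm_apply_eq P P' hx hy]
  have e1 : D.B P' (D.U (D.U P)) = D.B P (D.U P') := by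
    rw [D.symm.eq, D.hU.apply_symm, D.hU.apply_symm]
    congr 1
    rw [LinearEquiv.symm_apply_eq, LinearEquiv.symm_apply_eq, hU3]
  have e2 : D.B P' P = D.B P P' := D.symm.eq _ _
  have h6 : (6 : k) ≠ 0 := by
    have : (6 : k) = 2 * 3 := by norm_num
    rw [this]
    exact mul_ne_zero h2 h3
  simp only [map_smul, map_sub, smul_eq_mul, e1, e2]
  field_simp
  ring

end Datum

end Fermat.Agent.ES.LR.ManinDuality17
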