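/-
Program L (S41), CORE, support hypothesis `hD` from the occurrence `hocc` (helper8).

`hocc` gives a field `k` of characteristic `p` and a nonzero `v ∈ k ⊗ Y` with `T_i v = a_i v`
and `T_q² v = (q+1)² v`.  After replacing `v` by `(T_q - (q+1)) v` if this is nonzero, `v` is an
eigenvector of `T_q` with eigenvalue `ε (q+1)`, `ε = ±1`; by dual occurrence (`DualOcc8`) there is
an eigen-FUNCTIONAL `ψ₀` with the same eigenvalues, and `Ψ (y1, y2) := ψ₀ y1 - ε ψ₀ y2` kills the
image of `α'α = [[q+1, T_q], [T_q, q+1]]` while every polynomial `s` in the `T_i` acts on `Ψ`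
through `eval a s mod p`.  Hence `s (Y × Y) ⊆ α'α (Y × Y)` forces `p ∣ eval a s`.
-/
import Mathlib
import Fermat.Agent.ES.LR.DualOcc8
import Fermat.Agent.ES.LR.AevalComm4

set_option autoImplicit false

open scoped TensorProduct

namespace Fermat.Agent.ES.LR.SuppOcc8

open Fermat.Agent.ES.LR.AevalComm4

section Functional

variable {k : Type*} [Field k] {Y : Type*} [AddCommGroup Y] {ι : Type*}

/-- An eigenfunctional of the base-changed family is an eigenfunctional of every polynomial. -/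
theorem functional_aevalComm (TY : ι → Module.End ℤ Y) (hTY : ∀ i j, Commute (TY i) (TY j))
    (a : ι → ℤ) (ψ : k ⊗[ℤ] Y →ₗ[k] k)
    (hψ : ∀ i w, ψ ((TY i).baseChange k w) = ((a i : ℤ) : k) * ψ w) (s : MvPolynomial ι ℤ)
    (w : k ⊗[ℤ] Y) :
    ψ ((aevalComm (O := ℤ) TY hTY s).baseChange k w) = ((MvPolynomial.eval a s : ℤ) : k) * ψ w := by
  induction s using MvPolynomial.induction_on generalizing w with
  | C c =>
    rw [aevalComm_C, MvPolynomial.eval_C, Algebra.algebraMap_eq_smul_one,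
      LinearMap.baseChange_smul, LinearMap.smul_apply, Module.End.one_eq_id,
      LinearMap.baseChange_id, LinearMap.id_apply, map_zsmul, zsmul_eq_mul]
  | add s t hs ht =>
    rw [map_add, LinearMap.baseChange_add, LinearMap.add_apply, map_add, hs, ht, map_add,
      Int.cast_add, add_mul]
  | mul_X s i hs =>
    rw [map_mul, aevalComm_X, LinearMap.baseChange_mul, Module.End.mul_apply, hs, hψ, map_mul,
      MvPolynomial.eval_X, Int.cast_mul, mul_assoc]

end Functional

/-- **`hD` from `hocc`.**  In coordinates on `Y × Y`: if `s` maps `Y × Y` into the image of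
`α'α`, then `p ∣ eval a s`. -/
theorem dvd_eval_of_forall_exists {p q : ℕ}
    {Y X : Type} [AddCommGroup Y] [Module.Free ℤ Y] [Module.Finite ℤ Y] [AddCommGroup X]
    {ι : Type} (TY : ι → Module.End ℤ Y) (a : ι → ℤ)
    (hTY : ∀ i j, Commute (TY i) (TY j))
    (Tq : Module.End ℤ Y) (hTq : ∀ i, Commute Tq (TY i))
    (i1 i2 : Y →ₗ[ℤ] X) (t1 t2 : X →ₗ[ℤ] Y)
    (h11 : ∀ y, t1 (i1 y) = ((q : ℤ) + 1) • y) (h22 : ∀ y, t2 (i2 y) = ((q : ℤ) + 1) • y)
    (h12 : ∀ y, t1 (i2 y) = Tq y) (h21 : ∀ y, t2 (i1 y) = Tq y)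
    (hocc : ∃ (k : Type) (_ : Field k) (_ : CharP k p) (v : TensorProduct ℤ k Y), v ≠ 0 ∧
      (∀ i, (TY i).baseChange k v = ((a i : ℤ) : k) • v) ∧
      (Tq.baseChange k) ((Tq.baseChange k) v) = (((q : k) + 1) ^ 2) • v)
    (s : MvPolynomial ι ℤ)
    (hs : ∀ y1 y2 : Y, ∃ z1 z2 : Y,
      aevalComm (O := ℤ) TY hTY s y1 = t1 (i1 z1 + i2 z2) ∧
      aevalComm (O := ℤ) TY hTY s y2 = t2 (i1 z1 + i2 z2)) :
    (p : ℤ) ∣ MvPolynomial.eval a s := by
  classical
  obtain ⟨k, _, _, v, hv0, hv, hvq⟩ := hocc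
  set c : k := (q : k) + 1 with hc
  set Tqk : Module.End k (k ⊗[ℤ] Y) := Tq.baseChange k with hTqk
  -- the base-changed operators commute
  have hcomm_q : ∀ i, Commute Tqk ((TY i).baseChange k) := by
    intro i
    unfold Commute SemiconjBy
    rw [hTqk, ← LinearMap.baseChange_mul, ← LinearMap.baseChange_mul, (hTq i).eq]
  have hcomm : ∀ i j, Commute ((TY i).baseChange k) ((TY j).baseChange k) := by
    intro i j
    unfold Commute SemiconjBy
    rw [← LinearMap.baseChange_mul, ← LinearMap.baseChange_mul, (hTY i j).eq]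
  -- an eigenvector of `T_q` with eigenvalue `ε c`
  obtain ⟨ε, hε, v', hv'0, hv', hv'q⟩ : ∃ (ε : k), ε * ε = 1 ∧ ∃ v' : k ⊗[ℤ] Y, v' ≠ 0 ∧
      (∀ i, (TY i).baseChange k v' = ((a i : ℤ) : k) • v') ∧ Tqk v' = (ε * c) • v' := by
    by_cases h : Tqk v - c • v = 0
    · exact ⟨1, one_mul 1, v, hv0, hv, by rw [one_mul]; exact sub_eq_zero.mp h⟩
    · refine ⟨-1, by ring, Tqk v - c • v, h, ?_, ?_⟩
      · intro i
        rw [map_sub, map_smul, hv i, ← Module.End.mul_apply, ← (hcomm_q i).eq,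
          Module.End.mul_apply, hv i, map_smul, smul_sub, smul_comm]
      · rw [map_sub, map_smul, hvq, smul_sub, smul_smul, sq]
        have : (-1 * c) • Tqk v = -(c • Tqk v) := by rw [neg_one_mul, neg_smul]
        rw [this]
        have : (-1 * c * c) • v = -((c * c) • v) := by rw [neg_one_mul, neg_mul, neg_smul]
        rw [this]
        abel
  -- dual occurrence
  let T : Option ι → Module.End k (k ⊗[ℤ] Y) := fun o => o.elim Tqk fun i => (TY i).baseChange k
  let lam : Option ι → k := fun o => o.elim (ε * c) fun i => ((a i : ℤ) : k)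
  have hT : ∀ o o', Commute (T o) (T o') := by
    intro o o'
    cases o with
    | none =>
      cases o' with
      | none => exact Commute.refl _
      | some j => exact hcomm_q j
    | some i =>
      cases o' with
      | none => exact (hcomm_q i).symm
      | some j => exact hcomm i j
  have hTv : ∀ o, T o v' = lam o • v' := by
    intro o
    cases o with
    | none => exact hv'q
    | some i => exact hv' i
  obtain ⟨ψ, hψ0, hψ⟩ := DualOcc8.exists_eigenfunctional T hT lam hv'0 hTv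
  have hψq : ∀ w, ψ (Tqk w) = (ε * c) * ψ w := fun w => hψ none w
  have hψi : ∀ i w, ψ ((TY i).baseChange k w) = ((a i : ℤ) : k) * ψ w := fun i w => hψ (some i) w
  -- the functional on `Y`
  let ψY : Y → k := fun y => ψ ((1 : k) ⊗ₜ[ℤ] y)
  have hψY_add : ∀ y y', ψY (y + y') = ψY y + ψY y' := fun y y' => by
    simp only [ψY, TensorProduct.tmul_add, map_add]
  have hψY_zsmul : ∀ (n : ℤ) y, ψY (n • y) = (n : k) * ψY y := fun n y => by
    simp only [ψY, TensorProduct.tmul_smul, map_zsmul, zsmul_eq_mul]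
  have hψY_q : ∀ y, ψY (Tq y) = (ε * c) * ψY y := fun y => by
    have := hψq ((1 : k) ⊗ₜ[ℤ] y)
    rwa [hTqk, LinearMap.baseChange_tmul] at this
  have hψY_s : ∀ y, ψY (aevalComm (O := ℤ) TY hTY s y) =
      ((MvPolynomial.eval a s : ℤ) : k) * ψY y := fun y => by
    have := functional_aevalComm TY hTY a ψ hψi s ((1 : k) ⊗ₜ[ℤ] y)
    rwa [LinearMap.baseChange_tmul] at this
  have hcq : ((((q : ℤ) + 1 : ℤ)) : k) = c := by rw [hc]; push_cast; rfl
  -- suppose `p ∤ eval a s`
  by_contra hnd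
  have hθ : ((MvPolynomial.eval a s : ℤ) : k) ≠ 0 := by
    rw [Ne, CharP.intCast_eq_zero_iff k p]
    exact hnd
  -- then `ψY = 0`
  have hzero : ∀ y, ψY y = 0 := by
    intro y
    obtain ⟨z1, z2, e1, e2⟩ := hs y 0
    rw [map_add, h11, h12] at e1
    rw [map_add, h21, h22, map_zero] at e2
    have f1 := congrArg ψY e1
    have f2 := congrArg ψY e2
    rw [hψY_s, hψY_add, hψY_zsmul, hψY_q, hcq] at f1
    have hz : ψY 0 = 0 := by
      have := hψY_zsmul 0 0
      simpa using this
    rw [hz, hψY_add, hψY_zsmul, hψY_q, hcq] at f2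
    -- f1 : θ ψ(y) = c ψ(z1) + ε c ψ(z2);  f2 : 0 = ε c ψ(z1) + c ψ(z2)
    have key : ((MvPolynomial.eval a s : ℤ) : k) * ψY y = 0 := by
      have h3 : ε * (ε * c * ψY z1 + c * ψY z2) = c * ψY z1 + ε * c * ψY z2 := by
        have : ε * (ε * c * ψY z1 + c * ψY z2) = (ε * ε) * c * ψY z1 + ε * c * ψY z2 := by ring
        rw [this, hε, one_mul]
      rw [f1, ← h3, ← f2, mul_zero]
    exact (mul_eq_zero.mp key).resolve_left hθ
  apply hψ0
  ext y
  simp only [TensorProduct.AlgebraTensorModule.curry_apply, TensorProduct.curry_apply]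
  exact hzero y

end Fermat.Agent.ES.LR.SuppOcc8
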